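import Fermat.Agent.S55.L.C2Arith
import Fermat.Agent.S55.P.Lev
import Fermat.Agent.S55.F.Basic

/-!
# L-C3: the deliverables of block L in CORE language

For `F` a finite extension of `hens q` inside `ℚ̄`, `D = F.fixingSubgroup ≤ G_ℚ` with the levels
`L.sub D` (`L` any level structure on `G_ℚ` equivalent to the number field levels) and
`muQ p D = 𝔽_p(ω)`, `ω` the restriction of the prelude's `cycloChar p`:

* `finrank_H2_mu`  : `dim H²(D, μ_p) = 1`                                   (L2, L2'')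
* `finrank_H1_mu`  : `dim H¹(D, μ_p) = 2 + [F : hens q] δ_{q = p}` if `μ_p ⊆ F`  (L1)

and the three fields `l1`, `l2`, `l2mu` of `LocSys.CoreNumbers` (`Fc/Inst/Datum.lean`) verbatim for
`L' = P.levAll`, `Dv q = (hens q).fixingSubgroup`, `ω = cycloChar p`.
-/

set_option autoImplicit false

noncomputable section

namespace Fermat.Agent.S55.L

open Fermat.Agent.S55 ExtCitation

variable {q : ℕ} [Fact q.Prime] {p : ℕ} [Fact p.Prime] {L : Lev GQ}

theorem isGalLev_levAll : IsGalLev P.levAll :=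
  ⟨by rintro _ ⟨F, hF, rfl⟩; exact ⟨F, hF, le_rfl⟩, fun K hK => ⟨_, ⟨K, hK, rfl⟩, le_rfl⟩⟩

variable (p) in
/-- `μ_p` as a representation of a subgroup `U ≤ G_ℚ` on `ZMod p` -/
abbrev muQ (U : Subgroup GQ) : Representation (ZMod p) U (ZMod p) :=
  (F.mu (cycloChar p)).comp U.subtype

theorem muQ_eq_trivial {U : Subgroup GQ} (h : U ≤ (cycloChar p).ker) :
    muQ p U = Representation.trivial (ZMod p) U (ZMod p) := by
  ext u
  have h1 : cycloChar p (u : GQ) = 1 := h u.2
  show ((cycloChar p (u : GQ) : (ZMod p)ˣ) : ZMod p) • (1 : ZMod p) = 1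
  rw [h1]
  simp

/-- the Galois action on `p`-th roots of unity -/
theorem c3_apply_of_pow_eq_one (g : GQ) {t : Qbarˣ} (ht : t ^ p = 1) :
    g (t : Qbar) = (t : Qbar) ^ ((cycloChar p g : (ZMod p)ˣ) : ZMod p).val := by
  have : NeZero p := ⟨(Fact.out : p.Prime).ne_zero⟩
  have h1 : t ∈ rootsOfUnity p Qbar := (mem_rootsOfUnity p t).mpr ht
  exact modularCyclotomicCharacter.spec Qbar (card_rootsOfUnity_eq_self p)
    (g : Qbar ≃+* Qbar) h1

variable (p) in
theorem c3_exists_primitiveRoot : ∃ ζ : Qbarˣ, IsPrimitiveRoot ζ p := by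
  have : NeZero p := ⟨(Fact.out : p.Prime).ne_zero⟩
  have : NeZero (p : Qbar) := ⟨Nat.cast_ne_zero.mpr (NeZero.ne p)⟩
  obtain ⟨ζ, hζ⟩ := HasEnoughRootsOfUnity.exists_primitiveRoot Qbar p
  exact ⟨hζ.isUnit (NeZero.ne p) |>.unit, IsPrimitiveRoot.coe_units_iff.mp (by simpa using hζ)⟩

/-- `i ↦ ζ^i` identifies `muQ` with the `p`-torsion of `ℚ̄ˣ` (`ζ` a primitive `p`-th root of unity;
`g ζ = ζ ^ (cycloChar p g).val` is `modularCyclotomicCharacter.spec`-like; `ℚ̄` is algebraically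
closed, so `ℚ̄ˣ` is `p`-divisible). -/
theorem exists_isKummer_muQ (U : Subgroup GQ) :
    ∃ ι : ZMod p →+ Additive Qbarˣ, IsKummer p (rs rhoQ U) (muQ p U) ι := by
  have hp0 : p ≠ 0 := (Fact.out : p.Prime).ne_zero
  have : NeZero p := ⟨hp0⟩
  obtain ⟨ζ, hζ⟩ := c3_exists_primitiveRoot p
  have hζp : (zmultiplesHom (Additive Qbarˣ) (Additive.ofMul ζ)) (p : ℤ) = 0 := by
    rw [zmultiplesHom_apply, natCast_zsmul, ← ofMul_pow, hζ.pow_eq_one, ofMul_one]
  let ι : ZMod p →+ Additive Qbarˣ := ZMod.lift p ⟨_, hζp⟩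
  have hι : ∀ i : ℕ, ι (i : ZMod p) = Additive.ofMul (ζ ^ i) := by
    intro i
    have h1 := ZMod.lift_coe p (⟨_, hζp⟩ : {f : ℤ →+ Additive Qbarˣ // f p = 0}) (i : ℤ)
    rw [Int.cast_natCast] at h1
    show ZMod.lift p ⟨_, hζp⟩ (i : ZMod p) = _
    rw [h1]
    simp
  have hιp : ∀ m : ZMod p, (Additive.toMul (ι m)) ^ p = 1 := by
    intro m
    have h1 : p • ι m = 0 := by
      rw [← map_nsmul, nsmul_eq_mul, ZMod.natCast_self, zero_mul, map_zero]
    exact h1
  refine ⟨ι, ⟨?_, ?_, ?_, ?_⟩⟩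
  · rw [injective_iff_map_eq_zero]
    intro m hm
    rw [← ZMod.natCast_zmod_val m, hι] at hm
    have h1 : ζ ^ m.val = 1 := hm
    rw [hζ.pow_eq_one_iff_dvd] at h1
    rw [← ZMod.natCast_zmod_val m, ZMod.natCast_eq_zero_iff]
    exact h1
  · intro g m
    have h1 : muQ p U g m = (((cycloChar p (g : GQ) : (ZMod p)ˣ) : ZMod p).val : ZMod p) * m := by
      rw [ZMod.natCast_zmod_val]
      rfl
    rw [h1, ← nsmul_eq_mul, map_nsmul]
    apply Additive.toMul.injective
    apply Units.ext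
    have h2 := c3_apply_of_pow_eq_one (p := p) (g : GQ) (hιp m)
    show _ = (g : GQ) ((Additive.toMul (ι m) : Qbarˣ) : Qbar)
    rw [h2]
    rfl
  · intro a
    constructor
    · intro ha
      have h1 : (Additive.toMul a) ^ p = 1 := ha
      obtain ⟨i, -, hi⟩ := hζ.eq_pow_of_mem_rootsOfUnity ((mem_rootsOfUnity p _).mpr h1)
      exact ⟨(i : ZMod p), by rw [hι, hi]; rfl⟩
    · rintro ⟨m, rfl⟩
      exact hιp m
  · intro a
    obtain ⟨z, hz⟩ := IsAlgClosed.exists_pow_nat_eq ((Additive.toMul a : Qbarˣ) : Qbar)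
      (Nat.pos_of_ne_zero hp0)
    have hz0 : z ≠ 0 := by
      intro h
      rw [h, zero_pow hp0] at hz
      exact (Additive.toMul a).ne_zero hz.symm
    refine ⟨Additive.ofMul (Units.mk0 z hz0), ?_⟩
    apply Additive.toMul.injective
    apply Units.ext
    exact hz

theorem card_H2_mu (hL : IsGalLev L) {F : IntermediateField ℚ Qbar} (hF : IsLocalFieldAt q F) :
    Nat.card (H2 (L.sub F.fixingSubgroup) (muQ p F.fixingSubgroup)) = p := by
  obtain ⟨ι, hι⟩ := exists_isKummer_muQ (p := p) F.fixingSubgroup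
  exact card_H2_local hL hF hι

/-- a `ZMod p`-vector space with `p ^ n` elements is finite dimensional -/
theorem finite_of_card {V : Type*} [AddCommGroup V] [Module (ZMod p) V] {n : ℕ}
    (h : Nat.card V = p ^ n) : Module.Finite (ZMod p) V := by
  have : Finite V := Nat.finite_of_card_ne_zero (by
    rw [h]; exact pow_ne_zero _ (Fact.out (p := p.Prime)).ne_zero)
  exact Module.Finite.of_finite

/-- **L2 / L2''** -/
theorem finrank_H2_mu (hL : IsGalLev L) {F : IntermediateField ℚ Qbar} (hF : IsLocalFieldAt q F) :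
    Module.finrank (ZMod p) (H2 (L.sub F.fixingSubgroup) (muQ p F.fixingSubgroup)) = 1 :=
  C0.finrank_eq_of_card (d := 1) (by rw [card_H2_mu hL hF, pow_one])

/-- `μ_p ⊆ F` in terms of the cyclotomic character -/
theorem card_rootsOfUnity_of_cycloChar {F : IntermediateField ℚ Qbar}
    (h : F.fixingSubgroup ≤ (cycloChar p).ker) : Nat.card (rootsOfUnity p F) = p := by
  have hp0 : p ≠ 0 := (Fact.out : p.Prime).ne_zero
  have : NeZero p := ⟨hp0⟩
  have : IsGalois ℚ Qbar := Fermat.Agent.Lib.FrobeniusExists.isGalois_algebraicClosure_rat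
  obtain ⟨ζ, hζ⟩ := c3_exists_primitiveRoot p
  have hmem : (ζ : Qbar) ∈ F := by
    rw [← InfiniteGalois.fixedField_fixingSubgroup F, IntermediateField.mem_fixedField_iff]
    intro g hg
    have h1 : cycloChar p g = 1 := h hg
    rw [c3_apply_of_pow_eq_one (p := p) g hζ.pow_eq_one, h1, Units.val_one]
    have : Fact (1 < p) := ⟨(Fact.out : p.Prime).one_lt⟩
    rw [ZMod.val_one, pow_one]
  have hζ' : IsPrimitiveRoot (ζ : Qbar) p := IsPrimitiveRoot.coe_units_iff.mpr hζ
  have hζF : IsPrimitiveRoot (⟨(ζ : Qbar), hmem⟩ : F) p :=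
    IsPrimitiveRoot.of_map_of_injective (f := algebraMap F Qbar) hζ' (algebraMap F Qbar).injective
  exact hζF.card_rootsOfUnity

/-- `|O_F / p| = p ^ ([F : hens q] δ_{q = p})` (`IsLocalFieldAt.card_quot_q`,
`IsLocalFieldAt.isUnit_natCast`) -/
theorem card_quot_p {F : IntermediateField ℚ Qbar} (hF : IsLocalFieldAt q F) :
    Nat.card (OO q F ⧸ Ideal.span {(p : OO q F)}) = p ^ (if q = p then localDegree q F else 0) := by
  by_cases hqp : q = p
  · rw [if_pos hqp]
    have h1 := hF.card_quot_q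
    rw [← hqp]
    exact h1
  · rw [if_neg hqp, pow_zero]
    have h1 : IsUnit (p : OO q F) := hF.isUnit_natCast (Fact.out : p.Prime) (Ne.symm hqp)
    rw [Ideal.span_singleton_eq_top.mpr h1]
    exact Nat.card_of_subsingleton 0

theorem card_H1_mu (hL : IsGalLev L) {F : IntermediateField ℚ Qbar} (hF : IsLocalFieldAt q F)
    (h : F.fixingSubgroup ≤ (cycloChar p).ker) :
    Nat.card (H1 (L.sub F.fixingSubgroup) (muQ p F.fixingSubgroup)) =
      p ^ (2 + if q = p then localDegree q F else 0) := by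
  obtain ⟨ι, hι⟩ := exists_isKummer_muQ (p := p) F.fixingSubgroup
  have := hF.isHLF
  rw [card_H1_local hL F hι, index_powGroup (OO q F) p, card_rootsOfUnity_of_cycloChar h,
    card_quot_p hF]
  ring

/-- **L1** -/
theorem finrank_H1_mu (hL : IsGalLev L) {F : IntermediateField ℚ Qbar} (hF : IsLocalFieldAt q F)
    (h : F.fixingSubgroup ≤ (cycloChar p).ker) :
    Module.finrank (ZMod p) (H1 (L.sub F.fixingSubgroup) (muQ p F.fixingSubgroup)) =
      2 + if q = p then localDegree q F else 0 :=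
  C0.finrank_eq_of_card (card_H1_mu hL hF h)

/-! ### the fields `l1`, `l2`, `l2mu` of `LocSys.CoreNumbers` -/

theorem coreNumbers_l1 (W : Subgroup GQ) (hW : W ≤ (hens q).fixingSubgroup)
    (ho : ∃ V ∈ P.levAll.sets, V ⊓ (hens q).fixingSubgroup ≤ W) (hω : W ≤ (cycloChar p).ker) :
    Module.Finite (ZMod p) (H1 (P.levAll.sub W) (Representation.trivial (ZMod p) W (ZMod p))) ∧
    Module.finrank (ZMod p) (H1 (P.levAll.sub W) (Representation.trivial (ZMod p) W (ZMod p)))
      = 2 + (if q = p then 1 else 0) * W.relIndex (hens q).fixingSubgroup := by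
  obtain ⟨F, hF, rfl⟩ := memQ_of_relOpen isGalLev_levAll ⟨hens q, isLocalFieldAt_hens q, rfl⟩ hW ho
  rw [← muQ_eq_trivial hω]
  refine ⟨finite_of_card (card_H1_mu isGalLev_levAll hF hω), ?_⟩
  rw [finrank_H1_mu isGalLev_levAll hF hω]
  split_ifs <;> simp [localDegree]

theorem coreNumbers_l2 (W : Subgroup GQ) (hW : W ≤ (hens q).fixingSubgroup)
    (ho : ∃ V ∈ P.levAll.sets, V ⊓ (hens q).fixingSubgroup ≤ W) (hω : W ≤ (cycloChar p).ker) :
    Module.finrank (ZMod p) (H2 (P.levAll.sub W) (Representation.trivial (ZMod p) W (ZMod p)))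
      = 1 := by
  obtain ⟨F, hF, rfl⟩ := memQ_of_relOpen isGalLev_levAll ⟨hens q, isLocalFieldAt_hens q, rfl⟩ hW ho
  rw [← muQ_eq_trivial hω]
  exact finrank_H2_mu isGalLev_levAll hF

theorem coreNumbers_l2mu :
    Nontrivial (H2 (P.levAll.sub (hens q).fixingSubgroup)
      ((F.mu (cycloChar p)).comp (hens q).fixingSubgroup.subtype)) := by
  have h := finrank_H2_mu (p := p) isGalLev_levAll (isLocalFieldAt_hens q)
  exact Module.nontrivial_of_finrank_pos (R := ZMod p) (by rw [h]; exact one_pos)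

end Fermat.Agent.S55.L

end
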