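import Fermat.Agent.S55.L.A2HigherUnits

/-! # L-A6: finite extensions of henselian local fields -/

set_option autoImplicit false

namespace Fermat.Agent.S55.L

open IsLocalRing

variable {F E : Type} [Field F] [Field E] [Algebra F E]
  {O : ValuationSubring F} {OE : ValuationSubring E}

theorem IsHLFExt.algebraMap_mem_iff (h : IsHLFExt O OE) (x : F) :
    algebraMap F E x ∈ OE ↔ x ∈ O := by
  rw [← h.comap_eq, ValuationSubring.mem_comap]

/-- the inclusion `O → O_E`. -/
def IsHLFExt.incl (h : IsHLFExt O OE) : O →+* OE where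
  toFun x := ⟨algebraMap F E x, (h.algebraMap_mem_iff x).mpr x.2⟩
  map_one' := Subtype.ext (by simp)
  map_mul' x y := Subtype.ext (by simp)
  map_zero' := Subtype.ext (by simp)
  map_add' x y := Subtype.ext (by simp)

theorem IsHLFExt.coe_incl (h : IsHLFExt O OE) (x : O) : ((h.incl x : OE) : E) = algebraMap F E x :=
  rfl

/-- an element of `E` integral over `O` lies in `O_E`. -/
theorem IsHLFExt.mem_of_isIntegral (h : IsHLFExt O OE) {y : E} (hy : IsIntegral O y) : y ∈ OE := by
  obtain ⟨P, hP, hy⟩ := hy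
  have h1 : IsIntegral OE y := by
    refine ⟨P.map h.incl, hP.map _, ?_⟩
    rw [Polynomial.eval₂_map]
    exact hy
  obtain ⟨z, hz⟩ := IsIntegrallyClosed.isIntegral_iff.mp h1
  rw [← hz]
  exact z.2

theorem IsHLFExt.mem_iff_isIntegral (h : IsHLFExt O OE) {y : E} : y ∈ OE ↔ IsIntegral O y :=
  ⟨h.isIntegral y, h.mem_of_isIntegral⟩

theorem IsHLFExt.map_mem (h : IsHLFExt O OE) (σ : E ≃ₐ[F] E) {x : E} (hx : x ∈ OE) :
    σ x ∈ OE := by
  apply h.mem_of_isIntegral
  have h1 := h.isIntegral x hx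
  exact h1.map ((σ : E →ₐ[F] E).restrictScalars O)

theorem mem_unitGroup_iff_mem_and_inv_mem {K : Type} [Field K] (A : ValuationSubring K) (x : Kˣ) :
    x ∈ A.unitGroup ↔ (x : K) ∈ A ∧ (x : K)⁻¹ ∈ A := by
  rw [ValuationSubring.mem_unitGroup_iff, ← A.valuation_le_one_iff, ← A.valuation_le_one_iff,
    map_inv₀]
  have h0 : A.valuation (x : K) ≠ 0 := (Valuation.ne_zero_iff _).mpr x.ne_zero
  constructor
  · intro h
    rw [h]; simp
  · rintro ⟨h1, h2⟩
    apply le_antisymm h1
    rwa [inv_le_one₀ (zero_lt_iff.mpr h0)] at h2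

theorem IsHLFExt.map_mem_unitGroup (h : IsHLFExt O OE) (σ : E ≃ₐ[F] E) {x : Eˣ}
    (hx : x ∈ OE.unitGroup) : Units.map (σ : E →* E) x ∈ OE.unitGroup := by
  rw [mem_unitGroup_iff_mem_and_inv_mem] at hx ⊢
  refine ⟨h.map_mem σ hx.1, ?_⟩
  have := h.map_mem σ hx.2
  rwa [map_inv₀] at this

/-- the norm of an element of `O_E` lies in `O`. -/
theorem IsHLFExt.norm_mem (h : IsHLFExt O OE) {x : E} (hx : x ∈ OE) : Algebra.norm F x ∈ O := by
  have h1 : IsIntegral O (Algebra.norm F x) := Algebra.isIntegral_norm F (h.isIntegral x hx)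
  obtain ⟨z, hz⟩ := IsIntegrallyClosed.isIntegral_iff.mp h1
  rw [← hz]
  exact z.2

theorem IsHLFExt.aeval_mem (h : IsHLFExt O OE) {x : E} (hx : x ∈ OE) (q : Polynomial O) :
    Polynomial.aeval x q ∈ OE := by
  have : Polynomial.aeval x q = ((Polynomial.eval₂ h.incl (⟨x, hx⟩ : OE) q : OE) : E) := by
    have := Polynomial.hom_eval₂ q h.incl OE.subtype (⟨x, hx⟩ : OE)
    rw [Polynomial.aeval_def]
    exact this.symm
  rw [this]
  exact Subtype.mem _

theorem IsHLFExt.inv_mem_of_norm (h : IsHLFExt O OE) [FiniteDimensional F E] {x : E} (hx : x ∈ OE)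
    (hx0 : x ≠ 0) (hN : (Algebra.norm F x)⁻¹ ∈ O) : x⁻¹ ∈ OE := by
  have hint : IsIntegral O x := h.isIntegral x hx
  have hintF : IsIntegral F x := hint.tower_top
  set p₀ := minpoly O x with hp₀
  have hmin : minpoly F x = p₀.map (algebraMap O F) :=
    minpoly.isIntegrallyClosed_eq_field_fractions' F hint
  set a₀ : O := p₀.coeff 0 with ha₀
  -- the norm
  have hnorm : Algebra.norm F x =
      ((-1) ^ (IntermediateField.adjoin.powerBasis hintF).dim * (a₀ : F))
        ^ Module.finrank (IntermediateField.adjoin F {x}) E := by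
    rw [Algebra.norm_eq_norm_adjoin F x]
    congr 1
    have h1 := Algebra.PowerBasis.norm_gen_eq_coeff_zero_minpoly
      (IntermediateField.adjoin.powerBasis hintF)
    rw [IntermediateField.adjoin.powerBasis_gen, IntermediateField.minpoly_gen, hmin,
      Polynomial.coeff_map] at h1
    exact h1
  have hm : Module.finrank (IntermediateField.adjoin F {x}) E ≠ 0 := Module.finrank_pos.ne'
  -- `a₀` is a unit
  have hv : O.valuation (a₀ : F) = 1 := by
    have h1 : O.valuation (a₀ : F) ≤ 1 := (O.valuation_le_one_iff _).mpr a₀.2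
    have h2 : O.valuation (Algebra.norm F x)⁻¹ ≤ 1 := (O.valuation_le_one_iff _).mpr hN
    rw [hnorm, map_inv₀, map_pow, map_mul, map_pow, Valuation.map_neg, map_one, one_pow,
      one_mul] at h2
    by_contra hne
    have h3 : O.valuation (a₀ : F) < 1 := lt_of_le_of_ne h1 hne
    have h4 : O.valuation (a₀ : F) ^ Module.finrank (IntermediateField.adjoin F {x}) E < 1 :=
      pow_lt_one₀ zero_le h3 hm
    have h5 : O.valuation (a₀ : F) ^ Module.finrank (IntermediateField.adjoin F {x}) E ≠ 0 := by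
      intro h0
      have h6 : Algebra.norm F x = 0 := by
        rw [hnorm]
        have : (a₀ : F) = 0 := by
          have := pow_eq_zero_iff hm |>.mp h0
          exact (Valuation.zero_iff _).mp this
        rw [this, mul_zero, zero_pow hm]
      exact hx0 (Algebra.norm_eq_zero_iff.mp h6)
    have h7 := (one_lt_inv₀ (zero_lt_iff.mpr h5)).mpr h4
    exact absurd h2 (not_le.mpr h7)
  have ha₀inv : ((a₀ : F))⁻¹ ∈ O := by
    rw [← O.valuation_le_one_iff, map_inv₀, hv, inv_one]
  have ha₀ne : (a₀ : F) ≠ 0 := by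
    intro h0
    rw [h0, map_zero] at hv
    exact zero_ne_one hv
  -- the relation
  have hrel : Polynomial.aeval x (Polynomial.divX p₀) * x + algebraMap F E (a₀ : F) = 0 := by
    have h1 : Polynomial.aeval x p₀ = 0 := minpoly.aeval O x
    rw [← Polynomial.divX_mul_X_add p₀, map_add, map_mul, Polynomial.aeval_X,
      Polynomial.aeval_C] at h1
    exact h1
  have hy := h.aeval_mem hx (Polynomial.divX p₀)
  have hinv : x⁻¹ = -(Polynomial.aeval x (Polynomial.divX p₀) * algebraMap F E ((a₀ : F))⁻¹) := by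
    have ha : algebraMap F E (a₀ : F) ≠ 0 := by simpa using ha₀ne
    rw [map_inv₀]
    field_simp
    linear_combination hrel
  rw [hinv]
  exact OE.neg_mem _ (OE.mul_mem _ _ hy ((h.algebraMap_mem_iff _).mpr ha₀inv))

theorem IsHLFExt.norm_mem_unitGroup_iff (h : IsHLFExt O OE) [FiniteDimensional F E] (x : Eˣ) :
    Units.map (Algebra.norm F : E →* F) x ∈ O.unitGroup ↔ x ∈ OE.unitGroup := by
  rw [mem_unitGroup_iff_mem_and_inv_mem, mem_unitGroup_iff_mem_and_inv_mem]
  simp only [Units.coe_map]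
  have hninv : Algebra.norm F ((x : E)⁻¹) = (Algebra.norm F (x : E))⁻¹ := by
    apply eq_inv_of_mul_eq_one_left
    rw [← map_mul, inv_mul_cancel₀ x.ne_zero, map_one]
  constructor
  · rintro ⟨h1, h2⟩
    rcases OE.mem_or_inv_mem (x : E) with hx | hx
    · exact ⟨hx, h.inv_mem_of_norm hx x.ne_zero h2⟩
    · refine ⟨?_, hx⟩
      have := h.inv_mem_of_norm hx (inv_ne_zero x.ne_zero) (by rwa [hninv, inv_inv])
      rwa [inv_inv] at this
  · rintro ⟨h1, h2⟩
    refine ⟨h.norm_mem h1, ?_⟩
    rw [← hninv]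
    exact h.norm_mem h2

/-- abstract count: for a finite free module `M` of rank `n` over `R`, `|M/aM| = |R/a|^n`. -/
theorem card_quot_smul_top {R M : Type} [CommRing R] [AddCommGroup M] [Module R M]
    {n : ℕ} (b : Module.Basis (Fin n) R M) (a : R) (J : Submodule R M)
    (hJ : ∀ x, x ∈ J ↔ ∃ y, x = a • y) :
    Nat.card (M ⧸ J) = Nat.card (R ⧸ Ideal.span {a}) ^ n := by
  let f : M →ₗ[R] (Fin n → R ⧸ Ideal.span {a}) :=
    (LinearMap.pi fun i => (Submodule.mkQ (Ideal.span {a})) ∘ₗ LinearMap.proj i) ∘ₗ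
      (b.equivFun : M →ₗ[R] (Fin n → R))
  have hf : ∀ x i, f x i = Ideal.Quotient.mk (Ideal.span {a}) (b.repr x i) := fun x i => rfl
  have hsurj : Function.Surjective f := by
    intro y
    choose c hc using fun i => Ideal.Quotient.mk_surjective (y i)
    refine ⟨b.equivFun.symm c, ?_⟩
    ext i
    rw [hf, ← hc i]
    congr 1
    exact congrFun (b.equivFun.apply_symm_apply c) i
  have hker : LinearMap.ker f = J := by
    ext x
    rw [LinearMap.mem_ker, hJ]
    constructor
    · intro hx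
      have h1 : ∀ i, ∃ c, b.repr x i = a * c := by
        intro i
        have := congrFun hx i
        rw [hf, Pi.zero_apply, Ideal.Quotient.eq_zero_iff_mem, Ideal.mem_span_singleton] at this
        exact this
      choose c hc using h1
      refine ⟨b.equivFun.symm c, ?_⟩
      apply b.equivFun.injective
      rw [map_smul, LinearEquiv.apply_symm_apply]
      ext i
      simpa using hc i
    · rintro ⟨y, rfl⟩
      ext i
      rw [hf, Pi.zero_apply, Ideal.Quotient.eq_zero_iff_mem, Ideal.mem_span_singleton]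
      simp
  have e1 : (M ⧸ J) ≃ (Fin n → R ⧸ Ideal.span {a}) :=
    ((Submodule.quotEquivOfEq _ _ hker.symm).trans (f.quotKerEquivOfSurjective hsurj)).toEquiv
  rw [Nat.card_congr e1, Nat.card_fun, Nat.card_fin]

/-- `O_E` is free of rank `[E:F]` over `O`, in the form `|O_E/a| = |O/a|^n`. -/
theorem IsHLFExt.card_quot_span [CharZero F] [IsHLF O] (h : IsHLFExt O OE)
    [FiniteDimensional F E] (a : O) :
    Nat.card (OE ⧸ Ideal.span {h.incl a}) =
      Nat.card (O ⧸ Ideal.span {a}) ^ Module.finrank F E := by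
  let _ : Algebra O OE := h.incl.toAlgebra
  have : IsScalarTower O OE E := IsScalarTower.of_algebraMap_eq (fun x => rfl)
  have : IsIntegralClosure OE O E :=
    ⟨Subtype.val_injective, fun {x} => ⟨fun hx => ⟨⟨x, h.mem_of_isIntegral hx⟩, rfl⟩,
      fun ⟨y, hy⟩ => hy ▸ h.isIntegral y y.2⟩⟩
  have : IsDiscreteValuationRing O := IsHLF.dvr
  have : Module.IsTorsionFree O E := .trans_faithfulSMul O F E
  have : Module.Free O OE := IsIntegralClosure.module_free O F E OE
  have : Module.Finite O OE := IsIntegralClosure.finite O F E OE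
  have hrank : Module.finrank O OE = Module.finrank F E := IsIntegralClosure.rank O F E OE
  have b := Module.finBasis O OE
  rw [← hrank]
  have := card_quot_smul_top b a ((Ideal.span {h.incl a}).restrictScalars O) (by
    intro x
    rw [Submodule.restrictScalars_mem, Ideal.mem_span_singleton']
    constructor
    · rintro ⟨y, rfl⟩
      exact ⟨y, by rw [Algebra.smul_def, mul_comm]; rfl⟩
    · rintro ⟨y, rfl⟩
      exact ⟨y, by rw [Algebra.smul_def, mul_comm]; rfl⟩)
  rw [← this]
  exact Nat.card_congr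
    (Submodule.Quotient.restrictScalarsEquiv O (Ideal.span {h.incl a})).symm.toEquiv

theorem IsHLFExt.card_quot_natCast [CharZero F] [IsHLF O] [IsHLF OE] (h : IsHLFExt O OE)
    [FiniteDimensional F E] (p : ℕ) (hp : p ≠ 0) :
    Nat.card (OE ⧸ Ideal.span {(p : OE)}) =
      Nat.card (O ⧸ Ideal.span {(p : O)}) ^ Module.finrank F E := by
  rw [← h.card_quot_span (p : O), map_natCast]

theorem IsHLFExt.incl_injective (h : IsHLFExt O OE) : Function.Injective h.incl := by
  intro x y hxy
  have := congrArg (Subtype.val) hxy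
  exact Subtype.ext ((algebraMap F E).injective this)

theorem IsHLFExt.isLocalHom_incl (h : IsHLFExt O OE) : IsLocalHom h.incl := by
  constructor
  intro a ha
  obtain ⟨b, hb⟩ := isUnit_iff_exists_inv.mp ha
  have hb' : algebraMap F E (a : F) * (b : E) = 1 := congrArg Subtype.val hb
  have ha0 : (a : F) ≠ 0 := by
    intro h0
    rw [h0, map_zero, zero_mul] at hb'
    exact zero_ne_one hb'
  have hbe : (b : E) = algebraMap F E ((a : F)⁻¹) := by
    rw [map_inv₀]
    exact eq_inv_of_mul_eq_one_right hb'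
  have hmem : (a : F)⁻¹ ∈ O := (h.algebraMap_mem_iff _).mp (hbe ▸ b.2)
  exact isUnit_iff_exists_inv.mpr ⟨⟨_, hmem⟩, Subtype.ext (mul_inv_cancel₀ ha0)⟩

/-- general version of `e f = n` -/
theorem IsHLFExt.exists_ramification [CharZero F] [IsHLF O] [IsHLF OE] (h : IsHLFExt O OE)
    [FiniteDimensional F E] :
    ∃ e f : ℕ, e * f = Module.finrank F E ∧
      Nat.card (ResidueField OE) = Nat.card (ResidueField O) ^ f ∧
      ∀ π ϖ, IsUnif O π → IsUnif OE ϖ →
        ∃ u ∈ OE.unitGroup, algebraMap F E π = ϖ ^ e * ((u : Eˣ) : E) := by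
  have : IsDiscreteValuationRing O := IsHLF.dvr
  have : IsDiscreteValuationRing OE := IsHLF.dvr
  have : Finite (ResidueField O) := IsHLF.finite_residue
  have : Finite (ResidueField OE) := IsHLF.finite_residue
  have := h.isLocalHom_incl
  let _ : Algebra (ResidueField O) (ResidueField OE) := (ResidueField.map h.incl).toAlgebra
  have : Module.Finite (ResidueField O) (ResidueField OE) := Module.Finite.of_finite
  have hf : Nat.card (ResidueField OE) =
      Nat.card (ResidueField O) ^ Module.finrank (ResidueField O) (ResidueField OE) :=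
    Module.natCard_eq_pow_finrank
  obtain ⟨π₀, hπ₀⟩ := exists_isUnif O
  obtain ⟨ϖ₀, hϖ₀⟩ := exists_isUnif OE
  have hspan : ∀ π (hπ : IsUnif O π), Ideal.span {h.incl ⟨π, hπ.choose⟩} =
      Ideal.map h.incl (maximalIdeal O) := by
    intro π hπ
    rw [hπ.maximalIdeal_eq, Ideal.map_span, Set.image_singleton]
  have hne : Ideal.map h.incl (maximalIdeal O) ≠ ⊥ := by
    rw [← hspan π₀ hπ₀]
    intro h0
    rw [Ideal.span_singleton_eq_bot] at h0
    have h1 : (⟨π₀, hπ₀.choose⟩ : O) = 0 := h.incl_injective (by rw [h0, map_zero])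
    exact IsUnif.ne_zero O hπ₀ (congrArg Subtype.val h1)
  obtain ⟨e, he⟩ := IsDiscreteValuationRing.ideal_eq_span_pow_irreducible hne hϖ₀.choose_spec
  have he' : Ideal.map h.incl (maximalIdeal O) = maximalIdeal OE ^ e := by
    rw [he, hϖ₀.maximalIdeal_eq, Ideal.span_singleton_pow]
  have hcount := h.card_quot_span (⟨π₀, hπ₀.choose⟩ : O)
  rw [hspan π₀ hπ₀, he', card_quot_maximalIdeal_pow, ← hπ₀.maximalIdeal_eq] at hcount
  have hk : Nat.card (O ⧸ maximalIdeal O) = Nat.card (ResidueField O) := rfl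
  rw [hk, hf, ← pow_mul] at hcount
  have hq : 1 < Nat.card (ResidueField O) := Finite.one_lt_card
  have hef := Nat.pow_right_injective hq hcount
  refine ⟨e, Module.finrank (ResidueField O) (ResidueField OE), by rw [mul_comm]; exact hef, hf, ?_⟩
  intro π ϖ hπ hϖ
  have h1 : Ideal.span {(⟨ϖ, hϖ.choose⟩ : OE) ^ e} = Ideal.span {h.incl ⟨π, hπ.choose⟩} := by
    rw [hspan π hπ, he', hϖ.maximalIdeal_eq, Ideal.span_singleton_pow]
  obtain ⟨u, hu⟩ := Ideal.span_singleton_eq_span_singleton.mp h1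
  refine ⟨Units.map OE.subtype.toMonoidHom u, ?_, ?_⟩
  · rw [mem_unitGroup_iff_mem_and_inv_mem]
    refine ⟨(u : OE).2, ?_⟩
    have : ((Units.map OE.subtype.toMonoidHom u : Eˣ) : E)⁻¹ = ((u⁻¹ : OEˣ) : OE) := by
      apply inv_eq_of_mul_eq_one_right
      have := congrArg Subtype.val (u.mul_inv)
      exact this
    rw [this]
    exact Subtype.mem _
  · exact (congrArg Subtype.val hu).symm

/-- `e f = n` for prime degree: either unramified with residue degree `p`, or totally ramified. -/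
theorem IsHLFExt.unram_or_totallyRam [CharZero F] [IsHLF O] [IsHLF OE] (h : IsHLFExt O OE)
    [FiniteDimensional F E] {p : ℕ} (hp : p.Prime) (hdeg : Module.finrank F E = p) :
    (IsUnramExt O OE ∧ Nat.card (ResidueField OE) = Nat.card (ResidueField O) ^ p) ∨
    ((∀ π ϖ, IsUnif O π → IsUnif OE ϖ →
        ∃ u ∈ OE.unitGroup, algebraMap F E π = ϖ ^ p * ((u : Eˣ) : E)) ∧
      Nat.card (ResidueField OE) = Nat.card (ResidueField O)) := by
  obtain ⟨e, f, hef, hf, hu⟩ := h.exists_ramification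
  rw [hdeg] at hef
  rcases (Nat.dvd_prime hp).mp (Dvd.intro _ hef) with he | he
  · left
    subst he
    rw [one_mul] at hef
    subst hef
    refine ⟨?_, hf⟩
    intro π hπ
    obtain ⟨ϖ₀, hϖ₀⟩ := exists_isUnif OE
    obtain ⟨u, hu1, hu2⟩ := hu π ϖ₀ hπ hϖ₀
    rw [pow_one] at hu2
    rw [mem_unitGroup_iff_mem_and_inv_mem] at hu1
    have hmem : algebraMap F E π ∈ OE := (h.algebraMap_mem_iff π).mpr hπ.choose
    refine ⟨hmem, ?_⟩
    have hunit : IsUnit (⟨(u : E), hu1.1⟩ : OE) :=
      isUnit_iff_exists_inv.mpr ⟨⟨_, hu1.2⟩, Subtype.ext (mul_inv_cancel₀ u.ne_zero)⟩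
    have heq : (⟨algebraMap F E π, hmem⟩ : OE) = ⟨ϖ₀, hϖ₀.choose⟩ * ⟨(u : E), hu1.1⟩ :=
      Subtype.ext hu2
    rw [heq]
    exact (irreducible_mul_isUnit hunit).mpr hϖ₀.choose_spec
  · right
    subst he
    have hf1 : f = 1 := by
      have := hp.pos
      nlinarith [Nat.eq_of_mul_eq_mul_left this (hef.trans (mul_one e).symm)]
    subst hf1
    exact ⟨hu, by rw [hf, pow_one]⟩

end Fermat.Agent.S55.L
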