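import Fermat.Agent.S55.L.A1Structure
import Fermat.Agent.S55.L.A6ExtBasic

/-! # L-B3 (auxiliary, abstract part): unramified extensions and roots of unity of order `Q^m - 1` -/

set_option autoImplicit false

namespace Fermat.Agent.S55.L

open IsLocalRing Polynomial

/-- units of a valuation subring -/
theorem B3.isUnit_iff {K : Type} [Field K] (A : ValuationSubring K) (a : A) :
    IsUnit a ↔ (a : K) ≠ 0 ∧ (a : K)⁻¹ ∈ A := by
  constructor
  · intro h
    obtain ⟨b, hb⟩ := isUnit_iff_exists_inv.mp h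
    have hb' : (a : K) * (b : K) = 1 := congrArg Subtype.val hb
    have ha : (a : K) ≠ 0 := left_ne_zero_of_mul_eq_one hb'
    refine ⟨ha, ?_⟩
    rw [← eq_inv_of_mul_eq_one_right hb']
    exact b.2
  · rintro ⟨h0, h1⟩
    exact ⟨⟨a, ⟨_, h1⟩, Subtype.ext (mul_inv_cancel₀ h0), Subtype.ext (inv_mul_cancel₀ h0)⟩, rfl⟩

theorem B3.isUnit_of_mem_unitGroup {K : Type} [Field K] (A : ValuationSubring K) {u : Kˣ}
    (hu : u ∈ A.unitGroup) : ∃ h : (u : K) ∈ A, IsUnit (⟨u, h⟩ : A) := by
  have h1 : A.valuation (u : K) = 1 := (A.mem_unitGroup_iff u).mp hu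
  have h2 : (u : K) ∈ A := (A.valuation_le_one_iff _).mp h1.le
  refine ⟨h2, (B3.isUnit_iff A _).mpr ⟨u.ne_zero, ?_⟩⟩
  apply (A.valuation_le_one_iff _).mp
  rw [map_inv₀, h1, inv_one]

theorem IsUnif.mul_unit {K : Type} [Field K] {A : ValuationSubring K} {ϖ : K} (h : IsUnif A ϖ)
    {u : Kˣ} (hu : u ∈ A.unitGroup) : IsUnif A (ϖ * (u : K)) := by
  obtain ⟨h1, h2⟩ := h
  obtain ⟨h3, h4⟩ := B3.isUnit_of_mem_unitGroup A hu
  refine ⟨A.mul_mem _ _ h1 h3, ?_⟩
  have : (⟨ϖ * (u : K), A.mul_mem _ _ h1 h3⟩ : A) = ⟨ϖ, h1⟩ * ⟨u, h3⟩ := rfl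
  rw [this, irreducible_mul_isUnit h4]
  exact h2

theorem B3.mem_of_pow_eq_one {K : Type} [Field K] (A : ValuationSubring K) {x : K} {N : ℕ}
    (hN : N ≠ 0) (hx : x ^ N = 1) : x ∈ A := by
  rcases A.mem_or_inv_mem x with h | h
  · exact h
  · have : x = x⁻¹ ^ (N - 1) := by
      have hx0 : x ≠ 0 := by
        rintro rfl
        rw [zero_pow hN] at hx
        exact zero_ne_one hx
      obtain ⟨k, rfl⟩ := Nat.exists_eq_succ_of_ne_zero hN
      rw [Nat.succ_sub_one, inv_pow]
      exact eq_inv_of_mul_eq_one_left (by rw [← pow_succ']; exact hx)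
    rw [this]
    exact A.pow_mem h _

/-- reduction is injective on `N`-th roots of unity if `N` is a unit. -/
theorem B3.eq_of_residue_eq {R : Type} [CommRing R] [IsDomain R] [IsLocalRing R] {N : ℕ}
    (hN : IsUnit (N : R)) {a b : R} (ha : a ^ N = 1) (hb : b ^ N = 1)
    (hab : residue R a = residue R b) : a = b := by
  have hN0 : N ≠ 0 := by
    rintro rfl
    simp at hN
  obtain ⟨k, rfl⟩ := Nat.exists_eq_succ_of_ne_zero hN0
  set c := a * b ^ k with hc
  have hcN : c ^ (k + 1) = 1 := by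
    rw [hc, mul_pow, ha, one_mul, ← pow_mul, mul_comm, pow_mul, hb, one_pow]
  have hcres : residue R c = 1 := by
    rw [hc, map_mul, hab, map_pow, ← pow_succ', ← map_pow, hb, map_one]
  have hc1 : c = 1 := by
    by_contra hne
    have h1 := mul_geom_sum c (k + 1)
    rw [hcN, sub_self, mul_eq_zero] at h1
    rcases h1 with h1 | h1
    · exact hne (sub_eq_zero.mp h1)
    · have h2 := congrArg (residue R) h1
      rw [map_sum, map_zero] at h2
      simp only [map_pow, hcres, one_pow, Finset.sum_const, Finset.card_range, nsmul_eq_mul,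
        mul_one] at h2
      have h3 : residue R ((k + 1 : ℕ) : R) = 0 := by
        rw [map_natCast]
        exact h2
      exact (residue_ne_zero_iff_isUnit _).mpr hN h3
  calc a = a * (b ^ k * b) := by rw [← pow_succ, hb, mul_one]
    _ = c * b := by rw [hc]; ring
    _ = b := by rw [hc1, one_mul]

variable {F E : Type} [Field F] [Field E] [Algebra F E]
  {O : ValuationSubring F} {OE : ValuationSubring E}

/-- an automorphism restricted to `O_E`. -/
noncomputable def IsHLFExt.autRes (h : IsHLFExt O OE) (σ : E ≃ₐ[F] E) : OE →+* OE where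
  toFun a := ⟨σ a, h.map_mem σ a.2⟩
  map_one' := Subtype.ext (map_one σ)
  map_mul' a b := Subtype.ext (map_mul σ (a : E) (b : E))
  map_zero' := Subtype.ext (map_zero σ)
  map_add' a b := Subtype.ext (map_add σ (a : E) (b : E))

theorem IsHLFExt.isLocalHom_autRes (h : IsHLFExt O OE) (σ : E ≃ₐ[F] E) :
    IsLocalHom (h.autRes σ) where
  map_nonunit a ha := by
    obtain ⟨h0, h1⟩ := (B3.isUnit_iff OE _).mp ha
    have h0' : σ (a : E) ≠ 0 := h0
    have h1' : (σ (a : E))⁻¹ ∈ OE := h1
    refine (B3.isUnit_iff OE a).mpr ⟨fun h' => h0' (by rw [h', map_zero]), ?_⟩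
    have := h.map_mem σ.symm h1'
    rwa [map_inv₀, AlgEquiv.symm_apply_apply] at this

/-- every automorphism acts on the residue field as a power of the Frobenius. -/
theorem IsHLFExt.exists_frob [IsHLF O] [IsHLF OE] (h : IsHLFExt O OE) (σ : E ≃ₐ[F] E) :
    ∃ i : ℕ, ∀ a : OE,
      residue OE (h.autRes σ a) = (residue OE a) ^ (Nat.card (ResidueField O) ^ i) := by
  have := h.isLocalHom_incl
  have := h.isLocalHom_autRes σ
  let _ : Algebra (ResidueField O) (ResidueField OE) := (ResidueField.map h.incl).toAlgebra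
  have : Finite (ResidueField O) := IsHLF.finite_residue
  have : Finite (ResidueField OE) := IsHLF.finite_residue
  let _ := Fintype.ofFinite (ResidueField O)
  let τ : ResidueField OE →ₐ[ResidueField O] ResidueField OE :=
    { ResidueField.map (h.autRes σ) with
      commutes' := by
        intro x
        obtain ⟨a, rfl⟩ := residue_surjective x
        show ResidueField.map (h.autRes σ) (ResidueField.map h.incl (residue O a)) =
          ResidueField.map h.incl (residue O a)
        rw [ResidueField.map_residue, ResidueField.map_residue]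
        congr 1
        exact Subtype.ext (σ.commutes (a : F)) }
  obtain ⟨n, hn⟩ := (FiniteField.bijective_frobeniusAlgHom_pow (ResidueField O)
    (ResidueField OE)).2 τ
  refine ⟨n, fun a => ?_⟩
  have h1 := DFunLike.congr_fun hn (residue OE a)
  simp only [AlgHom.coe_pow, FiniteField.coe_frobeniusAlgHom, pow_iterate] at h1
  rw [Nat.card_eq_fintype_card, h1]
  exact (ResidueField.map_residue (h.autRes σ) a).symm

theorem B3.one_lt_card [IsHLF O] : 1 < Nat.card (ResidueField O) := by
  have : Finite (ResidueField O) := IsHLF.finite_residue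
  exact Finite.one_lt_card

/-- `Q ^ m - 1` is a unit of `O_E`. -/
theorem IsHLFExt.isUnit_natCast_pow_sub_one [IsHLF O] (h : IsHLFExt O OE) {m : ℕ} (hm : 0 < m) :
    IsUnit ((Nat.card (ResidueField O) ^ m - 1 : ℕ) : OE) := by
  have := h.isLocalHom_incl
  have : Finite (ResidueField O) := IsHLF.finite_residue
  let _ := Fintype.ofFinite (ResidueField O)
  have hQ : 1 < Nat.card (ResidueField O) := B3.one_lt_card
  have h0 : ((Nat.card (ResidueField O) : ℕ) : ResidueField O) = 0 := by
    rw [Nat.card_eq_fintype_card]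
    exact Nat.cast_card_eq_zero _
  have h1 : ((Nat.card (ResidueField O) : ℕ) : ResidueField OE) = 0 := by
    have := congrArg (ResidueField.map h.incl) h0
    rwa [map_natCast, map_zero] at this
  rw [← residue_ne_zero_iff_isUnit, map_natCast, Nat.cast_sub (Nat.one_le_pow _ _ (by omega)),
    Nat.cast_pow, h1, zero_pow hm.ne']
  simp

/-- the residue field of `O_E` contains a primitive `N`-th root of unity, so `N ∣ |κ_E| - 1`. -/
theorem B3.dvd_card_sub_one [IsHLF OE] {N : ℕ} (hN : IsUnit (N : OE)) {ζ : E}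
    (hζ : IsPrimitiveRoot ζ N) : N ∣ Nat.card (ResidueField OE) - 1 := by
  have hN0 : N ≠ 0 := by
    rintro rfl
    simp at hN
  have : Finite (ResidueField OE) := IsHLF.finite_residue
  let _ := Fintype.ofFinite (ResidueField OE)
  have hmem : ζ ∈ OE := B3.mem_of_pow_eq_one OE hN0 hζ.pow_eq_one
  set z : OE := ⟨ζ, hmem⟩ with hz
  have hzN : z ^ N = 1 := Subtype.ext hζ.pow_eq_one
  have hprim : IsPrimitiveRoot (residue OE z) N := by
    rw [IsPrimitiveRoot.iff (Nat.pos_of_ne_zero hN0)]
    refine ⟨by rw [← map_pow, hzN, map_one], fun l hl0 hlN hl => ?_⟩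
    have h1 : z ^ l = 1 := by
      apply B3.eq_of_residue_eq hN _ (one_pow N)
      · rw [map_pow, hl, map_one]
      · rw [← pow_mul, mul_comm, pow_mul, hzN, one_pow]
    have h2 : ζ ^ l = 1 := congrArg Subtype.val h1
    exact (hζ.pow_ne_one_of_pos_of_lt hl0.ne' hlN) h2
  apply hprim.dvd_of_pow_eq_one
  rw [Nat.card_eq_fintype_card]
  apply FiniteField.pow_card_sub_one_eq_one
  exact hprim.ne_zero hN0

theorem B3.coprime_pow_sub_one {Q m : ℕ} (hQ : 1 < Q) (hm : 0 < m) :
    Nat.Coprime Q (Q ^ m - 1) := by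
  have h1 : 1 ≤ Q ^ m := Nat.one_le_pow _ _ (by omega)
  rw [← Nat.isCoprime_iff_coprime]
  refine ⟨(Q : ℤ) ^ (m - 1), -1, ?_⟩
  obtain ⟨k, rfl⟩ : ∃ k, m = k + 1 := ⟨m - 1, by omega⟩
  rw [Nat.add_sub_cancel]
  push_cast [Nat.cast_sub h1]
  ring

/-- **the unramified extension of degree `m`**, abstract form. -/
theorem IsHLFExt.unram_of_cyclotomic [CharZero F] [IsHLF O] [IsHLF OE] (h : IsHLFExt O OE)
    [FiniteDimensional F E] {m : ℕ} (hm : 0 < m)
    [IsCyclotomicExtension {Nat.card (ResidueField O) ^ m - 1} F E] :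
    IsGalois F E ∧ IsCyclic (E ≃ₐ[F] E) ∧ Module.finrank F E = m ∧ IsUnramExt O OE := by
  set Q := Nat.card (ResidueField O) with hQdef
  have hQ : 1 < Q := B3.one_lt_card
  set N := Q ^ m - 1 with hNdef
  have hQm : 1 < Q ^ m := Nat.one_lt_pow hm.ne' hQ
  have hN0 : N ≠ 0 := by omega
  have : NeZero N := ⟨hN0⟩
  have hNu : IsUnit (N : OE) := h.isUnit_natCast_pow_sub_one hm
  have hgal : IsGalois F E := IsCyclotomicExtension.isGalois {N} F E
  set ζ : E := IsCyclotomicExtension.zeta N F E with hζdef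
  have hζ : IsPrimitiveRoot ζ N := IsCyclotomicExtension.zeta_spec N F E
  have hmem : ζ ∈ OE := B3.mem_of_pow_eq_one OE hN0 hζ.pow_eq_one
  -- every automorphism raises `ζ` to a power of `Q`
  have key : ∀ σ : E ≃ₐ[F] E, ∃ i : ℕ, σ ζ = ζ ^ (Q ^ i) := by
    intro σ
    obtain ⟨i, hi⟩ := h.exists_frob σ
    refine ⟨i, ?_⟩
    have h1 := hi ⟨ζ, hmem⟩
    rw [← map_pow] at h1
    have h2 := B3.eq_of_residue_eq hNu (a := h.autRes σ ⟨ζ, hmem⟩) (b := ⟨ζ, hmem⟩ ^ (Q ^ i))
      (by rw [← map_pow]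
          have : (⟨ζ, hmem⟩ : OE) ^ N = 1 := Subtype.ext hζ.pow_eq_one
          rw [this, map_one])
      (by rw [← pow_mul, mul_comm, pow_mul]
          have : (⟨ζ, hmem⟩ : OE) ^ N = 1 := Subtype.ext hζ.pow_eq_one
          rw [this, one_pow]) h1
    exact congrArg Subtype.val h2
  let u : (ZMod N)ˣ := ZMod.unitOfCoprime Q (B3.coprime_pow_sub_one hQ hm)
  have hu : ((u : (ZMod N)ˣ) : ZMod N) = (Q : ZMod N) := ZMod.coe_unitOfCoprime _ _
  have hum : u ^ m = 1 := by
    apply Units.ext
    rw [Units.val_pow_eq_pow_val, hu, Units.val_one, ← Nat.cast_pow]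
    have : Q ^ m = N + 1 := by omega
    rw [this, Nat.cast_add, ZMod.natCast_self, zero_add, Nat.cast_one]
  have hrange : ∀ σ : E ≃ₐ[F] E, hζ.autToPow F σ ∈ Subgroup.zpowers u := by
    intro σ
    obtain ⟨i, hi⟩ := key σ
    refine ⟨(i : ℤ), ?_⟩
    apply Units.ext
    simp only [zpow_natCast]
    rw [Units.val_pow_eq_pow_val, hu, ← Nat.cast_pow]
    have h1 := hζ.autToPow_spec F σ
    rw [hi] at h1
    -- compare exponents
    have h2 : ((hζ.autToPow F σ : ZMod N).val : ℤ) ≡ ((Q ^ i : ℕ) : ℤ) [ZMOD N] := by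
      have h3 : ζ ^ (((hζ.autToPow F σ : ZMod N).val : ℤ) - ((Q ^ i : ℕ) : ℤ)) = 1 := by
        rw [zpow_sub₀ (hζ.ne_zero hN0), zpow_natCast, zpow_natCast, h1,
          div_self (pow_ne_zero _ (hζ.ne_zero hN0))]
      have h4 := (hζ.zpow_eq_one_iff_dvd _).mp h3
      exact (Int.modEq_iff_dvd.mpr (by
        have := (dvd_neg.mpr h4)
        rwa [neg_sub] at this))
    have h5 := (ZMod.intCast_eq_intCast_iff _ _ N).mpr h2
    push_cast at h5
    rw [ZMod.natCast_zmod_val] at h5
    push_cast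
    exact h5.symm
  let ψ : (E ≃ₐ[F] E) →* Subgroup.zpowers u := (hζ.autToPow F).codRestrict _ hrange
  have hψ : Function.Injective ψ := by
    intro a b hab
    apply hζ.autToPow_injective F
    exact congrArg Subtype.val hab
  have hcyc : IsCyclic (E ≃ₐ[F] E) := isCyclic_of_injective ψ hψ
  have hn_le : Module.finrank F E ≤ m := by
    rw [← IsGalois.card_aut_eq_finrank F E]
    calc Nat.card (E ≃ₐ[F] E) ≤ Nat.card (Subgroup.zpowers u) :=
          Nat.card_le_card_of_injective ψ hψ
      _ = orderOf u := Nat.card_zpowers u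
      _ ≤ m := Nat.le_of_dvd hm (orderOf_dvd_of_pow_eq_one hum)
  obtain ⟨e, f, hef, hcard, hram⟩ := h.exists_ramification
  have hn0 : 0 < Module.finrank F E := Module.finrank_pos
  have he0 : 0 < e := Nat.pos_of_ne_zero (by rintro rfl; omega)
  have hf0 : 0 < f := Nat.pos_of_ne_zero (by rintro rfl; omega)
  have hmf : m ≤ f := by
    have h1 := B3.dvd_card_sub_one hNu hζ
    rw [hcard, ← hQdef] at h1
    have h2 : 1 < Q ^ f := Nat.one_lt_pow hf0.ne' hQ
    have h3 := Nat.le_of_dvd (by omega) h1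
    have h4 : Q ^ m ≤ Q ^ f := by omega
    exact (Nat.pow_le_pow_iff_right hQ).mp h4
  have hfn : f ≤ Module.finrank F E := by
    rw [← hef]
    exact Nat.le_mul_of_pos_left f he0
  have hnm : Module.finrank F E = m := by omega
  have hfm : f = m := by omega
  have he1 : e = 1 := by
    rw [hnm, hfm] at hef
    exact Nat.eq_of_mul_eq_mul_right hm (by rw [hef, one_mul])
  refine ⟨hgal, hcyc, hnm, ?_⟩
  intro π hπ
  obtain ⟨ϖ, hϖ⟩ := exists_isUnif OE
  obtain ⟨v, hv, hv'⟩ := hram π ϖ hπ hϖ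
  rw [hv', he1, pow_one]
  exact hϖ.mul_unit hv

/-- an unramified extension of degree `n` contains the roots of unity of order `Q ^ n - 1`. -/
theorem IsHLFExt.exists_primitiveRoot_of_unram [CharZero F] [IsHLF O] [IsHLF OE]
    (h : IsHLFExt O OE) [FiniteDimensional F E] (hur : IsUnramExt O OE) :
    ∃ ζ : E, IsPrimitiveRoot ζ (Nat.card (ResidueField O) ^ Module.finrank F E - 1) := by
  set Q := Nat.card (ResidueField O) with hQdef
  have hQ : 1 < Q := B3.one_lt_card
  have hn0 : 0 < Module.finrank F E := Module.finrank_pos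
  set N := Q ^ Module.finrank F E - 1 with hNdef
  have hQm : 1 < Q ^ Module.finrank F E := Nat.one_lt_pow hn0.ne' hQ
  have hN0 : N ≠ 0 := by omega
  have hNu : IsUnit (N : OE) := h.isUnit_natCast_pow_sub_one hn0
  obtain ⟨e, f, hef, hcard, hram⟩ := h.exists_ramification
  obtain ⟨π, hπ⟩ := exists_isUnif O
  have hϖ := hur π hπ
  obtain ⟨v, hv, hv'⟩ := hram π _ hπ hϖ
  have he1 : e = 1 := by
    have := (zpow_mul_unique OE hϖ (m := 1) (n := (e : ℤ)) (u := 1) (v := v) (one_mem _) hv
      (by rw [zpow_one, zpow_natCast, Units.val_one, mul_one]; exact hv')).1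
    exact_mod_cast this.symm
  have hfn : f = Module.finrank F E := by rw [← hef, he1, one_mul]
  rw [hfn] at hcard
  have : Finite (ResidueField OE) := IsHLF.finite_residue
  let _ := Fintype.ofFinite (ResidueField OE)
  -- a generator of the multiplicative group of the residue field
  obtain ⟨g, hg⟩ := IsCyclic.exists_generator (α := (ResidueField OE)ˣ)
  have hgord : orderOf g = N := by
    rw [orderOf_eq_card_of_forall_mem_zpowers hg, Nat.card_units, hcard]
  obtain ⟨a₀, ha₀⟩ := residue_surjective ((g : (ResidueField OE)ˣ) : ResidueField OE)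
  have hgN : ((g : (ResidueField OE)ˣ) : ResidueField OE) ^ N = 1 := by
    rw [← Units.val_pow_eq_pow_val, ← hgord, pow_orderOf_eq_one, Units.val_one]
  have : HenselianLocalRing OE := IsHLF.henselian
  obtain ⟨a, ha, haa₀⟩ := HenselianLocalRing.is_henselian (X ^ N - 1 : OE[X])
    (monic_X_pow_sub_C 1 hN0) a₀
    (by
      rw [← residue_eq_zero_iff]
      simp only [eval_sub, eval_pow, eval_X, eval_one, map_sub, map_pow, map_one, ha₀, hgN,
        sub_self])
    (by
      rw [← residue_ne_zero_iff_isUnit]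
      simp only [derivative_sub, derivative_X_pow, derivative_one, sub_zero, eval_mul, eval_pow,
        eval_X, map_mul, map_pow, ha₀]
      apply mul_ne_zero
      · rw [eval_C]
        exact (residue_ne_zero_iff_isUnit _).mpr hNu
      · exact pow_ne_zero _ g.ne_zero)
  have haN : a ^ N = 1 := by
    have : eval a (X ^ N - 1 : OE[X]) = 0 := ha
    simpa [sub_eq_zero] using this
  have hares : residue OE a = g := by
    rw [← ha₀, ← sub_eq_zero, ← map_sub, residue_eq_zero_iff]
    exact haa₀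
  have hprim : IsPrimitiveRoot a N := by
    rw [IsPrimitiveRoot.iff (Nat.pos_of_ne_zero hN0)]
    refine ⟨haN, fun l hl0 hlN hl => ?_⟩
    have h1 := congrArg (residue OE) hl
    rw [map_pow, hares, map_one, ← Units.val_pow_eq_pow_val, Units.val_eq_one] at h1
    exact pow_ne_one_of_lt_orderOf hl0.ne' (by rw [hgord]; exact hlN) h1
  exact ⟨a, hprim.map_of_injective (f := OE.subtype) Subtype.val_injective⟩

end Fermat.Agent.S55.L
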