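import Fermat.Agent.S55.L.B2LocalFields
import Fermat.Agent.S55.L.B3UnramAux

/-! # L-B3: unramified extensions `F(ζ_{Q^m-1})` -/

set_option autoImplicit false
set_option linter.style.haveILetI false

namespace Fermat.Agent.S55.L

open IsLocalRing IntermediateField

variable {q : ℕ} [Fact q.Prime]

/-- abstract descent of uniformisers. -/
theorem IsHLFExt.isUnif_of_algebraMap {F E : Type} [Field F] [Field E] [Algebra F E]
    {O : ValuationSubring F} {OE : ValuationSubring E} (h : IsHLFExt O OE) {x : F}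
    (hx : IsUnif OE (algebraMap F E x)) : IsUnif O x := by
  obtain ⟨h1, h2⟩ := hx
  have hxO : x ∈ O := (h.algebraMap_mem_iff x).mp h1
  have := h.isLocalHom_incl
  refine ⟨hxO, Irreducible.of_map (f := h.incl) ?_⟩
  exact h2

theorem B3.exists_primitiveRoot_Qbar {N : ℕ} (hN : N ≠ 0) : ∃ ζ : Qbar, IsPrimitiveRoot ζ N := by
  have : NeZero N := ⟨hN⟩
  exact HasEnoughRootsOfUnity.exists_primitiveRoot Qbar N

theorem B3.finiteDimensional_adjoin {N : ℕ} (hN : N ≠ 0) {ζ : Qbar} (hζ : IsPrimitiveRoot ζ N) :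
    FiniteDimensional ℚ ℚ⟮ζ⟯ :=
  IntermediateField.adjoin.finiteDimensional ((hζ.isIntegral (Nat.pos_of_ne_zero hN)).tower_top)

/-- `F(ζ)` is a cyclotomic extension of `F`. -/
theorem B3.isCyclotomicExtension (F : IntermediateField ℚ Qbar) {N : ℕ} (hN : N ≠ 0) {ζ : Qbar}
    (hζ : IsPrimitiveRoot ζ N) :
    letI := (IntermediateField.inclusion (le_sup_left : F ≤ F ⊔ ℚ⟮ζ⟯)).toRingHom.toAlgebra
    IsCyclotomicExtension {N} F ↥(F ⊔ ℚ⟮ζ⟯) := by
  letI := (IntermediateField.inclusion (le_sup_left : F ≤ F ⊔ ℚ⟮ζ⟯)).toRingHom.toAlgebra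
  have : IsScalarTower F ↥(F ⊔ ℚ⟮ζ⟯) Qbar := IsScalarTower.of_algebraMap_eq (fun x => rfl)
  have hmem : ζ ∈ F ⊔ ℚ⟮ζ⟯ :=
    (le_sup_right : ℚ⟮ζ⟯ ≤ F ⊔ ℚ⟮ζ⟯) (IntermediateField.mem_adjoin_simple_self ℚ ζ)
  have hprim : IsPrimitiveRoot (⟨ζ, hmem⟩ : ↥(F ⊔ ℚ⟮ζ⟯)) N :=
    IsPrimitiveRoot.of_map_of_injective (f := algebraMap ↥(F ⊔ ℚ⟮ζ⟯) Qbar) hζ
      (algebraMap ↥(F ⊔ ℚ⟮ζ⟯) Qbar).injective
  refine ⟨?_, ?_⟩
  · intro n hn _
    rw [Set.mem_singleton_iff] at hn
    subst hn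
    exact ⟨_, hprim⟩
  · intro x
    have hx' : (x : Qbar) ∈ (IntermediateField.adjoin F {ζ}).toSubalgebra := by
      have h2 : ∀ y : Qbar, y ∈ F ⊔ IntermediateField.adjoin ℚ {ζ} →
          y ∈ (IntermediateField.adjoin F {ζ}).toSubalgebra := by
        intro y hy
        rw [← IntermediateField.restrictScalars_adjoin_eq_sup ℚ F {ζ}] at hy
        exact hy
      exact h2 _ x.2
    have halg : IsAlgebraic F ζ :=
      ((hζ.isIntegral (Nat.pos_of_ne_zero hN)).tower_top (A := F)).isAlgebraic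
    rw [IntermediateField.adjoin_simple_toSubalgebra_of_isAlgebraic halg,
      Algebra.adjoin_singleton_eq_range_aeval] at hx'
    obtain ⟨p, hp⟩ := hx'
    have hp' : Polynomial.aeval ζ p = (x : Qbar) := hp
    have hxp : x = Polynomial.aeval (⟨ζ, hmem⟩ : ↥(F ⊔ ℚ⟮ζ⟯)) p := by
      apply (algebraMap ↥(F ⊔ ℚ⟮ζ⟯) Qbar).injective
      rw [← Polynomial.aeval_algebraMap_apply]
      exact hp'.symm
    rw [hxp]
    refine Algebra.adjoin_mono ?_ (Polynomial.aeval_mem_adjoin_singleton F _)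
    rintro _ rfl
    exact ⟨N, rfl, hN, hprim.pow_eq_one⟩

/-- the main structural result: `F(ζ_{Q^m-1})` is unramified of degree `m`. -/
theorem IsLocalFieldAt.unram_adjoin {F : IntermediateField ℚ Qbar} (hF : IsLocalFieldAt q F)
    {m : ℕ} (hm : 0 < m) {ζ : Qbar}
    (hζ : IsPrimitiveRoot ζ (Nat.card (ResidueField (OO q F)) ^ m - 1)) :
    IsLocalFieldAt q (F ⊔ ℚ⟮ζ⟯) ∧
      letI := (IntermediateField.inclusion (le_sup_left : F ≤ F ⊔ ℚ⟮ζ⟯)).toRingHom.toAlgebra
      IsGalois F ↥(F ⊔ ℚ⟮ζ⟯) ∧ IsCyclic (↥(F ⊔ ℚ⟮ζ⟯) ≃ₐ[F] ↥(F ⊔ ℚ⟮ζ⟯)) ∧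
        Module.finrank F ↥(F ⊔ ℚ⟮ζ⟯) = m ∧ IsUnramExt (OO q F) (OO q (F ⊔ ℚ⟮ζ⟯)) := by
  have := hF.isHLF
  have hQ : 1 < Nat.card (ResidueField (OO q F)) := B3.one_lt_card
  have hQm : 1 < Nat.card (ResidueField (OO q F)) ^ m := Nat.one_lt_pow hm.ne' hQ
  have hN : Nat.card (ResidueField (OO q F)) ^ m - 1 ≠ 0 := by omega
  have := B3.finiteDimensional_adjoin hN hζ
  have hE : IsLocalFieldAt q (F ⊔ ℚ⟮ζ⟯) := hF.sup ℚ⟮ζ⟯
  refine ⟨hE, ?_⟩
  letI := (IntermediateField.inclusion (le_sup_left : F ≤ F ⊔ ℚ⟮ζ⟯)).toRingHom.toAlgebra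
  have := hE.isHLF
  have := hF.finiteDimensional hE le_sup_left
  have := B3.isCyclotomicExtension F hN hζ
  exact (hF.isHLFExt hE le_sup_left).unram_of_cyclotomic hm

/-- existence of the unramified extension of degree `m`: `E = F(ζ)`, `ζ` a primitive
`(Q^m - 1)`-th root of unity, `Q = |κ_F|`. -/
theorem IsLocalFieldAt.exists_unram {F : IntermediateField ℚ Qbar} (hF : IsLocalFieldAt q F)
    (m : ℕ) (hm : 0 < m) :
    ∃ (E : IntermediateField ℚ Qbar) (h : F ≤ E), IsLocalFieldAt q E ∧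
      letI := (IntermediateField.inclusion h).toRingHom.toAlgebra
      IsGalois F E ∧ IsCyclic (E ≃ₐ[F] E) ∧ Module.finrank F E = m ∧
        IsUnramExt (OO q F) (OO q E) := by
  have := hF.isHLF
  have hQ : 1 < Nat.card (ResidueField (OO q F)) := B3.one_lt_card
  have hQm : 1 < Nat.card (ResidueField (OO q F)) ^ m := Nat.one_lt_pow hm.ne' hQ
  obtain ⟨ζ, hζ⟩ := B3.exists_primitiveRoot_Qbar
    (N := Nat.card (ResidueField (OO q F)) ^ m - 1) (by omega)
  exact ⟨F ⊔ ℚ⟮ζ⟯, le_sup_left, hF.unram_adjoin hm hζ⟩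

theorem B3.eq_of_relIndex_eq {F E₀ E : IntermediateField ℚ Qbar} (h₀ : F ≤ E₀) (h : E₀ ≤ E)
    (hne : (E.fixingSubgroup).relIndex F.fixingSubgroup ≠ 0)
    (heq : (E₀.fixingSubgroup).relIndex F.fixingSubgroup =
      (E.fixingSubgroup).relIndex F.fixingSubgroup) : E₀ = E := by
  apply le_antisymm h
  have h1 := Subgroup.relIndex_mul_relIndex E.fixingSubgroup E₀.fixingSubgroup F.fixingSubgroup
    (IntermediateField.fixingSubgroup_le h) (IntermediateField.fixingSubgroup_le h₀)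
  rw [heq] at h1
  have h2 : (E.fixingSubgroup).relIndex E₀.fixingSubgroup = 1 :=
    Nat.eq_of_mul_eq_mul_right (Nat.pos_of_ne_zero hne) (by rw [h1, one_mul])
  have h3 : E₀.fixingSubgroup ≤ E.fixingSubgroup := Subgroup.relIndex_eq_one.mp h2
  have : IsGalois ℚ Qbar :=
    @IsAlgClosure.isGalois ℚ (AlgebraicClosure ℚ) _ _ (AlgebraicClosure.instAlgebra ℚ) _ _
  rw [← InfiniteGalois.fixedField_fixingSubgroup E₀, IntermediateField.le_iff_le]
  exact h3

/-- an unramified extension is generated by roots of unity. -/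
theorem IsLocalFieldAt.eq_adjoin_of_unram {F E : IntermediateField ℚ Qbar}
    (hF : IsLocalFieldAt q F) (hE : IsLocalFieldAt q E) (h : F ≤ E)
    (hur : letI := (IntermediateField.inclusion h).toRingHom.toAlgebra
      IsUnramExt (OO q F) (OO q E)) {ζ : Qbar}
    (hζ : IsPrimitiveRoot ζ (Nat.card (ResidueField (OO q F)) ^
      ((E.fixingSubgroup).relIndex F.fixingSubgroup) - 1)) :
    0 < (E.fixingSubgroup).relIndex F.fixingSubgroup ∧ E = F ⊔ ℚ⟮ζ⟯ := by
  have hfin := hF.finrank_eq_relIndex hE h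
  have hpos : 0 < (E.fixingSubgroup).relIndex F.fixingSubgroup := by
    letI := (IntermediateField.inclusion h).toRingHom.toAlgebra
    have := hF.finiteDimensional hE h
    rw [← hfin]
    exact Module.finrank_pos
  refine ⟨hpos, ?_⟩
  have hmem : ζ ∈ E := by
    letI := (IntermediateField.inclusion h).toRingHom.toAlgebra
    have := hF.isHLF
    have := hE.isHLF
    have := hF.finiteDimensional hE h
    obtain ⟨ζE, hζE⟩ := (hF.isHLFExt hE h).exists_primitiveRoot_of_unram hur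
    rw [hfin] at hζE
    have hζE' : IsPrimitiveRoot (ζE : Qbar) _ :=
      hζE.map_of_injective (f := algebraMap E Qbar) (algebraMap E Qbar).injective
    have hQ : 1 < Nat.card (ResidueField (OO q F)) := B3.one_lt_card
    have hQm := Nat.one_lt_pow hpos.ne' hQ
    have : NeZero (Nat.card (ResidueField (OO q F)) ^
      ((E.fixingSubgroup).relIndex F.fixingSubgroup) - 1) := ⟨by omega⟩
    obtain ⟨i, -, hi⟩ := hζE'.eq_pow_of_pow_eq_one hζ.pow_eq_one
    rw [← hi]
    exact pow_mem ζE.2 i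
  have hle : F ⊔ ℚ⟮ζ⟯ ≤ E := sup_le h (by
    rw [IntermediateField.adjoin_simple_le_iff]
    exact hmem)
  obtain ⟨hE₀, -, -, hdeg, -⟩ := hF.unram_adjoin hpos hζ
  rw [hF.finrank_eq_relIndex hE₀ le_sup_left] at hdeg
  exact (B3.eq_of_relIndex_eq le_sup_left hle hpos.ne' hdeg).symm

/-- uniqueness -/
theorem IsLocalFieldAt.unram_unique {F E E' : IntermediateField ℚ Qbar}
    (hF : IsLocalFieldAt q F) (hE : IsLocalFieldAt q E) (hE' : IsLocalFieldAt q E')
    (h : F ≤ E) (h' : F ≤ E')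
    (hur : letI := (IntermediateField.inclusion h).toRingHom.toAlgebra
      IsUnramExt (OO q F) (OO q E))
    (hur' : letI := (IntermediateField.inclusion h').toRingHom.toAlgebra
      IsUnramExt (OO q F) (OO q E'))
    (hdeg : (E.fixingSubgroup).relIndex F.fixingSubgroup =
      (E'.fixingSubgroup).relIndex F.fixingSubgroup) : E = E' := by
  have := hF.isHLF
  have hQ : 1 < Nat.card (ResidueField (OO q F)) := B3.one_lt_card
  have hpos : 0 < (E.fixingSubgroup).relIndex F.fixingSubgroup := by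
    letI := (IntermediateField.inclusion h).toRingHom.toAlgebra
    have := hF.finiteDimensional hE h
    rw [← hF.finrank_eq_relIndex hE h]
    exact Module.finrank_pos
  have hQm := Nat.one_lt_pow hpos.ne' hQ
  obtain ⟨ζ, hζ⟩ := B3.exists_primitiveRoot_Qbar
    (N := Nat.card (ResidueField (OO q F)) ^
      ((E.fixingSubgroup).relIndex F.fixingSubgroup) - 1) (by omega)
  rw [(hF.eq_adjoin_of_unram hE h hur hζ).2]
  rw [hdeg] at hζ
  rw [← (hF.eq_adjoin_of_unram hE' h' hur' hζ).2]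

/-- unramifiedness in towers -/
theorem IsLocalFieldAt.unram_trans {F E E' : IntermediateField ℚ Qbar}
    (h : F ≤ E) (h' : E ≤ E')
    (hur : letI := (IntermediateField.inclusion h).toRingHom.toAlgebra
      IsUnramExt (OO q F) (OO q E))
    (hur' : letI := (IntermediateField.inclusion h').toRingHom.toAlgebra
      IsUnramExt (OO q E) (OO q E')) :
    letI := (IntermediateField.inclusion (h.trans h')).toRingHom.toAlgebra
    IsUnramExt (OO q F) (OO q E') := by
  intro π hπ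
  have h1 : IsUnif (OO q E) (IntermediateField.inclusion h π) := hur π hπ
  have h2 : IsUnif (OO q E') (IntermediateField.inclusion h' (IntermediateField.inclusion h π)) :=
    hur' _ h1
  exact h2

/-- base change of an unramified extension is unramified -/
theorem IsLocalFieldAt.unram_sup {F E L : IntermediateField ℚ Qbar}
    (hF : IsLocalFieldAt q F) (hE : IsLocalFieldAt q E) (hL : IsLocalFieldAt q L)
    (h : F ≤ E) (hFL : F ≤ L)
    (hur : letI := (IntermediateField.inclusion h).toRingHom.toAlgebra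
      IsUnramExt (OO q F) (OO q E)) :
    letI := (IntermediateField.inclusion (le_sup_left : L ≤ L ⊔ E)).toRingHom.toAlgebra
    IsUnramExt (OO q L) (OO q (L ⊔ E)) := by
  have := hF.isHLF
  have := hL.isHLF
  set Q := Nat.card (ResidueField (OO q F)) with hQdef
  have hQ : 1 < Q := B3.one_lt_card
  set m := (E.fixingSubgroup).relIndex F.fixingSubgroup with hmdef
  have hpos : 0 < m := by
    letI := (IntermediateField.inclusion h).toRingHom.toAlgebra
    have := hF.finiteDimensional hE h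
    rw [hmdef, ← hF.finrank_eq_relIndex hE h]
    exact Module.finrank_pos
  have hQm := Nat.one_lt_pow hpos.ne' hQ
  obtain ⟨ζ, hζ⟩ := B3.exists_primitiveRoot_Qbar (N := Q ^ m - 1) (by omega)
  have hEeq : E = F ⊔ ℚ⟮ζ⟯ := (hF.eq_adjoin_of_unram hE h hur hζ).2
  -- the residue field of `L`
  obtain ⟨f', hf'⟩ : ∃ f' : ℕ, Nat.card (ResidueField (OO q L)) = Q ^ f' := by
    letI := (IntermediateField.inclusion hFL).toRingHom.toAlgebra
    have := hF.finiteDimensional hL hFL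
    obtain ⟨e, f, -, hcard, -⟩ := (hF.isHLFExt hL hFL).exists_ramification
    exact ⟨f, hcard⟩
  have hQL : 1 < Nat.card (ResidueField (OO q L)) := B3.one_lt_card
  have hQLm := Nat.one_lt_pow hpos.ne' hQL
  obtain ⟨ζ', hζ'⟩ := B3.exists_primitiveRoot_Qbar
    (N := Nat.card (ResidueField (OO q L)) ^ m - 1) (by omega)
  have hdvd : Q ^ m - 1 ∣ Nat.card (ResidueField (OO q L)) ^ m - 1 := by
    rw [hf', ← pow_mul, mul_comm, pow_mul]
    have := Nat.sub_dvd_pow_sub_pow (Q ^ m) 1 f'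
    rwa [one_pow] at this
  have hζmem : ζ ∈ ℚ⟮ζ'⟯ := by
    have : NeZero (Nat.card (ResidueField (OO q L)) ^ m - 1) := ⟨by omega⟩
    obtain ⟨c, hc⟩ := hdvd
    obtain ⟨i, -, hi⟩ := hζ'.eq_pow_of_pow_eq_one (ξ := ζ)
      (by rw [hc, pow_mul, hζ.pow_eq_one, one_pow])
    rw [← hi]
    exact pow_mem (IntermediateField.mem_adjoin_simple_self ℚ ζ') i
  have hle : L ⊔ E ≤ L ⊔ ℚ⟮ζ'⟯ := by
    refine sup_le le_sup_left ?_
    rw [hEeq]
    refine sup_le (hFL.trans le_sup_left) ?_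
    rw [IntermediateField.adjoin_simple_le_iff]
    exact (le_sup_right : ℚ⟮ζ'⟯ ≤ L ⊔ ℚ⟮ζ'⟯) hζmem
  obtain ⟨hEL, -, -, -, hurL⟩ := hL.unram_adjoin hpos hζ'
  have hM : IsLocalFieldAt q (L ⊔ E) := hEL.of_le (hL.hens_le.trans le_sup_left) hle
  intro π hπ
  have h1 := hurL π hπ
  letI := (IntermediateField.inclusion hle).toRingHom.toAlgebra
  exact (hM.isHLFExt hEL hle).isUnif_of_algebraMap h1

end Fermat.Agent.S55.L
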