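import Fermat.Agent.S55.L.C1cInd

/-! # L-C1: `|H²(U, A)[p]| = p` for an abstract local class formation -/

set_option autoImplicit false

noncomputable section

namespace Fermat.Agent.S55.L

open Fermat.Agent.S55

variable {Γ : Type} [Group Γ] {A : Type} [AddCommGroup A]
variable {L : Lev Γ} {ρ : Representation ℤ Γ A} {p : ℕ}

/-- **Main theorem of L-C1.** -/
theorem LCF.card_torsion [Fact p.Prime] (C : LCF L ρ p) {U : Subgroup Γ} (hU : C.mem U) :
    Nat.card {x : HH2 L ρ U // p • x = 0} = p := by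
  obtain ⟨χ, hs, ho, hur⟩ := C.exists_unr hU
  have hV := normalIdx_midSub (L := L) χ hs ho
  have hur' : UnrA ρ C.units (midSub χ) U :=
    UnrA.of_le (normalIdx_ker_midSub (L := L) χ hs ho).le hV.le hur
  refine Eq.trans ?_ (C.card_ker_rres2 hU hV)
  refine Nat.card_congr (Equiv.subtypeEquivRight fun x => ?_)
  rw [LinearMap.mem_ker]
  exact ⟨fun hx => C.torsion_dies hU hV hur' x hx, fun hx => C.smul_eq_zero_of_rres2 hU hV x hx⟩

end Fermat.Agent.S55.L

end
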