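import Fermat.Agent.S55.L.C0Defs
import Fermat.Agent.S55.L.C0.Kummer
import Fermat.Agent.S55.L.C0.BaseRing

/-!
# L-C0e: Kummer theory for a `p`-divisible discrete module `A` with `H¹(G, A) = 0`

`ι : M → A` identifies the `G`-module `M` (over any ring `k'`, e.g. `ZMod p`) with `A[p]`.
Then `H¹(G, M) ≅ A^G / p A^G` and `H²(G, M) ≅ H²(G, A)[p]` (we only record bijections).

SHORT PROOF: `ι` gives an equivariant `M ≃+ ker (C0.mulP p)`; use `C0.exists_H1_addEquiv`,
`C0.exists_H2_addEquiv` (change of base ring) and `C0.kummer_δ0_surjective`,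
`C0.kummer_δ0_eq_zero_iff`, `C0.kummer_H2_injective`, `C0.kummer_H2_range` for `C0.torsRep ρ p`.

ALTERNATIVE DIRECT PROOFS (no long exact sequence).
* `H1`: `δ : A^G → H¹(G, M)`: for `a` choose `b` with `p b = a`; `z g := ι⁻¹ (ρ g b - b)`
  (`p (ρ g b - b) = ρ g a - a = 0`), a level cocycle as `b` is fixed by a level.  Another choice
  `b + ι m` changes `z` by `d0 m`.  `δ` is additive.  `δ a = 0 ⟺ z = d0 m ⟺ b - ι m ∈ A^G`, and
  `a = p (b - ι m)`.  Surjective: for `z ∈ Z¹(G, M)`, `ι ∘ z ∈ Z¹(G, A) = B¹`: `ι (z g) = ρ g b - b`,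
  `a := p b ∈ A^G`.
* `H2`: `ι_* : H²(G, M) → H²(G, A)`, `[x] ↦ [ι ∘ x]`, lands in the `p`-torsion.
  Injective: `ι ∘ x = d1 b`, `b` level; `p b ∈ Z¹(G, A) = B¹`, `p b = d0 m`, `m = p m'`;
  `b' := b - d0 m'` is level (`d0_isLev`), `p b' = 0`, so `b' = ι ∘ y`, `y` level, `x = d1 y`.
  Onto the `p`-torsion: `p x = d1 b`, `b` level; `b = p b'` with `b' := s ∘ b` level (`s` a set
  theoretic section of `p`, `IsLev₁.comp`); `x - d1 b'` is killed by `p`, so it is `ι ∘ x'`.
-/

set_option autoImplicit false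

noncomputable section

namespace Fermat.Agent.S55.L

open Fermat.Agent.S55

variable {k k' : Type*} [CommRing k] [CommRing k'] {G : Type} [Group G] {L : Lev G}
variable {A : Type*} [AddCommGroup A] [Module k A] {M : Type*} [AddCommGroup M] [Module k' M]

/-- `ι` identifies `M` with `A[p]`, and `A` is `p`-divisible. -/
structure IsKummer (p : ℕ) (ρ : Representation k G A) (τ : Representation k' G M)
    (ι : M →+ A) : Prop where
  inj : Function.Injective ι
  equivariant : ∀ g m, ι (τ g m) = ρ g (ι m)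
  range : ∀ a : A, p • a = 0 ↔ ∃ m, ι m = a
  div : ∀ a : A, ∃ b : A, p • b = a

variable {p : ℕ} {ρ : Representation k G A} {τ : Representation k' G M} {ι : M →+ A}

theorem IsKummer.isDiscrete (hK : IsKummer p ρ τ ι) (hρ : IsDiscrete L ρ) : IsDiscrete L τ := by
  intro m
  obtain ⟨U, hU, h⟩ := hρ (ι m)
  exact ⟨U, hU, fun u hu => hK.inj (by rw [hK.equivariant, h u hu])⟩

/-- `ι` as an additive equivalence `M ≃+ A[p]` -/
def IsKummer.equivTors (hK : IsKummer p ρ τ ι) :
    M ≃+ LinearMap.ker (C0.mulP (k := k) (A := A) p) :=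
  AddEquiv.ofBijective
    (AddMonoidHom.mk' (fun m => (⟨ι m, by
      rw [LinearMap.mem_ker, C0.mulP_apply]; exact (hK.range _).2 ⟨m, rfl⟩⟩ :
        LinearMap.ker (C0.mulP (k := k) (A := A) p)))
      fun m m' => Subtype.ext (map_add ι m m'))
    ⟨fun m m' h => hK.inj (congrArg Subtype.val h), fun a => by
      obtain ⟨m, hm⟩ := (hK.range (a : A)).1 (by
        have := a.2
        rwa [LinearMap.mem_ker, C0.mulP_apply] at this)
      exact ⟨m, Subtype.ext hm⟩⟩

lemma IsKummer.equivTors_coe (hK : IsKummer p ρ τ ι) (m : M) : (hK.equivTors m : A) = ι m := rfl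

lemma IsKummer.equivTors_equivariant (hK : IsKummer p ρ τ ι) (g : G) (m : M) :
    hK.equivTors (τ g m) = C0.torsRep ρ p g (hK.equivTors m) :=
  Subtype.ext (hK.equivariant g m)

lemma IsKummer.mulP_surjective (hK : IsKummer p ρ τ ι) :
    Function.Surjective (C0.mulP (k := k) (A := A) p) := hK.div

theorem IsKummer.card_H1 (hK : IsKummer p ρ τ ι) (hρ : IsDiscrete L ρ)
    (h1 : ∀ z : H1 L ρ, z = 0) :
    Nat.card (H1 L τ) = (nsmulAddMonoidHom (α := ρ.invariants) p).range.index := by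
  have hH1 : Subsingleton (H1 L ρ) := ⟨fun a b => (h1 a).trans (h1 b).symm⟩
  obtain ⟨E, -⟩ := C0.exists_H1_addEquiv L τ (C0.torsRep ρ p) hK.equivTors
    hK.equivTors_equivariant
  set δ : ρ.invariants →+ H1 L (C0.torsRep ρ p) :=
    ((C0.kummerSES ρ p hK.mulP_surjective).δ0 L hρ).toAddMonoidHom with hδ
  have hsurj : Function.Surjective δ := C0.kummer_δ0_surjective hρ hK.mulP_surjective hH1
  have hker : δ.ker = (nsmulAddMonoidHom (α := ρ.invariants) p).range := by
    ext a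
    rw [AddMonoidHom.mem_ker, AddMonoidHom.mem_range]
    refine (C0.kummer_δ0_eq_zero_iff hρ hK.mulP_surjective a).trans ?_
    constructor
    · rintro ⟨b, rfl⟩
      exact ⟨b, rfl⟩
    · rintro ⟨b, rfl⟩
      exact ⟨b, rfl⟩
  rw [← hker, AddSubgroup.index, Nat.card_congr E.toEquiv,
    Nat.card_congr (QuotientAddGroup.quotientKerEquivOfSurjective δ hsurj).toEquiv]

theorem IsKummer.H2_equiv (hK : IsKummer p ρ τ ι) (hρ : IsDiscrete L ρ)
    (h1 : ∀ z : H1 L ρ, z = 0) :
    Nonempty (H2 L τ ≃ {x : H2 L ρ // p • x = 0}) := by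
  have hH1 : Subsingleton (H1 L ρ) := ⟨fun a b => (h1 a).trans (h1 b).symm⟩
  obtain ⟨E, -⟩ := C0.exists_H2_addEquiv L τ (C0.torsRep ρ p) hK.equivTors
    hK.equivTors_equivariant
  have hinj := C0.kummer_H2_injective hρ hK.mulP_surjective hH1
  have hrange := C0.kummer_H2_range hρ hK.mulP_surjective
  refine ⟨E.toEquiv.trans (Equiv.ofBijective
    (fun y => ⟨((C0.kummerSES ρ p hK.mulP_surjective).iH L).H2map y,
      (hrange _).1 ⟨y, rfl⟩⟩) ⟨fun y y' h => hinj (congrArg Subtype.val h), fun x => ?_⟩)⟩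
  obtain ⟨y, hy⟩ := (hrange x.1).2 x.2
  exact ⟨y, Subtype.ext hy⟩

end Fermat.Agent.S55.L

end
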