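import Fermat.Agent.S55.Lib.HerbrandCyclic

/-! # L-A7, auxiliary file 1: abstract (additive) group theory

Herbrand quotient computations for a subgroup `S` of an abelian group `B` with an automorphism `σ`
of prime order `p`, phrased with `relIndex` inside `B`. -/

set_option autoImplicit false

namespace Fermat.Agent.S55.L

open Fermat.Agent.S55.Herbrand Finset

section transfer

variable {A B : Type*} [AddCommGroup A] [AddCommGroup B]

/-- transfer of `idx` along an injective homomorphism -/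
lemma A7_idx_of_injective (ι : A →+ B) (hι : Function.Injective ι) (fA gA : A →+ A)
    (fB gB : B →+ B) (hf : ∀ a, ι (fA a) = fB (ι a)) (hg : ∀ a, ι (gA a) = gB (ι a)) :
    idx fA gA = (ι.range.map gB).relIndex (fB.ker ⊓ ι.range) := by
  rw [idx, ← AddSubgroup.relIndex_map_map_of_injective _ _ hι]
  congr 1
  · ext b
    constructor
    · rintro ⟨_, ⟨a, rfl⟩, rfl⟩
      exact ⟨ι a, ⟨a, rfl⟩, (hg a).symm⟩
    · rintro ⟨_, ⟨a, rfl⟩, rfl⟩
      exact ⟨gA a, ⟨a, rfl⟩, hg a⟩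
  · ext b
    constructor
    · rintro ⟨a, ha, rfl⟩
      refine ⟨?_, ⟨a, rfl⟩⟩
      have ha' : fA a = 0 := ha
      show fB (ι a) = 0
      rw [← hf, ha', map_zero]
    · rintro ⟨hb, ⟨a, rfl⟩⟩
      refine ⟨a, ?_, rfl⟩
      show fA a = 0
      apply hι
      have hb' : fB (ι a) = 0 := hb
      rw [hf, hb', map_zero]

/-- `idx` of the restrictions to a stable subgroup. -/
lemma A7_idx_resEnd (S : AddSubgroup B) (f g : B →+ B) (hf : ∀ b ∈ S, f b ∈ S)
    (hg : ∀ b ∈ S, g b ∈ S) :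
    idx (resEnd S f hf) (resEnd S g hg) = (S.map g).relIndex (f.ker ⊓ S) := by
  rw [A7_idx_of_injective S.subtype S.subtype_injective _ _ f g (fun _ => rfl) (fun _ => rfl),
    AddSubgroup.range_subtype]

end transfer

section tate

variable {B : Type*} [AddCommGroup B]

lemma A7_iterate_resEnd (S : AddSubgroup B) (σ : B →+ B) (hS : ∀ b ∈ S, σ b ∈ S) (n : ℕ) (x : S) :
    (((resEnd S σ hS)^[n] x : S) : B) = σ^[n] (x : B) := by
  induction n with
  | zero => rfl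
  | succ n ih =>
    rw [Function.iterate_succ_apply', Function.iterate_succ_apply', resEnd_coe, ih]

lemma A7_iterate_mem (S : AddSubgroup B) (σ : B →+ B) (hS : ∀ b ∈ S, σ b ∈ S) (n : ℕ) {b : B}
    (hb : b ∈ S) : σ^[n] b ∈ S := by
  induction n with
  | zero => exact hb
  | succ n ih =>
    rw [Function.iterate_succ_apply']
    exact hS _ ih

lemma A7_Dop_mem (S : AddSubgroup B) (σ : B →+ B) (hS : ∀ b ∈ S, σ b ∈ S) :
    ∀ b ∈ S, Dop σ b ∈ S := by
  intro b hb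
  rw [Dop_apply]
  exact S.sub_mem (hS b hb) hb

lemma A7_Nop_mem (S : AddSubgroup B) (σ : B →+ B) (hS : ∀ b ∈ S, σ b ∈ S) (n : ℕ) :
    ∀ b ∈ S, Nop σ n b ∈ S := by
  intro b hb
  rw [Nop_apply]
  exact S.sum_mem fun i _ => A7_iterate_mem S σ hS i hb

lemma A7_mulN_mem (S : AddSubgroup B) (n : ℕ) : ∀ b ∈ S, mulN B n b ∈ S := by
  intro b hb
  rw [mulN_apply]
  exact S.nsmul_mem hb n

lemma A7_Dop_resEnd (S : AddSubgroup B) (σ : B →+ B) (hS : ∀ b ∈ S, σ b ∈ S) :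
    Dop (resEnd S σ hS) = resEnd S (Dop σ) (A7_Dop_mem S σ hS) := by
  ext x
  rw [Dop_apply, resEnd_coe, Dop_apply]
  rfl

lemma A7_Nop_resEnd (S : AddSubgroup B) (σ : B →+ B) (hS : ∀ b ∈ S, σ b ∈ S) (n : ℕ) :
    Nop (resEnd S σ hS) n = resEnd S (Nop σ n) (A7_Nop_mem S σ hS n) := by
  ext x
  rw [Nop_apply, resEnd_coe, Nop_apply, AddSubgroup.val_finsetSum]
  exact Finset.sum_congr rfl fun i _ => A7_iterate_resEnd S σ hS i x

/-- `[ker f ∩ S : g S]` for the pair `(σ-1, N)` on `S`. -/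
lemma A7_cyc_h0 (S : AddSubgroup B) (σ : B →+ B) (hS : ∀ b ∈ S, σ b ∈ S) (n : ℕ)
    (h : ∀ a, (resEnd S σ hS)^[n] a = a) :
    (cyc (resEnd S σ hS) n h).h0 = (S.map (Nop σ n)).relIndex ((Dop σ).ker ⊓ S) := by
  show idx (Dop (resEnd S σ hS)) (Nop (resEnd S σ hS) n) = _
  rw [A7_Dop_resEnd, A7_Nop_resEnd, A7_idx_resEnd]

lemma A7_cyc_h1 (S : AddSubgroup B) (σ : B →+ B) (hS : ∀ b ∈ S, σ b ∈ S) (n : ℕ)
    (h : ∀ a, (resEnd S σ hS)^[n] a = a) :
    (cyc (resEnd S σ hS) n h).h1 = (S.map (Dop σ)).relIndex ((Nop σ n).ker ⊓ S) := by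
  show idx (Nop (resEnd S σ hS) n) (Dop (resEnd S σ hS)) = _
  rw [A7_Dop_resEnd, A7_Nop_resEnd, A7_idx_resEnd]

/-- `q_{0,n}` along an injective homomorphism. -/
lemma A7_zp_h0 {A : Type*} [AddCommGroup A] (ι : A →+ B) (hι : Function.Injective ι) (n : ℕ) :
    (zp (mulN A n)).h0 = (ι.range.map (mulN B n)).relIndex ι.range := by
  show idx 0 (mulN A n) = _
  rw [A7_idx_of_injective ι hι 0 (mulN A n) 0 (mulN B n) (fun _ => by simp)
    (fun a => by simp [mulN_apply])]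
  congr 1
  ext b
  simp

lemma A7_zp_h1 {A : Type*} [AddCommGroup A] (ι : A →+ B) (hι : Function.Injective ι) (n : ℕ) :
    (zp (mulN A n)).h1 = Nat.card ↥((mulN B n).ker ⊓ ι.range) := by
  show idx (mulN A n) 0 = _
  rw [A7_idx_of_injective ι hι (mulN A n) 0 (mulN B n) 0 (fun a => by simp [mulN_apply])
    (fun _ => by simp), ← AddSubgroup.relIndex_bot_left]
  congr 1
  ext b
  simp only [AddSubgroup.mem_map, AddMonoidHom.mem_range, AddMonoidHom.zero_apply,
    AddSubgroup.mem_bot]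
  constructor
  · rintro ⟨_, _, rfl⟩; rfl
  · rintro rfl; exact ⟨0, ⟨0, map_zero _⟩, rfl⟩

/-- **Herbrand quotient `1`** from Tate's lemma, for a `σ`-stable subgroup `S ≤ B`,
`T = S^σ`: if `q_{0,p}(S) = a`, `q_{0,p}(T) = b` and `a = b ^ p` then `h(S) = 1`. -/
theorem A7_tate_sub (σ : B →+ B) (p : ℕ) [hp : Fact p.Prime] (S : AddSubgroup B)
    (hS : ∀ b ∈ S, σ b ∈ S) (hσ : ∀ b ∈ S, σ^[p] b = b) (a b t t' : ℕ)
    (h1 : (S.map (mulN B p)).relIndex S = t * a)
    (h2 : Nat.card ↥((mulN B p).ker ⊓ S) = t)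
    (h3 : (((Dop σ).ker ⊓ S).map (mulN B p)).relIndex ((Dop σ).ker ⊓ S) = t' * b)
    (h4 : Nat.card ↥((mulN B p).ker ⊓ ((Dop σ).ker ⊓ S)) = t')
    (ht : t ≠ 0) (ht' : t' ≠ 0) (ha : a ≠ 0) (hab : a = b ^ p) :
    (S.map (Nop σ p)).relIndex ((Dop σ).ker ⊓ S) =
        (S.map (Dop σ)).relIndex ((Nop σ p).ker ⊓ S) ∧
      (S.map (Nop σ p)).relIndex ((Dop σ).ker ⊓ S) ≠ 0 := by
  have hσS : ∀ x : S, (resEnd S σ hS)^[p] x = x := fun x =>
    Subtype.ext ((A7_iterate_resEnd S σ hS p x).trans (hσ x x.2))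
  -- `q_{0,p}(S)`
  have e0 : (zp (mulN S p)).h0 = t * a := by
    rw [A7_zp_h0 S.subtype S.subtype_injective, AddSubgroup.range_subtype, h1]
  have e1 : (zp (mulN S p)).h1 = t := by
    rw [A7_zp_h1 S.subtype S.subtype_injective, AddSubgroup.range_subtype, h2]
  have hfin : (zp (mulN S p)).Fin := ⟨by rw [e0]; exact mul_ne_zero ht ha, by rw [e1]; exact ht⟩
  obtain ⟨hc, -, hq⟩ := tate_lemma hσS hfin
  -- `q_{0,p}(S^σ)`
  set K : AddSubgroup S := (Dop (resEnd S σ hS)).ker with hK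
  let ι : K →+ B := S.subtype.comp K.subtype
  have hι : Function.Injective ι := S.subtype_injective.comp K.subtype_injective
  have hr : ι.range = (Dop σ).ker ⊓ S := by
    ext x
    constructor
    · rintro ⟨y, rfl⟩
      refine ⟨?_, y.1.2⟩
      have hy : Dop (resEnd S σ hS) y.1 = 0 := y.2
      rw [A7_Dop_resEnd] at hy
      exact congrArg Subtype.val hy
    · rintro ⟨hx1, hx2⟩
      refine ⟨⟨⟨x, hx2⟩, ?_⟩, rfl⟩
      show Dop (resEnd S σ hS) ⟨x, hx2⟩ = 0
      rw [A7_Dop_resEnd]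
      exact Subtype.ext hx1
  have e2 : (zp (mulN K p)).h0 = t' * b := by rw [A7_zp_h0 ι hι, hr, h3]
  have e3 : (zp (mulN K p)).h1 = t' := by rw [A7_zp_h1 ι hι, hr, h4]
  have q1 : (zp (mulN S p)).q = a := by
    rw [HPair.q, e0, e1]
    have : (t : ℚ) ≠ 0 := Nat.cast_ne_zero.2 ht
    push_cast
    field_simp
  have q2 : (zp (mulN K p)).q = b := by
    rw [HPair.q, e2, e3]
    have : (t' : ℚ) ≠ 0 := Nat.cast_ne_zero.2 ht'
    push_cast
    field_simp
  rw [q1, q2, hab] at hq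
  have hb : ((b ^ p : ℕ) : ℚ) ≠ 0 := Nat.cast_ne_zero.2 (hab ▸ ha)
  have hq1 : (cyc (resEnd S σ hS) p hσS).q ^ (p - 1) = 1 := by
    apply mul_right_cancel₀ hb
    rw [hq, one_mul]
    push_cast
    rfl
  have hp1 : p - 1 ≠ 0 := by have := hp.out.two_le; omega
  have hq2 : (cyc (resEnd S σ hS) p hσS).q = 1 :=
    (pow_eq_one_iff_of_nonneg (HPair.q_pos hc).le hp1).1 hq1
  rw [← A7_cyc_h0 S σ hS p hσS, ← A7_cyc_h1 S σ hS p hσS]
  refine ⟨?_, hc.1⟩
  rw [HPair.q, div_eq_one_iff_eq (Nat.cast_ne_zero.2 hc.2)] at hq2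
  exact_mod_cast hq2

end tate

section index

variable {B : Type*} [AddCommGroup B]

lemma A7_Dop_id (x : ℤ) : Dop (AddMonoidHom.id ℤ) x = 0 := by
  rw [Dop_apply]; simp

lemma A7_Nop_id (n : ℕ) (x : ℤ) : Nop (AddMonoidHom.id ℤ) n x = n * x := by
  rw [Nop_apply]
  simp

lemma A7_cyc_int_h0 (n : ℕ) (h : ∀ a, (⇑(AddMonoidHom.id ℤ))^[n] a = a) :
    (cyc (AddMonoidHom.id ℤ) n h).h0 = n := by
  show (Nop (AddMonoidHom.id ℤ) n).range.relIndex (Dop (AddMonoidHom.id ℤ)).ker = n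
  have h1 : (Dop (AddMonoidHom.id ℤ)).ker = ⊤ := by
    ext x; simp [AddMonoidHom.mem_ker, A7_Dop_id]
  have h2 : (Nop (AddMonoidHom.id ℤ) n).range = AddSubgroup.zmultiples (n : ℤ) := by
    ext x
    rw [Int.mem_zmultiples_iff]
    constructor
    · rintro ⟨y, rfl⟩; rw [A7_Nop_id]; exact dvd_mul_right _ _
    · rintro ⟨y, rfl⟩; exact ⟨y, A7_Nop_id n y⟩
  rw [h1, h2, AddSubgroup.relIndex_top_right, Int.index_zmultiples, Int.natAbs_natCast]

lemma A7_cyc_int_h1 (n : ℕ) (hn : n ≠ 0) (h : ∀ a, (⇑(AddMonoidHom.id ℤ))^[n] a = a) :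
    (cyc (AddMonoidHom.id ℤ) n h).h1 = 1 := by
  show (Dop (AddMonoidHom.id ℤ)).range.relIndex (Nop (AddMonoidHom.id ℤ) n).ker = 1
  have h2 : (Nop (AddMonoidHom.id ℤ) n).ker = ⊥ := by
    ext x
    rw [AddMonoidHom.mem_ker, A7_Nop_id, AddSubgroup.mem_bot]
    simp [hn]
  rw [h2, AddSubgroup.relIndex_bot_right]

/-- `[B^σ : N B] = p` if `h(S) = 1`, `B / S ≅ ℤ` with trivial action and `H¹(B) = 0`. -/
theorem A7_index_add (σ : B →+ B) (p : ℕ) (hp : p ≠ 0) (hσ : ∀ b, σ^[p] b = b)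
    (S : AddSubgroup B) (hS : ∀ b ∈ S, σ b ∈ S)
    (v : B →+ ℤ) (hv : Function.Surjective v) (hker : v.ker = S) (hvσ : ∀ b, v (σ b) = v b)
    (hU : (S.map (Nop σ p)).relIndex ((Dop σ).ker ⊓ S) =
        (S.map (Dop σ)).relIndex ((Nop σ p).ker ⊓ S))
    (hU0 : (S.map (Nop σ p)).relIndex ((Dop σ).ker ⊓ S) ≠ 0)
    (h90 : (Nop σ p).ker ≤ (Dop σ).range) :
    (Nop σ p).range.relIndex (Dop σ).ker = p := by
  have hσS : ∀ x : S, (resEnd S σ hS)^[p] x = x := fun x =>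
    Subtype.ext ((A7_iterate_resEnd S σ hS p x).trans (hσ x))
  have hid : ∀ a, (⇑(AddMonoidHom.id ℤ))^[p] a = a := by
    intro a
    have : ∀ i, (⇑(AddMonoidHom.id ℤ))^[i] a = a := by
      intro i
      induction i with
      | zero => rfl
      | succ i ih => rw [Function.iterate_succ_apply', ih]; rfl
    exact this p
  have hvi : ∀ i b, v (σ^[i] b) = v b := by
    intro i b
    induction i with
    | zero => rfl
    | succ i ih => rw [Function.iterate_succ_apply', hvσ, ih]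
  have hex : HExact (cyc (resEnd S σ hS) p hσS) (cyc σ p hσ) (cyc (AddMonoidHom.id ℤ) p hid)
      S.subtype v :=
    { inj := S.subtype_injective
      surj := hv
      exact := by rw [AddSubgroup.range_subtype, hker]
      fi := fun a => by
        show ((Dop (resEnd S σ hS) a : S) : B) = Dop σ a
        rw [A7_Dop_resEnd]; rfl
      gi := fun a => by
        show ((Nop (resEnd S σ hS) p a : S) : B) = Nop σ p a
        rw [A7_Nop_resEnd]; rfl
      fπ := fun b => by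
        show v (Dop σ b) = Dop (AddMonoidHom.id ℤ) (v b)
        rw [A7_Dop_id, Dop_apply, map_sub, hvσ, sub_self]
      gπ := fun b => by
        show v (Nop σ p b) = Nop (AddMonoidHom.id ℤ) p (v b)
        rw [A7_Nop_id, Nop_apply, map_sum]
        simp [hvi] }
  have key := hex.herbrand_mul
  rw [A7_cyc_h0, A7_cyc_h1, A7_cyc_int_h0, A7_cyc_int_h1 p hp, ← hU] at key
  have hQ1 : (cyc σ p hσ).h1 = 1 := by
    show (Dop σ).range.relIndex (Nop σ p).ker = 1
    exact AddSubgroup.relIndex_eq_one.2 h90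
  rw [hQ1, mul_one, mul_one] at key
  have := Nat.eq_of_mul_eq_mul_left (Nat.pos_of_ne_zero hU0) key
  exact this.symm

end index

section mul

variable {G : Type*} [CommGroup G]

lemma A7_toAdditive_iterate (s : G →* G) (n : ℕ) (x : Additive G) :
    (⇑(MonoidHom.toAdditive s))^[n] x = Additive.ofMul (s^[n] x.toMul) := by
  induction n with
  | zero => rfl
  | succ n ih => rw [Function.iterate_succ_apply', Function.iterate_succ_apply', ih]; rfl

lemma A7_Dop_toAdditive (s : G →* G) :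
    Dop (MonoidHom.toAdditive s) = MonoidHom.toAdditive (s / MonoidHom.id G) := by
  refine AddMonoidHom.ext fun x => ?_
  rw [Dop_apply]
  rfl

lemma A7_Nop_toAdditive (s Nm : G →* G) (n : ℕ) (hN : ∀ x, Nm x = ∏ i ∈ range n, s^[i] x) :
    Nop (MonoidHom.toAdditive s) n = MonoidHom.toAdditive Nm := by
  refine AddMonoidHom.ext fun x => ?_
  rw [Nop_apply]
  simp only [A7_toAdditive_iterate]
  show _ = Additive.ofMul (Nm x.toMul)
  rw [hN, ofMul_prod]

lemma A7_mulN_toAdditive (n : ℕ) :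
    mulN (Additive G) n = MonoidHom.toAdditive (powMonoidHom n : G →* G) :=
  AddMonoidHom.ext fun _ => rfl

lemma A7_map_toAdd (H : Subgroup G) (f : G →* G) :
    (Subgroup.toAddSubgroup H).map (MonoidHom.toAdditive f) = Subgroup.toAddSubgroup (H.map f) :=
  rfl

lemma A7_ker_toAdd (f : G →* G) :
    (MonoidHom.toAdditive f).ker = Subgroup.toAddSubgroup f.ker := rfl

lemma A7_range_toAdd (f : G →* G) :
    (MonoidHom.toAdditive f).range = Subgroup.toAddSubgroup f.range := rfl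

lemma A7_inf_toAdd (H K : Subgroup G) :
    Subgroup.toAddSubgroup H ⊓ Subgroup.toAddSubgroup K = Subgroup.toAddSubgroup (H ⊓ K) := rfl

lemma A7_card_toAdd (H : Subgroup G) : Nat.card ↥(Subgroup.toAddSubgroup H) = Nat.card ↥H := rfl

/-- multiplicative form of `A7_tate_sub` -/
theorem A7_tate_mul (s Nm : G →* G) (p : ℕ) [hp : Fact p.Prime] (U : Subgroup G)
    (hU : ∀ x ∈ U, s x ∈ U) (hs : ∀ x ∈ U, s^[p] x = x)
    (hN : ∀ x, Nm x = ∏ i ∈ range p, s^[i] x) (a b t t' : ℕ)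
    (h1 : (U.map (powMonoidHom p)).relIndex U = t * a)
    (h2 : Nat.card ↥((powMonoidHom p : G →* G).ker ⊓ U) = t)
    (h3 : (((s / MonoidHom.id G).ker ⊓ U).map (powMonoidHom p)).relIndex
      ((s / MonoidHom.id G).ker ⊓ U) = t' * b)
    (h4 : Nat.card ↥((powMonoidHom p : G →* G).ker ⊓ ((s / MonoidHom.id G).ker ⊓ U)) = t')
    (ht : t ≠ 0) (ht' : t' ≠ 0) (ha : a ≠ 0) (hab : a = b ^ p) :
    (U.map Nm).relIndex ((s / MonoidHom.id G).ker ⊓ U) =
        (U.map (s / MonoidHom.id G)).relIndex (Nm.ker ⊓ U) ∧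
      (U.map Nm).relIndex ((s / MonoidHom.id G).ker ⊓ U) ≠ 0 := by
  have key := A7_tate_sub (MonoidHom.toAdditive s) p (Subgroup.toAddSubgroup U)
    (fun x hx => hU _ hx)
    (fun x hx => by rw [A7_toAdditive_iterate]; exact congrArg Additive.ofMul (hs _ hx))
    a b t t'
  simp only [A7_Dop_toAdditive, A7_Nop_toAdditive s Nm p hN, A7_mulN_toAdditive, A7_map_toAdd,
    A7_ker_toAdd, A7_inf_toAdd, A7_card_toAdd, Subgroup.relIndex_toAddSubgroup] at key
  exact key h1 h2 h3 h4 ht ht' ha hab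

/-- multiplicative form of `A7_index_add` -/
theorem A7_index_mul (s Nm : G →* G) (p : ℕ) (hp : p ≠ 0) (hs : ∀ x, s^[p] x = x)
    (hN : ∀ x, Nm x = ∏ i ∈ range p, s^[i] x)
    (U : Subgroup G) (hU : ∀ x ∈ U, s x ∈ U)
    (v : G →* Multiplicative ℤ) (hv : Function.Surjective v) (hker : v.ker = U)
    (hvs : ∀ x, v (s x) = v x)
    (hh : (U.map Nm).relIndex ((s / MonoidHom.id G).ker ⊓ U) =
        (U.map (s / MonoidHom.id G)).relIndex (Nm.ker ⊓ U))
    (hh0 : (U.map Nm).relIndex ((s / MonoidHom.id G).ker ⊓ U) ≠ 0)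
    (h90 : Nm.ker ≤ (s / MonoidHom.id G).range) :
    Nm.range.relIndex (s / MonoidHom.id G).ker = p := by
  have key := A7_index_add (MonoidHom.toAdditive s) p hp
    (fun x => by rw [A7_toAdditive_iterate]; exact congrArg Additive.ofMul (hs _))
    (Subgroup.toAddSubgroup U) (fun x hx => hU _ hx)
    (MonoidHom.toAdditiveLeft v) (fun n => by
      obtain ⟨x, hx⟩ := hv (Multiplicative.ofAdd n)
      exact ⟨Additive.ofMul x, congrArg Multiplicative.toAdd hx⟩)
    (by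
      rw [← hker]
      ext x
      exact Iff.rfl)
    (fun x => congrArg Multiplicative.toAdd (hvs x.toMul))
  simp only [A7_Dop_toAdditive, A7_Nop_toAdditive s Nm p hN, A7_map_toAdd,
    A7_ker_toAdd, A7_range_toAdd, A7_inf_toAdd, Subgroup.relIndex_toAddSubgroup] at key
  exact key hh hh0 h90

end mul

end Fermat.Agent.S55.L
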