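import Fermat.Agent.S55.L.A4UnitIndex
import Fermat.Agent.S55.L.A6ExtBasic
import Fermat.Agent.S55.L.A7Aux1

/-! # L-A7, auxiliary file 2: Galois theory of a cyclic extension of prime degree, valuations -/

set_option autoImplicit false

namespace Fermat.Agent.S55.L

open IsLocalRing Finset

section galois

variable {F E : Type} [Field F] [Field E] [Algebra F E]

/-- `σ` acting on `Eˣ` -/
abbrev A7s (σ : E ≃ₐ[F] E) : Eˣ →* Eˣ := Units.map (σ : E →* E)

/-- the inclusion `Fˣ → Eˣ` -/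
abbrev A7j (F E : Type) [Field F] [Field E] [Algebra F E] : Fˣ →* Eˣ :=
  Units.map (algebraMap F E : F →* E)

/-- the norm `Eˣ → Fˣ` -/
noncomputable abbrev A7n (F E : Type) [Field F] [Field E] [Algebra F E] : Eˣ →* Fˣ :=
  Units.map (Algebra.norm F : E →* F)

lemma A7j_injective : Function.Injective (A7j F E) := by
  intro x y hxy
  apply Units.ext
  apply (algebraMap F E).injective
  exact congrArg Units.val hxy

lemma A7s_iterate (σ : E ≃ₐ[F] E) (n : ℕ) (x : Eˣ) :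
    (((A7s σ)^[n] x : Eˣ) : E) = σ^[n] (x : E) := by
  induction n with
  | zero => rfl
  | succ n ih => rw [Function.iterate_succ_apply', Function.iterate_succ_apply', ← ih]; rfl

variable [FiniteDimensional F E] [IsGalois F E] {p : ℕ}

lemma A7_orderOf (hp : p.Prime) (hdeg : Module.finrank F E = p) (σ : E ≃ₐ[F] E) (hσ : σ ≠ 1) :
    orderOf σ = p := by
  have : Fact p.Prime := ⟨hp⟩
  refine orderOf_eq_prime ?_ hσ
  rw [← hdeg, ← IsGalois.card_aut_eq_finrank F E]
  exact pow_card_eq_one'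

lemma A7_iterate_eq (hp : p.Prime) (hdeg : Module.finrank F E = p) (σ : E ≃ₐ[F] E) (hσ : σ ≠ 1)
    (x : E) : σ^[p] x = x := by
  rw [← AlgEquiv.coe_pow, ← A7_orderOf hp hdeg σ hσ, pow_orderOf_eq_one]
  rfl

lemma A7_norm_eq_prod (hp : p.Prime) (hdeg : Module.finrank F E = p) (σ : E ≃ₐ[F] E) (hσ : σ ≠ 1)
    (x : E) : algebraMap F E (Algebra.norm F x) = ∏ i ∈ range p, σ^[i] x := by
  classical
  rw [Algebra.norm_eq_prod_automorphisms]
  have hinj : Set.InjOn (fun i : ℕ => σ ^ i) (range p : Finset ℕ) := by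
    have := pow_injOn_Iio_orderOf (x := σ)
    rw [A7_orderOf hp hdeg σ hσ] at this
    intro a ha b hb hab
    exact this (by simpa using ha) (by simpa using hb) hab
  have huniv : (range p).image (fun i : ℕ => σ ^ i) = Finset.univ := by
    apply Finset.eq_univ_of_card
    rw [Finset.card_image_of_injOn hinj, card_range, ← Nat.card_eq_fintype_card,
      IsGalois.card_aut_eq_finrank, hdeg]
  rw [← huniv, Finset.prod_image hinj]
  exact Finset.prod_congr rfl fun i _ => by rw [AlgEquiv.coe_pow]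

lemma A7_mem_zpowers (hp : p.Prime) (hdeg : Module.finrank F E = p) (σ : E ≃ₐ[F] E) (hσ : σ ≠ 1)
    (τ : E ≃ₐ[F] E) : τ ∈ Subgroup.zpowers σ := by
  have : Fact p.Prime := ⟨hp⟩
  exact mem_zpowers_of_prime_card ((IsGalois.card_aut_eq_finrank F E).trans hdeg) hσ

lemma A7_exists_ne_one (hp : p.Prime) (hdeg : Module.finrank F E = p) :
    ∃ σ : E ≃ₐ[F] E, σ ≠ 1 := by
  have h : Nat.card (E ≃ₐ[F] E) = p := (IsGalois.card_aut_eq_finrank F E).trans hdeg
  have : Nontrivial (E ≃ₐ[F] E) := by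
    rw [← Finite.one_lt_card_iff_nontrivial, h]
    exact hp.one_lt
  exact exists_ne 1

/-- `N x = ∏ σⁱ x` on units -/
lemma A7_Nm_eq (hp : p.Prime) (hdeg : Module.finrank F E = p) (σ : E ≃ₐ[F] E) (hσ : σ ≠ 1)
    (x : Eˣ) : ((A7j F E).comp (A7n F E)) x = ∏ i ∈ range p, (A7s σ)^[i] x := by
  apply Units.ext
  rw [Units.coe_prod]
  simp only [A7s_iterate]
  exact A7_norm_eq_prod hp hdeg σ hσ x

lemma A7s_iterate_eq (hp : p.Prime) (hdeg : Module.finrank F E = p) (σ : E ≃ₐ[F] E) (hσ : σ ≠ 1)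
    (x : Eˣ) : (A7s σ)^[p] x = x := by
  apply Units.ext
  rw [A7s_iterate, A7_iterate_eq hp hdeg σ hσ]

/-- the fixed points of `σ` on `Eˣ` are `Fˣ` -/
lemma A7_ker_eq_range (hp : p.Prime) (hdeg : Module.finrank F E = p) (σ : E ≃ₐ[F] E)
    (hσ : σ ≠ 1) : (A7s σ / MonoidHom.id Eˣ).ker = (A7j F E).range := by
  ext x
  rw [MonoidHom.mem_ker, MonoidHom.div_apply, div_eq_one]
  constructor
  · intro hx
    have hx' : σ (x : E) = x := congrArg Units.val hx
    have hfix : ∀ τ : E ≃ₐ[F] E, τ (x : E) = x := by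
      intro τ
      have h1 : Subgroup.zpowers σ ≤ MulAction.stabilizer (E ≃ₐ[F] E) (x : E) := by
        rw [Subgroup.zpowers_le, MulAction.mem_stabilizer_iff, AlgEquiv.smul_def, hx']
      have := h1 (A7_mem_zpowers hp hdeg σ hσ τ)
      rwa [MulAction.mem_stabilizer_iff, AlgEquiv.smul_def] at this
    obtain ⟨y, hy⟩ := (IsGalois.mem_range_algebraMap_iff_fixed (F := F) (x : E)).2 hfix
    have hy0 : y ≠ 0 := by
      rintro rfl
      rw [map_zero] at hy
      exact x.ne_zero hy.symm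
    exact ⟨Units.mk0 y hy0, Units.ext hy⟩
  · rintro ⟨y, rfl⟩
    apply Units.ext
    exact σ.commutes _

/-- Hilbert 90 -/
lemma A7_hilbert90 (hp : p.Prime) (hdeg : Module.finrank F E = p) (σ : E ≃ₐ[F] E)
    (hσ : σ ≠ 1) : ((A7j F E).comp (A7n F E)).ker ≤ (A7s σ / MonoidHom.id Eˣ).range := by
  intro x hx
  have : Fact p.Prime := ⟨hp⟩
  have : IsCyclic (E ≃ₐ[F] E) :=
    isCyclic_of_prime_card ((IsGalois.card_aut_eq_finrank F E).trans hdeg)
  have hx1 : A7n F E x = 1 := A7j_injective (by rw [map_one]; exact hx)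
  have hx2 : Algebra.norm F (x : E) = 1 := congrArg Units.val hx1
  obtain ⟨y, hy⟩ := groupCohomology.exists_div_of_norm_eq_one
    (A7_mem_zpowers hp hdeg σ hσ) hx2
  refine ⟨y⁻¹, ?_⟩
  have h1 : (A7s σ / MonoidHom.id Eˣ) y⁻¹ = y / A7s σ y := by
    rw [MonoidHom.div_apply, MonoidHom.id_apply, map_inv, inv_div_inv]
  rw [h1]
  apply Units.ext
  rw [← hy, Units.val_div_eq_div_val]
  rfl

end galois

section val

variable {F : Type} [Field F] (O : ValuationSubring F)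

lemma A7_mem_unitGroup_iff (x : Fˣ) :
    x ∈ O.unitGroup ↔ (x : F) ∈ O ∧ ((x⁻¹ : Fˣ) : F) ∈ O := by
  rw [O.mem_unitGroup_iff, ← O.valuation_le_one_iff, ← O.valuation_le_one_iff,
    Units.val_inv_eq_inv_val, map_inv₀]
  have h0 : 0 < O.valuation (x : F) := by
    rw [zero_lt_iff, Valuation.ne_zero_iff]
    exact x.ne_zero
  rw [inv_le_one₀ h0]
  exact ⟨fun h => ⟨h.le, h.ge⟩, fun h => le_antisymm h.1 h.2⟩

lemma A7_val_lt_one_iff (z : F) : O.valuation z < 1 ↔ z = 0 ∨ z⁻¹ ∉ O := by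
  by_cases hz : z = 0
  · simp [hz]
  · have h0 : 0 < O.valuation z := by
      rw [zero_lt_iff, Valuation.ne_zero_iff]
      exact hz
    rw [← O.valuation_le_one_iff, map_inv₀, inv_le_one₀ h0, not_le]
    simp [hz]

lemma A7_mem_higherUnits_one_iff (x : Fˣ) :
    x ∈ higherUnits O 1 ↔ O.valuation ((x : F) - 1) < 1 := by
  constructor
  · rintro ⟨-, h, hm⟩
    rw [pow_one] at hm
    exact (O.valuation_lt_one_iff _).1 hm
  · intro h
    have hO : (x : F) - 1 ∈ O := (O.valuation_le_one_iff _).1 h.le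
    refine ⟨?_, hO, ?_⟩
    · rw [O.mem_unitGroup_iff]
      have := Valuation.map_one_add_of_lt (v := O.valuation) h
      rwa [add_sub_cancel] at this
    · rw [pow_one]
      exact (O.valuation_lt_one_iff ⟨_, hO⟩).2 h

/-- the normalised valuation `Fˣ → ℤ` attached to a uniformiser -/
noncomputable def A7v [IsHLF O] {π : F} (hπ : IsUnif O π) : Fˣ →* Multiplicative ℤ :=
  MonoidHom.mk' (fun x => Multiplicative.ofAdd (exists_zpow_mul O hπ x).choose) (by
    intro x y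
    obtain ⟨u, hu, hx⟩ := (exists_zpow_mul O hπ x).choose_spec
    obtain ⟨w, hw, hy⟩ := (exists_zpow_mul O hπ y).choose_spec
    obtain ⟨t, ht, hxy⟩ := (exists_zpow_mul O hπ (x * y)).choose_spec
    rw [← ofAdd_add]
    congr 1
    refine (zpow_mul_unique O hπ ht (mul_mem hu hw) ?_).1
    rw [← hxy, Units.val_mul, Units.val_mul, zpow_add₀ hπ.ne_zero]
    nth_rewrite 1 [hx]
    nth_rewrite 1 [hy]
    ring)

lemma A7v_eq [IsHLF O] {π : F} (hπ : IsUnif O π) {x : Fˣ} {n : ℤ} {u : Fˣ}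
    (hu : u ∈ O.unitGroup) (hx : (x : F) = π ^ n * (u : F)) :
    A7v O hπ x = Multiplicative.ofAdd n := by
  obtain ⟨w, hw, hx'⟩ := (exists_zpow_mul O hπ x).choose_spec
  show Multiplicative.ofAdd (exists_zpow_mul O hπ x).choose = _
  congr 1
  exact (zpow_mul_unique O hπ hw hu (hx'.symm.trans hx)).1

lemma A7v_spec [IsHLF O] {π : F} (hπ : IsUnif O π) (x : Fˣ) :
    ∃ u ∈ O.unitGroup, (x : F) = π ^ (Multiplicative.toAdd (A7v O hπ x)) * (u : F) :=
  (exists_zpow_mul O hπ x).choose_spec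

lemma A7v_ker [IsHLF O] {π : F} (hπ : IsUnif O π) : (A7v O hπ).ker = O.unitGroup := by
  ext x
  rw [MonoidHom.mem_ker]
  constructor
  · intro h
    obtain ⟨u, hu, hx⟩ := A7v_spec O hπ x
    rw [h, toAdd_one, zpow_zero, one_mul] at hx
    rwa [Units.ext hx]
  · intro h
    rw [A7v_eq O hπ (n := 0) h (by simp)]
    rfl

lemma A7v_surjective [IsHLF O] {π : F} (hπ : IsUnif O π) : Function.Surjective (A7v O hπ) := by
  intro n
  refine ⟨Units.mk0 π hπ.ne_zero ^ (Multiplicative.toAdd n), ?_⟩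
  rw [A7v_eq O hπ (n := Multiplicative.toAdd n) (one_mem _) (by simp)]
  rfl

end val

section ext

variable {F E : Type} [Field F] [Field E] [Algebra F E]
  {O : ValuationSubring F} {OE : ValuationSubring E}

lemma IsHLFExt.A7_val_lt_one_iff (h : IsHLFExt O OE) (z : F) :
    OE.valuation (algebraMap F E z) < 1 ↔ O.valuation z < 1 := by
  rw [L.A7_val_lt_one_iff, L.A7_val_lt_one_iff, ← map_inv₀, h.algebraMap_mem_iff,
    map_eq_zero_iff _ (algebraMap F E).injective]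

lemma IsHLFExt.A7_val_map_lt_one (h : IsHLFExt O OE) (σ : E ≃ₐ[F] E) {z : E}
    (hz : OE.valuation z < 1) : OE.valuation (σ z) < 1 := by
  rw [L.A7_val_lt_one_iff] at hz ⊢
  rcases hz with rfl | hz
  · left; exact map_zero σ
  · right
    intro hc
    apply hz
    have := h.map_mem σ.symm hc
    rwa [map_inv₀, AlgEquiv.symm_apply_apply] at this

lemma IsHLFExt.A7_j_mem_unitGroup_iff (h : IsHLFExt O OE) (x : Fˣ) :
    A7j F E x ∈ OE.unitGroup ↔ x ∈ O.unitGroup := by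
  rw [A7_mem_unitGroup_iff, A7_mem_unitGroup_iff, ← map_inv]
  exact and_congr (h.algebraMap_mem_iff _) (h.algebraMap_mem_iff _)

lemma IsHLFExt.A7_j_mem_higherUnits_iff (h : IsHLFExt O OE) (x : Fˣ) :
    A7j F E x ∈ higherUnits OE 1 ↔ x ∈ higherUnits O 1 := by
  rw [A7_mem_higherUnits_one_iff, A7_mem_higherUnits_one_iff, ← h.A7_val_lt_one_iff,
    (algebraMap F E).map_sub, (algebraMap F E).map_one]
  rfl

lemma IsHLFExt.A7_s_mem_higherUnits (h : IsHLFExt O OE) (σ : E ≃ₐ[F] E) {x : Eˣ}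
    (hx : x ∈ higherUnits OE 1) : A7s σ x ∈ higherUnits OE 1 := by
  rw [A7_mem_higherUnits_one_iff] at hx ⊢
  have := h.A7_val_map_lt_one σ hx
  rwa [map_sub, map_one] at this

/-- `U_E^σ = U_F` -/
lemma IsHLFExt.A7_fixed_units (h : IsHLFExt O OE) [FiniteDimensional F E] [IsGalois F E] {p : ℕ}
    (hp : p.Prime) (hdeg : Module.finrank F E = p) (σ : E ≃ₐ[F] E) (hσ : σ ≠ 1) :
    (A7s σ / MonoidHom.id Eˣ).ker ⊓ OE.unitGroup = (O.unitGroup).map (A7j F E) := by
  rw [A7_ker_eq_range hp hdeg σ hσ]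
  ext x
  constructor
  · rintro ⟨⟨y, rfl⟩, hy⟩
    exact ⟨y, (h.A7_j_mem_unitGroup_iff y).1 hy, rfl⟩
  · rintro ⟨y, hy, rfl⟩
    exact ⟨⟨y, rfl⟩, (h.A7_j_mem_unitGroup_iff y).2 hy⟩

end ext

end Fermat.Agent.S55.L
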