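import Fermat.Agent.S55.L.A4UnitIndex
import Fermat.Agent.S55.L.A6ExtBasic
import Fermat.Agent.S55.L.A7Aux2

/-! # L-A7: the local norm index for cyclic extensions of prime degree (LF2), and consequences -/

set_option autoImplicit false

namespace Fermat.Agent.S55.L

open IsLocalRing

variable {F E : Type} [Field F] [Field E] [Algebra F E]
  {O : ValuationSubring F} {OE : ValuationSubring E}

theorem A7_card_quot_ne_zero (O : ValuationSubring F) [IsHLF O] [CharZero F] (p : ℕ)
    (hp : p ≠ 0) : Nat.card (O ⧸ Ideal.span {(p : O)}) ≠ 0 := by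
  have hdvr : IsDiscreteValuationRing O := IsHLF.dvr
  have hp0 : (p : O) ≠ 0 := by
    intro h
    have h2 : ((p : O) : F) = 0 := by rw [h]; rfl
    have h3 : (p : F) = 0 := by simpa using h2
    exact hp (Nat.cast_eq_zero.mp h3)
  obtain ⟨ϖ, hϖ⟩ := IsDiscreteValuationRing.exists_irreducible O
  obtain ⟨e, he⟩ := IsDiscreteValuationRing.ideal_eq_span_pow_irreducible
    (s := Ideal.span {(p : O)}) (by simpa using hp0) hϖ
  rw [← Ideal.span_singleton_pow, ← hϖ.maximalIdeal_eq] at he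
  rw [he, card_quot_maximalIdeal_pow]
  have : Finite (ResidueField O) := IsHLF.finite_residue
  exact pow_ne_zero _ Nat.card_pos.ne'

theorem A7_card_roots_ne_zero (F : Type) [Field F] (p : ℕ) (hp : p ≠ 0) :
    Nat.card (rootsOfUnity p F) ≠ 0 := by
  have : NeZero p := ⟨hp⟩
  exact Nat.card_pos.ne'

theorem A7_card_ker_pow (O : ValuationSubring F) (p : ℕ) (hp : p ≠ 0) :
    Nat.card ↥((powMonoidHom p : Fˣ →* Fˣ).ker ⊓ O.unitGroup) = Nat.card (rootsOfUnity p F) := by
  rw [← A4_card_torsion, A4_card_roots O p hp]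

theorem A7_ker_Nm : ((A7j F E).comp (A7n F E)).ker = (A7n F E).ker := by
  ext x
  rw [MonoidHom.mem_ker, MonoidHom.mem_ker, MonoidHom.comp_apply]
  exact ⟨fun h => A7j_injective (by rw [h, map_one]), fun h => by rw [h, map_one]⟩

/-- `h(U_E) = 1`, inside `Eˣ`. -/
theorem IsHLFExt.A7_unit_herbrand [CharZero F] [IsHLF O] [IsHLF OE] (h : IsHLFExt O OE)
    [FiniteDimensional F E] [IsGalois F E] {p : ℕ} (hp : p.Prime)
    (hdeg : Module.finrank F E = p) (σ : E ≃ₐ[F] E) (hσ : σ ≠ 1) :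
    ((OE.unitGroup).map ((A7j F E).comp (A7n F E))).relIndex
        ((A7s σ / MonoidHom.id Eˣ).ker ⊓ OE.unitGroup) =
      ((OE.unitGroup).map (A7s σ / MonoidHom.id Eˣ)).relIndex
        (((A7j F E).comp (A7n F E)).ker ⊓ OE.unitGroup) ∧
    ((OE.unitGroup).map ((A7j F E).comp (A7n F E))).relIndex
        ((A7s σ / MonoidHom.id Eˣ).ker ⊓ OE.unitGroup) ≠ 0 := by
  have : Fact p.Prime := ⟨hp⟩
  have : CharZero E := charZero_of_injective_algebraMap (algebraMap F E).injective
  have hcomm : (powMonoidHom p : Eˣ →* Eˣ).comp (A7j F E) =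
      (A7j F E).comp (powMonoidHom p : Fˣ →* Fˣ) := by
    ext x
    simp
  exact A7_tate_mul (A7s σ) ((A7j F E).comp (A7n F E)) p OE.unitGroup
    (fun x hx => h.map_mem_unitGroup σ hx) (fun x _ => A7s_iterate_eq hp hdeg σ hσ x)
    (A7_Nm_eq hp hdeg σ hσ)
    (Nat.card (OE ⧸ Ideal.span {(p : OE)})) (Nat.card (O ⧸ Ideal.span {(p : O)}))
    (Nat.card (rootsOfUnity p E)) (Nat.card (rootsOfUnity p F))
    (relIndex_pow_unitGroup OE p) (A7_card_ker_pow OE p hp.ne_zero)
    (by
      rw [h.A7_fixed_units hp hdeg σ hσ, Subgroup.map_map, hcomm, ← Subgroup.map_map,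
        Subgroup.relIndex_map_map_of_injective _ _ A7j_injective]
      exact relIndex_pow_unitGroup O p)
    (by
      rw [h.A7_fixed_units hp hdeg σ hσ, ← A7_card_ker_pow O p hp.ne_zero,
        ← Subgroup.card_map_of_injective (A7j_injective (F := F) (E := E))]
      congr 2
      ext x
      constructor
      · rintro ⟨hx, ⟨y, hy, rfl⟩⟩
        refine ⟨y, ⟨?_, hy⟩, rfl⟩
        have hx' : (A7j F E y) ^ p = 1 := hx
        show y ^ p = 1
        apply A7j_injective (F := F) (E := E)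
        rw [map_pow, hx', map_one]
      · rintro ⟨y, ⟨hy1, hy2⟩, rfl⟩
        refine ⟨?_, ⟨y, hy2, rfl⟩⟩
        have hy1' : y ^ p = 1 := hy1
        show (A7j F E y) ^ p = 1
        rw [← map_pow, hy1', map_one])
    (A7_card_roots_ne_zero E p hp.ne_zero) (A7_card_roots_ne_zero F p hp.ne_zero)
    (A7_card_quot_ne_zero OE p hp.ne_zero)
    (by rw [h.card_quot_natCast p hp.ne_zero, hdeg])

/-- Herbrand quotient of the units is `1`:  `(U_F : N U_E) = |{u ∈ U_E : N u = 1} / (σ-1) U_E|`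
(Chevalley's lemma + A4 + A6). -/
theorem IsHLFExt.unit_norm_index_eq [CharZero F] [IsHLF O] [IsHLF OE] (h : IsHLFExt O OE)
    [FiniteDimensional F E] [IsGalois F E] {p : ℕ} (hp : p.Prime)
    (hdeg : Module.finrank F E = p) (σ : E ≃ₐ[F] E) (hσ : σ ≠ 1) :
    ((OE.unitGroup).map (Units.map (Algebra.norm F : E →* F))).relIndex O.unitGroup =
      ((OE.unitGroup).map
          ((Units.map (σ : E →* E)) / (MonoidHom.id Eˣ))).relIndex
        ((Units.map (Algebra.norm F : E →* F)).ker ⊓ OE.unitGroup) ∧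
    ((OE.unitGroup).map (Units.map (Algebra.norm F : E →* F))).relIndex O.unitGroup ≠ 0 := by
  have key := h.A7_unit_herbrand hp hdeg σ hσ
  rw [h.A7_fixed_units hp hdeg σ hσ, ← Subgroup.map_map,
    Subgroup.relIndex_map_map_of_injective _ _ A7j_injective, A7_ker_Nm] at key
  exact key

theorem IsHLFExt.A7_s_div_mem (h : IsHLFExt O OE) [FiniteDimensional F E] (σ : E ≃ₐ[F] E)
    (x : Eˣ) : A7s σ x / x ∈ OE.unitGroup := by
  rw [← h.norm_mem_unitGroup_iff, map_div]
  have : Units.map (Algebra.norm F : E →* F) (A7s σ x) = Units.map (Algebra.norm F : E →* F) x :=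
    Units.ext (Algebra.norm_eq_of_algEquiv σ (x : E))
  rw [this, div_self']
  exact one_mem _

/-- **LF2**: `(Fˣ : N Eˣ) = p` for `E / F` Galois of prime degree `p`. -/
theorem IsHLFExt.index_normGroup [CharZero F] [IsHLF O] [IsHLF OE] (h : IsHLFExt O OE)
    [FiniteDimensional F E] [IsGalois F E] {p : ℕ} (hp : p.Prime)
    (hdeg : Module.finrank F E = p) :
    (normGroup F E).index = p := by
  obtain ⟨σ, hσ⟩ := A7_exists_ne_one (F := F) (E := E) hp hdeg
  obtain ⟨ϖ, hϖ⟩ := exists_isUnif OE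
  obtain ⟨hh, hh0⟩ := h.A7_unit_herbrand hp hdeg σ hσ
  have key := A7_index_mul (A7s σ) ((A7j F E).comp (A7n F E)) p hp.ne_zero
    (A7s_iterate_eq hp hdeg σ hσ) (A7_Nm_eq hp hdeg σ hσ) OE.unitGroup
    (fun x hx => h.map_mem_unitGroup σ hx) (A7v OE hϖ) (A7v_surjective OE hϖ) (A7v_ker OE hϖ)
    (fun x => by
      have := h.A7_s_div_mem σ x
      rw [← A7v_ker OE hϖ, MonoidHom.mem_ker, map_div, div_eq_one] at this
      exact this)
    hh hh0 (A7_hilbert90 hp hdeg σ hσ)
  rw [A7_ker_eq_range hp hdeg σ hσ, ← MonoidHom.map_range, MonoidHom.range_eq_map (A7j F E),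
    Subgroup.relIndex_map_map_of_injective _ _ A7j_injective, Subgroup.relIndex_top_right] at key
  exact key

theorem A7n_j [FiniteDimensional F E] {p : ℕ} (hdeg : Module.finrank F E = p) (z : Fˣ) :
    A7n F E (A7j F E z) = z ^ p := by
  apply Units.ext
  rw [Units.val_pow_eq_pow_val, ← hdeg]
  exact Algebra.norm_algebraMap (z : F)

/-- unramified case: the norm group is `{x : p ∣ v(x)}`. -/
theorem IsHLFExt.A7_mem_normGroup_iff_unram [CharZero F] [IsHLF O] [IsHLF OE]
    (h : IsHLFExt O OE) [FiniteDimensional F E] [IsGalois F E] {p : ℕ} (hp : p.Prime)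
    (hdeg : Module.finrank F E = p) (hur : IsUnramExt O OE) {π : F} (hπ : IsUnif O π) (x : Fˣ) :
    x ∈ normGroup F E ↔ (p : ℤ) ∣ Multiplicative.toAdd (A7v O hπ x) := by
  set H : Subgroup Fˣ :=
    (AddSubgroup.toSubgroup (AddSubgroup.zmultiples (p : ℤ))).comap (A7v O hπ) with hH
  have hmem : ∀ z : Fˣ, z ∈ H ↔ (p : ℤ) ∣ Multiplicative.toAdd (A7v O hπ z) := by
    intro z
    rw [← Int.mem_zmultiples_iff]
    exact Iff.rfl
  have hidx : H.index = p := by
    rw [hH, Subgroup.index_comap_of_surjective _ (A7v_surjective O hπ),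
      AddSubgroup.index_toSubgroup, Int.index_zmultiples, Int.natAbs_natCast]
  have hle : normGroup F E ≤ H := by
    rintro _ ⟨y, rfl⟩
    rw [hmem]
    obtain ⟨n, u, hu, hy⟩ := exists_zpow_mul OE (hur π hπ) y
    have hy' : y = (A7j F E (Units.mk0 π hπ.ne_zero)) ^ n * u := by
      apply Units.ext
      rw [hy]
      simp
    have hN : A7n F E y = (Units.mk0 π hπ.ne_zero) ^ ((p : ℤ) * n) * A7n F E u := by
      rw [hy', map_mul, map_zpow, A7n_j hdeg, zpow_mul, zpow_natCast]
    have hv : A7v O hπ (A7n F E y) = Multiplicative.ofAdd ((p : ℤ) * n) := by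
      refine A7v_eq O hπ ((h.norm_mem_unitGroup_iff u).2 hu) ?_
      rw [hN]
      simp
    show (p : ℤ) ∣ Multiplicative.toAdd (A7v O hπ (A7n F E y))
    rw [hv]
    exact dvd_mul_right _ _
  have h1 := Subgroup.relIndex_mul_index hle
  rw [hidx, h.index_normGroup hp hdeg] at h1
  have h2 : (normGroup F E).relIndex H = 1 := by
    apply Nat.eq_of_mul_eq_mul_right hp.pos
    rw [h1, one_mul]
  rw [← hmem]
  exact ⟨fun hx => hle hx, fun hx => Subgroup.relIndex_eq_one.1 h2 hx⟩

/-- units are norms in an unramified extension of prime degree -/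
theorem IsHLFExt.unitGroup_le_normGroup_of_unram [CharZero F] [IsHLF O] [IsHLF OE]
    (h : IsHLFExt O OE) [FiniteDimensional F E] [IsGalois F E] {p : ℕ} (hp : p.Prime)
    (hdeg : Module.finrank F E = p) (hur : IsUnramExt O OE) :
    O.unitGroup ≤ (OE.unitGroup).map (Units.map (Algebra.norm F : E →* F)) := by
  intro u hu
  obtain ⟨π, hπ⟩ := exists_isUnif O
  have h1 : u ∈ normGroup F E := by
    rw [h.A7_mem_normGroup_iff_unram hp hdeg hur hπ]
    have : A7v O hπ u = 1 := by
      rw [← MonoidHom.mem_ker, A7v_ker]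
      exact hu
    rw [this]
    exact dvd_zero _
  obtain ⟨y, rfl⟩ := h1
  exact ⟨y, (h.norm_mem_unitGroup_iff y).1 hu, rfl⟩

theorem IsHLFExt.mem_normGroup_iff_of_unram [CharZero F] [IsHLF O] [IsHLF OE]
    (h : IsHLFExt O OE) [FiniteDimensional F E] [IsGalois F E] {p : ℕ} (hp : p.Prime)
    (hdeg : Module.finrank F E = p) (hur : IsUnramExt O OE) {π : F} (hπ : IsUnif O π) (x : Fˣ) :
    x ∈ normGroup F E ↔ ∃ k : ℤ, ∃ u ∈ O.unitGroup, (x : F) = π ^ ((p : ℤ) * k) * (u : F) := by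
  rw [h.A7_mem_normGroup_iff_unram hp hdeg hur hπ]
  constructor
  · rintro ⟨k, hk⟩
    obtain ⟨u, hu, hx⟩ := A7v_spec O hπ x
    exact ⟨k, u, hu, by rw [← hk]; exact hx⟩
  · rintro ⟨k, u, hu, hx⟩
    rw [A7v_eq O hπ hu hx]
    exact dvd_mul_right _ _

theorem IsHLFExt.A7_norm_mem_higherUnits (h : IsHLFExt O OE)
    [FiniteDimensional F E] [IsGalois F E] {p : ℕ} (hp : p.Prime)
    (hdeg : Module.finrank F E = p) {t : Eˣ} (ht : t ∈ higherUnits OE 1) :
    A7n F E t ∈ higherUnits O 1 := by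
  obtain ⟨σ, hσ⟩ := A7_exists_ne_one (F := F) (E := E) hp hdeg
  rw [← h.A7_j_mem_higherUnits_iff]
  have := A7_Nm_eq hp hdeg σ hσ t
  rw [MonoidHom.comp_apply] at this
  rw [this]
  refine Subgroup.prod_mem _ fun i _ => ?_
  clear * - h ht
  induction i with
  | zero => exact ht
  | succ i ih =>
    rw [Function.iterate_succ_apply']
    exact h.A7_s_mem_higherUnits σ ih

/-- same residue field: `U_E = U_F (1 + 𝔪_E)`. -/
theorem IsHLFExt.A7_unitGroup_le_sup [IsHLF O] [IsHLF OE] (h : IsHLFExt O OE)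
    (hres : Nat.card (ResidueField OE) = Nat.card (ResidueField O)) :
    OE.unitGroup ≤ (O.unitGroup).map (A7j F E) ⊔ higherUnits OE 1 := by
  set H := higherUnits OE 1 with hH
  set V := (O.unitGroup).map (A7j F E) with hV
  have hHU : H ≤ OE.unitGroup := fun x hx => hx.1
  have hVU : V ≤ OE.unitGroup := by
    rintro _ ⟨y, hy, rfl⟩
    exact (h.A7_j_mem_unitGroup_iff y).2 hy
  have hinf : H ⊓ V = (higherUnits O 1).map (A7j F E) := by
    ext x
    constructor
    · rintro ⟨hx, ⟨y, -, rfl⟩⟩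
      exact ⟨y, (h.A7_j_mem_higherUnits_iff y).1 hx, rfl⟩
    · rintro ⟨y, hy, rfl⟩
      exact ⟨(h.A7_j_mem_higherUnits_iff y).2 hy, ⟨y, hy.1, rfl⟩⟩
  have h1 : H.relIndex V = Nat.card (ResidueField O) - 1 := by
    rw [← Subgroup.inf_relIndex_right, hinf, hV,
      Subgroup.relIndex_map_map_of_injective _ _ A7j_injective, relIndex_higherUnits_one]
  have h2 : H.relIndex OE.unitGroup = Nat.card (ResidueField O) - 1 := by
    rw [hH, relIndex_higherUnits_one, hres]
  have h3 := Subgroup.relIndex_mul_relIndex H (V ⊔ H) OE.unitGroup le_sup_right (sup_le hVU hHU)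
  rw [Subgroup.relIndex_sup_right, h1, h2] at h3
  have hq : 0 < Nat.card (ResidueField O) - 1 := by
    have : Finite (ResidueField O) := IsHLF.finite_residue
    have := Finite.one_lt_card (α := ResidueField O)
    omega
  have h4 : (V ⊔ H).relIndex OE.unitGroup = 1 := by
    apply Nat.eq_of_mul_eq_mul_left hq
    rw [h3, mul_one]
  exact Subgroup.relIndex_eq_one.1 h4

/-- tame totally ramified extension of prime degree `p ≠` residue characteristic: a unit is a norm
iff it is a `p`-th power modulo `𝔪`. -/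
theorem IsHLFExt.unit_mem_normGroup_iff_of_tame [CharZero F] [IsHLF O] [IsHLF OE]
    (h : IsHLFExt O OE) [FiniteDimensional F E] [IsGalois F E] {p : ℕ} (hp : p.Prime)
    (hdeg : Module.finrank F E = p) (hram : ¬ IsUnramExt O OE) (hpu : IsUnit (p : O))
    {u : Fˣ} (hu : u ∈ O.unitGroup) :
    u ∈ normGroup F E ↔ ∃ w ∈ O.unitGroup, u / w ^ p ∈ higherUnits O 1 := by
  have : Fact p.Prime := ⟨hp⟩
  constructor
  · rintro ⟨y, rfl⟩
    have hy : y ∈ OE.unitGroup := (h.norm_mem_unitGroup_iff y).1 hu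
    have hres : Nat.card (ResidueField OE) = Nat.card (ResidueField O) := by
      rcases h.unram_or_totallyRam hp hdeg with h1 | h1
      · exact absurd h1.1 hram
      · exact h1.2
    obtain ⟨_, ⟨w, hw, rfl⟩, t, ht, rfl⟩ := Subgroup.mem_sup.1 (h.A7_unitGroup_le_sup hres hy)
    refine ⟨w, hw, ?_⟩
    have : Units.map (Algebra.norm F : E →* F) (A7j F E w * t) / w ^ p = A7n F E t := by
      rw [map_mul, A7n_j hdeg, mul_div_cancel_left]
    rw [this]
    exact h.A7_norm_mem_higherUnits hp hdeg ht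
  · rintro ⟨w, -, ht⟩
    rw [← map_pow_higherUnits_one_of_isUnit O hpu] at ht
    obtain ⟨t', -, ht'⟩ := ht
    rw [powMonoidHom_apply] at ht'
    refine ⟨A7j F E (w * t'), ?_⟩
    show A7n F E (A7j F E (w * t')) = u
    rw [A7n_j hdeg, mul_pow, ht', mul_div_cancel]

end Fermat.Agent.S55.L
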