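import Fermat.Agent.S55.L.C2bDict
import Fermat.Agent.S55.L.A7NormIndex

/-! # L-C2c: normal subgroups of index `p` = Galois extensions of degree `p`; norms -/

set_option autoImplicit false
set_option linter.style.haveILetI false

noncomputable section

namespace Fermat.Agent.S55.L

open Fermat.Agent.S55

variable {q : ℕ} [Fact q.Prime] {L : Lev GQ} {p : ℕ}

/-! ### package L-C2c: normal subgroups of index `p` = Galois extensions of degree `p`; norms -/

theorem normalIdx_iff (hL : IsGalLev L) {F E : IntermediateField ℚ Qbar}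
    (hF : IsLocalFieldAt q F) (hE : IsLocalFieldAt q E) (h : F ≤ E) :
    NormalIdx L p E.fixingSubgroup F.fixingSubgroup ↔
      (letI := (IntermediateField.inclusion h).toRingHom.toAlgebra
       IsGalois F E ∧ Module.finrank F E = p) := by
  letI := (IntermediateField.inclusion h).toRingHom.toAlgebra
  constructor
  · intro hN
    exact ⟨(hF.isGalois_iff hE h).mpr hN.normal, by
      rw [hF.finrank_eq_relIndex hE h]; exact hN.index⟩
  · rintro ⟨hgal, hdeg⟩
    exact ⟨fixingSubgroup_le_iff.mpr h, relOpen_fixingSubgroup hL hF hE h,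
      (hF.isGalois_iff hE h).mp hgal, by rw [← hF.finrank_eq_relIndex hE h]; exact hdeg⟩

/-- the group theoretic norm is the field norm -/
theorem Nm_rhoQ_eq_norm [Fact p.Prime] {F E : IntermediateField ℚ Qbar} (h : F ≤ E)
    (hgal : letI := (IntermediateField.inclusion h).toRingHom.toAlgebra
      IsGalois F E ∧ Module.finrank F E = p)
    {s : GQ} (hs : s ∈ F.fixingSubgroup) (hs' : s ∉ E.fixingSubgroup) (y : Additive Qbarˣ)
    (hy : (y.toMul : Qbar) ∈ E) :
    letI := (IntermediateField.inclusion h).toRingHom.toAlgebra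
    ((Nm rhoQ s p y).toMul : Qbar) = ((Algebra.norm F (⟨(y.toMul : Qbar), hy⟩ : E) : F) : Qbar) := by
  letI := (IntermediateField.inclusion h).toRingHom.toAlgebra
  obtain ⟨hG, hdeg⟩ := hgal
  have hp : p.Prime := Fact.out
  have hfd : FiniteDimensional F E := Module.finite_of_finrank_pos (by rw [hdeg]; exact hp.pos)
  have htower : IsScalarTower F E Qbar := IsScalarTower.of_algebraMap_eq (fun x => rfl)
  let s' : Qbar ≃ₐ[F] Qbar := F.fixingSubgroupEquiv ⟨s, hs⟩
  let σ : E ≃ₐ[F] E := s'.restrictNormal E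
  have hσ : ∀ x : E, ((σ x : E) : Qbar) = s (x : Qbar) :=
    fun x => AlgEquiv.restrictNormal_commutes s' E x
  have hσ1 : σ ≠ 1 := by
    intro h1
    apply hs'
    rw [IntermediateField.mem_fixingSubgroup_iff]
    intro x hx
    have h2 := hσ ⟨x, hx⟩
    rw [h1] at h2
    exact h2.symm
  have hiter : ∀ (i : ℕ) (x : E), ((σ^[i] x : E) : Qbar) = (s ^ i) (x : Qbar) := by
    intro i x
    induction i with
    | zero => rfl
    | succ i ih => rw [Function.iterate_succ_apply', hσ, ih, pow_succ']; rfl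
  have hnorm := A7_norm_eq_prod hp hdeg σ hσ1 (⟨(y.toMul : Qbar), hy⟩ : E)
  have h2 : ((Algebra.norm F (⟨(y.toMul : Qbar), hy⟩ : E) : F) : Qbar)
      = ((∏ i ∈ Finset.range p, σ^[i] (⟨(y.toMul : Qbar), hy⟩ : E) : E) : Qbar) :=
    congrArg (fun z : E => (z : Qbar)) hnorm
  rw [h2, Nm_apply, toMul_sum, Units.coe_prod]
  have h3 : ((∏ i ∈ Finset.range p, σ^[i] (⟨(y.toMul : Qbar), hy⟩ : E) : E) : Qbar)
      = ∏ i ∈ Finset.range p, ((σ^[i] (⟨(y.toMul : Qbar), hy⟩ : E) : E) : Qbar) :=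
    map_prod (algebraMap E Qbar) _ _
  rw [h3]
  refine Finset.prod_congr rfl fun i _ => ?_
  rw [hiter, rhoQ_apply]

/-! ### units of `F` inside `ℚ̄ˣ` -/

/-- the inclusion `Fˣ → ℚ̄ˣ` -/
def C2c_j (F : IntermediateField ℚ Qbar) : Fˣ →* Qbarˣ :=
  Units.map (algebraMap F Qbar : F →* Qbar)

theorem C2c_j_coe (F : IntermediateField ℚ Qbar) (x : Fˣ) :
    ((C2c_j F x : Qbarˣ) : Qbar) = ((x : F) : Qbar) := rfl

theorem C2c_j_injective (F : IntermediateField ℚ Qbar) : Function.Injective (C2c_j F) := by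
  intro x y hxy
  apply Units.ext
  apply Subtype.ext
  exact congrArg Units.val hxy

theorem C2c_exists_unit (F : IntermediateField ℚ Qbar) (a : Qbarˣ) (ha : (a : Qbar) ∈ F) :
    ∃ x : Fˣ, C2c_j F x = a ∧ (x : F) = ⟨(a : Qbar), ha⟩ :=
  ⟨Units.mk0 ⟨a, ha⟩ (fun h => a.ne_zero (congrArg Subtype.val h)), Units.ext rfl, rfl⟩

theorem C2c_j_mem_unitGroup_iff (q : ℕ) [Fact q.Prime] (F : IntermediateField ℚ Qbar) (x : Fˣ) :
    C2c_j F x ∈ (padicPlace q).unitGroup ↔ x ∈ (OO q F).unitGroup := by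
  rw [mem_unitGroup_iff_mem_and_inv_mem, mem_unitGroup_iff_mem_and_inv_mem, mem_OO_iff,
    mem_OO_iff]
  rfl

theorem C2c_ofMul_j_mem_AU (F : IntermediateField ℚ Qbar) (x : Fˣ) :
    Additive.ofMul (C2c_j F x) ∈ AU rhoQ F.fixingSubgroup :=
  (mem_AU_rhoQ F _).mpr (x : F).2

/-- `Nm_rhoQ_eq_norm` on the level of units. -/
theorem C2c_Nm_j [Fact p.Prime] {F E : IntermediateField ℚ Qbar} (h : F ≤ E)
    (hgal : letI := (IntermediateField.inclusion h).toRingHom.toAlgebra
      IsGalois F E ∧ Module.finrank F E = p)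
    {s : GQ} (hs : s ∈ F.fixingSubgroup) (hs' : s ∉ E.fixingSubgroup) (x : Eˣ) :
    letI := (IntermediateField.inclusion h).toRingHom.toAlgebra
    Nm rhoQ s p (Additive.ofMul (C2c_j E x))
      = Additive.ofMul (C2c_j F (Units.map (Algebra.norm F : E →* F) x)) := by
  letI := (IntermediateField.inclusion h).toRingHom.toAlgebra
  apply Additive.toMul.injective
  apply Units.ext
  exact Nm_rhoQ_eq_norm h hgal hs hs' (Additive.ofMul (C2c_j E x)) (x : E).2

/-- from subgroups to fields -/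
theorem C2c_setup (hL : IsGalLev L) {U V : Subgroup GQ} (hU : memQ q U)
    (h : NormalIdx L p V U) :
    ∃ (F E : IntermediateField ℚ Qbar) (hFE : F ≤ E), IsLocalFieldAt q F ∧ IsLocalFieldAt q E ∧
      U = F.fixingSubgroup ∧ V = E.fixingSubgroup ∧
      (letI := (IntermediateField.inclusion hFE).toRingHom.toAlgebra
       IsGalois F E ∧ Module.finrank F E = p) := by
  obtain ⟨E, hE, rfl⟩ := memQ_of_relOpen hL hU h.le h.relOpen
  obtain ⟨F, hF, rfl⟩ := hU
  have hFE : F ≤ E := fixingSubgroup_le_iff.mp h.le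
  exact ⟨F, E, hFE, hF, hE, rfl, rfl, (normalIdx_iff hL hF hE hFE).mp h⟩

theorem norm_indexQ [Fact p.Prime] (hL : IsGalLev L) {U V : Subgroup GQ} (hU : memQ q U)
    (h : NormalIdx L p V U) (s : GQ) (hs : s ∈ U) (hs' : s ∉ V) :
    (((AU rhoQ V).map (Nm rhoQ s p)).toAddSubgroup).relIndex (AU rhoQ U).toAddSubgroup = p := by
  obtain ⟨F, E, hFE, hF, hE, rfl, rfl, hgal⟩ := C2c_setup hL hU h
  letI := (IntermediateField.inclusion hFE).toRingHom.toAlgebra
  have hp : p.Prime := Fact.out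
  have hG : IsGalois F E := hgal.1
  have hdeg : Module.finrank F E = p := hgal.2
  have hfd : FiniteDimensional F E := Module.finite_of_finrank_pos (by rw [hdeg]; exact hp.pos)
  have := hF.isHLF
  have := hE.isHLF
  have hidx : (normGroup F E).index = p := (hF.isHLFExt hE hFE).index_normGroup hp hdeg
  have A1 : (AU rhoQ F.fixingSubgroup).toAddSubgroup
      = Subgroup.toAddSubgroup ((⊤ : Subgroup Fˣ).map (C2c_j F)) := by
    ext a
    rw [Submodule.mem_toAddSubgroup, mem_AU_rhoQ]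
    constructor
    · intro ha
      obtain ⟨x, hx, -⟩ := C2c_exists_unit F a.toMul ha
      exact ⟨x, trivial, hx⟩
    · rintro ⟨x, -, hx⟩
      have hx' : C2c_j F x = a.toMul := hx
      rw [← hx']
      exact (x : F).2
  have A2 : ((AU rhoQ E.fixingSubgroup).map (Nm rhoQ s p)).toAddSubgroup
      = Subgroup.toAddSubgroup ((normGroup F E).map (C2c_j F)) := by
    ext a
    rw [Submodule.mem_toAddSubgroup]
    constructor
    · rintro ⟨y, hy, rfl⟩
      obtain ⟨x, hx, -⟩ := C2c_exists_unit E y.toMul ((mem_AU_rhoQ E y).mp hy)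
      have hy' : y = Additive.ofMul (C2c_j E x) := by rw [hx]; rfl
      rw [hy', C2c_Nm_j hFE hgal hs hs' x]
      exact ⟨_, ⟨x, rfl⟩, rfl⟩
    · rintro ⟨_, ⟨x, rfl⟩, hx⟩
      refine ⟨Additive.ofMul (C2c_j E x), C2c_ofMul_j_mem_AU E x, ?_⟩
      rw [C2c_Nm_j hFE hgal hs hs' x]
      exact congrArg Additive.ofMul hx
  rw [A1, A2, Subgroup.relIndex_toAddSubgroup,
    Subgroup.relIndex_map_map_of_injective _ _ (C2c_j_injective F), Subgroup.relIndex_top_right,
    hidx]

/-- (`IsUnifA` is symmetric under `π ↦ -π`, so `ϖ` has to be chosen with the right sign.) -/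
theorem ramQ [Fact p.Prime] (hL : IsGalLev L) {U V : Subgroup GQ} (hU : memQ q U)
    (h : NormalIdx L p V U) (hram : ¬ UnrA rhoQ (unitsQ q) V U) (π : Additive Qbarˣ)
    (hπ : IsUnifA rhoQ (unitsQ q) U π) :
    ∃ ϖ, IsUnifA rhoQ (unitsQ q) V ϖ ∧ π - p • ϖ ∈ unitsQ q := by
  obtain ⟨F, E, hFE, hF, hE, rfl, rfl, hgal⟩ := C2c_setup hL hU h
  letI := (IntermediateField.inclusion hFE).toRingHom.toAlgebra
  have hp : p.Prime := Fact.out
  have hdeg : Module.finrank F E = p := hgal.2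
  have hfd : FiniteDimensional F E := Module.finite_of_finrank_pos (by rw [hdeg]; exact hp.pos)
  have := hF.isHLF
  have := hE.isHLF
  have hram' : ¬ IsUnramExt (OO q F) (OO q E) := fun hu => hram ((unrA_iff hF hE hFE).mpr hu)
  have key : ∀ (π : Additive Qbarˣ) (hπF : (π.toMul : Qbar) ∈ F),
      IsUnif (OO q F) (⟨(π.toMul : Qbar), hπF⟩ : F) →
      ∃ ϖ, IsUnifA rhoQ (unitsQ q) E.fixingSubgroup ϖ ∧ π - p • ϖ ∈ unitsQ q := by
    intro π hπF hπu
    obtain ⟨ϖ0, hϖu⟩ := exists_isUnif (OO q E)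
    have hϖ0 := hϖu.ne_zero
    refine ⟨Additive.ofMul (C2b_j E (Units.mk0 ϖ0 hϖ0)), isUnifA_j hE (Units.mk0 ϖ0 hϖ0) hϖu, ?_⟩
    rcases (hF.isHLFExt hE hFE).unram_or_totallyRam hp hdeg with h1 | h1
    · exact absurd h1.1 hram'
    · obtain ⟨u, hu, hπϖ⟩ := h1.1 _ _ hπu hϖu
      have hu' : C2c_j E u ∈ (padicPlace q).unitGroup := (C2c_j_mem_unitGroup_iff q E u).mpr hu
      have heq : (π - p • Additive.ofMul (C2b_j E (Units.mk0 ϖ0 hϖ0))).toMul = C2c_j E u := by
        rw [toMul_sub, toMul_nsmul, div_eq_iff_eq_mul]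
        apply Units.ext
        have h2 := congrArg (fun z : E => (z : Qbar)) hπϖ
        rw [Units.val_mul, Units.val_pow_eq_pow_val, mul_comm]
        exact h2
      rw [mem_unitsQ, heq]
      exact hu'
  obtain ⟨hπF, hπu | hπu⟩ := (isUnifA_iff hF π).mp hπ
  · exact key π hπF hπu
  · have hπF' : (((-π).toMul : Qbarˣ) : Qbar) ∈ F := by
      rw [toMul_neg, Units.val_inv_eq_inv_val]
      exact F.inv_mem hπF
    have hπu' : IsUnif (OO q F) (⟨(((-π).toMul : Qbarˣ) : Qbar), hπF'⟩ : F) := by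
      convert hπu using 1
      apply Subtype.ext
      show (((-π).toMul : Qbarˣ) : Qbar) = ((π.toMul : Qbarˣ) : Qbar)⁻¹
      rw [toMul_neg, Units.val_inv_eq_inv_val]
    obtain ⟨ϖ, hϖ, h1⟩ := key (-π) hπF' hπu'
    refine ⟨-ϖ, hϖ.neg, ?_⟩
    have h2 : π - p • (-ϖ) = -((-π) - p • ϖ) := by
      rw [neg_nsmul]; abel
    rw [h2]
    exact (unitsQ q).neg_mem h1

theorem units_normQ [Fact p.Prime] (hL : IsGalLev L) {U V : Subgroup GQ} (hU : memQ q U)
    (h : NormalIdx L p V U) (hur : UnrA rhoQ (unitsQ q) V U) (s : GQ) (hs : s ∈ U) (hs' : s ∉ V)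
    (a : Additive Qbarˣ) (ha : a ∈ AU rhoQ U) (hau : a ∈ unitsQ q) :
    ∃ y ∈ AU rhoQ V, Nm rhoQ s p y = a := by
  obtain ⟨F, E, hFE, hF, hE, rfl, rfl, hgal⟩ := C2c_setup hL hU h
  letI := (IntermediateField.inclusion hFE).toRingHom.toAlgebra
  have hp : p.Prime := Fact.out
  have hG : IsGalois F E := hgal.1
  have hdeg : Module.finrank F E = p := hgal.2
  have hfd : FiniteDimensional F E := Module.finite_of_finrank_pos (by rw [hdeg]; exact hp.pos)
  have := hF.isHLF
  have := hE.isHLF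
  have hur' : IsUnramExt (OO q F) (OO q E) := (unrA_iff hF hE hFE).mp hur
  obtain ⟨x, hx, -⟩ := C2c_exists_unit F a.toMul ((mem_AU_rhoQ F a).mp ha)
  have hxu : x ∈ (OO q F).unitGroup := by
    rw [← C2c_j_mem_unitGroup_iff, hx]
    exact hau
  obtain ⟨y, -, hy⟩ :=
    (hF.isHLFExt hE hFE).unitGroup_le_normGroup_of_unram hp hdeg hur' hxu
  refine ⟨Additive.ofMul (C2c_j E y), C2c_ofMul_j_mem_AU E y, ?_⟩
  rw [C2c_Nm_j hFE hgal hs hs' y, hy, hx]
  rfl

end Fermat.Agent.S55.L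

end
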