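import Fermat.Agent.S55.L.C2bDict

/-! # L-C2d: unramified extensions in group language -/

set_option autoImplicit false
set_option linter.style.haveILetI false

noncomputable section

namespace Fermat.Agent.S55.L

open Fermat.Agent.S55

variable {q : ℕ} [Fact q.Prime] {L : Lev GQ} {p : ℕ}

/-! ### package L-C2d: unramified extensions -/

/-- restriction `Gal(ℚ̄/F) → Gal(E/F)` for `E/F` Galois: onto, with kernel `Gal(ℚ̄/E)`. -/
theorem C2d.exists_res {F E : IntermediateField ℚ Qbar} (h : F ≤ E)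
    (hgal : letI := (IntermediateField.inclusion h).toRingHom.toAlgebra
      IsGalois F E) :
    letI := (IntermediateField.inclusion h).toRingHom.toAlgebra
    ∃ r : F.fixingSubgroup →* (E ≃ₐ[F] E), Function.Surjective r ∧
      r.ker = (E.fixingSubgroup).subgroupOf F.fixingSubgroup := by
  letI := (IntermediateField.inclusion h).toRingHom.toAlgebra
  haveI : IsScalarTower F E Qbar := IsScalarTower.of_algebraMap_eq (fun x => rfl)
  haveI : IsGalois ℚ Qbar := B2a.isGalois_Qbar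
  haveI : Normal F E := hgal.to_normal
  haveI : Normal F Qbar := IsGalois.to_normal
  refine ⟨(AlgEquiv.restrictNormalHom E).comp F.fixingSubgroupEquiv.toMonoidHom, ?_, ?_⟩
  · exact (AlgEquiv.restrictNormalHom_surjective Qbar).comp F.fixingSubgroupEquiv.surjective
  · ext σ
    rw [MonoidHom.mem_ker, Subgroup.mem_subgroupOf, IntermediateField.mem_fixingSubgroup_iff]
    constructor
    · intro hσ x hx
      have h1 := AlgEquiv.restrictNormal_commutes (F.fixingSubgroupEquiv σ) E ⟨x, hx⟩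
      have h2 : (F.fixingSubgroupEquiv σ).restrictNormal E = 1 := hσ
      rw [h2] at h1
      exact h1.symm
    · intro hσ
      apply AlgEquiv.ext
      intro x
      apply (algebraMap E Qbar).injective
      have h1 := AlgEquiv.restrictNormal_commutes (F.fixingSubgroupEquiv σ) E x
      refine h1.trans ?_
      exact hσ x x.2

theorem C2d.isLocalFieldAt_sup {E E' : IntermediateField ℚ Qbar} (hE : IsLocalFieldAt q E)
    (hE' : IsLocalFieldAt q E') : IsLocalFieldAt q (E ⊔ E') := by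
  obtain ⟨K', hK', rfl⟩ := hE'
  have h1 : E ⊔ (hens q ⊔ K') = E ⊔ K' := by
    rw [← sup_assoc, sup_eq_left.2 hE.hens_le]
  rw [h1]
  exact hE.sup K'

theorem exists_unrQ [Fact p.Prime] (hL : IsGalLev L) {U : Subgroup GQ} (hU : memQ q U) :
    ∃ χ : U →* Multiplicative (ZMod (p * p)),
      Function.Surjective χ ∧ (L.sub U).IsOpen χ.ker ∧
        UnrA rhoQ (unitsQ q) (χ.ker.map U.subtype) U := by
  obtain ⟨F, hF, rfl⟩ := hU
  have hp : 0 < p := (Fact.out : p.Prime).pos
  obtain ⟨E, h, hE, hgal, hcyc, hdeg, hur⟩ := hF.exists_unram (p * p) (Nat.mul_pos hp hp)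
  letI := (IntermediateField.inclusion h).toRingHom.toAlgebra
  obtain ⟨r, hr, hker⟩ := C2d.exists_res h hgal
  haveI : NeZero (p * p) := ⟨(Nat.mul_pos hp hp).ne'⟩
  haveI : FiniteDimensional F E := hF.finiteDimensional hE h
  have hcard : Nat.card (E ≃ₐ[F] E) = Nat.card (Multiplicative (ZMod (p * p))) := by
    rw [IsGalois.card_aut_eq_finrank, hdeg, Nat.card_eq_fintype_card, Fintype.card_multiplicative,
      ZMod.card]
  let e : (E ≃ₐ[F] E) ≃* Multiplicative (ZMod (p * p)) := mulEquivOfCyclicCardEq hcard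
  have hk : (e.toMonoidHom.comp r).ker = (E.fixingSubgroup).subgroupOf F.fixingSubgroup := by
    rw [← hker]
    ext σ
    simp [MonoidHom.mem_ker]
  refine ⟨e.toMonoidHom.comp r, e.surjective.comp hr, ?_, ?_⟩
  · rw [hk]
    exact (relOpen_fixingSubgroup hL hF hE h).isOpen_subgroupOf
  · rw [hk, Subgroup.subgroupOf_map_subtype, inf_eq_left.2 (fixingSubgroup_le_iff.2 h)]
    exact (unrA_iff hF hE h).2 hur

theorem unr_uniqueQ [Fact p.Prime] (hL : IsGalLev L) {U V V' : Subgroup GQ} (hU : memQ q U)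
    (h : NormalIdx L p V U) (h' : NormalIdx L p V' U) (hur : UnrA rhoQ (unitsQ q) V U)
    (hur' : UnrA rhoQ (unitsQ q) V' U) : V = V' := by
  obtain ⟨E, hE, rfl⟩ := memQ_of_relOpen hL hU h.le h.relOpen
  obtain ⟨E', hE', rfl⟩ := memQ_of_relOpen hL hU h'.le h'.relOpen
  obtain ⟨F, hF, rfl⟩ := hU
  have hFE : F ≤ E := fixingSubgroup_le_iff.1 h.le
  have hFE' : F ≤ E' := fixingSubgroup_le_iff.1 h'.le
  rw [hF.unram_unique hE hE' hFE hFE' ((unrA_iff hF hE hFE).1 hur) ((unrA_iff hF hE' hFE').1 hur')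
    (by rw [h.index, h'.index])]

theorem unr_infQ (hL : IsGalLev L) {U V U₁ : Subgroup GQ} (hU : memQ q U) (hV : V ≤ U)
    (hVo : RelOpen L V U) (hU₁ : U₁ ≤ U) (hU₁o : RelOpen L U₁ U)
    (hur : UnrA rhoQ (unitsQ q) V U) : UnrA rhoQ (unitsQ q) (V ⊓ U₁) U₁ := by
  obtain ⟨E, hE, rfl⟩ := memQ_of_relOpen hL hU hV hVo
  obtain ⟨L₁, hL₁, rfl⟩ := memQ_of_relOpen hL hU hU₁ hU₁o
  obtain ⟨F, hF, rfl⟩ := hU
  have hFE : F ≤ E := fixingSubgroup_le_iff.1 hV
  have hFL : F ≤ L₁ := fixingSubgroup_le_iff.1 hU₁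
  have h1 := hF.unram_sup hE hL₁ hFE hFL ((unrA_iff hF hE hFE).1 hur)
  rw [inf_comm, ← IntermediateField.fixingSubgroup_sup]
  exact (unrA_iff hL₁ (C2d.isLocalFieldAt_sup hL₁ hE) le_sup_left).2 h1

end Fermat.Agent.S55.L

end
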