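import Mathlib

/-!
# S55, block L (local fields): basic definitions

A *henselian local field* is a field `F` of characteristic zero with a valuation subring `O`
which is a henselian discrete valuation ring with finite residue field.  No topology and no
completeness is used anywhere in block L.
-/

set_option autoImplicit false

namespace Fermat.Agent.S55.L

open IsLocalRing

/-- `O` is a henselian discrete valuation ring with finite residue field. -/
class IsHLF {F : Type} [Field F] (O : ValuationSubring F) : Prop where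
  dvr : IsDiscreteValuationRing O
  finite_residue : Finite (ResidueField O)
  henselian : HenselianLocalRing O

/-- `OE` is the integral closure of `O` in the extension `E / F`. -/
structure IsHLFExt {F E : Type} [Field F] [Field E] [Algebra F E]
    (O : ValuationSubring F) (OE : ValuationSubring E) : Prop where
  comap_eq : OE.comap (algebraMap F E) = O
  isIntegral : ∀ x : E, x ∈ OE → IsIntegral O x

/-- `π` is a uniformiser of `O`. -/
def IsUnif {F : Type} [Field F] (O : ValuationSubring F) (π : F) : Prop :=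
  ∃ h : π ∈ O, Irreducible (⟨π, h⟩ : O)

/-- The `n`-th higher unit group `1 + 𝔪ⁿ` as a subgroup of `Fˣ` (`n = 0`: all units of `O`). -/
def higherUnits {F : Type} [Field F] (O : ValuationSubring F) (n : ℕ) : Subgroup Fˣ where
  carrier := {x | x ∈ O.unitGroup ∧
    ∃ h : ((x : F) - 1) ∈ O, (⟨(x : F) - 1, h⟩ : O) ∈ (maximalIdeal O) ^ n}
  one_mem' := by
    refine ⟨one_mem _, by simp, ?_⟩
    have : (⟨((1 : Fˣ) : F) - 1, by simp⟩ : O) = 0 := Subtype.ext (by simp)
    rw [this]
    exact Ideal.zero_mem _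
  mul_mem' := by
    rintro x y ⟨hx, hx1, hx2⟩ ⟨hy, hy1, hy2⟩
    have hxO : (x : F) ∈ O := ((O.mem_unitGroup_iff x).mp hx).le |> (O.valuation_le_one_iff _).mp
    have key : ((x * y : Fˣ) : F) - 1 = (x : F) * ((y : F) - 1) + ((x : F) - 1) := by
      push_cast; ring
    refine ⟨mul_mem hx hy, key ▸ O.add_mem _ _ (O.mul_mem _ _ hxO hy1) hx1, ?_⟩
    have : (⟨((x * y : Fˣ) : F) - 1, key ▸ O.add_mem _ _ (O.mul_mem _ _ hxO hy1) hx1⟩ : O)
        = ⟨x, hxO⟩ * ⟨(y : F) - 1, hy1⟩ + ⟨(x : F) - 1, hx1⟩ := Subtype.ext key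
    rw [this]
    exact Ideal.add_mem _ (Ideal.mul_mem_left _ _ hy2) hx2
  inv_mem' := by
    rintro x ⟨hx, hx1, hx2⟩
    have hxi : x⁻¹ ∈ O.unitGroup := inv_mem hx
    have hxiO : ((x⁻¹ : Fˣ) : F) ∈ O :=
      ((O.mem_unitGroup_iff _).mp hxi).le |> (O.valuation_le_one_iff _).mp
    have key : ((x⁻¹ : Fˣ) : F) - 1 = -(((x⁻¹ : Fˣ) : F) * ((x : F) - 1)) := by
      have : ((x⁻¹ : Fˣ) : F) * (x : F) = 1 := by simp
      linear_combination this
    refine ⟨hxi, key ▸ O.neg_mem _ (O.mul_mem _ _ hxiO hx1), ?_⟩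
    have : (⟨((x⁻¹ : Fˣ) : F) - 1, key ▸ O.neg_mem _ (O.mul_mem _ _ hxiO hx1)⟩ : O)
        = -(⟨_, hxiO⟩ * ⟨(x : F) - 1, hx1⟩) := Subtype.ext key
    rw [this]
    exact Ideal.neg_mem_iff _ |>.mpr (Ideal.mul_mem_left _ _ hx2)

/-- The norm group `N_{E/F} Eˣ ≤ Fˣ`. -/
noncomputable def normGroup (F E : Type) [Field F] [Field E] [Algebra F E] : Subgroup Fˣ :=
  (Units.map (Algebra.norm F : E →* F)).range

/-- The group of `p`-th powers in `Fˣ`. -/
def powGroup (F : Type) [Field F] (p : ℕ) : Subgroup Fˣ :=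
  (powMonoidHom p : Fˣ →* Fˣ).range

/-- `E / F` is unramified: a uniformiser of `F` stays a uniformiser. -/
def IsUnramExt {F E : Type} [Field F] [Field E] [Algebra F E]
    (O : ValuationSubring F) (OE : ValuationSubring E) : Prop :=
  ∀ π : F, IsUnif O π → IsUnif OE (algebraMap F E π)

end Fermat.Agent.S55.L
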