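import Fermat.Agent.S55.L.C2aH90
import Fermat.Agent.S55.L.Defs

/-! # L-C2e: `A^U / p = Fˣ / Fˣᵖ` -/

set_option autoImplicit false

noncomputable section

namespace Fermat.Agent.S55.L

open Fermat.Agent.S55

theorem C2ePow_mem_invariants (F : IntermediateField ℚ Qbar) (a : Additive Qbarˣ) :
    a ∈ (rs rhoQ F.fixingSubgroup).invariants ↔ (a.toMul : Qbar) ∈ F := by
  rw [mem_invariants_rs, mem_AU_rhoQ]

/-- the inclusion `Fˣ → (ℚ̄ˣ)^{Gal(ℚ̄/F)}` -/
def C2ePow_incl (F : IntermediateField ℚ Qbar) :
    Additive Fˣ →+ (rs rhoQ F.fixingSubgroup).invariants where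
  toFun x := ⟨Additive.ofMul (Units.map (F.val : F →* Qbar) x.toMul),
    (C2ePow_mem_invariants F _).2 (x.toMul : F).2⟩
  map_zero' := by
    apply Subtype.ext
    change Additive.ofMul (Units.map (F.val : F →* Qbar) 1) = 0
    rw [map_one]; rfl
  map_add' x y := by
    apply Subtype.ext
    change Additive.ofMul (Units.map (F.val : F →* Qbar) (x.toMul * y.toMul)) = _
    rw [map_mul]; rfl

theorem C2ePow_incl_coe (F : IntermediateField ℚ Qbar) (x : Additive Fˣ) :
    (((C2ePow_incl F x : (rs rhoQ F.fixingSubgroup).invariants) : Additive Qbarˣ).toMul : Qbar)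
      = ((x.toMul : F) : Qbar) := rfl

theorem C2ePow_incl_injective (F : IntermediateField ℚ Qbar) :
    Function.Injective (C2ePow_incl F) := by
  intro x y h
  have h1 := C2ePow_incl_coe F x
  rw [h, C2ePow_incl_coe] at h1
  exact Additive.toMul.injective (Units.ext (Subtype.ext h1.symm))

theorem C2ePow_incl_surjective (F : IntermediateField ℚ Qbar) :
    Function.Surjective (C2ePow_incl F) := by
  intro a
  have ha := (C2ePow_mem_invariants F _).1 a.2
  have hne : (⟨((a : Additive Qbarˣ).toMul : Qbar), ha⟩ : F) ≠ 0 := by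
    intro h
    exact (a : Additive Qbarˣ).toMul.ne_zero (congrArg Subtype.val h)
  refine ⟨Additive.ofMul (Units.mk0 _ hne), Subtype.ext (Additive.toMul.injective (Units.ext ?_))⟩
  rfl

/-- (package L-C2e) `A^U / p = Fˣ / Fˣᵖ` -/
theorem index_nsmul_invariants (F : IntermediateField ℚ Qbar) (p : ℕ) :
    (nsmulAddMonoidHom (α := (rs rhoQ F.fixingSubgroup).invariants) p).range.index =
      (powGroup F p).index := by
  rw [← AddSubgroup.index_comap_of_surjective _ (C2ePow_incl_surjective F),
    ← Subgroup.index_toAddSubgroup]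
  congr 1
  ext x
  constructor
  · rintro ⟨a, ha⟩
    obtain ⟨y, rfl⟩ := C2ePow_incl_surjective F a
    change p • C2ePow_incl F y = C2ePow_incl F x at ha
    rw [← map_nsmul] at ha
    exact ⟨y.toMul, congrArg Additive.toMul (C2ePow_incl_injective F ha)⟩
  · rintro ⟨y, hy⟩
    refine ⟨C2ePow_incl F (Additive.ofMul y), ?_⟩
    change p • C2ePow_incl F (Additive.ofMul y) = C2ePow_incl F x
    rw [← map_nsmul]
    exact congrArg (C2ePow_incl F) (congrArg Additive.ofMul hy)

end Fermat.Agent.S55.L

end
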