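import Fermat.Agent.S55.L.C1LCF
import Fermat.Agent.S55.L.C0Kummer
import Fermat.Agent.S55.L.C2cNorm
import Fermat.Agent.S55.L.C2dUnr
import Fermat.Agent.S55.L.C2ePow

/-!
# L-C2: the local class formation `(Gal(ℚ̄/F))_F`, `A = ℚ̄ˣ`, and the theorems L1, L2 (assembly)
-/

set_option autoImplicit false

noncomputable section

namespace Fermat.Agent.S55.L

open Fermat.Agent.S55

variable {q : ℕ} [Fact q.Prime] {L : Lev GQ} {p : ℕ}

/-! ### assembly -/

variable (q p) in
/-- the local class formation at `q` -/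
def lcfQ [Fact p.Prime] (hL : IsGalLev L) : LCF L rhoQ p where
  mem := memQ q
  units := unitsQ q
  discrete := isDiscrete_rhoQ hL
  mem_of_relOpen := memQ_of_relOpen hL
  h90 := by
    rintro _ ⟨F, -, rfl⟩ z
    exact h90Q hL F z
  units_stable := unitsQ_stable
  exists_unif := exists_unifQ
  norm_index := norm_indexQ hL
  ram := ramQ hL
  units_norm := units_normQ hL
  exists_unr := exists_unrQ hL
  unr_unique := unr_uniqueQ hL
  unr_inf := unr_infQ hL

/-- `|Br(F)[p]| = p` -/
theorem card_torsion_HH2 [Fact p.Prime] (hL : IsGalLev L) {F : IntermediateField ℚ Qbar}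
    (hF : IsLocalFieldAt q F) :
    Nat.card {x : HH2 L rhoQ F.fixingSubgroup // p • x = 0} = p :=
  (lcfQ q p hL).card_torsion ⟨F, hF, rfl⟩

/-! ### L1, L2 for an arbitrary model `(M, τ, ι)` of `μ_p` -/

variable {k' : Type*} [CommRing k'] {M : Type*} [AddCommGroup M] [Module k' M]

/-- **L2** (general form): `|H²(Gal(ℚ̄/F), μ_p)| = p` for every finite extension `F` of `hens q`. -/
theorem card_H2_local [Fact p.Prime] (hL : IsGalLev L) {F : IntermediateField ℚ Qbar}
    (hF : IsLocalFieldAt q F) {τ : Representation k' F.fixingSubgroup M}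
    {ι : M →+ Additive Qbarˣ} (hK : IsKummer p (rs rhoQ F.fixingSubgroup) τ ι) :
    Nat.card (H2 (L.sub F.fixingSubgroup) τ) = p := by
  obtain ⟨e⟩ := hK.H2_equiv (L := L.sub F.fixingSubgroup)
    (isDiscrete_rs (isDiscrete_rhoQ hL) _) (h90Q hL F)
  rw [Nat.card_congr e]
  exact card_torsion_HH2 hL hF

/-- **L1** (general form): `|H¹(Gal(ℚ̄/F), μ_p)| = (Fˣ : Fˣᵖ)`. -/
theorem card_H1_local (hL : IsGalLev L) (F : IntermediateField ℚ Qbar)
    {τ : Representation k' F.fixingSubgroup M}
    {ι : M →+ Additive Qbarˣ} (hK : IsKummer p (rs rhoQ F.fixingSubgroup) τ ι) :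
    Nat.card (H1 (L.sub F.fixingSubgroup) τ) = (powGroup F p).index := by
  rw [hK.card_H1 (L := L.sub F.fixingSubgroup) (isDiscrete_rs (isDiscrete_rhoQ hL) _) (h90Q hL F),
    index_nsmul_invariants]

end Fermat.Agent.S55.L

end
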