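import Fermat.Agent.S55.L.BDefs

/-!
# L-B2a: (infinite) Galois theory plumbing for intermediate fields of `ℚ̄ / ℚ`

General statements for `F ≤ E` intermediate fields of `ℚ̄/ℚ`, comparing `E` as an `F`-algebra (via the
inclusion) with `IntermediateField.extendScalars`, and subgroups of `G_ℚ` contained in
`F.fixingSubgroup` with subgroups of `Gal(ℚ̄/F)`.
-/

set_option autoImplicit false
set_option linter.style.haveILetI false

namespace Fermat.Agent.S55.L.B2a

open IntermediateField

/-- `ℚ̄/ℚ` is Galois (for the `ℚ`-algebra structure `DivisionRing.toRatAlgebra`). -/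
theorem isGalois_Qbar : IsGalois ℚ Qbar :=
  @IsAlgClosure.isGalois ℚ (AlgebraicClosure ℚ) _ _ (AlgebraicClosure.instAlgebra ℚ) _ _

attribute [local instance] isGalois_Qbar

variable {F E : IntermediateField ℚ Qbar}

/-- `E` with the `F`-algebra structure given by the inclusion is `extendScalars h`. -/
noncomputable def extEquiv (h : F ≤ E) :
    letI := (IntermediateField.inclusion h).toRingHom.toAlgebra
    ↥(extendScalars h) ≃ₐ[F] ↥E :=
  letI := (IntermediateField.inclusion h).toRingHom.toAlgebra
  { toFun := fun x => ⟨x.1, x.2⟩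
    invFun := fun x => ⟨x.1, x.2⟩
    left_inv := fun _ => rfl
    right_inv := fun _ => rfl
    map_mul' := fun _ _ => rfl
    map_add' := fun _ _ => rfl
    commutes' := fun _ => rfl }

/-- the comparison of fixing subgroups. -/
theorem comap_fixingSubgroup_extendScalars (h : F ≤ E) :
    ((extendScalars h).fixingSubgroup).comap F.fixingSubgroupEquiv.toMonoidHom
      = (E.fixingSubgroup).subgroupOf F.fixingSubgroup := by
  ext σ
  rw [Subgroup.mem_comap, Subgroup.mem_subgroupOf, IntermediateField.mem_fixingSubgroup_iff,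
    IntermediateField.mem_fixingSubgroup_iff]
  rfl

theorem index_fixingSubgroup_extendScalars (h : F ≤ E) :
    ((extendScalars h).fixingSubgroup).index = (E.fixingSubgroup).relIndex F.fixingSubgroup := by
  rw [Subgroup.relIndex, ← comap_fixingSubgroup_extendScalars h,
    Subgroup.index_comap_of_surjective _ (F.fixingSubgroupEquiv).surjective]

theorem finrank_extendScalars (h : F ≤ E) :
    Module.finrank F (extendScalars h) = (E.fixingSubgroup).relIndex F.fixingSubgroup := by
  rw [IntermediateField.finrank_eq_fixingSubgroup_index, index_fixingSubgroup_extendScalars]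

theorem finrank_eq_relIndex (h : F ≤ E) :
    letI := (IntermediateField.inclusion h).toRingHom.toAlgebra
    Module.finrank F E = (E.fixingSubgroup).relIndex F.fixingSubgroup := by
  letI := (IntermediateField.inclusion h).toRingHom.toAlgebra
  rw [← finrank_extendScalars h]
  exact ((extEquiv h).toLinearEquiv.finrank_eq).symm

theorem finiteDimensional_extendScalars (h : F ≤ E)
    (hi : (E.fixingSubgroup).relIndex F.fixingSubgroup ≠ 0) :
    FiniteDimensional F (extendScalars h) := by
  apply FiniteDimensional.of_finrank_pos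
  rw [finrank_extendScalars h]
  exact Nat.pos_of_ne_zero hi

theorem finiteDimensional_of_relIndex_ne_zero (h : F ≤ E)
    (hi : (E.fixingSubgroup).relIndex F.fixingSubgroup ≠ 0) :
    letI := (IntermediateField.inclusion h).toRingHom.toAlgebra
    FiniteDimensional F E := by
  letI := (IntermediateField.inclusion h).toRingHom.toAlgebra
  haveI := finiteDimensional_extendScalars h hi
  exact (extEquiv h).toLinearEquiv.finiteDimensional

/-- the fixing subgroup of a number field has finite index. -/
theorem index_fixingSubgroup_ne_zero (K : IntermediateField ℚ Qbar) [FiniteDimensional ℚ K] :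
    (K.fixingSubgroup).index ≠ 0 := by
  rw [← IntermediateField.finrank_eq_fixingSubgroup_index]
  exact (Module.finrank_pos).ne'

theorem relIndex_sup_ne_zero (F K : IntermediateField ℚ Qbar) [FiniteDimensional ℚ K] :
    ((F ⊔ K).fixingSubgroup).relIndex F.fixingSubgroup ≠ 0 := by
  rw [IntermediateField.fixingSubgroup_sup, Subgroup.inf_relIndex_left]
  haveI : (K.fixingSubgroup).FiniteIndex := ⟨index_fixingSubgroup_ne_zero K⟩
  exact Subgroup.FiniteIndex.index_ne_zero

theorem isGalois_iff (h : F ≤ E) :
    letI := (IntermediateField.inclusion h).toRingHom.toAlgebra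
    IsGalois F E ↔ ((E.fixingSubgroup).subgroupOf F.fixingSubgroup).Normal := by
  letI := (IntermediateField.inclusion h).toRingHom.toAlgebra
  rw [← comap_fixingSubgroup_extendScalars h]
  have h1 : IsGalois F E ↔ IsGalois F (extendScalars h) :=
    ⟨fun _ => IsGalois.of_algEquiv (extEquiv h).symm, fun _ => IsGalois.of_algEquiv (extEquiv h)⟩
  rw [h1, ← InfiniteGalois.normal_iff_isGalois]
  constructor
  · intro hn
    exact hn.comap _
  · intro hn
    have := hn.map F.fixingSubgroupEquiv.toMonoidHom (F.fixingSubgroupEquiv).surjective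
    rwa [Subgroup.map_comap_eq_self_of_surjective (F.fixingSubgroupEquiv).surjective] at this

/-- A finite subextension is generated by a number field. -/
theorem exists_eq_sup (h : F ≤ E) (hi : (E.fixingSubgroup).relIndex F.fixingSubgroup ≠ 0) :
    ∃ K : IntermediateField ℚ Qbar, FiniteDimensional ℚ K ∧ E = F ⊔ K := by
  haveI := finiteDimensional_extendScalars h hi
  obtain ⟨α, hα⟩ := Field.exists_primitive_element F (extendScalars h)
  have hαint : IsIntegral ℚ (α : Qbar) := IsGalois.integral ℚ _
  refine ⟨ℚ⟮(α : Qbar)⟯, IntermediateField.adjoin.finiteDimensional hαint, le_antisymm ?_ ?_⟩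
  · -- `E ≤ F ⊔ ℚ(α)`
    have h1 : (F⟮α⟯ : IntermediateField F (extendScalars h)).map (extendScalars h).val
        = F⟮(α : Qbar)⟯ := by
      rw [IntermediateField.adjoin_map]
      simp
    have h2 : F⟮(α : Qbar)⟯ ≤ extendScalars (le_sup_left : F ≤ F ⊔ ℚ⟮(α : Qbar)⟯) := by
      rw [IntermediateField.adjoin_le_iff]
      rintro _ rfl
      exact (le_sup_right : ℚ⟮(α : Qbar)⟯ ≤ F ⊔ ℚ⟮(α : Qbar)⟯)
        (IntermediateField.mem_adjoin_simple_self ℚ _)
    intro x hx
    have h3 : x ∈ (F⟮α⟯ : IntermediateField F (extendScalars h)).map (extendScalars h).val := by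
      rw [hα]
      exact ⟨⟨x, hx⟩, trivial, rfl⟩
    rw [h1] at h3
    exact h2 h3
  · refine sup_le h ?_
    rw [IntermediateField.adjoin_le_iff]
    rintro _ rfl
    exact α.2

/-- Subgroups between `Gal(ℚ̄/F K)` and `Gal(ℚ̄/F)` are fixing subgroups. -/
theorem exists_fixingSubgroup_eq (F : IntermediateField ℚ Qbar) (H : Subgroup GQ)
    (hH : H ≤ F.fixingSubgroup) (K : IntermediateField ℚ Qbar) [FiniteDimensional ℚ K]
    (hK : F.fixingSubgroup ⊓ K.fixingSubgroup ≤ H) :
    ∃ E : IntermediateField ℚ Qbar, F ≤ E ∧ E ≤ F ⊔ K ∧ E.fixingSubgroup = H := by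
  set Φ : F.fixingSubgroup →* (Qbar ≃ₐ[F] Qbar) := F.fixingSubgroupEquiv.toMonoidHom
    with hΦ
  have hΦs : Function.Surjective Φ := (F.fixingSubgroupEquiv).surjective
  have hΦi : Function.Injective Φ := (F.fixingSubgroupEquiv).injective
  let H' : Subgroup (Qbar ≃ₐ[F] Qbar) := (H.subgroupOf F.fixingSubgroup).map Φ
  have hle : F ≤ F ⊔ K := le_sup_left
  haveI := finiteDimensional_extendScalars hle (relIndex_sup_ne_zero F K)
  have hUopen : IsOpen ((extendScalars hle).fixingSubgroup : Set (Qbar ≃ₐ[F] Qbar)) :=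
    IntermediateField.fixingSubgroup_isOpen _
  have hUH : (extendScalars hle).fixingSubgroup ≤ H' := by
    have h1 : ((extendScalars hle).fixingSubgroup).comap Φ ≤ H.subgroupOf F.fixingSubgroup := by
      rw [comap_fixingSubgroup_extendScalars hle, IntermediateField.fixingSubgroup_sup]
      intro σ hσ
      exact hK hσ
    have h2 := Subgroup.map_mono (f := Φ) h1
    rwa [Subgroup.map_comap_eq_self_of_surjective hΦs] at h2
  have hH'open : IsOpen (H' : Set (Qbar ≃ₐ[F] Qbar)) := Subgroup.isOpen_mono hUH hUopen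
  have hH'closed : IsClosed (H' : Set (Qbar ≃ₐ[F] Qbar)) := Subgroup.isClosed_of_isOpen H' hH'open
  let E' : IntermediateField F Qbar := IntermediateField.fixedField H'
  have hE' : E'.fixingSubgroup = H' :=
    InfiniteGalois.fixingSubgroup_fixedField (⟨H', hH'closed⟩ : ClosedSubgroup (Qbar ≃ₐ[F] Qbar))
  let E : IntermediateField ℚ Qbar := E'.restrictScalars ℚ
  have hFE : F ≤ E := fun x hx => E'.algebraMap_mem ⟨x, hx⟩
  have hext : extendScalars hFE = E' := rfl
  have hfix : E.fixingSubgroup = H := by
    have h1 := comap_fixingSubgroup_extendScalars hFE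
    rw [hext, hE', Subgroup.comap_map_eq_self_of_injective hΦi, eq_comm, Subgroup.subgroupOf_inj,
      inf_eq_left.2 (IntermediateField.fixingSubgroup_antitone hFE), inf_eq_left.2 hH] at h1
    exact h1
  refine ⟨E, hFE, ?_, hfix⟩
  rw [← InfiniteGalois.fixedField_fixingSubgroup (F ⊔ K), IntermediateField.le_iff_le, hfix,
    IntermediateField.fixingSubgroup_sup]
  exact hK

/-! ### the statements for `IsLocalFieldAt` -/

section Local

variable {q : ℕ} [Fact q.Prime]

theorem hens_le (hF : IsLocalFieldAt q F) : hens q ≤ F := by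
  obtain ⟨K, -, rfl⟩ := hF
  exact le_sup_left

theorem isLocalFieldAt_sup (hF : IsLocalFieldAt q F)
    (K : IntermediateField ℚ Qbar) [FiniteDimensional ℚ K] : IsLocalFieldAt q (F ⊔ K) := by
  obtain ⟨K', hK', rfl⟩ := hF
  haveI := hK'
  exact ⟨K' ⊔ K, IntermediateField.finiteDimensional_sup K' K, by rw [sup_assoc]⟩

theorem relIndex_ne_zero (hF : hens q ≤ F) (hE : IsLocalFieldAt q E) (h : F ≤ E) :
    (E.fixingSubgroup).relIndex F.fixingSubgroup ≠ 0 := by
  obtain ⟨K, hK, rfl⟩ := hE
  haveI := hK
  have h1 : hens q ⊔ K = F ⊔ K :=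
    le_antisymm (sup_le (hF.trans le_sup_left) le_sup_right) (sup_le h le_sup_right)
  rw [h1]
  exact relIndex_sup_ne_zero F K

theorem isLocalFieldAt_of_le (hE : IsLocalFieldAt q E) (hF : hens q ≤ F) (hFE : F ≤ E) :
    IsLocalFieldAt q F := by
  have h1 : (E.fixingSubgroup).relIndex (hens q).fixingSubgroup ≠ 0 :=
    relIndex_ne_zero le_rfl hE (hF.trans hFE)
  have h2 : (F.fixingSubgroup).relIndex (hens q).fixingSubgroup ≠ 0 := fun h0 =>
    h1 (Nat.eq_zero_of_zero_dvd
      (h0 ▸ Subgroup.relIndex_dvd_of_le_left _ (IntermediateField.fixingSubgroup_antitone hFE)))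
  exact exists_eq_sup hF h2

theorem finiteDimensional (hF : IsLocalFieldAt q F) (hE : IsLocalFieldAt q E) (h : F ≤ E) :
    letI := (IntermediateField.inclusion h).toRingHom.toAlgebra
    FiniteDimensional F E :=
  finiteDimensional_of_relIndex_ne_zero h (relIndex_ne_zero (hens_le hF) hE h)

theorem localDegree_ne_zero (hF : IsLocalFieldAt q F) : localDegree q F ≠ 0 :=
  relIndex_ne_zero le_rfl hF (hens_le hF)

theorem exists_of_subgroup (hF : IsLocalFieldAt q F) (H : Subgroup GQ)
    (hH : H ≤ F.fixingSubgroup) (K : IntermediateField ℚ Qbar) [FiniteDimensional ℚ K]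
    (hK : F.fixingSubgroup ⊓ K.fixingSubgroup ≤ H) :
    ∃ E : IntermediateField ℚ Qbar, IsLocalFieldAt q E ∧ F ≤ E ∧ E.fixingSubgroup = H := by
  obtain ⟨E, hFE, hEle, hfix⟩ := exists_fixingSubgroup_eq F H hH K hK
  exact ⟨E, isLocalFieldAt_of_le (isLocalFieldAt_sup hF K) ((hens_le hF).trans hFE) hEle, hFE, hfix⟩

end Local

end Fermat.Agent.S55.L.B2a
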