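import Fermat.Agent.S55.L.Defs

/-! # L-A1: structure of `Fˣ` : `Fˣ = π^ℤ × U` -/

set_option autoImplicit false

namespace Fermat.Agent.S55.L

open IsLocalRing

variable {F : Type} [Field F] (O : ValuationSubring F)

theorem exists_isUnif [IsHLF O] : ∃ π : F, IsUnif O π := by
  have := IsHLF.dvr (O := O)
  obtain ⟨ϖ, hϖ⟩ := IsDiscreteValuationRing.exists_irreducible O
  exact ⟨ϖ.1, ϖ.2, hϖ⟩

theorem IsUnif.ne_zero {π : F} (hπ : IsUnif O π) : π ≠ 0 := by
  obtain ⟨h, hirr⟩ := hπ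
  intro h0
  apply hirr.ne_zero
  exact Subtype.ext h0

/-- the maximal ideal is generated by a uniformiser -/
theorem IsUnif.maximalIdeal_eq [IsHLF O] {π : F} (hπ : IsUnif O π) :
    maximalIdeal O = Ideal.span {(⟨π, hπ.choose⟩ : O)} := by
  have := IsHLF.dvr (O := O)
  exact hπ.choose_spec.maximalIdeal_eq

/-- a unit of `O` as an element of `O.unitGroup`. -/
theorem a1_exists_unitGroup (u : Oˣ) : ∃ v ∈ O.unitGroup, (v : F) = ((u : O) : F) :=
  ⟨(O.unitGroupMulEquiv.symm u : O.unitGroup), (O.unitGroupMulEquiv.symm u).2,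
    O.coe_unitGroupMulEquiv_symm_apply u⟩

theorem a1_exists_pow_mul [IsHLF O] {π : F} (hπ : IsUnif O π) (x : Fˣ) (hx : (x : F) ∈ O) :
    ∃ n : ℕ, ∃ u ∈ O.unitGroup, (x : F) = π ^ n * (u : F) := by
  have := IsHLF.dvr (O := O)
  obtain ⟨h, hirr⟩ := hπ
  have hx0 : (⟨x, hx⟩ : O) ≠ 0 := fun h0 => x.ne_zero (congrArg Subtype.val h0)
  obtain ⟨n, u, hu⟩ := IsDiscreteValuationRing.eq_unit_mul_pow_irreducible hx0 hirr
  obtain ⟨v, hv, hvu⟩ := a1_exists_unitGroup O u
  refine ⟨n, v, hv, ?_⟩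
  have := congrArg Subtype.val hu
  simp only [MulMemClass.coe_mul, SubmonoidClass.coe_pow] at this
  rw [this, hvu, mul_comm]

theorem exists_zpow_mul [IsHLF O] {π : F} (hπ : IsUnif O π) (x : Fˣ) :
    ∃ n : ℤ, ∃ u ∈ O.unitGroup, (x : F) = π ^ n * (u : F) := by
  rcases O.mem_or_inv_mem (x : F) with hx | hx
  · obtain ⟨n, u, hu, h⟩ := a1_exists_pow_mul O hπ x hx
    exact ⟨n, u, hu, by rw [h, zpow_natCast]⟩
  · have hx' : ((x⁻¹ : Fˣ) : F) ∈ O := by simpa using hx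
    obtain ⟨n, u, hu, h⟩ := a1_exists_pow_mul O hπ x⁻¹ hx'
    refine ⟨-n, u⁻¹, inv_mem hu, ?_⟩
    have : (x : F) = ((x⁻¹ : Fˣ) : F)⁻¹ := by simp
    rw [this, h, mul_inv, zpow_neg, zpow_natCast]
    simp

theorem a1_pow_mul_unique {π : F} (hπ : IsUnif O π) {d : ℕ} {u v : Fˣ}
    (hu : u ∈ O.unitGroup) (hv : v ∈ O.unitGroup) (h : π ^ d * (u : F) = (v : F)) : d = 0 := by
  obtain ⟨hO, hirr⟩ := hπ
  by_contra hd
  apply hirr.not_isUnit
  have hunit : IsUnit ((⟨π, hO⟩ : O) ^ d) := by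
    let u' := O.unitGroupMulEquiv ⟨u, hu⟩
    let v' := O.unitGroupMulEquiv ⟨v, hv⟩
    have : (⟨π, hO⟩ : O) ^ d = (v' * u'⁻¹ : Oˣ) := by
      have h1 : (⟨π, hO⟩ : O) ^ d * (u' : O) = (v' : O) := by
        apply Subtype.ext
        simpa [u', v'] using h
      rw [Units.val_mul, ← h1, mul_assoc, Units.mul_inv, mul_one]
    rw [this]
    exact Units.isUnit _
  exact (isUnit_pow_iff hd).1 hunit

theorem zpow_mul_unique [IsHLF O] {π : F} (hπ : IsUnif O π) {m n : ℤ} {u v : Fˣ}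
    (hu : u ∈ O.unitGroup) (hv : v ∈ O.unitGroup) (h : π ^ m * (u : F) = π ^ n * (v : F)) :
    m = n ∧ u = v := by
  have hπ0 := hπ.ne_zero
  have hmn : m = n := by
    rcases le_total n m with hle | hle
    · obtain ⟨d, hd⟩ := Int.eq_ofNat_of_zero_le (sub_nonneg.2 hle)
      have h1 : π ^ d * (u : F) = (v : F) := by
        have : π ^ m = π ^ n * π ^ d := by
          rw [← zpow_natCast, ← hd, ← zpow_add₀ hπ0]; congr 1; ring
        rw [this, mul_assoc] at h
        exact mul_left_cancel₀ (zpow_ne_zero _ hπ0) h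
      have := a1_pow_mul_unique O hπ hu hv h1
      subst this
      simp at hd
      omega
    · obtain ⟨d, hd⟩ := Int.eq_ofNat_of_zero_le (sub_nonneg.2 hle)
      have h1 : π ^ d * (v : F) = (u : F) := by
        have : π ^ n = π ^ m * π ^ d := by
          rw [← zpow_natCast, ← hd, ← zpow_add₀ hπ0]; congr 1; ring
        rw [this, mul_assoc] at h
        exact (mul_left_cancel₀ (zpow_ne_zero _ hπ0) h).symm
      have := a1_pow_mul_unique O hπ hv hu h1
      subst this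
      simp at hd
      omega
  refine ⟨hmn, ?_⟩
  subst hmn
  exact Units.ext (mul_left_cancel₀ (zpow_ne_zero _ hπ0) h)

/-- the normalised valuation attached to a uniformiser. -/
noncomputable def a1Ord [IsHLF O] {π : F} (hπ : IsUnif O π) (x : Fˣ) : ℤ :=
  (exists_zpow_mul O hπ x).choose

theorem a1Ord_spec [IsHLF O] {π : F} (hπ : IsUnif O π) (x : Fˣ) :
    ∃ u ∈ O.unitGroup, (x : F) = π ^ (a1Ord O hπ x) * (u : F) :=
  (exists_zpow_mul O hπ x).choose_spec

theorem a1Ord_eq [IsHLF O] {π : F} (hπ : IsUnif O π) {x : Fˣ} {n : ℤ} {u : Fˣ}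
    (hu : u ∈ O.unitGroup) (h : (x : F) = π ^ n * (u : F)) : a1Ord O hπ x = n := by
  obtain ⟨v, hv, hx⟩ := a1Ord_spec O hπ x
  exact (zpow_mul_unique O hπ hv hu (hx.symm.trans h)).1

/-- the normalised valuation as a homomorphism. -/
noncomputable def a1OrdHom [IsHLF O] {π : F} (hπ : IsUnif O π) : Fˣ →* Multiplicative ℤ where
  toFun x := Multiplicative.ofAdd (a1Ord O hπ x)
  map_one' := by
    rw [a1Ord_eq O hπ (n := 0) (one_mem _) (by simp)]
    rfl
  map_mul' x y := by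
    obtain ⟨u, hu, hx⟩ := a1Ord_spec O hπ x
    obtain ⟨v, hv, hy⟩ := a1Ord_spec O hπ y
    rw [← ofAdd_add, a1Ord_eq O hπ (x := x * y) (mul_mem hu hv)]
    rw [Units.val_mul, Units.val_mul, zpow_add₀ hπ.ne_zero]
    conv_lhs => rw [hx, hy]
    ring

theorem a1Ord_eq_zero_iff [IsHLF O] {π : F} (hπ : IsUnif O π) (x : Fˣ) :
    a1Ord O hπ x = 0 ↔ x ∈ O.unitGroup := by
  constructor
  · intro h
    obtain ⟨u, hu, hx⟩ := a1Ord_spec O hπ x
    rw [h, zpow_zero, one_mul] at hx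
    rwa [Units.ext hx]
  · intro h
    exact a1Ord_eq O hπ h (by simp)

theorem a1Ord_pow [IsHLF O] {π : F} (hπ : IsUnif O π) (x : Fˣ) (n : ℕ) :
    a1Ord O hπ (x ^ n) = n * a1Ord O hπ x := by
  have := map_pow (a1OrdHom O hπ) x n
  have h2 := congrArg Multiplicative.toAdd this
  simpa [a1OrdHom] using h2

theorem a1Ord_unif_zpow [IsHLF O] {π : F} (hπ : IsUnif O π) (n : ℤ) :
    a1Ord O hπ (Units.mk0 π hπ.ne_zero ^ n) = n :=
  a1Ord_eq O hπ (one_mem _) (by simp)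

/-- `Uᵖ = U ∩ Fˣᵖ`. -/
theorem a1_map_pow_eq [IsHLF O] (p : ℕ) (hp : 0 < p) :
    (O.unitGroup).map (powMonoidHom p) = powGroup F p ⊓ O.unitGroup := by
  obtain ⟨π, hπ⟩ := exists_isUnif O
  ext x
  constructor
  · rintro ⟨y, hy, rfl⟩
    exact ⟨⟨y, rfl⟩, pow_mem hy p⟩
  · rintro ⟨⟨y, rfl⟩, hx⟩
    refine ⟨y, ?_, rfl⟩
    have h1 := (a1Ord_eq_zero_iff O hπ _).2 hx
    simp only [powMonoidHom_apply] at h1
    rw [a1Ord_pow] at h1
    have : a1Ord O hπ y = 0 := by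
      rcases mul_eq_zero.1 h1 with h | h
      · exact absurd (by exact_mod_cast h) hp.ne'
      · exact h
    exact (a1Ord_eq_zero_iff O hπ y).1 this

theorem a1_index_sup [IsHLF O] (p : ℕ) :
    (O.unitGroup ⊔ powGroup F p).index = p := by
  obtain ⟨π, hπ⟩ := exists_isUnif O
  let w : Fˣ →* Multiplicative (ZMod p) :=
    (AddMonoidHom.toMultiplicative (Int.castAddHom (ZMod p))).comp (a1OrdHom O hπ)
  have hw : ∀ x, w x = Multiplicative.ofAdd ((a1Ord O hπ x : ℤ) : ZMod p) := fun x => rfl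
  have hker : w.ker = O.unitGroup ⊔ powGroup F p := by
    apply le_antisymm
    · intro x hx
      rw [MonoidHom.mem_ker, hw] at hx
      have h0 : ((a1Ord O hπ x : ℤ) : ZMod p) = 0 := hx
      rw [ZMod.intCast_zmod_eq_zero_iff_dvd] at h0
      obtain ⟨k, hk⟩ := h0
      obtain ⟨u, hu, hxu⟩ := a1Ord_spec O hπ x
      have : x = u * (Units.mk0 π hπ.ne_zero ^ k) ^ p := by
        apply Units.ext
        rw [hxu, hk]
        simp only [Units.val_mul, Units.val_pow_eq_pow_val, Units.val_zpow_eq_zpow_val,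
          Units.val_mk0]
        rw [mul_comm, ← zpow_natCast, ← zpow_mul, mul_comm k]
      rw [this]
      exact Subgroup.mul_mem_sup hu ⟨_, rfl⟩
    · rw [sup_le_iff]
      constructor
      · intro x hx
        rw [MonoidHom.mem_ker, hw, (a1Ord_eq_zero_iff O hπ x).2 hx]
        simp
      · rintro _ ⟨y, rfl⟩
        rw [MonoidHom.mem_ker, hw, powMonoidHom_apply, a1Ord_pow]
        simp
  have hsurj : Function.Surjective w := by
    intro z
    obtain ⟨n, hn⟩ := ZMod.intCast_surjective (Multiplicative.toAdd z)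
    refine ⟨Units.mk0 π hπ.ne_zero ^ n, ?_⟩
    rw [hw, a1Ord_unif_zpow, hn]
    rfl
  rw [← hker, Subgroup.index_ker, MonoidHom.range_eq_top.2 hsurj, Subgroup.card_top]
  exact Nat.card_zmod p

/-- `(Fˣ : Fˣᵖ) = p (U : Uᵖ)` -/
theorem index_powGroup_eq [IsHLF O] (p : ℕ) (hp : 0 < p) :
    (powGroup F p).index = p * ((O.unitGroup).map (powMonoidHom p)).relIndex O.unitGroup := by
  rw [a1_map_pow_eq O p hp, Subgroup.inf_relIndex_right,
    ← Subgroup.relIndex_mul_index (le_sup_right : powGroup F p ≤ O.unitGroup ⊔ powGroup F p),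
    a1_index_sup O p, Subgroup.relIndex_sup_right, mul_comm]

end Fermat.Agent.S55.L
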