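import Fermat.Agent.S55.L.A1Structure

/-! # L-A2: indices of the higher unit groups -/

set_option autoImplicit false

namespace Fermat.Agent.S55.L

open IsLocalRing

variable {F : Type} [Field F] (O : ValuationSubring F)

theorem a2_mem_of_mem_unitGroup {x : Fˣ} (hx : x ∈ O.unitGroup) : (x : F) ∈ O :=
  ((O.mem_unitGroup_iff x).mp hx).le |> (O.valuation_le_one_iff _).mp

theorem higherUnits_zero : higherUnits O 0 = O.unitGroup := by
  ext x
  constructor
  · rintro ⟨hx, -⟩
    exact hx
  · intro hx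
    refine ⟨hx, O.sub_mem (a2_mem_of_mem_unitGroup O hx) O.one_mem, ?_⟩
    simp

theorem higherUnits_antitone : Antitone (higherUnits O) := by
  rintro m n hmn x ⟨hx, h1, h2⟩
  exact ⟨hx, h1, Ideal.pow_le_pow_right hmn h2⟩

theorem a2_higherUnits_one : higherUnits O 1 = O.principalUnitGroup := by
  ext x
  rw [ValuationSubring.mem_principalUnitGroup_iff]
  constructor
  · rintro ⟨-, h1, h2⟩
    rw [pow_one] at h2
    exact (O.valuation_lt_one_iff ⟨_, h1⟩).1 h2
  · intro h
    have hx : x ∈ O.unitGroup := O.principal_units_le_units h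
    have h1 : (x : F) - 1 ∈ O := O.sub_mem (a2_mem_of_mem_unitGroup O hx) O.one_mem
    refine ⟨hx, h1, ?_⟩
    rw [pow_one]
    exact (O.valuation_lt_one_iff ⟨_, h1⟩).2 h

theorem relIndex_higherUnits_one [IsHLF O] :
    (higherUnits O 1).relIndex O.unitGroup = Nat.card (ResidueField O) - 1 := by
  rw [a2_higherUnits_one, Subgroup.relIndex, Subgroup.subgroupOf,
    ← O.ker_unitGroupToResidueFieldUnits, Subgroup.index_ker,
    MonoidHom.range_eq_top.2 O.surjective_unitGroupToResidueFieldUnits, Subgroup.card_top,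
    Nat.card_units]

theorem card_quot_maximalIdeal_pow [IsHLF O] (k : ℕ) :
    Nat.card (O ⧸ (maximalIdeal O) ^ k) = Nat.card (ResidueField O) ^ k := by
  have := IsHLF.dvr (O := O)
  have h := cardQuot_pow_of_prime (P := maximalIdeal O)
    (IsDiscreteValuationRing.not_a_field O) (i := k)
  rw [Submodule.cardQuot_apply, Submodule.cardQuot_apply] at h
  exact h

theorem a2_card_eq_of_surjective {A B C : Type*} (f : A → B) (g : A → C)
    (hf : Function.Surjective f) (hg : Function.Surjective g)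
    (h : ∀ a a', f a = f a' ↔ g a = g a') : Nat.card B = Nat.card C := by
  refine Nat.card_congr (Equiv.ofBijective (fun b => g (Function.surjInv hf b)) ⟨?_, ?_⟩)
  · intro b b' hbb
    have := (h _ _).2 hbb
    rwa [Function.surjInv_eq hf, Function.surjInv_eq hf] at this
  · intro c
    obtain ⟨a, rfl⟩ := hg c
    exact ⟨f a, (h _ _).1 (Function.surjInv_eq hf (f a))⟩

theorem a2_maximalIdeal_pow [IsHLF O] {π : F} (hπ : IsUnif O π) (n : ℕ) :
    (maximalIdeal O) ^ n = Ideal.span {(⟨π, hπ.choose⟩ : O) ^ n} := by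
  rw [hπ.maximalIdeal_eq, Ideal.span_singleton_pow]

theorem a2_mem_higherUnits_iff [IsHLF O] {π : F} (hπ : IsUnif O π) {n : ℕ} (hn : 1 ≤ n) (x : Fˣ) :
    x ∈ higherUnits O n ↔ ∃ y : O, (x : F) = 1 + π ^ n * (y : F) := by
  constructor
  · rintro ⟨-, h1, h2⟩
    rw [a2_maximalIdeal_pow O hπ, Ideal.mem_span_singleton'] at h2
    obtain ⟨y, hy⟩ := h2
    refine ⟨y, ?_⟩
    have := congrArg Subtype.val hy
    simp only [MulMemClass.coe_mul, SubmonoidClass.coe_pow] at this
    linear_combination -this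
  · rintro ⟨y, hy⟩
    have h1 : (x : F) - 1 ∈ O := by
      rw [hy, add_sub_cancel_left]
      exact O.mul_mem _ _ (O.pow_mem hπ.choose n) y.2
    have h2 : (⟨(x : F) - 1, h1⟩ : O) ∈ (maximalIdeal O) ^ n := by
      rw [a2_maximalIdeal_pow O hπ, Ideal.mem_span_singleton']
      refine ⟨y, Subtype.ext ?_⟩
      simp only [MulMemClass.coe_mul, SubmonoidClass.coe_pow]
      rw [hy]; ring
    refine ⟨?_, h1, h2⟩
    apply O.principal_units_le_units
    rw [ValuationSubring.mem_principalUnitGroup_iff]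
    apply (O.valuation_lt_one_iff ⟨_, h1⟩).1
    exact Ideal.pow_le_self (by omega) h2

theorem a2_exists_unit [IsHLF O] {π : F} (hπ : IsUnif O π) {n : ℕ} (hn : 1 ≤ n) (y : O) :
    ∃ u : Fˣ, (u : F) = 1 + π ^ n * (y : F) := by
  refine ⟨Units.mk0 (1 + π ^ n * (y : F)) ?_, rfl⟩
  intro h0
  have hmem : (⟨π, hπ.choose⟩ : O) ^ n * y ∈ maximalIdeal O :=
    Ideal.mul_mem_right _ _ (Ideal.pow_mem_of_mem _ (by
      rw [hπ.maximalIdeal_eq]; exact Ideal.mem_span_singleton_self _) n (by omega))
  have h1 : (⟨π, hπ.choose⟩ : O) ^ n * y = -1 := by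
    apply Subtype.ext
    simp only [MulMemClass.coe_mul, SubmonoidClass.coe_pow]
    push_cast
    linear_combination h0
  rw [h1] at hmem
  exact (maximalIdeal.isMaximal O).ne_top ((Ideal.eq_top_iff_one _).2 (by simp at hmem))

theorem relIndex_higherUnits_add [IsHLF O] (n k : ℕ) (hn : 1 ≤ n) :
    (higherUnits O (n + k)).relIndex (higherUnits O n) = Nat.card (O ⧸ (maximalIdeal O) ^ k) := by
  obtain ⟨π, hπ⟩ := exists_isUnif O
  have hπ0 := hπ.ne_zero
  choose u hu using a2_exists_unit O hπ hn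
  have humem : ∀ y, u y ∈ higherUnits O n := fun y =>
    (a2_mem_higherUnits_iff O hπ hn _).2 ⟨y, hu y⟩
  let f : O → (higherUnits O n) ⧸ ((higherUnits O (n + k)).subgroupOf (higherUnits O n)) :=
    fun y => QuotientGroup.mk ⟨u y, humem y⟩
  rw [Subgroup.relIndex, Subgroup.index]
  refine a2_card_eq_of_surjective f (Ideal.Quotient.mk _) ?_ Ideal.Quotient.mk_surjective ?_
  · intro z
    obtain ⟨⟨x, hx⟩, rfl⟩ := QuotientGroup.mk_surjective z
    obtain ⟨y, hy⟩ := (a2_mem_higherUnits_iff O hπ hn x).1 hx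
    refine ⟨y, ?_⟩
    have : u y = x := Units.ext ((hu y).trans hy.symm)
    simp only [f, this]
  · intro y y'
    simp only [f]
    rw [QuotientGroup.eq, Subgroup.mem_subgroupOf, Ideal.Quotient.eq,
      a2_maximalIdeal_pow O hπ, Ideal.mem_span_singleton']
    simp only [Subgroup.coe_mul, InvMemClass.coe_inv]
    rw [a2_mem_higherUnits_iff O hπ (by omega : 1 ≤ n + k)]
    have huy : ((u y : Fˣ) : F) ≠ 0 := (u y).ne_zero
    constructor
    · rintro ⟨z, hz⟩
      have huO : ((u y : Fˣ) : F) ∈ O := a2_mem_of_mem_unitGroup O (humem y).1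
      refine ⟨-(⟨_, huO⟩ * z), Subtype.ext ?_⟩
      simp only [Units.val_mul, Units.val_inv_eq_inv_val] at hz
      have h1 : ((u y' : Fˣ) : F) = (u y : F) * (1 + π ^ (n + k) * (z : F)) := by
        rw [← hz]; field_simp
      rw [hu y'] at h1
      have h2 : π ^ n * ((y' : F) - y) = π ^ n * (π ^ k * ((u y : F) * z)) := by
        have := hu y
        rw [pow_add] at h1
        linear_combination h1 + this
      have h3 := mul_left_cancel₀ (pow_ne_zero n hπ0) h2
      push_cast
      linear_combination h3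
    · rintro ⟨z, hz⟩
      have hinv : (((u y)⁻¹ : Fˣ) : F) ∈ O := a2_mem_of_mem_unitGroup O (inv_mem (humem y).1)
      refine ⟨-(⟨_, hinv⟩ * z), ?_⟩
      have hz' := congrArg Subtype.val hz
      simp only [MulMemClass.coe_mul, SubmonoidClass.coe_pow, AddSubgroupClass.coe_sub] at hz'
      simp only [Units.val_mul, Units.val_inv_eq_inv_val]
      push_cast
      have e1 := hu y
      have e2 := hu y'
      field_simp
      rw [pow_add, e2]
      rw [e1]
      linear_combination (π ^ n) * hz'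

theorem relIndex_higherUnits_ne_zero [IsHLF O] (n : ℕ) :
    (higherUnits O n).relIndex O.unitGroup ≠ 0 := by
  have := IsHLF.finite_residue (O := O)
  rcases Nat.eq_zero_or_pos n with rfl | hn
  · rw [higherUnits_zero, Subgroup.relIndex_self]
    exact one_ne_zero
  · obtain ⟨k, rfl⟩ : ∃ k, n = 1 + k := ⟨n - 1, by omega⟩
    have h1 : higherUnits O (1 + k) ≤ higherUnits O 1 := higherUnits_antitone O (by omega)
    have h2 : higherUnits O 1 ≤ O.unitGroup := by
      rw [← higherUnits_zero]; exact higherUnits_antitone O (by omega)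
    rw [← Subgroup.relIndex_mul_relIndex _ _ _ h1 h2, relIndex_higherUnits_add O 1 k le_rfl,
      relIndex_higherUnits_one, card_quot_maximalIdeal_pow]
    have h3 : 1 < Nat.card (ResidueField O) := Finite.one_lt_card
    apply mul_ne_zero
    · exact pow_ne_zero _ (by omega)
    · omega

end Fermat.Agent.S55.L
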