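import Fermat.Agent.S55.L.A2HigherUnits

/-! # L-A3: the `p`-th power map on higher unit groups (Hensel) -/

set_option autoImplicit false

namespace Fermat.Agent.S55.L

open IsLocalRing

section A3Aux

open Polynomial

/-- explicit binomial expansion for a prime exponent `k+2`. -/
theorem A3_add_pow_prime (k : ℕ) (hp : (k + 2).Prime) :
    ∃ d : ℕ → ℕ, ∀ {A : Type} [CommRing A] (x y : A),
      (x + y) ^ (k + 2) = x ^ (k + 2) + ((k + 2 : ℕ) : A) * x ^ (k + 1) * y + y ^ (k + 2)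
        + ((k + 2 : ℕ) : A) * y ^ 2 * ∑ m ∈ Finset.range k, (d m : A) * x ^ (m + 1) * y ^ (k - 1 - m) := by
  refine ⟨fun m => (k + 2).choose (m + 1) / (k + 2), ?_⟩
  intro A _ x y
  rw [add_pow, Finset.sum_range_succ, Finset.sum_range_succ, Finset.sum_range_succ', Finset.mul_sum]
  have h1 : ∑ m ∈ Finset.range k, x ^ (m + 1) * y ^ (k + 2 - (m + 1)) * ((k + 2).choose (m + 1) : A)
      = ∑ m ∈ Finset.range k, ((k + 2 : ℕ) : A) * y ^ 2 *
        ((((k + 2).choose (m + 1) / (k + 2) : ℕ) : A) * x ^ (m + 1) * y ^ (k - 1 - m)) := by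
    refine Finset.sum_congr rfl fun m hm => ?_
    have hm' : m < k := Finset.mem_range.1 hm
    have hdvd : (k + 2) ∣ (k + 2).choose (m + 1) :=
      hp.dvd_choose_self (by omega) (by omega)
    obtain ⟨q, hq⟩ := hdvd
    have hq' : (k + 2).choose (m + 1) / (k + 2) = q := by
      rw [hq, Nat.mul_div_cancel_left _ (by omega)]
    rw [hq', hq]
    have he : k + 2 - (m + 1) = (k - 1 - m) + 2 := by omega
    rw [he, pow_add]
    push_cast
    ring
  rw [h1]
  have h2 : (k + 2).choose (k + 1) = k + 2 := by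
    rw [Nat.choose_succ_self_right]
  have h3 : k + 2 - (k + 1) = 1 := by omega
  simp only [h2, h3, Nat.choose_self, Nat.choose_zero_right, Nat.sub_self, pow_zero, pow_one,
    Nat.cast_one, mul_one, one_mul, Nat.sub_zero]
  ring

theorem A3_isUnit_one_add {R : Type} [CommRing R] [IsLocalRing R] {a : R}
    (ha : a ∈ maximalIdeal R) : IsUnit (1 + a) := by
  by_contra h
  have h1 : (1 + a) ∈ maximalIdeal R := (mem_maximalIdeal _).2 h
  have h2 : (1 : R) ∈ maximalIdeal R := by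
    have := Ideal.sub_mem _ h1 ha
    rwa [add_sub_cancel_right] at this
  exact (Ideal.ne_top_iff_one _).1 (maximalIdeal.isMaximal R).ne_top h2

/-- Hensel: solving `(1+a)^p = 1+c`. -/
theorem A3_exists_pow_eq {R : Type} [CommRing R] [HenselianLocalRing R] (k : ℕ)
    (hp : (k + 2).Prime) {t s c : R} (ht : t ∈ maximalIdeal R) (hs : s ∈ maximalIdeal R)
    (htc : t * ((k + 2 : ℕ) : R) = c) (hts : t ^ (k + 1) = s * ((k + 2 : ℕ) : R)) :
    ∃ w : R, (1 + t * w) ^ (k + 2) = 1 + c := by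
  obtain ⟨d, hd⟩ := A3_add_pow_prime k hp
  set Q : R[X] := ∑ m ∈ Finset.range k, C ((d m : R) * t ^ (k - 1 - m)) * X ^ (m + 1) with hQ
  have hQdeg : Q.degree < ((k + 2 : ℕ) : WithBot ℕ) := by
    refine lt_of_le_of_lt (degree_sum_le _ _) ?_
    rw [Finset.sup_lt_iff (WithBot.bot_lt_coe _)]
    intro m hm
    have hm' : m < k := Finset.mem_range.1 hm
    refine lt_of_le_of_lt (degree_C_mul_X_pow_le _ _) ?_
    exact_mod_cast (by omega : m + 1 < k + 2)
  set q : R[X] := X ^ (k + 1) + C t * Q + C s with hq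
  have hqdeg : q.degree < ((k + 2 : ℕ) : WithBot ℕ) := by
    refine lt_of_le_of_lt (degree_add_le _ _) (max_lt (lt_of_le_of_lt (degree_add_le _ _)
      (max_lt ?_ ?_)) ?_)
    · rw [degree_X_pow]
      exact_mod_cast (by omega : k + 1 < k + 2)
    · rw [← smul_eq_C_mul]
      exact lt_of_le_of_lt (degree_smul_le _ _) hQdeg
    · refine lt_of_le_of_lt degree_C_le ?_
      exact_mod_cast (by omega : 0 < k + 2)
  have hmonic : (X ^ (k + 2) - q).Monic := monic_X_pow_sub hqdeg
  have h1 : (X ^ (k + 2) - q).eval 1 ∈ maximalIdeal R := by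
    have : (X ^ (k + 2) - q).eval 1 = -(t * Q.eval 1 + s) := by
      simp only [hq, eval_sub, eval_add, eval_pow, eval_X, eval_mul, eval_C, one_pow]
      ring
    rw [this]
    exact Ideal.neg_mem_iff _ |>.2 (Ideal.add_mem _ (Ideal.mul_mem_right _ _ ht) hs)
  have h2 : IsUnit ((X ^ (k + 2) - q).derivative.eval 1) := by
    have : (X ^ (k + 2) - q).derivative.eval 1 = 1 + (-(t * Q.derivative.eval 1)) := by
      simp only [hq, derivative_sub, derivative_add, derivative_X_pow, derivative_mul, derivative_C,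
        eval_sub, eval_add, eval_pow, eval_X, eval_mul, eval_C, one_pow, zero_mul, zero_add,
        add_zero, mul_one, map_natCast, eval_natCast]
      push_cast
      ring
    rw [this]
    exact A3_isUnit_one_add (Ideal.neg_mem_iff _ |>.2 (Ideal.mul_mem_right _ _ ht))
  obtain ⟨W, hW, hW1⟩ := HenselianLocalRing.is_henselian _ hmonic 1 h1 h2
  have hWu : IsUnit W := by
    have := A3_isUnit_one_add hW1
    simpa using this
  have hroot : W ^ (k + 2) = W ^ (k + 1) + t * (∑ m ∈ Finset.range k,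
      (d m : R) * W ^ (m + 1) * t ^ (k - 1 - m)) + s := by
    have h := hW
    rw [IsRoot.def, eval_sub, sub_eq_zero] at h
    simp only [hq, hQ, eval_add, eval_pow, eval_X, eval_mul, eval_C, eval_finsetSum] at h
    rw [h]
    congr 2
    congr 1
    refine Finset.sum_congr rfl fun m _ => ?_
    ring
  have hkey : (W + t) ^ (k + 2) = W ^ (k + 2) * (1 + c) := by
    rw [hd W t]
    have e1 : t ^ (k + 2) = c * s := by
      rw [pow_succ, hts, ← htc]; ring
    rw [e1]
    set S := ∑ m ∈ Finset.range k, (d m : R) * W ^ (m + 1) * t ^ (k - 1 - m) with hS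
    have e2 : ((k + 2 : ℕ) : R) * W ^ (k + 1) * t = c * W ^ (k + 1) := by rw [← htc]; ring
    have e3 : ((k + 2 : ℕ) : R) * t ^ 2 * S = c * (t * S) := by rw [← htc]; ring
    rw [e2, e3]
    linear_combination (-c) * hroot
  obtain ⟨w, rfl⟩ := hWu
  refine ⟨(w⁻¹ : Rˣ), ?_⟩
  have hw : ((w : R)) ^ (k + 2) * (1 + t * (w⁻¹ : Rˣ)) ^ (k + 2) = (w : R) ^ (k + 2) * (1 + c) := by
    rw [← hkey, ← mul_pow]
    congr 1
    rw [mul_add, mul_one, mul_left_comm, Units.mul_inv, mul_one]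
  exact (w.isUnit.pow (k + 2)).mul_left_cancel hw

theorem A3_pow_sub_one_mem {R : Type} [CommRing R] (M : Ideal R) {p e n : ℕ} (hp : p.Prime)
    (he : Ideal.span {(p : R)} = M ^ e) (hn : e ≤ n * (p - 1)) {a : R} (ha : a ∈ M ^ n) :
    (1 + a) ^ p - 1 ∈ M ^ (n + e) := by
  obtain ⟨r, hr⟩ := exists_add_pow_prime_eq hp 1 a
  have h1 : (1 + a) ^ p - 1 = a ^ p + a * p * r := by rw [hr]; ring
  rw [h1]
  refine Ideal.add_mem _ ?_ ?_
  · have h2 : a ^ p ∈ M ^ (n * p) := by rw [pow_mul]; exact Ideal.pow_mem_pow ha p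
    refine Ideal.pow_le_pow_right ?_ h2
    obtain ⟨j, rfl⟩ := Nat.exists_eq_succ_of_ne_zero hp.ne_zero
    rw [Nat.succ_sub_one] at hn
    rw [Nat.mul_succ]
    omega
  · refine Ideal.mul_mem_right _ _ ?_
    rw [pow_add, ← he]
    exact Ideal.mul_mem_mul ha (Ideal.mem_span_singleton_self _)

theorem A3_exists_mem_pow_eq {R : Type} [CommRing R] [HenselianLocalRing R] {p e n : ℕ}
    (hp : p.Prime) (he : Ideal.span {(p : R)} = maximalIdeal R ^ e) (hn : e < n * (p - 1)) {c : R}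
    (hc : c ∈ maximalIdeal R ^ (n + e)) : ∃ a ∈ maximalIdeal R ^ n, (1 + a) ^ p = 1 + c := by
  obtain ⟨k, rfl⟩ : ∃ k, p = k + 2 := ⟨p - 2, by have := hp.two_le; omega⟩
  have hk : k + 2 - 1 = k + 1 := by omega
  rw [hk] at hn
  have hn1 : n ≠ 0 := by
    rintro rfl
    simp at hn
  rw [pow_add, ← he, Ideal.mem_mul_span_singleton] at hc
  obtain ⟨t, ht, htc⟩ := hc
  have ht1 : t ∈ maximalIdeal R := Ideal.pow_le_self hn1 ht
  have h2 : t ^ (k + 1) ∈ maximalIdeal R * Ideal.span {((k + 2 : ℕ) : R)} := by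
    rw [he, ← pow_succ']
    have h3 : t ^ (k + 1) ∈ maximalIdeal R ^ (n * (k + 1)) := by
      rw [pow_mul]; exact Ideal.pow_mem_pow ht _
    exact Ideal.pow_le_pow_right hn h3
  rw [Ideal.mem_mul_span_singleton] at h2
  obtain ⟨s, hs, hsp⟩ := h2
  obtain ⟨w, hw⟩ := A3_exists_pow_eq k hp ht1 hs htc hsp.symm
  exact ⟨t * w, Ideal.mul_mem_right _ _ ht, hw⟩

theorem A3_pow_eq_one_cases {R : Type} [CommRing R] [IsDomain R] [IsLocalRing R] (k : ℕ)
    (hp : (k + 2).Prime) {a : R} (ha : a ∈ maximalIdeal R) (h : (1 + a) ^ (k + 2) = 1) :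
    a = 0 ∨ ∃ u : R, ((k + 2 : ℕ) : R) = a ^ (k + 1) * u := by
  obtain ⟨d, hd⟩ := A3_add_pow_prime k hp
  have h1 := hd (1 : R) a
  rw [h] at h1
  set S := ∑ m ∈ Finset.range k, (d m : R) * 1 ^ (m + 1) * a ^ (k - 1 - m) with hS
  have h2 : a * (((k + 2 : ℕ) : R) * (1 + a * S) + a ^ (k + 1)) = 0 := by
    simp only [one_pow, mul_one] at h1
    linear_combination -h1
  rcases mul_eq_zero.1 h2 with h3 | h3
  · exact Or.inl h3
  · right
    obtain ⟨u, hu⟩ := A3_isUnit_one_add (Ideal.mul_mem_right S _ ha)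
    refine ⟨-((u⁻¹ : Rˣ) : R), ?_⟩
    have h4 : ((k + 2 : ℕ) : R) * (u : R) = -a ^ (k + 1) := by
      rw [hu]; linear_combination h3
    calc ((k + 2 : ℕ) : R) = ((k + 2 : ℕ) : R) * (u : R) * ((u⁻¹ : Rˣ) : R) := by
          rw [mul_assoc, Units.mul_inv, mul_one]
      _ = a ^ (k + 1) * -((u⁻¹ : Rˣ) : R) := by rw [h4]; ring

end A3Aux

variable {F : Type} [Field F] (O : ValuationSubring F)

theorem A3_mem_higherUnits_iff {n : ℕ} (hn : 1 ≤ n) (x : Fˣ) :
    x ∈ higherUnits O n ↔ ∃ a : O, a ∈ maximalIdeal O ^ n ∧ (x : F) = 1 + (a : F) := by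
  constructor
  · rintro ⟨_, h, hmem⟩
    exact ⟨⟨(x : F) - 1, h⟩, hmem, by simp⟩
  · rintro ⟨a, ha, hx⟩
    have ha1 : a ∈ maximalIdeal O := Ideal.pow_le_self (by omega) ha
    have hu : IsUnit (1 + a) := A3_isUnit_one_add ha1
    have hxa : (x : F) - 1 = (a : F) := by rw [hx]; ring
    refine ⟨?_, ?_, ?_⟩
    · rw [ValuationSubring.mem_unitGroup_iff, hx]
      exact (O.valuation_eq_one_iff (1 + a)).1 hu
    · rw [hxa]; exact a.2
    · have : (⟨(x : F) - 1, by rw [hxa]; exact a.2⟩ : O) = a := Subtype.ext hxa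
      rw [this]; exact ha

/-- residue characteristic `p`, `(p) = 𝔪ᵉ`, `n (p-1) > e`: `(1+𝔪ⁿ)ᵖ = 1+𝔪ⁿ⁺ᵉ`. -/
theorem map_pow_higherUnits [IsHLF O] [CharZero F] {p e n : ℕ} [Fact p.Prime]
    (he : Ideal.span {(p : O)} = maximalIdeal O ^ e) (he0 : 0 < e) (hn : e < n * (p - 1)) :
    (higherUnits O n).map (powMonoidHom p) = higherUnits O (n + e) := by
  have hp : p.Prime := Fact.out
  have : HenselianLocalRing O := IsHLF.henselian
  have hn1 : 1 ≤ n := by
    rcases Nat.eq_zero_or_pos n with rfl | h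
    · simp at hn
    · exact h
  ext y
  constructor
  · rintro ⟨x, hx, rfl⟩
    obtain ⟨a, ha, hxa⟩ := (A3_mem_higherUnits_iff O hn1 x).1 hx
    refine (A3_mem_higherUnits_iff O (by omega) _).2
      ⟨(1 + a) ^ p - 1, A3_pow_sub_one_mem _ hp he hn.le ha, ?_⟩
    simp only [powMonoidHom_apply, Units.val_pow_eq_pow_val, hxa]
    push_cast
    ring
  · intro hy
    obtain ⟨c, hc, hyc⟩ := (A3_mem_higherUnits_iff O (by omega) y).1 hy
    obtain ⟨a, ha, hac⟩ := A3_exists_mem_pow_eq hp he hn hc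
    have hF : (1 + (a : F)) ^ p = (y : F) := by
      rw [hyc]
      exact_mod_cast congrArg (Subtype.val) hac
    have hne : (1 + (a : F)) ≠ 0 := by
      intro h0
      rw [h0, zero_pow hp.ne_zero] at hF
      exact y.ne_zero hF.symm
    refine ⟨Units.mk0 _ hne, (A3_mem_higherUnits_iff O hn1 _).2 ⟨a, ha, rfl⟩, ?_⟩
    ext
    simpa using hF

theorem eq_one_of_pow_eq_one_of_mem_higherUnits [IsHLF O] [CharZero F] {p e n : ℕ} [Fact p.Prime]
    (he : Ideal.span {(p : O)} = maximalIdeal O ^ e) (he0 : 0 < e) (hn : e < n * (p - 1))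
    {x : Fˣ} (hx : x ∈ higherUnits O n) (hxp : x ^ p = 1) : x = 1 := by
  have hp : p.Prime := Fact.out
  have : IsDiscreteValuationRing O := IsHLF.dvr
  have hn1 : 1 ≤ n := by
    rcases Nat.eq_zero_or_pos n with rfl | h
    · simp at hn
    · exact h
  obtain ⟨a, ha, hxa⟩ := (A3_mem_higherUnits_iff O hn1 x).1 hx
  obtain ⟨k, rfl⟩ : ∃ k, p = k + 2 := ⟨p - 2, by have := hp.two_le; omega⟩
  have hk : k + 2 - 1 = k + 1 := by omega
  rw [hk] at hn
  have ha1 : a ∈ maximalIdeal O := Ideal.pow_le_self (by omega) ha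
  have hpow : (1 + a) ^ (k + 2) = 1 := by
    apply Subtype.ext
    have := congrArg (Units.val) hxp
    rw [Units.val_pow_eq_pow_val, hxa] at this
    push_cast
    exact this
  rcases A3_pow_eq_one_cases k hp ha1 hpow with h0 | ⟨u, hu⟩
  · ext
    rw [hxa, h0]
    simp
  · exfalso
    have h1 : ((k + 2 : ℕ) : O) ∈ maximalIdeal O ^ (e + 1) := by
      rw [hu]
      refine Ideal.mul_mem_right _ _ ?_
      have h3 : a ^ (k + 1) ∈ maximalIdeal O ^ (n * (k + 1)) := by
        rw [pow_mul]; exact Ideal.pow_mem_pow ha _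
      exact Ideal.pow_le_pow_right hn h3
    have h2 : maximalIdeal O ^ e ≤ maximalIdeal O ^ (e + 1) := by
      rw [← he, Ideal.span_singleton_le_iff_mem]
      exact h1
    have h3 := Ideal.pow_right_strictAnti (maximalIdeal O)
      (IsDiscreteValuationRing.not_a_field O) (maximalIdeal.isMaximal O).ne_top (Nat.lt_succ_self e)
    exact absurd h2 (not_le_of_gt h3)

/-- residue characteristic `≠ p`: `1+𝔪` is uniquely `p`-divisible. -/
theorem map_pow_higherUnits_one_of_isUnit [IsHLF O] {p : ℕ} [Fact p.Prime]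
    (hp : IsUnit (p : O)) :
    (higherUnits O 1).map (powMonoidHom p) = higherUnits O 1 := by
  have hpp : p.Prime := Fact.out
  have : HenselianLocalRing O := IsHLF.henselian
  ext y
  constructor
  · rintro ⟨x, hx, rfl⟩
    exact Subgroup.pow_mem _ hx p
  · intro hy
    obtain ⟨c, hc, hyc⟩ := (A3_mem_higherUnits_iff O le_rfl y).1 hy
    rw [pow_one] at hc
    have hmonic : (Polynomial.X ^ p - Polynomial.C (1 + c) : Polynomial O).Monic :=
      Polynomial.monic_X_pow_sub_C _ hpp.ne_zero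
    have h1 : (Polynomial.X ^ p - Polynomial.C (1 + c) : Polynomial O).eval 1 ∈ maximalIdeal O := by
      have : (Polynomial.X ^ p - Polynomial.C (1 + c) : Polynomial O).eval 1 = -c := by
        simp
      rw [this]
      exact (Ideal.neg_mem_iff _).2 hc
    have h2 : IsUnit ((Polynomial.X ^ p - Polynomial.C (1 + c) : Polynomial O).derivative.eval 1) := by
      have : (Polynomial.X ^ p - Polynomial.C (1 + c) : Polynomial O).derivative.eval 1 = (p : O) := by
        simp [Polynomial.derivative_X_pow]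
      rw [this]
      exact hp
    obtain ⟨Y, hY, hY1⟩ := HenselianLocalRing.is_henselian _ hmonic 1 h1 h2
    have hYp : Y ^ p = 1 + c := by
      have := hY
      rw [Polynomial.IsRoot.def] at this
      simpa [sub_eq_zero] using this
    have hF : (Y : F) ^ p = (y : F) := by
      rw [hyc]
      exact_mod_cast congrArg (Subtype.val) hYp
    have hne : (Y : F) ≠ 0 := by
      intro h0
      rw [h0, zero_pow hpp.ne_zero] at hF
      exact y.ne_zero hF.symm
    refine ⟨Units.mk0 _ hne, (A3_mem_higherUnits_iff O le_rfl _).2 ⟨Y - 1, by rwa [pow_one], ?_⟩, ?_⟩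
    · simp
    · ext
      simpa using hF

theorem eq_one_of_pow_eq_one_of_isUnit [IsHLF O] {p : ℕ} [Fact p.Prime]
    (hp : IsUnit (p : O)) {x : Fˣ} (hx : x ∈ higherUnits O 1) (hxp : x ^ p = 1) : x = 1 := by
  have hpp : p.Prime := Fact.out
  obtain ⟨a, ha, hxa⟩ := (A3_mem_higherUnits_iff O le_rfl x).1 hx
  rw [pow_one] at ha
  obtain ⟨k, rfl⟩ : ∃ k, p = k + 2 := ⟨p - 2, by have := hpp.two_le; omega⟩
  have hpow : (1 + a) ^ (k + 2) = 1 := by
    apply Subtype.ext
    have := congrArg (Units.val) hxp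
    rw [Units.val_pow_eq_pow_val, hxa] at this
    push_cast
    exact this
  rcases A3_pow_eq_one_cases k hpp ha hpow with h0 | ⟨u, hu⟩
  · ext
    rw [hxa, h0]
    simp
  · exfalso
    have h1 : ((k + 2 : ℕ) : O) ∈ maximalIdeal O := by
      rw [hu, pow_succ']
      exact Ideal.mul_mem_right _ _ (Ideal.mul_mem_right _ _ ha)
    exact (mem_maximalIdeal _).1 h1 hp

end Fermat.Agent.S55.L
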