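import Fermat.Agent.S55.L.A3PowMap

/-! # L-A4/A5: `(U : Uᵖ) = |μ_p(F)| |O/p|` and `(Fˣ : Fˣᵖ) = p |μ_p(F)| |O/p|` -/

set_option autoImplicit false
set_option linter.unusedVariables false

namespace Fermat.Agent.S55.L

open IsLocalRing

variable {F : Type} [Field F] (O : ValuationSubring F)

theorem A4_card_torsion {G : Type} [CommGroup G] (U : Subgroup G) (p : ℕ) :
    Nat.card {x : G // x ∈ U ∧ x ^ p = 1} = Nat.card ↥((powMonoidHom p : G →* G).ker ⊓ U) := by
  refine Nat.card_congr (Equiv.subtypeEquivRight fun x => ?_)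
  rw [Subgroup.mem_inf, MonoidHom.mem_ker, powMonoidHom_apply, and_comm]

/-- Pure group theory (the `q_{0,p}`-index does not change on a subgroup of finite index):
`(U : Uᵖ) |V[p]| = (V : Vᵖ) |U[p]|`. -/
theorem relIndex_pow_mul_card_torsion {G : Type} [CommGroup G] (U V : Subgroup G) (hVU : V ≤ U)
    (hfin : V.relIndex U ≠ 0) (p : ℕ) (hV : (V.map (powMonoidHom p)).relIndex V ≠ 0)
    (hVt : Finite {x : G // x ∈ V ∧ x ^ p = 1}) :
    (U.map (powMonoidHom p)).relIndex U * Nat.card {x : G // x ∈ V ∧ x ^ p = 1} =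
      (V.map (powMonoidHom p)).relIndex V * Nat.card {x : G // x ∈ U ∧ x ^ p = 1} := by
  set f : G →* G := powMonoidHom p with hf
  set T : Subgroup G := f.ker with hT
  have hVpV : V.map f ≤ V := by
    rintro _ ⟨x, hx, rfl⟩
    exact pow_mem hx p
  have hUpU : U.map f ≤ U := by
    rintro _ ⟨x, hx, rfl⟩
    exact pow_mem hx p
  have hVpUp : V.map f ≤ U.map f := Subgroup.map_mono hVU
  have h1 := Subgroup.relIndex_mul_relIndex _ _ _ hVpUp hUpU
  have h2 := Subgroup.relIndex_mul_relIndex _ _ _ hVpV hVU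
  -- (3)
  have h3 : (V.map f).relIndex (U.map f) = (V ⊔ T).relIndex U := by
    rw [Subgroup.relIndex_map_map]
    have : U ⊔ f.ker = U ⊔ (V ⊔ T) := by
      rw [← sup_assoc, sup_eq_left.mpr hVU]
    rw [this, Subgroup.relIndex_sup_right]
  -- (4)
  have hW : (V ⊔ T) ⊓ U = V ⊔ (T ⊓ U) := sup_inf_assoc_of_le T hVU
  have h4 : V.relIndex (T ⊓ U) * (V ⊔ T).relIndex U = V.relIndex U := by
    rw [← Subgroup.inf_relIndex_right (V ⊔ T) U, hW, ← Subgroup.relIndex_sup_left (T ⊓ U) V]
    exact Subgroup.relIndex_mul_relIndex _ _ _ le_sup_left (sup_le hVU inf_le_right)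
  -- (5)
  have h5 : Nat.card ↥(T ⊓ V) * V.relIndex (T ⊓ U) = Nat.card ↥(T ⊓ U) := by
    rw [← Subgroup.relIndex_bot_left, ← Subgroup.relIndex_bot_left,
      ← Subgroup.inf_relIndex_right V (T ⊓ U)]
    have : V ⊓ (T ⊓ U) = T ⊓ V := by
      rw [inf_comm V, inf_assoc, inf_eq_right.mpr hVU]
    rw [this]
    exact Subgroup.relIndex_mul_relIndex _ _ _ bot_le (inf_le_inf_left T hVU)
  have ha : (V ⊔ T).relIndex U ≠ 0 := by
    intro h0
    rw [h0, mul_zero] at h4
    exact hfin h4.symm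
  rw [A4_card_torsion, A4_card_torsion, ← h5]
  rw [h3] at h1
  have h6 : (U.map f).relIndex U = (V.map f).relIndex V * V.relIndex (T ⊓ U) := by
    apply Nat.eq_of_mul_eq_mul_left (Nat.pos_of_ne_zero ha)
    rw [h1, ← h2, ← h4]
    ring
  rw [h6]
  ring

theorem A4_card_roots (p : ℕ) (hp : p ≠ 0) :
    Nat.card {x : Fˣ // x ∈ O.unitGroup ∧ x ^ p = 1} = Nat.card (rootsOfUnity p F) := by
  refine Nat.card_congr (Equiv.subtypeEquivRight fun x => ?_)
  rw [mem_rootsOfUnity]
  refine ⟨fun h => h.2, fun h => ⟨?_, h⟩⟩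
  rw [O.mem_unitGroup_iff]
  have h1 : O.valuation (x : F) ^ p = 1 := by
    rw [← map_pow, ← Units.val_pow_eq_pow_val, h]
    simp
  exact (pow_eq_one_iff.mp h1).resolve_right hp

theorem A4_card_eq_one {V : Subgroup Fˣ} {p : ℕ} (h : ∀ x ∈ V, x ^ p = 1 → x = 1) :
    Nat.card {x : Fˣ // x ∈ V ∧ x ^ p = 1} = 1 := by
  refine Nat.card_eq_one_iff_unique.mpr ⟨⟨?_⟩, ⟨⟨1, one_mem _, one_pow _⟩⟩⟩
  rintro ⟨x, hx, hxp⟩ ⟨y, hy, hyp⟩
  exact Subtype.ext ((h x hx hxp).trans (h y hy hyp).symm)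

theorem A4_finite_of_card_eq_one {α : Type} (h : Nat.card α = 1) : Finite α :=
  Nat.finite_of_card_ne_zero (by omega)

theorem relIndex_pow_unitGroup [IsHLF O] [CharZero F] (p : ℕ) [Fact p.Prime] :
    ((O.unitGroup).map (powMonoidHom p)).relIndex O.unitGroup =
      Nat.card (rootsOfUnity p F) * Nat.card (O ⧸ Ideal.span {(p : O)}) := by
  have hpp : p.Prime := Fact.out
  by_cases hp : IsUnit (p : O)
  · have hc : Nat.card {x : Fˣ // x ∈ higherUnits O 1 ∧ x ^ p = 1} = 1 :=
      A4_card_eq_one fun x hx hxp => eq_one_of_pow_eq_one_of_isUnit O hp hx hxp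
    have hmap := map_pow_higherUnits_one_of_isUnit O hp
    have key := relIndex_pow_mul_card_torsion O.unitGroup (higherUnits O 1) (fun x hx => hx.1)
      (relIndex_higherUnits_ne_zero O 1) p
      (by rw [hmap, Subgroup.relIndex_self]; exact one_ne_zero) (A4_finite_of_card_eq_one hc)
    rw [hc, hmap, Subgroup.relIndex_self, A4_card_roots O p hpp.ne_zero, mul_one, one_mul] at key
    rw [key, Ideal.span_singleton_eq_top.mpr hp]
    have : Subsingleton (O ⧸ (⊤ : Ideal O)) := Ideal.Quotient.subsingleton_iff.mpr rfl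
    rw [Nat.card_of_subsingleton (0 : O ⧸ (⊤ : Ideal O)), mul_one]
  · have hdvr : IsDiscreteValuationRing O := IsHLF.dvr
    have hp0 : (p : O) ≠ 0 := by
      intro h
      have h2 : ((p : O) : F) = 0 := by rw [h]; rfl
      have h3 : (p : F) = 0 := by simpa using h2
      exact hpp.ne_zero (Nat.cast_eq_zero.mp h3)
    obtain ⟨ϖ, hϖ⟩ := IsDiscreteValuationRing.exists_irreducible O
    obtain ⟨e, he⟩ := IsDiscreteValuationRing.ideal_eq_span_pow_irreducible
      (s := Ideal.span {(p : O)}) (by simpa using hp0) hϖ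
    rw [← Ideal.span_singleton_pow, ← hϖ.maximalIdeal_eq] at he
    have he0 : 0 < e := by
      rcases Nat.eq_zero_or_pos e with rfl | h
      · rw [pow_zero, Ideal.one_eq_top, Ideal.span_singleton_eq_top] at he
        exact absurd he hp
      · exact h
    have hn : e < (e + 1) * (p - 1) := by
      have h2 := hpp.two_le
      exact Nat.lt_of_lt_of_le (Nat.lt_succ_self e) (Nat.le_mul_of_pos_right _ (by omega))
    have hc : Nat.card {x : Fˣ // x ∈ higherUnits O (e + 1) ∧ x ^ p = 1} = 1 :=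
      A4_card_eq_one fun x hx hxp => eq_one_of_pow_eq_one_of_mem_higherUnits O he he0 hn hx hxp
    have hmap := map_pow_higherUnits O he he0 hn
    have hidx := relIndex_higherUnits_add O (e + 1) e (by omega)
    have hfinq : Nat.card (O ⧸ maximalIdeal O ^ e) ≠ 0 := by
      rw [card_quot_maximalIdeal_pow]
      have : Finite (ResidueField O) := IsHLF.finite_residue
      exact pow_ne_zero _ Nat.card_pos.ne'
    have key := relIndex_pow_mul_card_torsion O.unitGroup (higherUnits O (e + 1))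
      (fun x hx => hx.1) (relIndex_higherUnits_ne_zero O (e + 1)) p
      (by rw [hmap, hidx]; exact hfinq) (A4_finite_of_card_eq_one hc)
    rw [hc, hmap, hidx, A4_card_roots O p hpp.ne_zero, mul_one] at key
    rw [key, he, mul_comm]

/-- **LF1** -/
theorem index_powGroup [IsHLF O] [CharZero F] (p : ℕ) [Fact p.Prime] :
    (powGroup F p).index =
      p * (Nat.card (rootsOfUnity p F) * Nat.card (O ⧸ Ideal.span {(p : O)})) := by
  rw [index_powGroup_eq O p (Fact.out (p := p.Prime)).pos, relIndex_pow_unitGroup O p]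

end Fermat.Agent.S55.L
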