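import Fermat.Agent.S55.L.A4UnitIndex
import Fermat.Agent.S55.L.A6ExtBasic

/-!
# L-A7, consequences of the local norm index `(Fˣ : N Eˣ) = p`

The index is taken as a hypothesis `hidx` here.
-/

set_option autoImplicit false

namespace Fermat.Agent.S55.L

open IsLocalRing

variable {F E : Type} [Field F] [Field E] [Algebra F E]
  {O : ValuationSubring F} {OE : ValuationSubring E}

theorem a7_eq_of_le_of_index_eq {G : Type*} [Group G] {H K : Subgroup G} (hHK : H ≤ K)
    (hidx : H.index = K.index) (h0 : K.index ≠ 0) : H = K := by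
  have h1 := Subgroup.relIndex_mul_index hHK
  rw [hidx] at h1
  have h2 : H.relIndex K = 1 := by
    have : H.relIndex K * K.index = 1 * K.index := by rw [h1, one_mul]
    exact Nat.eq_of_mul_eq_mul_right (Nat.pos_of_ne_zero h0) this
  exact le_antisymm hHK (Subgroup.relIndex_eq_one.1 h2)

theorem a7_norm_units_algebraMap [FiniteDimensional F E] (x : Fˣ) :
    Units.map (Algebra.norm F : E →* F) (Units.map (algebraMap F E : F →* E) x)
      = x ^ Module.finrank F E := by
  ext
  simp [Algebra.norm_algebraMap]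

theorem a7_norm_zpow {x : E} (hx : x ≠ 0) (k : ℤ) :
    Algebra.norm F (x ^ k) = (Algebra.norm F x) ^ k := by
  have := congrArg Units.val (map_zpow (Units.map (Algebra.norm F : E →* F)) (Units.mk0 x hx) k)
  rw [Units.coe_map, Units.val_zpow_eq_zpow_val, Units.val_zpow_eq_zpow_val, Units.coe_map] at this
  exact this

/-- in an unramified extension, the norm of `y = π ^ n u` is `π ^ (n [E:F]) N u` -/
theorem IsHLFExt.a7_norm_eq_of_unram [IsHLF O] [IsHLF OE] (h : IsHLFExt O OE)
    [FiniteDimensional F E] (hur : IsUnramExt O OE) {π : F} (hπ : IsUnif O π) (y : Eˣ) :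
    ∃ k : ℤ, ∃ u ∈ O.unitGroup,
      Algebra.norm F (y : E) = π ^ ((Module.finrank F E : ℤ) * k) * (u : F) := by
  obtain ⟨k, v, hv, hy⟩ := exists_zpow_mul OE (hur π hπ) y
  refine ⟨k, Units.map (Algebra.norm F : E →* F) v, (h.norm_mem_unitGroup_iff v).2 hv, ?_⟩
  have hπE : algebraMap F E π ≠ 0 := by simpa using hπ.ne_zero
  rw [hy, map_mul, a7_norm_zpow hπE, Algebra.norm_algebraMap, Units.coe_map, zpow_mul,
    zpow_natCast]

theorem IsHLFExt.a7_normGroup_le_of_unram [IsHLF O] [IsHLF OE] (h : IsHLFExt O OE)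
    [FiniteDimensional F E] (hur : IsUnramExt O OE) :
    normGroup F E ≤ O.unitGroup ⊔ powGroup F (Module.finrank F E) := by
  obtain ⟨π, hπ⟩ := exists_isUnif O
  rintro _ ⟨y, rfl⟩
  obtain ⟨k, u, hu, hy⟩ := h.a7_norm_eq_of_unram hur hπ y
  have : Units.map (Algebra.norm F : E →* F) y
      = u * (Units.mk0 π hπ.ne_zero ^ k) ^ (Module.finrank F E) := by
    ext
    rw [Units.coe_map]
    show Algebra.norm F (y : E) = _
    rw [hy]
    simp only [Units.val_mul, Units.val_pow_eq_pow_val, Units.val_zpow_eq_zpow_val, Units.val_mk0]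
    rw [mul_comm, ← zpow_natCast, ← zpow_mul, mul_comm k]
  rw [this]
  exact Subgroup.mul_mem_sup hu ⟨_, rfl⟩

theorem IsHLFExt.a7_normGroup_eq_of_unram [IsHLF O] [IsHLF OE] (h : IsHLFExt O OE)
    [FiniteDimensional F E] {p : ℕ} (hp : p.Prime) (hdeg : Module.finrank F E = p)
    (hidx : (normGroup F E).index = p) (hur : IsUnramExt O OE) :
    normGroup F E = O.unitGroup ⊔ powGroup F p := by
  have h1 := h.a7_normGroup_le_of_unram hur
  rw [hdeg] at h1
  exact a7_eq_of_le_of_index_eq h1 (by rw [hidx, a1_index_sup]) (by rw [a1_index_sup]; exact hp.ne_zero)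

theorem IsHLFExt.a7_unitGroup_le_normGroup_of_unram [IsHLF O] [IsHLF OE]
    (h : IsHLFExt O OE) [FiniteDimensional F E] {p : ℕ} (hp : p.Prime)
    (hdeg : Module.finrank F E = p) (hidx : (normGroup F E).index = p) (hur : IsUnramExt O OE) :
    O.unitGroup ≤ (OE.unitGroup).map (Units.map (Algebra.norm F : E →* F)) := by
  intro u hu
  have h1 : u ∈ normGroup F E := by
    rw [h.a7_normGroup_eq_of_unram hp hdeg hidx hur]
    exact Subgroup.mem_sup_left hu
  obtain ⟨y, rfl⟩ := h1
  exact ⟨y, (h.norm_mem_unitGroup_iff y).1 hu, rfl⟩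

theorem IsHLFExt.a7_mem_normGroup_iff_of_unram [IsHLF O] [IsHLF OE]
    (h : IsHLFExt O OE) [FiniteDimensional F E] {p : ℕ} (hp : p.Prime)
    (hdeg : Module.finrank F E = p) (hidx : (normGroup F E).index = p) (hur : IsUnramExt O OE)
    {π : F} (hπ : IsUnif O π) (x : Fˣ) :
    x ∈ normGroup F E ↔ ∃ k : ℤ, ∃ u ∈ O.unitGroup, (x : F) = π ^ ((p : ℤ) * k) * (u : F) := by
  constructor
  · rintro ⟨y, rfl⟩
    obtain ⟨k, u, hu, hy⟩ := h.a7_norm_eq_of_unram hur hπ y
    rw [hdeg] at hy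
    exact ⟨k, u, hu, hy⟩
  · rintro ⟨k, u, hu, hx⟩
    rw [h.a7_normGroup_eq_of_unram hp hdeg hidx hur]
    have : x = u * (Units.mk0 π hπ.ne_zero ^ k) ^ p := by
      ext
      rw [hx]
      simp only [Units.val_mul, Units.val_pow_eq_pow_val, Units.val_zpow_eq_zpow_val,
        Units.val_mk0]
      rw [mul_comm, ← zpow_natCast, ← zpow_mul, mul_comm k]
    rw [this]
    exact Subgroup.mul_mem_sup hu ⟨_, rfl⟩

/-! ### the tame totally ramified case -/

theorem IsHLFExt.a7_map_mem_nonunits (h : IsHLFExt O OE) (σ : E ≃ₐ[F] E) {x : E}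
    (hx : x ∈ OE.nonunits) : σ x ∈ OE.nonunits := by
  rw [ValuationSubring.mem_nonunits_iff_or] at hx ⊢
  rcases hx with hx | hx
  · left; rw [hx, map_zero]
  · right
    intro hmem
    apply hx
    have := h.map_mem σ.symm hmem
    rwa [map_inv₀, AlgEquiv.symm_apply_apply] at this

theorem IsHLFExt.a7_algebraMap_mem_nonunits_iff (h : IsHLFExt O OE) (x : F) :
    algebraMap F E x ∈ OE.nonunits ↔ x ∈ O.nonunits := by
  rw [ValuationSubring.mem_nonunits_iff_or, ValuationSubring.mem_nonunits_iff_or, ← map_inv₀,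
    h.algebraMap_mem_iff, map_eq_zero]

theorem a7_mem_higherUnits_one_iff (A : ValuationSubring F) (x : Fˣ) :
    x ∈ higherUnits A 1 ↔ (x : F) - 1 ∈ A.nonunits := by
  rw [a2_higherUnits_one, ValuationSubring.mem_principalUnitGroup_iff,
    ValuationSubring.mem_nonunits_iff]

theorem IsHLFExt.a7_map_mem_higherUnits_one (h : IsHLFExt O OE) (σ : E ≃ₐ[F] E) {x : Eˣ}
    (hx : x ∈ higherUnits OE 1) : Units.map (σ : E →* E) x ∈ higherUnits OE 1 := by
  rw [a7_mem_higherUnits_one_iff] at hx ⊢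
  have := h.a7_map_mem_nonunits σ hx
  rwa [map_sub, map_one] at this

/-- the norm of a principal unit is a principal unit -/
theorem IsHLFExt.a7_norm_mem_higherUnits_one (h : IsHLFExt O OE) [FiniteDimensional F E]
    [IsGalois F E] {x : Eˣ} (hx : x ∈ higherUnits OE 1) :
    Units.map (Algebra.norm F : E →* F) x ∈ higherUnits O 1 := by
  classical
  have h1 : (∏ σ : E ≃ₐ[F] E, Units.map (σ : E →* E) x) ∈ higherUnits OE 1 :=
    Subgroup.prod_mem _ (fun σ _ => h.a7_map_mem_higherUnits_one σ hx)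
  rw [a7_mem_higherUnits_one_iff] at h1 ⊢
  rw [← h.a7_algebraMap_mem_nonunits_iff, map_sub, map_one, Units.coe_map]
  have h2 : algebraMap F E (Algebra.norm F (x : E)) = ∏ σ : E ≃ₐ[F] E, σ (x : E) :=
    Algebra.norm_eq_prod_automorphisms F (x : E)
  have h3 : ((∏ σ : E ≃ₐ[F] E, Units.map (σ : E →* E) x : Eˣ) : E) = ∏ σ : E ≃ₐ[F] E, σ (x : E) := by
    rw [Units.coe_prod]
    rfl
  rw [h3, ← h2] at h1
  exact h1

/-- if the residue fields have the same cardinality, every unit of `E` is a unit of `F` times a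
principal unit -/
theorem IsHLFExt.a7_exists_unit_mul [IsHLF O] [IsHLF OE] (h : IsHLFExt O OE)
    (hcard : Nat.card (ResidueField OE) = Nat.card (ResidueField O)) {y : Eˣ}
    (hy : y ∈ OE.unitGroup) :
    ∃ w ∈ O.unitGroup, y / Units.map (algebraMap F E : F →* E) w ∈ higherUnits OE 1 := by
  haveI : Finite (ResidueField O) := IsHLF.finite_residue
  haveI : Finite (ResidueField OE) := IsHLF.finite_residue
  haveI := h.isLocalHom_incl
  have hinj : Function.Injective (ResidueField.map h.incl) := (ResidueField.map h.incl).injective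
  have hsurj : Function.Surjective (ResidueField.map h.incl) :=
    ((Nat.bijective_iff_injective_and_card _).2 ⟨hinj, hcard.symm⟩).2
  have hyO : (y : E) ∈ OE := a2_mem_of_mem_unitGroup OE hy
  obtain ⟨r, hr⟩ := hsurj (residue OE ⟨y, hyO⟩)
  obtain ⟨w', rfl⟩ := residue_surjective r
  rw [ResidueField.map_residue] at hr
  have hsub : h.incl w' - ⟨y, hyO⟩ ∈ maximalIdeal OE := by
    rw [← residue_eq_zero_iff, map_sub, hr, sub_self]
  have hyu : (y : E) ∉ OE.nonunits := by
    rw [ValuationSubring.mem_nonunits_iff, (OE.mem_unitGroup_iff y).1 hy]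
    exact lt_irrefl _
  have hw'nn : (w' : F) ∉ O.nonunits := by
    intro hw
    have h1 := (h.a7_algebraMap_mem_nonunits_iff _).2 hw
    have h2 : algebraMap F E w' - y ∈ OE.nonunits := ValuationSubring.coe_mem_nonunits_iff.2 hsub
    have h3 := sub_mem h1 h2
    rw [sub_sub_cancel] at h3
    exact hyu h3
  rw [ValuationSubring.mem_nonunits_iff_or, not_or, not_not] at hw'nn
  obtain ⟨hw0, hwinv⟩ := hw'nn
  refine ⟨Units.mk0 (w' : F) hw0, (mem_unitGroup_iff_mem_and_inv_mem _ _).2 ⟨w'.2, hwinv⟩, ?_⟩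
  rw [a7_mem_higherUnits_one_iff]
  have h4 : (⟨y, hyO⟩ - h.incl w') * h.incl ⟨(w' : F)⁻¹, hwinv⟩ ∈ maximalIdeal OE :=
    Ideal.mul_mem_right _ _ (by rw [← neg_sub]; exact neg_mem hsub)
  have h5 := ValuationSubring.coe_mem_nonunits_iff.2 h4
  have hwE : algebraMap F E (w' : F) ≠ 0 := by simpa using hw0
  have h6 : ((y / Units.map (algebraMap F E : F →* E) (Units.mk0 (w' : F) hw0) : Eˣ) : E) - 1
      = (((⟨y, hyO⟩ - h.incl w') * h.incl ⟨(w' : F)⁻¹, hwinv⟩ : OE) : E) := by
    have h7 : (((⟨y, hyO⟩ - h.incl w') * h.incl ⟨(w' : F)⁻¹, hwinv⟩ : OE) : E)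
        = ((y : E) - algebraMap F E (w' : F)) * algebraMap F E ((w' : F)⁻¹) := rfl
    rw [h7, map_inv₀, Units.val_div_eq_div_val, Units.coe_map]
    show (y : E) / algebraMap F E (w' : F) - 1 = _
    field_simp
  rw [h6]
  exact h5

theorem IsHLFExt.a7_unit_mem_normGroup_iff_of_tame [CharZero F] [IsHLF O] [IsHLF OE]
    (h : IsHLFExt O OE) [FiniteDimensional F E] [IsGalois F E] {p : ℕ} (hp : p.Prime)
    (hdeg : Module.finrank F E = p) (hram : ¬ IsUnramExt O OE) (hpu : IsUnit (p : O))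
    {u : Fˣ} (hu : u ∈ O.unitGroup) :
    u ∈ normGroup F E ↔ ∃ w ∈ O.unitGroup, u / w ^ p ∈ higherUnits O 1 := by
  haveI : Fact p.Prime := ⟨hp⟩
  constructor
  · rintro ⟨y, rfl⟩
    have hy : y ∈ OE.unitGroup := (h.norm_mem_unitGroup_iff y).1 hu
    have hcard : Nat.card (ResidueField OE) = Nat.card (ResidueField O) := by
      rcases h.unram_or_totallyRam hp hdeg with h1 | h1
      · exact absurd h1.1 hram
      · exact h1.2
    obtain ⟨w, hw, hyw⟩ := h.a7_exists_unit_mul hcard hy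
    refine ⟨w, hw, ?_⟩
    have := h.a7_norm_mem_higherUnits_one hyw
    rwa [map_div, a7_norm_units_algebraMap, hdeg] at this
  · rintro ⟨w, -, hv⟩
    rw [← map_pow_higherUnits_one_of_isUnit O hpu] at hv
    obtain ⟨v, -, hv⟩ := hv
    refine ⟨Units.map (algebraMap F E : F →* E) (w * v), ?_⟩
    rw [a7_norm_units_algebraMap, hdeg, mul_pow]
    rw [powMonoidHom_apply] at hv
    rw [hv, mul_div_cancel]

end Fermat.Agent.S55.L
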