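import Fermat.Agent.S55.L.BDefs

/-! # L-B1: `hens q`: Galois group, valuation ring -/

set_option autoImplicit false

namespace Fermat.Agent.S55.L

open IsLocalRing

variable (q : ℕ) [Fact q.Prime]

theorem hens_isGalois_padicAlgCl : IsGalois ℚ_[q] (PadicAlgCl q) := by
  have : Normal ℚ_[q] (PadicAlgCl q) := IsAlgClosure.normal ℚ_[q] (PadicAlgCl q)
  exact ⟨⟩

theorem hens_isGalois_Qbar : IsGalois ℚ Qbar := by
  have : Algebra.IsAlgebraic ℚ Qbar := AlgebraicClosure.isAlgebraic ℚ
  have : IsAlgClosure ℚ Qbar := ⟨inferInstance, inferInstance⟩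
  have : Normal ℚ Qbar := IsAlgClosure.normal ℚ Qbar
  exact ⟨⟩

theorem hens_fix_of_fix_primitive (E : IntermediateField ℚ Qbar) (α : E)
    (hα : (IntermediateField.adjoin ℚ {α} : @IntermediateField ℚ E _ _ E.algebra') = ⊤) (σ : GQ) (hσ : σ (α : Qbar) = α) :
    σ ∈ E.fixingSubgroup := by
  have hE : E = IntermediateField.adjoin ℚ {(α : Qbar)} := by
    have h1 := IntermediateField.lift_adjoin_simple ℚ E α
    rw [hα, IntermediateField.lift_top] at h1
    exact h1
  rw [IntermediateField.mem_fixingSubgroup_iff]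
  have hle : E ≤ IntermediateField.fixedField (Subgroup.zpowers σ) := by
    rw [hE, IntermediateField.adjoin_simple_le_iff, IntermediateField.mem_fixedField_iff]
    intro f hf
    obtain ⟨n, rfl⟩ := Subgroup.mem_zpowers_iff.mp hf
    have : σ ∈ MulAction.stabilizer GQ (α : Qbar) := hσ
    exact (Subgroup.zpow_mem _ this n)
  intro x hx
  exact (IntermediateField.mem_fixedField_iff _ _).mp (hle hx) σ (Subgroup.mem_zpowers σ)

theorem continuous_localGaloisToGlobal : Continuous (localGaloisToGlobal q) := by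
  apply continuous_of_continuousAt_one
  rw [ContinuousAt, map_one]
  intro U hU
  rw [krullTopology_mem_nhds_one_iff] at hU
  obtain ⟨E, hE, hEU⟩ := hU
  rw [Filter.mem_map, krullTopology_mem_nhds_one_iff]
  obtain ⟨α, hα⟩ := @Field.exists_primitive_element ℚ E _ _ E.algebra' _ _
  refine ⟨IntermediateField.adjoin ℚ_[q] {padicEmbedding q (α : Qbar)}, ?_, ?_⟩
  · exact IntermediateField.adjoin.finiteDimensional
      (Algebra.IsIntegral.isIntegral _)
  · intro τ hτ
    apply hEU
    apply hens_fix_of_fix_primitive E α hα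
    apply (padicEmbedding q).injective
    change padicEmbedding q _ = padicEmbedding q _
    rw [padicEmbedding_localGaloisToGlobal]
    exact (IntermediateField.mem_fixingSubgroup_iff _ _).mp hτ _
      (IntermediateField.mem_adjoin_simple_self _ _)

/-- natural irrationalities: the image of the local Galois group is `Gal(ℚ̄ / ℚ̄ ∩ ℚ_q)`.
(The image is compact, hence closed, and its fixed field is `hens q`.) -/
theorem range_localGaloisToGlobal :
    (localGaloisToGlobal q).range = (hens q).fixingSubgroup := by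
  have := hens_isGalois_padicAlgCl q
  have := hens_isGalois_Qbar
  have hclosed : IsClosed ((localGaloisToGlobal q).range : Set GQ) := by
    rw [MonoidHom.coe_range]
    exact (isCompact_range (continuous_localGaloisToGlobal q)).isClosed
  have hfix : IntermediateField.fixedField (localGaloisToGlobal q).range = hens q := by
    ext x
    rw [IntermediateField.mem_fixedField_iff, mem_hens_iff]
    constructor
    · intro h
      have h1 : ∀ τ : PadicAlgCl q ≃ₐ[ℚ_[q]] PadicAlgCl q,
          τ (padicEmbedding q x) = padicEmbedding q x := by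
        intro τ
        rw [← padicEmbedding_localGaloisToGlobal, h _ ⟨τ, rfl⟩]
      exact (InfiniteGalois.mem_range_algebraMap_iff_fixed _).mpr h1
    · rintro ⟨y, hy⟩ _ ⟨τ, rfl⟩
      apply (padicEmbedding q).injective
      change padicEmbedding q _ = padicEmbedding q _
      rw [padicEmbedding_localGaloisToGlobal, ← hy, AlgEquiv.commutes]
  have := InfiniteGalois.fixingSubgroup_fixedField
    (⟨(localGaloisToGlobal q).range, hclosed⟩ : ClosedSubgroup GQ)
  rw [← hfix]
  exact this.symm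

theorem fixingSubgroup_hens_le_decompositionSubgroup :
    (hens q).fixingSubgroup ≤ (padicPlace q).decompositionSubgroup ℚ := by
  rw [← range_localGaloisToGlobal]
  rintro _ ⟨τ, rfl⟩
  exact localGaloisToGlobal_mem_decompositionSubgroup q τ

/-- elements of `Gal(ℚ̄/hens q)` preserve the norm -/
theorem norm_padicEmbedding_map {σ : GQ} (hσ : σ ∈ (hens q).fixingSubgroup) (x : Qbar) :
    ‖padicEmbedding q (σ x)‖ = ‖padicEmbedding q x‖ := by
  rw [← range_localGaloisToGlobal] at hσ
  obtain ⟨τ, rfl⟩ := hσ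
  rw [padicEmbedding_localGaloisToGlobal, ← coe_nnnorm, nnnorm_padicAlgCl_algEquiv, coe_nnnorm]

theorem mem_padicPlace_iff_norm {x : Qbar} : x ∈ padicPlace q ↔ ‖padicEmbedding q x‖ ≤ 1 := by
  rw [mem_padicPlace_iff, ← NNReal.coe_le_coe, coe_nnnorm, NNReal.coe_one]

theorem mem_nonunits_padicPlace_iff_norm {x : Qbar} :
    x ∈ (padicPlace q).nonunits ↔ ‖padicEmbedding q x‖ < 1 := by
  rw [ValuationSubring.mem_nonunits_iff_or]
  by_cases hx : x = 0
  · simp [hx]
  · have h0 : 0 < ‖padicEmbedding q x‖ := by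
      rw [norm_pos_iff]
      exact (map_ne_zero _).mpr hx
    rw [mem_padicPlace_iff_norm, map_inv₀, norm_inv, not_le, one_lt_inv₀ h0]
    simp [hx]

/-- elements of `Gal(ℚ̄/hens q)` preserve the place -/
theorem map_mem_padicPlace {σ : GQ} (hσ : σ ∈ (hens q).fixingSubgroup) {x : Qbar}
    (hx : x ∈ padicPlace q) : σ x ∈ padicPlace q := by
  rw [mem_padicPlace_iff_norm] at hx ⊢
  rwa [norm_padicEmbedding_map q hσ]

theorem map_mem_nonunits_padicPlace {σ : GQ} (hσ : σ ∈ (hens q).fixingSubgroup) {x : Qbar}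
    (hx : x ∈ (padicPlace q).nonunits) : σ x ∈ (padicPlace q).nonunits := by
  rw [mem_nonunits_padicPlace_iff_norm] at hx ⊢
  rwa [norm_padicEmbedding_map q hσ]

theorem norm_padicEmbedding_natCast_self : ‖padicEmbedding q (q : Qbar)‖ = (q : ℝ)⁻¹ := by
  rw [map_natCast]
  have : ((q : ℕ) : PadicAlgCl q) = algebraMap ℚ_[q] (PadicAlgCl q) (q : ℚ_[q]) := by
    rw [map_natCast]
  rw [this]
  have h := PadicAlgCl.norm_extends q (q : ℚ_[q])
  rw [Padic.norm_p] at h
  exact h

theorem padicPlace_liesOverPrime : (padicPlace q).LiesOverPrime q := by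
  unfold ValuationSubring.LiesOverPrime
  rw [mem_nonunits_padicPlace_iff_norm, norm_padicEmbedding_natCast_self]
  have : (1 : ℝ) < q := by exact_mod_cast (Fact.out : q.Prime).one_lt
  exact inv_lt_one_of_one_lt₀ this

/-- units of `OO q F` are the elements of norm one. -/
theorem isUnit_OO_iff (F : IntermediateField ℚ Qbar) (a : OO q F) :
    IsUnit a ↔ ‖padicEmbedding q ((a : F) : Qbar)‖ = 1 := by
  have ha : ‖padicEmbedding q ((a : F) : Qbar)‖ ≤ 1 := (mem_padicPlace_iff_norm q).mp a.2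
  constructor
  · rintro ⟨u, rfl⟩
    have h1 : ‖padicEmbedding q (((u⁻¹ : (OO q F)ˣ) : OO q F) : F)‖ ≤ 1 :=
      (mem_padicPlace_iff_norm q).mp ((u⁻¹ : (OO q F)ˣ) : OO q F).2
    have h2 : ‖padicEmbedding q (((u : (OO q F)ˣ) : OO q F) : F)‖ *
        ‖padicEmbedding q (((u⁻¹ : (OO q F)ˣ) : OO q F) : F)‖ = 1 := by
      rw [← norm_mul, ← map_mul]
      have : ((((u : (OO q F)ˣ) : OO q F) : F) : Qbar) * ((((u⁻¹ : (OO q F)ˣ) : OO q F) : F) : Qbar)
          = 1 := by
        have h3 : ((u : (OO q F)ˣ) : OO q F) * ((u⁻¹ : (OO q F)ˣ) : OO q F) = 1 := u.mul_inv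
        have h4 := congrArg (fun z : OO q F => ((z : F) : Qbar)) h3
        exact h4
      rw [this, map_one, norm_one]
    have h0 := norm_nonneg (padicEmbedding q (((u : (OO q F)ˣ) : OO q F) : F))
    nlinarith
  · intro h
    have hinv : ((a : F)⁻¹ : F) ∈ OO q F := by
      rw [mem_OO_iff, mem_padicPlace_iff_norm]
      push_cast
      rw [map_inv₀, norm_inv, h, inv_one]
    have hne : (a : F) ≠ 0 := by
      intro h0
      rw [h0] at h
      simp at h
    refine IsUnit.of_mul_eq_one (⟨(a : F)⁻¹, hinv⟩ : OO q F) ?_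
    apply Subtype.ext
    exact mul_inv_cancel₀ hne

theorem mem_maximalIdeal_OO_iff (F : IntermediateField ℚ Qbar) (a : OO q F) :
    a ∈ maximalIdeal (OO q F) ↔ ‖padicEmbedding q ((a : F) : Qbar)‖ < 1 := by
  have ha : ‖padicEmbedding q ((a : F) : Qbar)‖ ≤ 1 := (mem_padicPlace_iff_norm q).mp a.2
  rw [mem_maximalIdeal, mem_nonunits_iff, isUnit_OO_iff]
  exact ⟨fun h => lt_of_le_of_ne ha h, fun h => h.ne⟩

theorem exists_padic_of_hens (x : hens q) :
    ∃ y : ℚ_[q], algebraMap ℚ_[q] (PadicAlgCl q) y = padicEmbedding q (x : Qbar) ∧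
      ‖y‖ = ‖padicEmbedding q (x : Qbar)‖ := by
  obtain ⟨y, hy⟩ := (mem_hens_iff q x).mp x.2
  exact ⟨y, hy, by rw [← hy]; exact (PadicAlgCl.norm_extends q y).symm⟩

theorem natCast_mem_OO (F : IntermediateField ℚ Qbar) (n : ℕ) : (n : F) ∈ OO q F :=
  natCast_mem _ n

theorem norm_le_inv_of_lt_one (x : hens q) (hx : ‖padicEmbedding q (x : Qbar)‖ < 1) :
    ‖padicEmbedding q (x : Qbar)‖ ≤ (q : ℝ)⁻¹ := by
  obtain ⟨y, -, hy⟩ := exists_padic_of_hens q x
  rw [← hy] at hx ⊢
  have := (Padic.norm_le_pow_iff_norm_lt_pow_add_one y (-1)).mpr (by simpa using hx)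
  simpa using this

theorem irreducible_q_hens : Irreducible (⟨(q : hens q), natCast_mem_OO q _ q⟩ : OO q (hens q)) := by
  have hq1 : (1 : ℝ) < q := by exact_mod_cast (Fact.out : q.Prime).one_lt
  have hq0 : (0 : ℝ) < q := by linarith
  have hnorm : ‖padicEmbedding q (((q : hens q)) : Qbar)‖ = (q : ℝ)⁻¹ := by
    have := norm_padicEmbedding_natCast_self q
    simpa using this
  constructor
  · rw [isUnit_OO_iff]
    change ¬ ‖padicEmbedding q (((q : hens q)) : Qbar)‖ = 1
    rw [hnorm]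
    exact (inv_lt_one_of_one_lt₀ hq1).ne
  · intro a b hab
    by_contra hcon
    push Not at hcon
    obtain ⟨ha, hb⟩ := hcon
    have ha' := norm_le_inv_of_lt_one q a ((mem_maximalIdeal_OO_iff q _ a).mp ha)
    have hb' := norm_le_inv_of_lt_one q b ((mem_maximalIdeal_OO_iff q _ b).mp hb)
    have h1 : ‖padicEmbedding q (((q : hens q)) : Qbar)‖ =
        ‖padicEmbedding q ((a : hens q) : Qbar)‖ * ‖padicEmbedding q ((b : hens q) : Qbar)‖ := by
      rw [← norm_mul, ← map_mul]
      have h2 := congrArg (fun z : OO q (hens q) => ((z : hens q) : Qbar)) hab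
      exact congrArg (fun z => ‖padicEmbedding q z‖) h2
    rw [hnorm] at h1
    have h3 : ‖padicEmbedding q ((a : hens q) : Qbar)‖ * ‖padicEmbedding q ((b : hens q) : Qbar)‖ ≤
        (q : ℝ)⁻¹ * (q : ℝ)⁻¹ := mul_le_mul ha' hb' (norm_nonneg _) (by positivity)
    have h4 : (q : ℝ)⁻¹ * (q : ℝ)⁻¹ < (q : ℝ)⁻¹ * 1 :=
      mul_lt_mul_of_pos_left (inv_lt_one_of_one_lt₀ hq1) (by positivity)
    linarith

/-- `q` is a uniformiser of `hens q` -/
theorem isUnif_hens : IsUnif (OO q (hens q)) (q : hens q) :=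
  ⟨natCast_mem_OO q _ q, irreducible_q_hens q⟩

theorem associated_pow_hens (x : OO q (hens q)) (hx : x ≠ 0) :
    ∃ n : ℕ, Associated ((⟨(q : hens q), natCast_mem_OO q _ q⟩ : OO q (hens q)) ^ n) x := by
  have hq1 : (1 : ℝ) < q := by exact_mod_cast (Fact.out : q.Prime).one_lt
  have hq0 : (0 : ℝ) < q := by linarith
  obtain ⟨y, hy1, hy⟩ := exists_padic_of_hens q (x : hens q)
  have hx1 : ‖padicEmbedding q ((x : hens q) : Qbar)‖ ≤ 1 := (mem_padicPlace_iff_norm q).mp x.2
  have hx0 : ((x : hens q) : Qbar) ≠ 0 := by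
    intro h
    apply hx
    apply Subtype.ext
    apply Subtype.ext
    exact h
  have hy0 : y ≠ 0 := by
    intro h
    rw [h, norm_zero] at hy
    exact hx0 ((map_eq_zero _).mp (norm_eq_zero.mp hy.symm))
  have hval : 0 ≤ y.valuation := (Padic.norm_le_one_iff_val_nonneg y).mp (hy ▸ hx1)
  obtain ⟨n, hn⟩ := Int.eq_ofNat_of_zero_le hval
  have hnorm : ‖padicEmbedding q ((x : hens q) : Qbar)‖ = ((q : ℝ) ^ n)⁻¹ := by
    rw [← hy, Padic.norm_eq_zpow_neg_valuation hy0, hn, zpow_neg, zpow_natCast]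
  have hqne : (q : hens q) ≠ 0 := by
    exact_mod_cast (Fact.out : q.Prime).ne_zero
  -- the unit
  have hu : ‖padicEmbedding q ((((x : hens q) / (q : hens q) ^ n : hens q)) : Qbar)‖ = 1 := by
    push_cast
    rw [map_div₀, norm_div, hnorm, map_pow, norm_pow, norm_padicEmbedding_natCast_self, inv_pow]
    exact div_self (by positivity)
  have humem : ((x : hens q) / (q : hens q) ^ n : hens q) ∈ OO q (hens q) := by
    rw [mem_OO_iff, mem_padicPlace_iff_norm, hu]
  have hunit : IsUnit (⟨_, humem⟩ : OO q (hens q)) := (isUnit_OO_iff q _ _).mpr hu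
  obtain ⟨u, hu'⟩ := hunit
  refine ⟨n, u, ?_⟩
  rw [hu']
  apply Subtype.ext
  change (q : hens q) ^ n * ((x : hens q) / (q : hens q) ^ n) = x
  field_simp

theorem isDiscreteValuationRing_hens : IsDiscreteValuationRing (OO q (hens q)) :=
  IsDiscreteValuationRing.ofHasUnitMulPowIrreducibleFactorization
    ⟨_, irreducible_q_hens q, fun {x} hx => associated_pow_hens q x hx⟩

theorem exists_nat_sub_mem_maximalIdeal_hens (x : OO q (hens q)) :
    ∃ n : ℕ, x - (n : OO q (hens q)) ∈ maximalIdeal (OO q (hens q)) := by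
  obtain ⟨y, hy1, hy⟩ := exists_padic_of_hens q (x : hens q)
  have hx1 : ‖padicEmbedding q ((x : hens q) : Qbar)‖ ≤ 1 := (mem_padicPlace_iff_norm q).mp x.2
  have hy1' : ‖y‖ ≤ 1 := hy ▸ hx1
  obtain ⟨n, -, hn⟩ := PadicInt.exists_mem_range (p := q) (⟨y, hy1'⟩ : ℤ_[q])
  refine ⟨n, ?_⟩
  rw [PadicInt.maximalIdeal_eq_span_p, Ideal.mem_span_singleton, ← PadicInt.norm_lt_one_iff_dvd]
    at hn
  rw [mem_maximalIdeal_OO_iff]
  have h1 : padicEmbedding q (((x - (n : OO q (hens q)) : OO q (hens q)) : hens q) : Qbar) =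
      algebraMap ℚ_[q] (PadicAlgCl q) (y - n) := by
    rw [map_sub (algebraMap ℚ_[q] (PadicAlgCl q)), hy1, map_natCast]
    push_cast
    rw [map_sub, map_natCast]
  rw [h1]
  have h2 := PadicAlgCl.norm_extends q (y - n)
  refine lt_of_eq_of_lt h2 ?_
  rw [PadicInt.norm_def] at hn
  exact hn

theorem card_residueField_hens : Nat.card (ResidueField (OO q (hens q))) = q := by
  have hq0 : ((q : ℕ) : ResidueField (OO q (hens q))) = 0 := by
    have h1 : ((q : ℕ) : OO q (hens q)) ∈ maximalIdeal (OO q (hens q)) := by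
      rw [mem_maximalIdeal_OO_iff]
      push_cast
      rw [norm_padicEmbedding_natCast_self]
      have : (1 : ℝ) < q := by exact_mod_cast (Fact.out : q.Prime).one_lt
      exact inv_lt_one_of_one_lt₀ this
    have h2 := (residue_eq_zero_iff _).mpr h1
    rwa [map_natCast] at h2
  have : CharP (ResidueField (OO q (hens q))) q :=
    (CharP.charP_iff_prime_eq_zero (Fact.out : q.Prime)).mpr hq0
  let f : ZMod q →+* ResidueField (OO q (hens q)) := ZMod.castHom (dvd_refl q) _
  have hf : Function.Bijective f := by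
    refine ⟨f.injective, fun z => ?_⟩
    obtain ⟨x, rfl⟩ := residue_surjective z
    obtain ⟨n, hn⟩ := exists_nat_sub_mem_maximalIdeal_hens q x
    refine ⟨(n : ZMod q), ?_⟩
    rw [map_natCast]
    have h2 := (residue_eq_zero_iff _).mpr hn
    rw [map_sub, map_natCast, sub_eq_zero] at h2
    exact h2.symm
  rw [← Nat.card_congr (Equiv.ofBijective f hf), Nat.card_zmod]

end Fermat.Agent.S55.L
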