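import Fermat.Agent.S55.L.B2bAux

/-!
# S55, L-B2b: Hensel's lemma for `OO q F` by Galois theory
-/

set_option autoImplicit false

namespace Fermat.Agent.S55.L

open IsLocalRing Polynomial

theorem b2b_exists_mem_nonunits_of_prod {K : Type*} [Field K] (A : ValuationSubring K)
    (s : Multiset K) (hs : ∀ x ∈ s, x ∈ A) (hp : s.prod ∈ A.nonunits) :
    ∃ x ∈ s, x ∈ A.nonunits := by
  induction s using Multiset.induction_on with
  | empty => simp [ValuationSubring.mem_nonunits_iff] at hp
  | cons a t ih =>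
    rw [Multiset.prod_cons, ValuationSubring.mem_nonunits_iff, map_mul] at hp
    by_cases ha : a ∈ A.nonunits
    · exact ⟨a, Multiset.mem_cons_self _ _, ha⟩
    · have ha1 : A.valuation a = 1 := by
        have h1 : A.valuation a ≤ 1 :=
          (A.valuation_le_one_iff a).2 (hs a (Multiset.mem_cons_self _ _))
        rw [ValuationSubring.mem_nonunits_iff, not_lt] at ha
        exact le_antisymm h1 ha
      rw [ha1, one_mul] at hp
      obtain ⟨x, hx, hx'⟩ := ih (fun x hx => hs x (Multiset.mem_cons_of_mem hx))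
        ((A.mem_nonunits_iff).2 hp)
      exact ⟨x, Multiset.mem_cons_of_mem hx, hx'⟩

theorem b2b_isUnit_add {R : Type*} [CommRing R] [IsLocalRing R] {u m : R} (hu : IsUnit u)
    (hm : m ∈ maximalIdeal R) : IsUnit (u + m) := by
  by_contra h
  have h1 : u + m ∈ maximalIdeal R := (mem_maximalIdeal _).2 h
  have h2 : u ∈ maximalIdeal R := by
    have := Ideal.sub_mem _ h1 hm
    simpa using this
  exact (mem_maximalIdeal _).1 h2 hu

/-- a simple root is the only root in its residue class -/
theorem b2b_root_unique {R : Type*} [CommRing R] [IsLocalRing R] (g : R[X]) {α β : R}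
    (hα : g.eval α = 0) (hβ : g.eval β = 0) (hαβ : β - α ∈ maximalIdeal R)
    (hu : IsUnit (g.derivative.eval α)) : β = α := by
  obtain ⟨k, hk⟩ := g.binomExpansion α (β - α)
  rw [add_sub_cancel, hα, hβ] at hk
  have h1 : (g.derivative.eval α + k * (β - α)) * (β - α) = 0 := by
    linear_combination -hk
  have h2 : IsUnit (g.derivative.eval α + k * (β - α)) :=
    b2b_isUnit_add hu (Ideal.mul_mem_left _ _ hαβ)
  exact sub_eq_zero.1 ((h2.mul_right_eq_zero).1 h1)

theorem b2b_isUnit_eval_of_sub_mem {R : Type*} [CommRing R] [IsLocalRing R] (g : R[X]) {a b : R}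
    (hab : b - a ∈ maximalIdeal R) (hu : IsUnit (g.eval a)) : IsUnit (g.eval b) := by
  have h1 : g.eval b - g.eval a ∈ maximalIdeal R := by
    obtain ⟨c, hc⟩ := g.sub_dvd_eval_sub b a
    rw [hc]
    exact Ideal.mul_mem_right _ _ hab
  have := b2b_isUnit_add hu h1
  simpa using this

variable {q : ℕ} [Fact q.Prime]

/-- the inclusion `OO q F → padicPlace q` -/
noncomputable def b2bIncl (F : IntermediateField ℚ Qbar) : OO q F →+* padicPlace q :=
  RingHom.codRestrict ((algebraMap F Qbar).comp (OO q F).subtype) (padicPlace q) (fun x => x.2)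

theorem b2bIncl_coe (F : IntermediateField ℚ Qbar) (x : OO q F) :
    ((b2bIncl F x : padicPlace q) : Qbar) = ((x : F) : Qbar) := rfl

theorem b2bIncl_mem_maximalIdeal_iff (F : IntermediateField ℚ Qbar) (x : OO q F) :
    b2bIncl F x ∈ maximalIdeal (padicPlace q) ↔ x ∈ maximalIdeal (OO q F) := by
  rw [b2b_mem_maximalIdeal_iff, ← ValuationSubring.coe_mem_nonunits_iff, b2bIncl_coe]

theorem b2b_isGalois_rat : IsGalois ℚ Qbar :=
  @IsAlgClosure.isGalois ℚ (AlgebraicClosure ℚ) _ _ (AlgebraicClosure.instAlgebra ℚ) _ _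

theorem b2b_mem_of_fixed (F : IntermediateField ℚ Qbar) {α : Qbar}
    (h : ∀ σ ∈ F.fixingSubgroup, σ α = α) : α ∈ F := by
  haveI := b2b_isGalois_rat
  rw [← InfiniteGalois.fixedField_fixingSubgroup F, IntermediateField.mem_fixedField_iff]
  exact h

theorem b2b_henselianLocalRing {F : IntermediateField ℚ Qbar} (hF : hens q ≤ F) :
    HenselianLocalRing (OO q F) := by
  refine { is_henselian := ?_ }
  intro f hf a₀ h₁ h₂
  set A := padicPlace q with hA
  set ι : OO q F →+* A := b2bIncl F with hι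
  set g : A[X] := f.map ι with hg
  set gQ : Qbar[X] := g.map A.subtype with hgQ
  have hgm : g.Monic := hf.map _
  have hgQm : gQ.Monic := hgm.map _
  have hsplit : gQ.Splits := IsAlgClosed.splits _
  -- the roots of `f` lie in the place
  have hroots : ∀ α ∈ gQ.roots, α ∈ A := by
    intro α hα
    have h0 : eval₂ A.subtype α g = 0 := by
      have := (mem_roots'.1 hα).2
      rwa [IsRoot.def, eval_map] at this
    have hint : IsIntegral A α := ⟨g, hgm, h0⟩
    obtain ⟨y, rfl⟩ := IsIntegrallyClosed.isIntegral_iff.1 hint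
    exact y.2
  have hevQ : ∀ y : A, gQ.eval (y : Qbar) = ((g.eval y : A) : Qbar) := fun y => by
    rw [hgQ, eval_map]
    exact eval₂_at_apply A.subtype y
  have hevg : ∀ a : OO q F, g.eval (ι a) = ι (f.eval a) := fun a => by
    rw [hg, eval_map, eval₂_at_apply]
  have hevg' : ∀ a : OO q F, g.derivative.eval (ι a) = ι (f.derivative.eval a) := fun a => by
    rw [hg, derivative_map, eval_map, eval₂_at_apply]
  -- one of them reduces to `a₀`
  have hev : gQ.eval ((ι a₀ : A) : Qbar) ∈ A.nonunits := by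
    rw [hevQ, hevg, ValuationSubring.coe_mem_nonunits_iff, b2bIncl_mem_maximalIdeal_iff]
    exact h₁
  rw [hsplit.eval_eq_prod_roots_of_monic hgQm] at hev
  obtain ⟨d, hd, hdn⟩ := b2b_exists_mem_nonunits_of_prod A _ (by
    intro x hx
    obtain ⟨r, hr, rfl⟩ := Multiset.mem_map.1 hx
    exact A.sub_mem (ι a₀).2 (hroots r hr)) hev
  obtain ⟨α, hα, rfl⟩ := Multiset.mem_map.1 hd
  have hαA : α ∈ A := hroots α hα
  set α' : A := ⟨α, hαA⟩ with hα'
  have hαroot : g.eval α' = 0 := by
    apply Subtype.val_injective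
    rw [← hevQ]
    exact (mem_roots'.1 hα).2
  have hαa₀ : α' - ι a₀ ∈ maximalIdeal A := by
    rw [← ValuationSubring.coe_mem_nonunits_iff]
    have : ((α' - ι a₀ : A) : Qbar) = -(((ι a₀ : A) : Qbar) - α) := by
      simp [hα']
    rw [this]
    exact neg_mem hdn
  have hαu : IsUnit (g.derivative.eval α') := by
    refine b2b_isUnit_eval_of_sub_mem _ hαa₀ ?_
    rw [hevg']
    exact h₂.map ι
  -- `α` is fixed by `Gal(ℚ̄ / F)`
  have hfix : ∀ σ ∈ F.fixingSubgroup, σ α = α := by
    intro σ hσ
    have hσ' : σ ∈ (hens q).fixingSubgroup := IntermediateField.fixingSubgroup_antitone hF hσ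
    have hσαA : σ α ∈ A := map_mem_padicPlace q hσ' hαA
    set β' : A := ⟨σ α, hσαA⟩ with hβ'
    have hσa₀ : σ ((ι a₀ : A) : Qbar) = ((ι a₀ : A) : Qbar) :=
      (IntermediateField.mem_fixingSubgroup_iff _ _).1 hσ _ (a₀ : F).2
    have hβroot : g.eval β' = 0 := by
      apply Subtype.val_injective
      rw [← hevQ]
      have hgQσ : gQ.map (σ : Qbar →+* Qbar) = gQ := by
        have hcomp : ((σ : Qbar →+* Qbar).comp (A.subtype.comp ι)) = A.subtype.comp ι := by
          ext x
          exact (IntermediateField.mem_fixingSubgroup_iff _ _).1 hσ _ (x : F).2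
        rw [hgQ, hg, Polynomial.map_map, Polynomial.map_map, RingHom.comp_assoc, hcomp,
          Polynomial.map_map]
      have h6 : gQ.eval (σ α) = σ (gQ.eval α) := by
        conv_lhs => rw [← hgQσ, eval_map]
        exact eval₂_at_apply (σ : Qbar →+* Qbar) α
      show gQ.eval (σ α) = 0
      rw [h6, (mem_roots'.1 hα).2, map_zero]
    have hβα : β' - α' ∈ maximalIdeal A := by
      have h5 : β' - ι a₀ ∈ maximalIdeal A := by
        rw [← ValuationSubring.coe_mem_nonunits_iff]
        have : ((β' - ι a₀ : A) : Qbar) = σ ((α' - ι a₀ : A) : Qbar) := by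
          simp [hβ', hα', hσa₀]
        rw [this]
        exact map_mem_nonunits_padicPlace q hσ' (ValuationSubring.coe_mem_nonunits_iff.2 hαa₀)
      have := Ideal.sub_mem _ h5 hαa₀
      simpa using this
    exact congrArg Subtype.val (b2b_root_unique g hαroot hβroot hβα hαu)
  have hαF : α ∈ F := b2b_mem_of_fixed F hfix
  have hιa : ι ⟨⟨α, hαF⟩, hαA⟩ = α' := Subtype.ext rfl
  have hιinj : Function.Injective ι := fun x y hxy =>
    Subtype.ext (Subtype.ext (congrArg (Subtype.val : A → Qbar) hxy))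
  refine ⟨⟨⟨α, hαF⟩, hαA⟩, ?_, ?_⟩
  · apply hιinj
    rw [← hevg, hιa, hαroot, map_zero]
  · rw [← b2bIncl_mem_maximalIdeal_iff, map_sub]
    exact hιa ▸ hαa₀

end Fermat.Agent.S55.L
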