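import Fermat.Agent.S55.L.B1Hens
import Fermat.Agent.S55.L.B2aGalois
import Fermat.Agent.S55.L.B2bHensel

/-! # L-B2: finite extensions of `hens q` are henselian local fields -/

set_option autoImplicit false

namespace Fermat.Agent.S55.L

open IsLocalRing

variable (q : ℕ) [Fact q.Prime]

variable {q} in
theorem IsLocalFieldAt.hens_le {F : IntermediateField ℚ Qbar} (hF : IsLocalFieldAt q F) :
    hens q ≤ F := by
  obtain ⟨K, -, rfl⟩ := hF
  exact le_sup_left

theorem isLocalFieldAt_hens : IsLocalFieldAt q (hens q) :=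
  ⟨⊥, inferInstance, by simp⟩

variable {q} in
theorem IsLocalFieldAt.sup {F : IntermediateField ℚ Qbar} (hF : IsLocalFieldAt q F)
    (K : IntermediateField ℚ Qbar) [FiniteDimensional ℚ K] : IsLocalFieldAt q (F ⊔ K) := by
  exact B2a.isLocalFieldAt_sup hF K

variable {q} in
/-- every intermediate field of a finite extension is again of the form `hens q ⊔ K` -/
theorem IsLocalFieldAt.of_le {F E : IntermediateField ℚ Qbar} (hE : IsLocalFieldAt q E)
    (hF : hens q ≤ F) (hFE : F ≤ E) : IsLocalFieldAt q F := by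
  exact B2a.isLocalFieldAt_of_le hE hF hFE

variable {q} in
theorem IsLocalFieldAt.finiteDimensional {F E : IntermediateField ℚ Qbar}
    (hF : IsLocalFieldAt q F) (hE : IsLocalFieldAt q E) (h : F ≤ E) :
    letI := (IntermediateField.inclusion h).toRingHom.toAlgebra
    FiniteDimensional F E := by
  exact B2a.finiteDimensional hF hE h

variable {q} in
theorem IsLocalFieldAt.finrank_eq_relIndex {F E : IntermediateField ℚ Qbar}
    (hF : IsLocalFieldAt q F) (hE : IsLocalFieldAt q E) (h : F ≤ E) :
    letI := (IntermediateField.inclusion h).toRingHom.toAlgebra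
    Module.finrank F E = (E.fixingSubgroup).relIndex F.fixingSubgroup := by
  exact B2a.finrank_eq_relIndex h

variable {q} in
theorem IsLocalFieldAt.localDegree_ne_zero {F : IntermediateField ℚ Qbar}
    (hF : IsLocalFieldAt q F) : localDegree q F ≠ 0 := by
  exact B2a.localDegree_ne_zero hF

variable {q} in
theorem IsLocalFieldAt.isGalois_iff {F E : IntermediateField ℚ Qbar}
    (hF : IsLocalFieldAt q F) (hE : IsLocalFieldAt q E) (h : F ≤ E) :
    letI := (IntermediateField.inclusion h).toRingHom.toAlgebra
    IsGalois F E ↔ ((E.fixingSubgroup).subgroupOf F.fixingSubgroup).Normal := by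
  exact B2a.isGalois_iff h

variable {q} in
/-- open subgroups of `Gal(ℚ̄/F)` are the `Gal(ℚ̄/E)` -/
theorem IsLocalFieldAt.exists_of_subgroup {F : IntermediateField ℚ Qbar}
    (hF : IsLocalFieldAt q F) (H : Subgroup GQ) (hH : H ≤ F.fixingSubgroup)
    (K : IntermediateField ℚ Qbar) [FiniteDimensional ℚ K]
    (hK : F.fixingSubgroup ⊓ K.fixingSubgroup ≤ H) :
    ∃ E : IntermediateField ℚ Qbar, IsLocalFieldAt q E ∧ F ≤ E ∧ E.fixingSubgroup = H := by
  exact B2a.exists_of_subgroup hF H hH K hK

variable {q} in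
/-- `O_F` is the integral closure of `O_{hens q}` : conjugates stay in the place -/
theorem IsLocalFieldAt.isHLFExt {F E : IntermediateField ℚ Qbar}
    (hF : IsLocalFieldAt q F) (hE : IsLocalFieldAt q E) (h : F ≤ E) :
    letI := (IntermediateField.inclusion h).toRingHom.toAlgebra
    IsHLFExt (OO q F) (OO q E) :=
  b2b_isHLFExt hF.hens_le h

variable {q} in
theorem IsLocalFieldAt.isDiscreteValuationRing {F : IntermediateField ℚ Qbar}
    (hF : IsLocalFieldAt q F) : IsDiscreteValuationRing (OO q F) :=
  b2b_isDiscreteValuationRing hF.hens_le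
    ((isLocalFieldAt_hens q).finiteDimensional hF hF.hens_le)

variable {q} in
theorem IsLocalFieldAt.finite_residueField {F : IntermediateField ℚ Qbar}
    (hF : IsLocalFieldAt q F) : Finite (ResidueField (OO q F)) :=
  b2b_finite_residueField hF.hens_le
    ((isLocalFieldAt_hens q).finiteDimensional hF hF.hens_le)

variable {q} in
/-- **Hensel's lemma by Galois theory.**  `f ∈ O_F[X]` monic with a simple root `ā` mod `𝔪`:
exactly one root `α ∈ ℚ̄` of `f` reduces to `ā`; every `σ ∈ Gal(ℚ̄/F)` preserves the place and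
fixes `ā`, hence fixes `α`. -/
theorem IsLocalFieldAt.henselianLocalRing {F : IntermediateField ℚ Qbar}
    (hF : IsLocalFieldAt q F) : HenselianLocalRing (OO q F) :=
  b2b_henselianLocalRing hF.hens_le

variable {q} in
theorem IsLocalFieldAt.isHLF {F : IntermediateField ℚ Qbar}
    (hF : IsLocalFieldAt q F) : IsHLF (OO q F) :=
  ⟨hF.isDiscreteValuationRing, hF.finite_residueField, hF.henselianLocalRing⟩

variable {q} in
theorem IsLocalFieldAt.card_quot_q {F : IntermediateField ℚ Qbar} (hF : IsLocalFieldAt q F) :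
    Nat.card (OO q F ⧸ Ideal.span {(q : OO q F)}) = q ^ localDegree q F := by
  rw [b2b_card_quot hF.hens_le ((isLocalFieldAt_hens q).finiteDimensional hF hF.hens_le),
    (isLocalFieldAt_hens q).finrank_eq_relIndex hF hF.hens_le]
  rfl

variable {q} in
theorem IsLocalFieldAt.isUnit_natCast {F : IntermediateField ℚ Qbar} (hF : IsLocalFieldAt q F)
    {p : ℕ} (hp : p.Prime) (hpq : p ≠ q) : IsUnit (p : OO q F) :=
  b2b_isUnit_natCast F hp hpq

end Fermat.Agent.S55.L
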