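import Fermat.Agent.S55.L.Defs

/-!
# S55, block L: auxiliary results on `IsHLFExt` (integral closure plumbing)

`IsHLFExt O OE` makes `OE` the integral closure of `O` in `E`.  If `O` is a discrete valuation
ring and `E / F` is finite (characteristic zero), then `OE` is a finite free `O`-module of rank
`[E : F]`, a discrete valuation ring, with finite residue field if `O` has one.
-/

set_option autoImplicit false

namespace Fermat.Agent.S55.L

open IsLocalRing

variable {F E : Type} [Field F] [Field E] [Algebra F E]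
  {O : ValuationSubring F} {OE : ValuationSubring E}

namespace IsHLFExt

theorem aux_algebraMap_mem_iff (h : IsHLFExt O OE) (x : F) :
    algebraMap F E x ∈ OE ↔ x ∈ O := by
  rw [← h.comap_eq]; rfl

/-- The inclusion `O → OE`. -/
def auxHom (h : IsHLFExt O OE) : O →+* OE :=
  RingHom.codRestrict ((algebraMap F E).comp O.subtype) OE
    (fun a => (h.aux_algebraMap_mem_iff a).2 a.2)

/-- `OE` as an `O`-algebra. -/
@[reducible] def auxAlgebra (h : IsHLFExt O OE) : Algebra O OE := h.auxHom.toAlgebra

theorem aux_isScalarTower (h : IsHLFExt O OE) :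
    letI := h.auxAlgebra
    IsScalarTower O OE E :=
  letI := h.auxAlgebra
  IsScalarTower.of_algebraMap_eq (fun _ => rfl)

theorem aux_mem_iff_isIntegral (h : IsHLFExt O OE) (x : E) : x ∈ OE ↔ IsIntegral O x := by
  refine ⟨h.isIntegral x, fun hx => ?_⟩
  letI := h.auxAlgebra
  haveI := h.aux_isScalarTower
  have h1 : IsIntegral OE x := hx.tower_top
  obtain ⟨y, rfl⟩ := IsIntegrallyClosed.isIntegral_iff.1 h1
  exact y.2

theorem aux_isIntegralClosure (h : IsHLFExt O OE) :
    letI := h.auxAlgebra
    IsIntegralClosure OE O E :=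
  letI := h.auxAlgebra
  { algebraMap_injective := Subtype.val_injective
    isIntegral_iff := fun {x} =>
      ⟨fun hx => ⟨⟨x, (h.aux_mem_iff_isIntegral x).2 hx⟩, rfl⟩,
        fun ⟨y, hy⟩ => hy ▸ h.isIntegral _ y.2⟩ }

theorem aux_isLocalHom (h : IsHLFExt O OE) : IsLocalHom h.auxHom := by
  constructor
  intro a ha
  by_cases ha0 : a = 0
  · subst ha0
    rw [map_zero] at ha
    exact absurd ha not_isUnit_zero
  obtain ⟨b, hb⟩ := ha.exists_right_inv
  have hb' : algebraMap F E (a : F) * (b : E) = 1 := congrArg Subtype.val hb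
  have ha0' : (a : F) ≠ 0 := fun h0 => ha0 (Subtype.ext h0)
  have hbe : (b : E) = algebraMap F E ((a : F)⁻¹) := by
    rw [map_inv₀]
    exact eq_inv_of_mul_eq_one_right hb'
  have hmem : (a : F)⁻¹ ∈ O := (h.aux_algebraMap_mem_iff _).1 (hbe ▸ b.2)
  exact IsUnit.of_mul_eq_one ⟨_, hmem⟩ (Subtype.ext (mul_inv_cancel₀ ha0'))

theorem aux_not_isField (h : IsHLFExt O OE) (hO : ¬ IsField O) : ¬ IsField OE := by
  intro hf
  apply hO
  refine ⟨⟨0, 1, zero_ne_one⟩, mul_comm, ?_⟩
  intro a ha
  have h1 : h.auxHom a ≠ 0 := by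
    intro h0
    apply ha
    have : algebraMap F E (a : F) = 0 := congrArg Subtype.val h0
    exact Subtype.ext ((map_eq_zero _).1 this)
  have h2 : IsUnit (h.auxHom a) := by
    obtain ⟨b, hb⟩ := hf.mul_inv_cancel h1
    exact IsUnit.of_mul_eq_one b hb
  haveI := h.aux_isLocalHom
  exact (isUnit_of_map_unit h.auxHom a h2).exists_right_inv

theorem aux_isTorsionFree (O : ValuationSubring F) : Module.IsTorsionFree O E :=
  Module.IsTorsionFree.trans F

section finite

variable [CharZero F] [FiniteDimensional F E] [IsDiscreteValuationRing O]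

theorem aux_finite (h : IsHLFExt O OE) :
    letI := h.auxAlgebra
    Module.Finite O OE :=
  letI := h.auxAlgebra
  haveI := h.aux_isScalarTower
  haveI := h.aux_isIntegralClosure
  IsIntegralClosure.finite O F E OE

theorem aux_free (h : IsHLFExt O OE) :
    letI := h.auxAlgebra
    Module.Free O OE :=
  letI := h.auxAlgebra
  haveI := h.aux_isScalarTower
  haveI := h.aux_isIntegralClosure
  haveI : Module.IsTorsionFree O E := aux_isTorsionFree O
  IsIntegralClosure.module_free O F E OE

theorem aux_finrank (h : IsHLFExt O OE) :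
    letI := h.auxAlgebra
    Module.finrank O OE = Module.finrank F E :=
  letI := h.auxAlgebra
  haveI := h.aux_isScalarTower
  haveI := h.aux_isIntegralClosure
  haveI : Module.IsTorsionFree O E := aux_isTorsionFree O
  IsIntegralClosure.rank O F E OE

theorem aux_isNoetherianRing (h : IsHLFExt O OE) : IsNoetherianRing OE := by
  letI := h.auxAlgebra
  haveI := h.aux_finite
  exact IsNoetherianRing.of_finite O OE

theorem aux_isDiscreteValuationRing (h : IsHLFExt O OE) : IsDiscreteValuationRing OE := by
  haveI := h.aux_isNoetherianRing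
  have hnf : ¬ IsField OE := h.aux_not_isField (IsDiscreteValuationRing.not_isField O)
  exact ((IsDiscreteValuationRing.TFAE OE hnf).out 0 1).2 (inferInstance : ValuationRing OE)

theorem aux_finite_residueField (h : IsHLFExt O OE) [Finite (ResidueField O)] :
    Finite (ResidueField OE) := by
  letI := h.auxAlgebra
  haveI := h.aux_finite
  haveI : IsLocalHom (algebraMap O OE) := h.aux_isLocalHom
  exact Module.finite_of_finite (ResidueField O)

open scoped TensorProduct in
/-- `|OE / a OE| = |O / a O| ^ [E : F]`. -/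
theorem aux_card_quot (h : IsHLFExt O OE) (a : O) :
    Nat.card (OE ⧸ Ideal.span {h.auxHom a}) =
      Nat.card (O ⧸ Ideal.span {a}) ^ Module.finrank F E := by
  classical
  letI := h.auxAlgebra
  haveI := h.aux_finite
  haveI := h.aux_free
  set I : Ideal O := Ideal.span {a} with hI
  have e1 : Nat.card ((O ⧸ I) ⊗[O] OE) = Nat.card (O ⧸ I) ^ Module.finrank F E := by
    let b := Module.finBasis O OE
    have e := ((b.baseChange (O ⧸ I)).equivFun).toEquiv
    rw [Nat.card_congr e, Nat.card_fun, Nat.card_fin, h.aux_finrank]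
  have e2 : Nat.card ((O ⧸ I) ⊗[O] OE) = Nat.card (OE ⧸ (I • (⊤ : Submodule O OE))) :=
    Nat.card_congr (TensorProduct.quotTensorEquivQuotSMul OE I).toEquiv
  have e3 : (I • (⊤ : Submodule O OE)).toAddSubgroup
      = (Ideal.span {h.auxHom a} : Ideal OE).toAddSubgroup := by
    ext x
    simp only [Submodule.mem_toAddSubgroup]
    rw [hI, Ideal.mem_span_singleton', Submodule.ideal_span_singleton_smul,
      Submodule.mem_smul_pointwise_iff_exists]
    constructor
    · rintro ⟨y, -, rfl⟩
      exact ⟨y, mul_comm _ _⟩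
    · rintro ⟨y, rfl⟩
      exact ⟨y, Submodule.mem_top, mul_comm _ _⟩
  rw [← e1, e2]
  exact congrArg AddSubgroup.index e3.symm

end finite

end IsHLFExt

end Fermat.Agent.S55.L
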