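import Fermat.Agent.S55.L.B1Hens
import Fermat.Agent.S55.L.ExtAux

/-!
# S55, L-B2b: auxiliary results for the valuation rings `OO q F`
-/

set_option autoImplicit false

namespace Fermat.Agent.S55.L

open IsLocalRing Polynomial

variable (q : ℕ) [Fact q.Prime]

theorem b2b_isAlgClosure : IsAlgClosure ℚ Qbar :=
  ⟨inferInstance, AlgebraicClosure.isAlgebraic ℚ⟩

theorem b2b_normal_rat : Normal ℚ Qbar :=
  haveI := b2b_isAlgClosure
  IsAlgClosure.normal ℚ Qbar

theorem b2b_normal (F : IntermediateField ℚ Qbar) : Normal F Qbar :=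
  haveI := b2b_normal_rat
  Normal.tower_top_of_normal ℚ F Qbar

theorem b2b_isIntegral (F : IntermediateField ℚ Qbar) (x : Qbar) : IsIntegral F x :=
  haveI := b2b_normal F
  Normal.isIntegral ‹_› x

variable {q}

/-- conjugates over `F ⊇ hens q` of an element of the place stay in the place -/
theorem b2b_conj_mem {F : IntermediateField ℚ Qbar} (hF : hens q ≤ F) {x y : Qbar}
    (hx : x ∈ padicPlace q) (hy : aeval y (minpoly F x) = 0) : y ∈ padicPlace q := by
  haveI := b2b_normal F
  obtain ⟨σ, rfl⟩ := minpoly.exists_algEquiv_of_root' (b2b_isIntegral F x).isAlgebraic hy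
  have hσ : (σ.restrictScalars ℚ) ∈ (hens q).fixingSubgroup := by
    rw [IntermediateField.mem_fixingSubgroup_iff]
    intro z hz
    exact σ.commutes ⟨z, hF hz⟩
  exact map_mem_padicPlace q hσ hx

theorem b2b_minpoly_mem_lifts {F : IntermediateField ℚ Qbar} (hF : hens q ≤ F) {x : Qbar}
    (hx : x ∈ padicPlace q) :
    (minpoly F x).map (algebraMap F Qbar) ∈ Polynomial.lifts (padicPlace q).subtype := by
  refine Splits.mem_lift_of_roots_mem_range (IsAlgClosed.splits _)
    ((minpoly.monic (b2b_isIntegral F x)).map _) _ ?_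
  intro a ha
  have ha' : aeval a (minpoly F x) = 0 := by
    have := (mem_roots'.1 ha).2
    rwa [IsRoot.def, eval_map_algebraMap] at this
  exact ⟨⟨a, b2b_conj_mem hF hx ha'⟩, rfl⟩

theorem b2b_coeff_minpoly_mem {F : IntermediateField ℚ Qbar} (hF : hens q ≤ F) {x : Qbar}
    (hx : x ∈ padicPlace q) (n : ℕ) : (minpoly F x).coeff n ∈ OO q F := by
  have h := (Polynomial.lifts_iff_coeff_lifts _).1 (b2b_minpoly_mem_lifts hF hx) n
  obtain ⟨y, hy⟩ := h
  rw [coeff_map] at hy
  rw [mem_OO_iff]
  have : ((minpoly F x).coeff n : Qbar) = y := hy.symm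
  rw [this]
  exact y.2

/-- a monic polynomial over `OO q F` killing `x` -/
theorem b2b_exists_monic {F : IntermediateField ℚ Qbar} (hF : hens q ≤ F) {x : Qbar}
    (hx : x ∈ padicPlace q) :
    ∃ P : (OO q F)[X], P.Monic ∧ P.map (OO q F).subtype = minpoly F x := by
  have h1 : minpoly F x ∈ Polynomial.lifts (OO q F).subtype := by
    rw [Polynomial.lifts_iff_coeff_lifts]
    intro n
    exact ⟨⟨_, b2b_coeff_minpoly_mem hF hx n⟩, rfl⟩
  obtain ⟨P, hP, -, hPm⟩ := lifts_and_natDegree_eq_and_monic h1 (minpoly.monic (b2b_isIntegral F x))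
  exact ⟨P, hPm, hP⟩

theorem b2b_isHLFExt {F E : IntermediateField ℚ Qbar} (hF : hens q ≤ F) (h : F ≤ E) :
    letI := (IntermediateField.inclusion h).toRingHom.toAlgebra
    IsHLFExt (OO q F) (OO q E) := by
  letI := (IntermediateField.inclusion h).toRingHom.toAlgebra
  refine ⟨rfl, ?_⟩
  intro x hx
  obtain ⟨P, hPm, hP⟩ := b2b_exists_monic hF ((mem_OO_iff q E x).1 hx)
  refine ⟨P, hPm, ?_⟩
  apply (algebraMap E Qbar).injective
  rw [map_zero, Polynomial.hom_eval₂]
  have h2 : aeval (x : Qbar) (minpoly F (x : Qbar)) = 0 := minpoly.aeval _ _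
  rw [← hP, aeval_def, eval₂_map] at h2
  exact h2

/-! ### maximal ideals -/

theorem b2b_mem_nonunits_iff (F : IntermediateField ℚ Qbar) (x : F) :
    x ∈ (OO q F).nonunits ↔ (x : Qbar) ∈ (padicPlace q).nonunits := by
  rw [ValuationSubring.mem_nonunits_iff_or, ValuationSubring.mem_nonunits_iff_or, mem_OO_iff]
  simp

theorem b2b_mem_maximalIdeal_iff (F : IntermediateField ℚ Qbar) (x : OO q F) :
    x ∈ maximalIdeal (OO q F) ↔ ((x : F) : Qbar) ∈ (padicPlace q).nonunits := by
  rw [← ValuationSubring.coe_mem_nonunits_iff, b2b_mem_nonunits_iff]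

theorem b2b_natCast_mem_maximalIdeal (F : IntermediateField ℚ Qbar) :
    (q : OO q F) ∈ maximalIdeal (OO q F) := by
  rw [b2b_mem_maximalIdeal_iff]
  have := padicPlace_liesOverPrime q
  simpa [ValuationSubring.LiesOverPrime] using this

theorem b2b_isUnit_natCast (F : IntermediateField ℚ Qbar) {p : ℕ} (hp : p.Prime) (hpq : p ≠ q) :
    IsUnit (p : OO q F) := by
  by_contra hu
  have h1 : (p : OO q F) ∈ maximalIdeal (OO q F) := (mem_maximalIdeal _).2 hu
  have h2 := b2b_natCast_mem_maximalIdeal (q := q) F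
  have hcop : IsCoprime (p : ℤ) (q : ℤ) :=
    Nat.isCoprime_iff_coprime.2 ((Nat.coprime_primes hp (Fact.out : q.Prime)).2 hpq)
  obtain ⟨u, v, huv⟩ := hcop
  have h3 : ((u : OO q F) * (p : OO q F) + (v : OO q F) * (q : OO q F)) = 1 := by
    have := congrArg (Int.cast : ℤ → OO q F) huv
    push_cast at this
    exact this
  have h4 : (1 : OO q F) ∈ maximalIdeal (OO q F) :=
    h3 ▸ Ideal.add_mem _ (Ideal.mul_mem_left _ _ h1) (Ideal.mul_mem_left _ _ h2)
  exact (Ideal.ne_top_iff_one _).1 (maximalIdeal.isMaximal _).ne_top h4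

/-! ### DVR, residue field, `|O / q|` -/

section fd

variable {F : IntermediateField ℚ Qbar} (hF : hens q ≤ F)

theorem b2b_isDiscreteValuationRing
    (hfd : letI := (IntermediateField.inclusion hF).toRingHom.toAlgebra
      FiniteDimensional (hens q) F) : IsDiscreteValuationRing (OO q F) := by
  letI := (IntermediateField.inclusion hF).toRingHom.toAlgebra
  haveI := isDiscreteValuationRing_hens q
  exact (b2b_isHLFExt le_rfl hF).aux_isDiscreteValuationRing

theorem b2b_finite_residueField_hens : Finite (ResidueField (OO q (hens q))) :=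
  Nat.finite_of_card_ne_zero (by
    rw [card_residueField_hens]; exact (Fact.out : q.Prime).ne_zero)

theorem b2b_finite_residueField
    (hfd : letI := (IntermediateField.inclusion hF).toRingHom.toAlgebra
      FiniteDimensional (hens q) F) : Finite (ResidueField (OO q F)) := by
  letI := (IntermediateField.inclusion hF).toRingHom.toAlgebra
  haveI := isDiscreteValuationRing_hens q
  haveI := b2b_finite_residueField_hens (q := q)
  exact (b2b_isHLFExt le_rfl hF).aux_finite_residueField

theorem b2b_card_quot_hens :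
    Nat.card (OO q (hens q) ⧸ Ideal.span {(q : OO q (hens q))}) = q := by
  haveI := isDiscreteValuationRing_hens q
  obtain ⟨hmem, hirr⟩ := isUnif_hens q
  have h1 : (⟨(q : hens q), hmem⟩ : OO q (hens q)) = (q : OO q (hens q)) := Subtype.ext (by simp)
  rw [h1] at hirr
  rw [← (IsDiscreteValuationRing.irreducible_iff_uniformizer _).1 hirr]
  exact card_residueField_hens q

theorem b2b_card_quot
    (hfd : letI := (IntermediateField.inclusion hF).toRingHom.toAlgebra
      FiniteDimensional (hens q) F) :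
    letI := (IntermediateField.inclusion hF).toRingHom.toAlgebra
    Nat.card (OO q F ⧸ Ideal.span {(q : OO q F)}) = q ^ Module.finrank (hens q) F := by
  letI := (IntermediateField.inclusion hF).toRingHom.toAlgebra
  haveI := isDiscreteValuationRing_hens q
  have h := (b2b_isHLFExt le_rfl hF).aux_card_quot (q : OO q (hens q))
  rw [map_natCast, b2b_card_quot_hens] at h
  exact h

end fd

end Fermat.Agent.S55.L
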