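import Fermat.Prelude.Def_GaloisRep_CompletionBridge
import Fermat.Agent.S55.L.Defs

/-!
# S55, block L-B: the henselian local fields inside `ℚ̄`

`hens q = ℚ̄ ∩ ℚ_q` (with respect to the prelude's `padicEmbedding q`), its finite extensions
`F = hens q ⊔ K` (`K` a number field) and their valuation rings `OO q F = padicPlace q ∩ F`.
-/

set_option autoImplicit false

namespace Fermat.Agent.S55.L

abbrev Qbar : Type := AlgebraicClosure ℚ
abbrev GQ : Type := Qbar ≃ₐ[ℚ] Qbar

variable (q : ℕ) [Fact q.Prime]

/-- The henselisation of `ℚ` at `q` inside `ℚ̄`: the algebraic numbers lying in `ℚ_q`. -/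
noncomputable def hens : IntermediateField ℚ Qbar :=
  IntermediateField.comap (padicEmbedding q)
    ((⊥ : IntermediateField ℚ_[q] (PadicAlgCl q)).restrictScalars ℚ)

theorem mem_hens_iff (x : Qbar) :
    x ∈ hens q ↔ ∃ y : ℚ_[q], algebraMap ℚ_[q] (PadicAlgCl q) y = padicEmbedding q x := by
  show padicEmbedding q x ∈ (⊥ : IntermediateField ℚ_[q] (PadicAlgCl q)) ↔ _
  rw [IntermediateField.mem_bot]
  rfl

/-- The valuation ring of the subfield `F` of `ℚ̄` induced by the prelude's `padicPlace q`. -/
noncomputable def OO (F : IntermediateField ℚ Qbar) : ValuationSubring F :=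
  (padicPlace q).comap (algebraMap F Qbar)

theorem mem_OO_iff (F : IntermediateField ℚ Qbar) (x : F) :
    x ∈ OO q F ↔ (x : Qbar) ∈ padicPlace q := Iff.rfl

/-- `F` is a finite extension of `hens q`. -/
def IsLocalFieldAt (F : IntermediateField ℚ Qbar) : Prop :=
  ∃ K : IntermediateField ℚ Qbar, FiniteDimensional ℚ K ∧ F = hens q ⊔ K

/-- The local degree `[F : hens q]`, as an index of Galois groups. -/
noncomputable def localDegree (F : IntermediateField ℚ Qbar) : ℕ :=
  (F.fixingSubgroup).relIndex (hens q).fixingSubgroup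

end Fermat.Agent.S55.L
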