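import Fermat.Agent.S55.Fc.Basic

/-!
# S55, block L-C: cohomology of the subgroups of an ambient group

For an ambient group `Γ` with levels `L` and a `Γ`-module `ρ`:  `rs ρ U`, `HH1 L ρ U`,
`HH2 L ρ U` (cohomology of a subgroup `U`, with the induced levels `L.sub U`), `rres1`, `rres2`
(restriction for `V ≤ U`, functorial on the nose), `RelOpen L V U`;
`AU ρ U` : the `U`-invariants `A^U` as a submodule of `A`;  `Nm ρ s n = ∑_{i<n} s^i`.

The abstract cohomological lemmas are in `L/C0/*.lean` (helper87); the link is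
`rres2_eq_res` below: `rres2 L ρ h` IS `(PairHom.res (rs ρ U) (Subgroup.inclusion h) _).H2map`.
-/

set_option autoImplicit false

noncomputable section

namespace Fermat.Agent.S55.L

open Fermat.Agent.S55

variable {k : Type*} [CommRing k] {Γ : Type} [Group Γ] (L : Lev Γ)
variable {A : Type*} [AddCommGroup A] [Module k A] (ρ : Representation k Γ A)

/-- restriction of a representation to a subgroup -/
abbrev rs (U : Subgroup Γ) : Representation k U A := ρ.comp U.subtype

/-- `H¹(U, A)` for a subgroup `U` of the ambient group -/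
abbrev HH1 (U : Subgroup Γ) : Type _ := H1 (L.sub U) (rs ρ U)

/-- `H²(U, A)` for a subgroup `U` of the ambient group -/
abbrev HH2 (U : Subgroup Γ) : Type _ := H2 (L.sub U) (rs ρ U)

/-- `V` is open relative to `U` -/
def RelOpen (V U : Subgroup Γ) : Prop := ∃ W ∈ L.sets, W ⊓ U ≤ V

/-- the morphism of pairs giving the restriction from `U` to `V ≤ U` -/
def rpair {U V : Subgroup Γ} (h : V ≤ U) : PairHom (L.sub U) (L.sub V) (rs ρ U) (rs ρ V) :=
  ⟨Subgroup.inclusion h, LinearMap.id, (L.induced_inclusion h).1, fun _ _ => rfl⟩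

/-- restriction `H¹(U, A) → H¹(V, A)` -/
abbrev rres1 {U V : Subgroup Γ} (h : V ≤ U) : HH1 L ρ U →ₗ[k] HH1 L ρ V := (rpair L ρ h).H1map

/-- restriction `H²(U, A) → H²(V, A)` -/
abbrev rres2 {U V : Subgroup Γ} (h : V ≤ U) : HH2 L ρ U →ₗ[k] HH2 L ρ V := (rpair L ρ h).H2map

lemma rres2_rres2 {U V W : Subgroup Γ} (h : V ≤ U) (h' : W ≤ V) (x : HH2 L ρ U) :
    rres2 L ρ h' (rres2 L ρ h x) = rres2 L ρ (h'.trans h) x := by
  induction x using Submodule.Quotient.induction_on with
  | H x => rfl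

lemma rres1_rres1 {U V W : Subgroup Γ} (h : V ≤ U) (h' : W ≤ V) (x : HH1 L ρ U) :
    rres1 L ρ h' (rres1 L ρ h x) = rres1 L ρ (h'.trans h) x := by
  induction x using Submodule.Quotient.induction_on with
  | H x => rfl

lemma rres2_self {U : Subgroup Γ} (x : HH2 L ρ U) : rres2 L ρ (le_refl U) x = x := by
  induction x using Submodule.Quotient.induction_on with
  | H x => rfl

/-- link with `PairHom.res` (the form used in `L/C0/Bridge.lean`) -/
lemma rres2_eq_res {U V : Subgroup Γ} (h : V ≤ U) :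
    rres2 L ρ h =
      (PairHom.res (LH := L.sub V) (rs ρ U) (Subgroup.inclusion h)
        (L.induced_inclusion h).1).H2map := rfl

lemma rres1_eq_res {U V : Subgroup Γ} (h : V ≤ U) :
    rres1 L ρ h =
      (PairHom.res (LH := L.sub V) (rs ρ U) (Subgroup.inclusion h)
        (L.induced_inclusion h).1).H1map := rfl

lemma range_inclusion {V U : Subgroup Γ} (h : V ≤ U) :
    (Subgroup.inclusion h).range = V.subgroupOf U := by
  ext x
  constructor
  · rintro ⟨v, rfl⟩
    exact v.2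
  · intro hx
    exact ⟨⟨x.1, hx⟩, rfl⟩

variable {L} in
lemma RelOpen.isOpen_subgroupOf {V U : Subgroup Γ} (ho : RelOpen L V U) :
    (L.sub U).IsOpen (V.subgroupOf U) := by
  obtain ⟨W, hW, hWV⟩ := ho
  exact ⟨W.comap U.subtype, ⟨W, hW, rfl⟩, fun x hx => hWV ⟨hx, x.2⟩⟩

variable {L ρ} in
lemma isDiscrete_rs (hρ : IsDiscrete L ρ) (U : Subgroup Γ) : IsDiscrete (L.sub U) (rs ρ U) :=
  hρ.comp (L.cont_comap U.subtype)

/-- the invariants `A^U` as a submodule of `A` -/
def AU (U : Subgroup Γ) : Submodule k A where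
  carrier := {a | ∀ u ∈ U, ρ u a = a}
  add_mem' ha hb u hu := by rw [map_add, ha u hu, hb u hu]
  zero_mem' u _ := map_zero _
  smul_mem' c a ha u hu := by rw [map_smul, ha u hu]

lemma mem_AU {U : Subgroup Γ} {a : A} : a ∈ AU ρ U ↔ ∀ u ∈ U, ρ u a = a := Iff.rfl

lemma AU_mono {U V : Subgroup Γ} (h : V ≤ U) : AU ρ U ≤ AU ρ V := fun _ ha v hv => ha v (h hv)

lemma mem_invariants_rs {U : Subgroup Γ} {a : A} : a ∈ (rs ρ U).invariants ↔ a ∈ AU ρ U :=
  ⟨fun h u hu => h ⟨u, hu⟩, fun h u => h u.1 u.2⟩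

/-- the norm `∑_{i<n} s^i` -/
def Nm (s : Γ) (n : ℕ) : A →ₗ[k] A := ∑ i ∈ Finset.range n, ρ (s ^ i)

lemma Nm_apply (s : Γ) (n : ℕ) (a : A) : Nm ρ s n a = ∑ i ∈ Finset.range n, ρ (s ^ i) a := by
  simp [Nm]

end Fermat.Agent.S55.L

end
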