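import Fermat.Agent.S55.L.C0Defs
import Fermat.Agent.S55.L.C0.CycMain
import Fermat.Agent.S55.L.C0.Index

/-!
# L-C1: an abstract "local class formation at `p`" and the theorem `|H²(U, A)[p]| = p`

`Γ` a group with levels `L`, `A` a discrete `Γ`-module (think `Γ = G_ℚ`, `A = ℚ̄ˣ`), `mem` a family
of subgroups (think `U = Gal(ℚ̄/F)`, `F` a finite extension of `hens q`), `units ≤ A` (think: the
units of the place).  The structure `LCF` lists exactly the arithmetic input: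
Hilbert 90, the norm index `p` for cyclic extensions of degree `p`, `A^U = ℤ π ⊕ units^U`,
unramified extensions (existence of a cyclic one of degree `p²`, uniqueness in degree `p`, base
change), `e = p` for ramified extensions of degree `p`, units are norms in unramified extensions.

MAIN THEOREM `LCF.card_torsion`: `|{x ∈ H²(U, A) : p x = 0}| = p` for all `U` in the family.

The structure `LCF` and the statement of `LCF.card_torsion` are FROZEN (`C2Arith.lean` builds the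
instance).  The intermediate statements below are suggestions; the owner may change them.

## Tools (all in `L/C0/*.lean`, applied with `G := ↥U`, level `L.sub U`, module `rs ρ U`)
`rres2 L ρ h x = 0 ↔ C0.SplitOn (L.sub U) (rs ρ U) (V.subgroupOf U) x̃`
(`rres2_eq_res`, `C0.res_H2π_eq_zero_iff` with `f = Subgroup.inclusion h`, `range_inclusion`,
`Lev.induced_inclusion`, `RelOpen.isOpen_subgroupOf`); `h90` for `V` gives
`C0.H1VanishOn (L.sub U) (rs ρ U) (V.subgroupOf U)` (`C0.h1VanishOn_range_iff`);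
`C0.cycH2`, `C0.cycH2_eq_zero_iff`, `C0.exists_cycH2_eq`, `C0.res_cycH2`, `C0.index_smul_eq_zero`,
`C0.exists_splitOn`, `C0.finsum_out_eq_sum_range`.

## Proof of `card_ker_rres2` (`V ⊲ U` of index `p`)
`χ : U → ℤ/p` onto with kernel `V`, `s ∈ U` with `χ s = 1`.  `cycH2 : A^U → H²(U)` has image
`ker res_V` (`exists_cycH2_eq` + `splitOn_ker_cyc`) and kernel `N A^V` (`cycH2_eq_zero_iff`), and
`(A^U : N A^V) = p` is `norm_index`.

## Proof of `step`
Given `U ⊳ U₁ ⊳ V₁` (index `p` each), `V₁/U₁` unramified, `V ⊲ U` unramified of index `p`,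
`x ∈ H²(U)`, `p x = 0`, `res_{V₁} x = 0`.  Claim `res_V x = 0`.
Let `χ : U → ℤ/p²` be as in `exists_unr`, `U'' := ker χ`, `U' := midSub χ`, `s ∈ U`, `χ s = 1`,
`π` a uniformiser of `U`, `w := cycH2 χ π ∈ H²(U)`.
`U'/U` and `U''/U'` are unramified (`UnrA.of_le`, `UnrA.of_le'`), so `V = U'` (`unr_unique`).
(1) `p w ≠ 0`: else `p π = N_{U/U''} y`, `y ∈ A^{U''}`, `y = n π + u` (`π` is a uniformiser of `U''`),
    `N y = p² n π + ∑ s^i u`, `∑ s^i u ∈ units` (`units_stable`), so `(p - p² n) π ∈ units`,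
    `p = p² n`, absurd.
(2) `p² w = 0`: `p² π = N_{U/U''} π`.   So `w` has order exactly `p²`.
(3) `res_{V₁} w = 0`.
    Case `U₁/U` unramified: `U₁ = U'` and then `V₁ = U''` (`unr_unique` twice); `res_{U''} w = 0`.
    Case `U₁/U` ramified: `U₁ ≠ U'`; `U' ⊓ U₁` is normal of index `p` in `U₁`
    (`NormalIdx.inf_of_ne`) and unramified (`unr_inf`), so `V₁ = U' ⊓ U₁`.  `res_{V₁} w` is
    `cycH2 (χ|V₁) π` (`res_cycH2`), which is `0` iff `π` is a norm from `ker (χ|V₁) = U'' ⊓ U₁ =: W`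
    to `V₁` (`cycH2_eq_zero_iff`, valid for non surjective characters).  `W ⊲ V₁` of index `p`
    (`χ|U₁` is onto: `exists_mem_of_ne_midSub`; take `s' := s₁^p`), `W/V₁` unramified
    (`unr_inf` for `U''/U'` and `V₁ ≤ U'`).  Let `ϖ` be a uniformiser of `U₁`: `π = p ϖ + u`,
    `u ∈ units` (`ram`), `p ϖ = N_{V₁/W} ϖ` (as `ϖ ∈ A^{U₁} ⊆ A^{V₁}`), `u ∈ A^{V₁} ∩ units` is a
    norm (`units_norm`).
(4) `|ker res_{V₁}| ≤ p²`: `res_{U₁}` maps `ker (res^U_{V₁})` to `ker (res^{U₁}_{V₁})` with kernel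
    `ker (res^U_{U₁})`; both have `p` elements (`card_ker_rres2`).
(5) So `ker res_{V₁} = ⟨w⟩`, `x = m w`, `p x = 0 ⟹ p ∣ m`, `x ∈ ⟨p w⟩`.
(6) `res_{U'} (p w) = cycH2 (χ|U') (p π) = 0` as `p π = N_{U'/U''} π`.

## Proof of `dies_of_pow` (induction on `n`)
`n = 0`: `W = U`, `x = 0`.  `n + 1`: `exists_normalIdx_of_relIndex_pow` gives `W ≤ U₂ ⊲ U` of index
`p`, `[U₂ : W] = pⁿ`; let `V₂ ⊲ U₂` be unramified of index `p` (`exists_unr` for `U₂` + `midSub`);
by induction `res_{V₂} (res_{U₂} x) = 0`; apply `step`.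

## Proof of `torsion_dies`
`x` dies on `W := W₀ ⊓ U`, `W₀ ∈ L.sets` normal (`C0.exists_splitOn`).  `exists_sylow`: `W ≤ U₁ ≤ U`,
`[U : U₁]` prime to `p`, `[U₁ : W] = pⁿ`.  `V ⊓ U₁` is normal of index `p` in `U₁`
(`NormalIdx.inf_of_coprime`) and unramified (`unr_inf`): by `dies_of_pow`, `res_{V ⊓ U₁} x = 0`.
`[V : V ⊓ U₁] = [U : U₁]` is prime to `p`, `p res_V x = 0`, so `res_V x = 0`
(`C0.index_smul_eq_zero`).
-/

set_option autoImplicit false

noncomputable section

namespace Fermat.Agent.S55.L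

open Fermat.Agent.S55

variable {Γ : Type} [Group Γ] {A : Type} [AddCommGroup A]

/-- `π` is a uniformiser for `U`:  `A^U = ℤ π ⊕ (A^U ∩ units)` -/
structure IsUnifA (ρ : Representation ℤ Γ A) (units : AddSubgroup A) (U : Subgroup Γ) (π : A) :
    Prop where
  mem : π ∈ AU ρ U
  span : ∀ a ∈ AU ρ U, ∃ n : ℤ, a - n • π ∈ units
  free : ∀ n : ℤ, n • π ∈ units → n = 0

/-- `V ≤ U` is unramified: uniformisers stay uniformisers -/
def UnrA (ρ : Representation ℤ Γ A) (units : AddSubgroup A) (V U : Subgroup Γ) : Prop :=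
  ∀ π, IsUnifA ρ units U π → IsUnifA ρ units V π

/-- `V` is a relatively open normal subgroup of index `p` of `U` -/
structure NormalIdx (L : Lev Γ) (p : ℕ) (V U : Subgroup Γ) : Prop where
  le : V ≤ U
  relOpen : RelOpen L V U
  normal : (V.subgroupOf U).Normal
  index : V.relIndex U = p

/-- the arithmetic input -/
structure LCF (L : Lev Γ) (ρ : Representation ℤ Γ A) (p : ℕ) where
  /-- the family of subgroups -/
  mem : Subgroup Γ → Prop
  /-- the units of the place -/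
  units : AddSubgroup A
  discrete : IsDiscrete L ρ
  mem_of_relOpen : ∀ {U V : Subgroup Γ}, mem U → V ≤ U → RelOpen L V U → mem V
  h90 : ∀ {U : Subgroup Γ}, mem U → ∀ z : HH1 L ρ U, z = 0
  units_stable : ∀ {U : Subgroup Γ}, mem U → ∀ g ∈ U, ∀ a ∈ units, ρ g a ∈ units
  exists_unif : ∀ {U : Subgroup Γ}, mem U → ∃ π, IsUnifA ρ units U π
  norm_index : ∀ {U V : Subgroup Γ}, mem U → NormalIdx L p V U → ∀ s ∈ U, s ∉ V →
    (((AU ρ V).map (Nm ρ s p)).toAddSubgroup).relIndex (AU ρ U).toAddSubgroup = p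
  ram : ∀ {U V : Subgroup Γ}, mem U → NormalIdx L p V U → ¬ UnrA ρ units V U →
    ∀ π, IsUnifA ρ units U π → ∃ ϖ, IsUnifA ρ units V ϖ ∧ π - p • ϖ ∈ units
  units_norm : ∀ {U V : Subgroup Γ}, mem U → NormalIdx L p V U → UnrA ρ units V U →
    ∀ s ∈ U, s ∉ V → ∀ a ∈ AU ρ U, a ∈ units → ∃ y ∈ AU ρ V, Nm ρ s p y = a
  exists_unr : ∀ {U : Subgroup Γ}, mem U → ∃ χ : U →* Multiplicative (ZMod (p * p)),
    Function.Surjective χ ∧ (L.sub U).IsOpen χ.ker ∧ UnrA ρ units (χ.ker.map U.subtype) U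
  unr_unique : ∀ {U V V' : Subgroup Γ}, mem U → NormalIdx L p V U → NormalIdx L p V' U →
    UnrA ρ units V U → UnrA ρ units V' U → V = V'
  unr_inf : ∀ {U V U₁ : Subgroup Γ}, mem U → V ≤ U → RelOpen L V U → U₁ ≤ U → RelOpen L U₁ U →
    UnrA ρ units V U → UnrA ρ units (V ⊓ U₁) U₁

/-- the middle subgroup `χ⁻¹(p ℤ/p²)` of a character `χ : U → ℤ/p²` -/
def midSub {p : ℕ} {U : Subgroup Γ} (χ : U →* Multiplicative (ZMod (p * p))) : Subgroup Γ :=
  ((powMonoidHom p : Multiplicative (ZMod (p * p)) →* _).range.comap χ).map U.subtype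

end Fermat.Agent.S55.L

end
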