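import Fermat.Agent.S55.L.C1rBridge

/-!
# L-C1h: the bridge between `L/C0/*` (cohomology of one group `G := ↥U`) and the `Γ`-subgroup
language of `C1Defs.lean`

* `RelOpen` calculus;
* `rres2_H2π_eq_zero_iff` : `res^U_V [z] = 0 ↔ SplitOn (V.subgroupOf U) z`;
* `LCF.h1VanishOn` : Hilbert 90 in the `C0` form;
* `cl L ρ χ hχ : AU ρ U →ₗ[ℤ] HH2 L ρ U` : the cyclic classes `a ∪ δχ`;
* `rres2_cl`, `rres2_cl_ker`, `LCF.cl_eq_zero_iff`, `LCF.exists_cl_eq`;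
* `relIndex_smul_eq_zero`, `exists_normal_rres2_eq_zero`.
-/

set_option autoImplicit false

noncomputable section

namespace Fermat.Agent.S55.L

open Fermat.Agent.S55

variable {Γ : Type} [Group Γ] {A : Type} [AddCommGroup A]
variable {L : Lev Γ} {ρ : Representation ℤ Γ A} {p : ℕ}

/-! ### `RelOpen` calculus -/

lemma RelOpen.refl (U : Subgroup Γ) : RelOpen L U U := by
  obtain ⟨W, hW⟩ := L.nonempty
  exact ⟨W, hW, inf_le_right⟩

lemma RelOpen.mono {V V' U : Subgroup Γ} (h : RelOpen L V U) (hle : V ≤ V') : RelOpen L V' U := by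
  obtain ⟨W, hW, hWV⟩ := h
  exact ⟨W, hW, hWV.trans hle⟩

lemma RelOpen.inf {V V' U : Subgroup Γ} (h : RelOpen L V U) (h' : RelOpen L V' U) :
    RelOpen L (V ⊓ V') U := by
  obtain ⟨W₁, hW₁, h₁⟩ := h
  obtain ⟨W₂, hW₂, h₂⟩ := h'
  obtain ⟨W₃, hW₃, h₃⟩ := L.directed W₁ hW₁ W₂ hW₂
  exact ⟨W₃, hW₃, fun x hx => ⟨h₁ ⟨(h₃ hx.1).1, hx.2⟩, h₂ ⟨(h₃ hx.1).2, hx.2⟩⟩⟩

/-- `V ⊓ U₁` is open in `U₁` if `V` is open in `U ≥ U₁` -/
lemma RelOpen.inf_right {V U U₁ : Subgroup Γ} (h : RelOpen L V U) (hle : U₁ ≤ U) :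
    RelOpen L (V ⊓ U₁) U₁ :=
  (h.of_le hle).inf (RelOpen.refl U₁)

lemma relOpen_of_isOpen {U : Subgroup Γ} {K : Subgroup U} (h : (L.sub U).IsOpen K) :
    RelOpen L (K.map U.subtype) U := by
  obtain ⟨_, ⟨W, hW, rfl⟩, hWK⟩ := h
  exact ⟨W, hW, fun x hx => ⟨⟨x, hx.2⟩, hWK hx.1, rfl⟩⟩

lemma relOpen_iff_isOpen {V U : Subgroup Γ} :
    RelOpen L V U ↔ (L.sub U).IsOpen (V.subgroupOf U) := by
  refine ⟨RelOpen.isOpen_subgroupOf, ?_⟩
  rintro ⟨_, ⟨W, hW, rfl⟩, hWK⟩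
  exact ⟨W, hW, fun x hx => hWK (x := ⟨x, hx.2⟩) hx.1⟩

lemma subgroupOf_map_subtype' {U : Subgroup Γ} (K : Subgroup U) :
    (K.map U.subtype).subgroupOf U = K :=
  Subgroup.comap_map_eq_self_of_injective Subtype.val_injective K

lemma map_subtype_subgroupOf' {V U : Subgroup Γ} (h : V ≤ U) :
    (V.subgroupOf U).map U.subtype = V := by
  rw [Subgroup.subgroupOf_map_subtype, inf_eq_left.2 h]

lemma RelOpen.relIndex_ne_zero {V U : Subgroup Γ} (h : RelOpen L V U) : V.relIndex U ≠ 0 :=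
  h.isOpen_subgroupOf.finiteIndex.index_ne_zero

/-! ### restriction and `SplitOn`, Hilbert 90 -/

theorem rres2_H2π_eq_zero_iff {U V : Subgroup Γ} (h : V ≤ U) (ho : RelOpen L V U)
    (z : ↥(Z2 (L.sub U) (rs ρ U))) :
    rres2 L ρ h (H2π (L.sub U) (rs ρ U) z) = 0 ↔
      C0.SplitOn (L.sub U) (rs ρ U) (V.subgroupOf U) (z : U × U → A) := by
  have := C0.res_H2π_eq_zero_iff (LH := L.sub V) (rs ρ U) (Subgroup.inclusion h)
    (Subgroup.inclusion_injective h) (L.induced_inclusion h)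
    (by rw [range_inclusion]; exact ho.isOpen_subgroupOf) z
  rw [range_inclusion] at this
  exact this

theorem LCF.h1VanishOn (C : LCF L ρ p) {U V : Subgroup Γ} (hU : C.mem U) (h : V ≤ U)
    (ho : RelOpen L V U) : C0.H1VanishOn (L.sub U) (rs ρ U) (V.subgroupOf U) := by
  have := C0.h1VanishOn_range_iff (LH := L.sub V) (rs ρ U) (Subgroup.inclusion h)
    (Subgroup.inclusion_injective h) (L.induced_inclusion h)
    (by rw [range_inclusion]; exact ho.isOpen_subgroupOf)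
  rw [range_inclusion] at this
  rw [this]
  intro z hz
  have h0 := C.h90 (C.mem_of_relOpen hU h ho) (H1π (L.sub V) (rs ρ V) ⟨z, hz⟩)
  rw [H1π_eq_zero_iff] at h0
  exact h0

/-! ### the norm `Nm` -/

lemma Nm_of_mem_AU {U : Subgroup Γ} {s : Γ} (hs : s ∈ U) (m : ℕ) {a : A} (ha : a ∈ AU ρ U) :
    Nm ρ s m a = m • a := by
  rw [Nm_apply, Finset.sum_congr rfl fun i _ => ha (s ^ i) (U.pow_mem hs i)]
  simp

lemma LCF.Nm_mem_units (C : LCF L ρ p) {U : Subgroup Γ} (hU : C.mem U) {s : Γ} (hs : s ∈ U)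
    (m : ℕ) {a : A} (ha : a ∈ C.units) : Nm ρ s m a ∈ C.units := by
  rw [Nm_apply]
  exact AddSubgroup.sum_mem _ fun i _ => C.units_stable hU _ (U.pow_mem hs i) a ha

/-! ### the cyclic classes -/

/-- `A^U` (as a submodule of `A`) is the module of invariants of `rs ρ U` -/
def AUequiv (ρ : Representation ℤ Γ A) (U : Subgroup Γ) : AU ρ U ≃ₗ[ℤ] (rs ρ U).invariants :=
  LinearEquiv.ofEq _ _ (by ext a; exact (mem_invariants_rs ρ).symm)

/-- the cyclic class `a ∪ δχ ∈ H²(U, A)`, `a ∈ A^U`, `χ : U → ℤ/n` -/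
def cl (L : Lev Γ) (ρ : Representation ℤ Γ A) {U : Subgroup Γ} {n : ℕ} [NeZero n]
    (χ : U →* Multiplicative (ZMod n)) (hχ : (L.sub U).IsOpen χ.ker) :
    AU ρ U →ₗ[ℤ] HH2 L ρ U :=
  (C0.cycH2 (L.sub U) (rs ρ U) χ hχ).comp (AUequiv ρ U).toLinearMap

lemma isOpen_ker_comp_inclusion {U V : Subgroup Γ} (h : V ≤ U) {n : ℕ}
    (χ : U →* Multiplicative (ZMod n)) (hχ : (L.sub U).IsOpen χ.ker) :
    (L.sub V).IsOpen (χ.comp (Subgroup.inclusion h)).ker :=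
  hχ.comap (L.induced_inclusion h).1

/-- restriction of a cyclic class -/
theorem rres2_cl {U V : Subgroup Γ} (h : V ≤ U) {n : ℕ} [NeZero n]
    (χ : U →* Multiplicative (ZMod n)) (hχ : (L.sub U).IsOpen χ.ker) (a : AU ρ U) :
    rres2 L ρ h (cl L ρ χ hχ a) =
      cl L ρ (χ.comp (Subgroup.inclusion h)) (isOpen_ker_comp_inclusion h χ hχ)
        ⟨a, AU_mono ρ h a.2⟩ := rfl

/-- a cyclic class dies on (any subgroup of) the kernel of the character -/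
theorem rres2_cl_of_le_ker {U V : Subgroup Γ} (h : V ≤ U) (ho : RelOpen L V U) {n : ℕ} [NeZero n]
    (χ : U →* Multiplicative (ZMod n)) (hχ : (L.sub U).IsOpen χ.ker)
    (hV : V.subgroupOf U ≤ χ.ker) (a : AU ρ U) : rres2 L ρ h (cl L ρ χ hχ a) = 0 := by
  have := (rres2_H2π_eq_zero_iff (ρ := ρ) h ho
    ⟨C0.cyc χ (a : A), C0.cyc_mem_Z2 (L.sub U) (rs ρ U) χ hχ ((AUequiv ρ U) a).2⟩).2
    ((C0.splitOn_ker_cyc (L.sub U) (rs ρ U) χ (a : A)).mono hV)
  exact this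

/-- every class which dies on the kernel of `χ` is cyclic -/
theorem LCF.exists_cl_eq (C : LCF L ρ p) {U V : Subgroup Γ} (hU : C.mem U) (h : V ≤ U)
    {n : ℕ} [NeZero n] (χ : U →* Multiplicative (ZMod n)) (hχ : (L.sub U).IsOpen χ.ker)
    (hV : χ.ker = V.subgroupOf U) (x : HH2 L ρ U) (hx : rres2 L ρ h x = 0) :
    ∃ a : AU ρ U, cl L ρ χ hχ a = x := by
  have ho : RelOpen L V U := relOpen_iff_isOpen.2 (hV ▸ hχ)
  induction x using H2_induction with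
  | h z =>
    rw [rres2_H2π_eq_zero_iff h ho, ← hV] at hx
    obtain ⟨a, ha⟩ := C0.exists_cycH2_eq χ (isDiscrete_rs C.discrete U) hχ
      (hV ▸ C.h1VanishOn hU h ho) z hx
    exact ⟨(AUequiv ρ U).symm a, by simpa [cl] using ha⟩

/-- the norm for a quotient generated by `s` -/
theorem finsum_out_eq_sum_pow {G : Type} [Group G] {τ : Representation ℤ G A} {V : Subgroup G}
    (s : G) {m : ℕ} (hm : V.index = m) (hm0 : m ≠ 0) (hgen : ∀ i, 0 < i → i < m → s ^ i ∉ V)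
    {b : A} (hb : ∀ v ∈ V, τ v b = b) :
    ∑ᶠ c : G ⧸ V, τ c.out b = ∑ i ∈ Finset.range m, τ (s ^ i) b := by
  have hfi : V.FiniteIndex := ⟨by rw [hm]; exact hm0⟩
  have hinj : Function.Injective (fun i : Fin m => ((s ^ (i : ℕ) : G) : G ⧸ V)) := by
    have key : ∀ i j : Fin m, (i : ℕ) ≤ j → ((s ^ (i : ℕ) : G) : G ⧸ V) = ((s ^ (j : ℕ) : G) : G ⧸ V) →
        i = j := by
      intro i j hij h
      rw [QuotientGroup.eq, ← pow_mul_pow_sub s hij, inv_mul_cancel_left] at h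
      by_contra hne
      have hlt : (i : ℕ) < j := lt_of_le_of_ne hij (fun h' => hne (Fin.ext h'))
      exact hgen (j - i) (by omega) (by omega) h
    intro i j h
    rcases le_total (i : ℕ) j with hij | hij
    · exact key i j hij h
    · exact (key j i hij h.symm).symm
  have hbij : Function.Bijective (fun i : Fin m => ((s ^ (i : ℕ) : G) : G ⧸ V)) :=
    hinj.bijective_of_nat_card_le (by rw [Nat.card_fin, ← hm]; exact le_of_eq rfl)
  rw [C0.finsum_out_eq_sum _ hbij hb, Fin.sum_univ_eq_sum_range (fun i => τ (s ^ i) b) m]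

/-- **cyclic classes and norms.**  `W = ker χ`, `U / W` generated by `s`, of order `m`. -/
theorem LCF.cl_eq_zero_iff (C : LCF L ρ p) {U W : Subgroup Γ} (hU : C.mem U) (hWU : W ≤ U)
    {n : ℕ} [NeZero n] (χ : U →* Multiplicative (ZMod n)) (hχ : (L.sub U).IsOpen χ.ker)
    (hW : χ.ker = W.subgroupOf U) {s : Γ} (hs : s ∈ U) {m : ℕ} (hm : W.relIndex U = m)
    (hgen : ∀ i, 0 < i → i < m → s ^ i ∉ W) (a : AU ρ U) :
    cl L ρ χ hχ a = 0 ↔ ∃ y ∈ AU ρ W, Nm ρ s m y = a := by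
  have ho : RelOpen L W U := relOpen_iff_isOpen.2 (hW ▸ hχ)
  have hm0 : m ≠ 0 := hm ▸ ho.relIndex_ne_zero
  have h1 : cl L ρ χ hχ a = 0 ↔ C0.IsNormFrom (rs ρ U) χ.ker (a : A) :=
    C0.cycH2_eq_zero_iff χ (isDiscrete_rs C.discrete U) hχ (hW ▸ C.h1VanishOn hU hWU ho)
      (AUequiv ρ U a)
  rw [h1, hW]
  have key : ∀ b : A, (∀ v ∈ W.subgroupOf U, rs ρ U v b = b) →
      ∑ᶠ c : U ⧸ W.subgroupOf U, rs ρ U c.out b = Nm ρ s m b := by
    intro b hb
    rw [finsum_out_eq_sum_pow (τ := rs ρ U) (⟨s, hs⟩ : U) hm hm0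
      (fun i hi hi' h => hgen i hi hi' h) hb, Nm_apply]
    rfl
  constructor
  · rintro ⟨b, hb, hab⟩
    exact ⟨b, fun w hw => hb ⟨w, hWU hw⟩ hw, by rw [hab, key b hb]⟩
  · rintro ⟨y, hy, hya⟩
    have hb : ∀ v ∈ W.subgroupOf U, rs ρ U v y = y := fun v hv => hy v.1 hv
    exact ⟨y, hb, by rw [key y hb, hya]⟩

/-- powers of an element outside a normal subgroup of prime index -/
lemma NormalIdx.pow_not_mem [Fact p.Prime] {W U : Subgroup Γ} (h : NormalIdx L p W U) {s : Γ}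
    (hs : s ∈ U) (hsW : s ∉ W) (i : ℕ) (hi : 0 < i) (hip : i < p) : s ^ i ∉ W := by
  intro hmem
  have := h.normal
  have h1 : (⟨s, hs⟩ : U) ^ p ∈ W.subgroupOf U := by
    have := Subgroup.pow_index_mem (W.subgroupOf U) (⟨s, hs⟩ : U)
    rwa [show (W.subgroupOf U).index = p from h.index] at this
  have h2 : (⟨s, hs⟩ : U) ^ i ∈ W.subgroupOf U := hmem
  rw [← QuotientGroup.eq_one_iff, QuotientGroup.mk_pow] at h1 h2
  have h3 := pow_gcd_eq_one.2 ⟨h2, h1⟩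
  rw [((Nat.coprime_of_lt_prime hi.ne' hip Fact.out).symm : Nat.Coprime i p), pow_one,
    QuotientGroup.eq_one_iff] at h3
  exact hsW h3

/-- the case of a kernel of prime index -/
theorem LCF.cl_eq_zero_iff_of_normalIdx [Fact p.Prime] (C : LCF L ρ p) {U W : Subgroup Γ}
    (hU : C.mem U) (h : NormalIdx L p W U) {n : ℕ} [NeZero n] (χ : U →* Multiplicative (ZMod n))
    (hχ : (L.sub U).IsOpen χ.ker) (hW : χ.ker = W.subgroupOf U) {s : Γ} (hs : s ∈ U)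
    (hsW : s ∉ W) (a : AU ρ U) :
    cl L ρ χ hχ a = 0 ↔ ∃ y ∈ AU ρ W, Nm ρ s p y = a :=
  C.cl_eq_zero_iff hU h.le χ hχ hW hs h.index (h.pow_not_mem hs hsW) a

/-- the case of a surjective character -/
theorem LCF.cl_eq_zero_iff_of_eq_one (C : LCF L ρ p) {U : Subgroup Γ} (hU : C.mem U)
    {n : ℕ} [NeZero n] (χ : U →* Multiplicative (ZMod n)) (hχ : (L.sub U).IsOpen χ.ker)
    {s : U} (hs : χ s = Multiplicative.ofAdd 1) (a : AU ρ U) :
    cl L ρ χ hχ a = 0 ↔ ∃ y ∈ AU ρ (χ.ker.map U.subtype), Nm ρ (s : Γ) n y = a := by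
  have hle : χ.ker.map U.subtype ≤ U := Subgroup.map_subtype_le _
  have hW : χ.ker = (χ.ker.map U.subtype).subgroupOf U := (subgroupOf_map_subtype' _).symm
  have ho : RelOpen L (χ.ker.map U.subtype) U := relOpen_of_isOpen hχ
  have h1 : cl L ρ χ hχ a = 0 ↔ C0.IsNormFrom (rs ρ U) χ.ker (a : A) :=
    C0.cycH2_eq_zero_iff χ (isDiscrete_rs C.discrete U) hχ
      (by have := C.h1VanishOn hU hle ho; rwa [← hW] at this) (AUequiv ρ U a)
  rw [h1]
  have key : ∀ b : A, (∀ v ∈ χ.ker, rs ρ U v b = b) →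
      ∑ᶠ c : U ⧸ χ.ker, rs ρ U c.out b = Nm ρ (s : Γ) n b := by
    intro b hb
    rw [C0.finsum_out_eq_sum_range hs hb, Nm_apply]
    rfl
  constructor
  · rintro ⟨b, hb, hab⟩
    refine ⟨b, ?_, by rw [hab, key b hb]⟩
    rintro _ ⟨v, hv, rfl⟩
    exact hb v hv
  · rintro ⟨y, hy, hya⟩
    have hb : ∀ v ∈ χ.ker, rs ρ U v y = y := fun v hv => hy v.1 ⟨v, hv, rfl⟩
    exact ⟨y, hb, by rw [key y hb, hya]⟩

/-! ### index, and splitting over a normal open subgroup -/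

theorem relIndex_smul_eq_zero (hρ : IsDiscrete L ρ) {U V : Subgroup Γ} (h : V ≤ U)
    (ho : RelOpen L V U) (x : HH2 L ρ U) (hx : rres2 L ρ h x = 0) : V.relIndex U • x = 0 := by
  induction x using H2_induction with
  | h z =>
    rw [rres2_H2π_eq_zero_iff h ho] at hx
    exact C0.index_smul_eq_zero (isDiscrete_rs hρ U) ho.isOpen_subgroupOf z hx

theorem exists_normal_rres2_eq_zero {U : Subgroup Γ} (x : HH2 L ρ U) :
    ∃ (W : Subgroup Γ) (hW : W ≤ U), RelOpen L W U ∧ (W.subgroupOf U).Normal ∧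
      rres2 L ρ hW x = 0 := by
  induction x using H2_induction with
  | h z =>
    obtain ⟨W, hW, hn, hs⟩ := C0.exists_splitOn z
    have ho : RelOpen L (W.map U.subtype) U := relOpen_of_isOpen ⟨W, hW, le_refl _⟩
    refine ⟨W.map U.subtype, Subgroup.map_subtype_le _, ho, ?_, ?_⟩
    · rwa [subgroupOf_map_subtype']
    · rw [rres2_H2π_eq_zero_iff _ ho, subgroupOf_map_subtype']
      exact hs

end Fermat.Agent.S55.L

end
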