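import Mathlib

/-!
# L-C1k: an abstract counting lemma for abelian groups (pure Mathlib)
-/

set_option autoImplicit false

namespace Fermat.Agent.S55.L

/-- `|range f| = (S : ker f)` in the `relIndex` form. -/
theorem card_range_eq_relIndex {M M' : Type*} [AddCommGroup M] [AddCommGroup M']
    (S N : Submodule ℤ M) (f : S →ₗ[ℤ] M') (hker : ∀ a : S, f a = 0 ↔ (a : M) ∈ N) :
    Nat.card (LinearMap.range f) = N.toAddSubgroup.relIndex S.toAddSubgroup := by
  have h1 : N.toAddSubgroup.addSubgroupOf S.toAddSubgroup = (LinearMap.ker f).toAddSubgroup := by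
    ext a
    rw [AddSubgroup.mem_addSubgroupOf]
    exact (hker a).symm
  rw [AddSubgroup.relIndex, h1, AddSubgroup.index]
  exact Nat.card_congr (LinearMap.quotKerEquivRange f).symm.toEquiv

end Fermat.Agent.S55.L
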