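import Fermat.Agent.S55.L.C1gGroup
import Fermat.Agent.S55.L.C1hBridge
import Fermat.Agent.S55.L.C1kCount

/-! # L-C1a: `ker (H²(U) → H²(V)) ≅ A^U / N A^V` has `p` elements (see the proofs in `C1Defs.lean`) -/

set_option autoImplicit false

noncomputable section

namespace Fermat.Agent.S55.L

open Fermat.Agent.S55

variable {Γ : Type} [Group Γ] {A : Type} [AddCommGroup A]
variable {L : Lev Γ} {ρ : Representation ℤ Γ A} {p : ℕ}

/-- an element of `U` outside `V` -/
lemma NormalIdx.exists_not_mem [Fact p.Prime] {V U : Subgroup Γ} (h : NormalIdx L p V U) :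
    ∃ s ∈ U, s ∉ V := by
  by_contra hcon
  have hle : U ≤ V := fun s hs => by_contra fun hsV => hcon ⟨s, hs, hsV⟩
  have h1 : V.relIndex U = 1 := Subgroup.relIndex_eq_one.2 hle
  rw [h.index] at h1
  exact (Fact.out : p.Prime).one_lt.ne' h1

/-- (package L-C1a) `ker (H²(U) → H²(V)) ≅ A^U / N A^V` has `p` elements -/
theorem LCF.card_ker_rres2 [Fact p.Prime] (C : LCF L ρ p) {U V : Subgroup Γ} (hU : C.mem U)
    (h : NormalIdx L p V U) : Nat.card (LinearMap.ker (rres2 L ρ h.le)) = p := by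
  obtain ⟨χ, -, hker⟩ := h.exists_char
  obtain ⟨s, hs, hsV⟩ := h.exists_not_mem
  have hχ : (L.sub U).IsOpen χ.ker := hker ▸ h.isOpen_subgroupOf
  have hrange : LinearMap.range (cl L ρ χ hχ) = LinearMap.ker (rres2 L ρ h.le) := by
    ext x
    rw [LinearMap.mem_range, LinearMap.mem_ker]
    constructor
    · rintro ⟨a, rfl⟩
      exact rres2_cl_of_le_ker h.le h.relOpen χ hχ hker.ge a
    · intro hx
      exact C.exists_cl_eq hU h.le χ hχ hker x hx
  rw [← hrange, card_range_eq_relIndex (AU ρ U) ((AU ρ V).map (Nm ρ s p)) (cl L ρ χ hχ)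
    (fun a => by
      rw [C.cl_eq_zero_iff_of_normalIdx hU h χ hχ hker hs hsV a, Submodule.mem_map])]
  exact C.norm_index hU h s hs hsV

theorem LCF.smul_eq_zero_of_rres2 [Fact p.Prime] (C : LCF L ρ p) {U V : Subgroup Γ}
    (_hU : C.mem U) (h : NormalIdx L p V U) (x : HH2 L ρ U) (hx : rres2 L ρ h.le x = 0) :
    p • x = 0 := by
  have := relIndex_smul_eq_zero C.discrete h.le h.relOpen x hx
  rwa [h.index] at this

end Fermat.Agent.S55.L

end
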