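import Fermat.Agent.S55.L.C1aKer

/-!
# L-C1b (parts): the pieces of the degree `p²` step

`χ : U → ℤ/p²` onto with open kernel `U'' = ker χ`, unramified; `U' = midSub χ`; `π` a uniformiser of
`U`; `wcl χ ho π hπ = [cyc χ π] ∈ H²(U, A)`.  See the header of `C1Defs.lean` for the proofs
(numbers (1)-(6) there).
-/

set_option autoImplicit false

noncomputable section

namespace Fermat.Agent.S55.L

open Fermat.Agent.S55

variable {Γ : Type} [Group Γ] {A : Type} [AddCommGroup A]
variable {L : Lev Γ} {ρ : Representation ℤ Γ A} {p : ℕ}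

instance neZero_mul_self [Fact p.Prime] : NeZero (p * p) :=
  ⟨mul_ne_zero (Fact.out (p := p.Prime)).ne_zero (Fact.out (p := p.Prime)).ne_zero⟩

/-- the class `[cyc χ π]` -/
def wcl [Fact p.Prime] {U : Subgroup Γ} (χ : U →* Multiplicative (ZMod (p * p)))
    (ho : (L.sub U).IsOpen χ.ker) (π : A) (hπ : π ∈ AU ρ U) : HH2 L ρ U :=
  C0.cycH2 (L.sub U) (rs ρ U) χ ho ⟨π, (mem_invariants_rs ρ).2 hπ⟩

theorem ker_map_le {U : Subgroup Γ} (χ : U →* Multiplicative (ZMod (p * p))) :
    χ.ker.map U.subtype ≤ U := by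
  rintro _ ⟨x, -, rfl⟩
  exact x.2

end Fermat.Agent.S55.L

end
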