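import Fermat.Agent.S55.L.C1Defs

/-! # L-C1r: the `C0` lemmas in the ambient form (`HH2`, `rres2`) -/

set_option autoImplicit false

noncomputable section

namespace Fermat.Agent.S55.L

open Fermat.Agent.S55

variable {k : Type*} [CommRing k] {Γ : Type} [Group Γ] {L : Lev Γ}
variable {A : Type*} [AddCommGroup A] [Module k A] {ρ : Representation k Γ A}

/-- `res^U_V [x] = 0` iff `x` splits on `V` -/
theorem rres2_eq_zero_iff {U V : Subgroup Γ} (h : V ≤ U) (ho : RelOpen L V U)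
    (x : ↥(Z2 (L.sub U) (rs ρ U))) :
    rres2 L ρ h (H2π (L.sub U) (rs ρ U) x) = 0 ↔
      C0.SplitOn (L.sub U) (rs ρ U) (V.subgroupOf U) (x : U × U → A) := by
  rw [← range_inclusion h, rres2_eq_res]
  exact C0.res_H2π_eq_zero_iff (rs ρ U) (Subgroup.inclusion h) (Subgroup.inclusion_injective h)
    (L.induced_inclusion h) (by rw [range_inclusion h]; exact ho.isOpen_subgroupOf) x

/-- `H¹(V, A) = 0` in the relative form -/
theorem h1VanishOn_of_HH1 {U V : Subgroup Γ} (h : V ≤ U) (ho : RelOpen L V U)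
    (h1 : ∀ z : HH1 L ρ V, z = 0) :
    C0.H1VanishOn (L.sub U) (rs ρ U) (V.subgroupOf U) := by
  rw [← range_inclusion h]
  rw [C0.h1VanishOn_range_iff (rs ρ U) (Subgroup.inclusion h) (Subgroup.inclusion_injective h)
    (L.induced_inclusion h) (by rw [range_inclusion h]; exact ho.isOpen_subgroupOf)]
  intro z hz
  have := h1 (H1π (L.sub V) (rs ρ V) ⟨z, hz⟩)
  rw [H1π_eq_zero_iff] at this
  exact this

/-- every class dies on a small level -/
theorem exists_rres2_eq_zero (U : Subgroup Γ) (x : HH2 L ρ U) :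
    ∃ W ∈ L.sets, W.Normal ∧ rres2 L ρ (inf_le_right : W ⊓ U ≤ U) x = 0 := by
  induction x using H2_induction with
  | h x =>
    obtain ⟨W', ⟨W, hW, rfl⟩, -, hx⟩ := C0.exists_splitOn x
    obtain ⟨W₀, hW₀, hW₀W, hn⟩ := L.normal W hW
    refine ⟨W₀, hW₀, hn, ?_⟩
    rw [rres2_eq_zero_iff _ ⟨W₀, hW₀, le_rfl⟩]
    refine hx.mono ?_
    intro u hu
    exact hW₀W hu.1

theorem relIndex_smul_eq_zero_of_rres2 (hρ : IsDiscrete L ρ) {U V : Subgroup Γ} (h : V ≤ U)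
    (ho : RelOpen L V U) (x : HH2 L ρ U) (hx : rres2 L ρ h x = 0) : V.relIndex U • x = 0 := by
  induction x using H2_induction with
  | h x =>
    rw [rres2_eq_zero_iff h ho] at hx
    exact C0.index_smul_eq_zero (isDiscrete_rs hρ U) ho.isOpen_subgroupOf x hx

theorem eq_zero_of_rres2_of_coprime (hρ : IsDiscrete L ρ) {U V : Subgroup Γ} (h : V ≤ U)
    (ho : RelOpen L V U) {p : ℕ} (hp : Nat.Coprime p (V.relIndex U))
    (x : HH2 L ρ U) (hpx : p • x = 0) (hx : rres2 L ρ h x = 0) : x = 0 := by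
  have h2 := relIndex_smul_eq_zero_of_rres2 hρ h ho x hx
  have h3 : (Nat.gcd p (V.relIndex U) : ℤ) • x = 0 := by
    rw [Nat.gcd_eq_gcd_ab, add_smul, mul_comm, mul_smul, natCast_zsmul, hpx, smul_zero, zero_add,
      mul_comm, mul_smul, natCast_zsmul, h2, smul_zero]
  rw [hp] at h3
  simpa using h3

theorem RelOpen.trans {U V W : Subgroup Γ} (h : RelOpen L W V) (h' : RelOpen L V U) :
    RelOpen L W U := by
  obtain ⟨X, hX, hXW⟩ := h
  obtain ⟨Y, hY, hYV⟩ := h'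
  obtain ⟨Z, hZ, hZXY⟩ := L.directed X hX Y hY
  exact ⟨Z, hZ, fun g hg => hXW ⟨(hZXY hg.1).1, hYV ⟨(hZXY hg.1).2, hg.2⟩⟩⟩

theorem RelOpen.mono_left {U V W : Subgroup Γ} (h : RelOpen L W U) (hWV : W ≤ V) :
    RelOpen L V U := by
  obtain ⟨X, hX, hXW⟩ := h
  exact ⟨X, hX, hXW.trans hWV⟩

theorem RelOpen.of_le {U U' W : Subgroup Γ} (h : RelOpen L W U) (hU : U' ≤ U) :
    RelOpen L W U' := by
  obtain ⟨X, hX, hXW⟩ := h
  exact ⟨X, hX, fun g hg => hXW ⟨hg.1, hU hg.2⟩⟩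

theorem RelOpen.inf_left {U V U₁ : Subgroup Γ} (h : RelOpen L U₁ U) (hV : V ≤ U) :
    RelOpen L (V ⊓ U₁) V := by
  obtain ⟨X, hX, hXU⟩ := h
  exact ⟨X, hX, fun g hg => ⟨hg.2, hXU ⟨hg.1, hV hg.2⟩⟩⟩

theorem normal_subgroupOf_of_le {U U' W : Subgroup Γ} (hn : (W.subgroupOf U).Normal)
    (hU : U' ≤ U) : (W.subgroupOf U').Normal :=
  ⟨fun w hw g => hn.conj_mem ⟨w.1, hU w.2⟩ hw ⟨g.1, hU g.2⟩⟩

theorem normal_inf_subgroupOf {W₀ : Subgroup Γ} (hn : W₀.Normal) (U : Subgroup Γ) :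
    ((W₀ ⊓ U).subgroupOf U).Normal :=
  ⟨fun w hw g => ⟨hn.conj_mem w.1 hw.1 g.1, (g * w * g⁻¹).2⟩⟩

end Fermat.Agent.S55.L

end
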