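import Fermat.Agent.S55.L.C1bDefs
import Fermat.Agent.S55.L.C1rBridge

/-! # L-C1b-1: the class `w = [cyc χ π]` has order exactly `p²` (steps (1), (2) of the proof in `C1Defs.lean`) -/

set_option autoImplicit false

noncomputable section

namespace Fermat.Agent.S55.L

open Fermat.Agent.S55

variable {Γ : Type} [Group Γ] {A : Type} [AddCommGroup A]
variable {L : Lev Γ} {ρ : Representation ℤ Γ A} {p : ℕ}

/-- Hilbert 90 for the kernel of `χ`, in the relative form -/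
theorem LCF.c1bP1_h1VanishOn_ker (C : LCF L ρ p) {U : Subgroup Γ} (hU : C.mem U) {n : ℕ}
    (χ : U →* Multiplicative (ZMod n)) (ho : (L.sub U).IsOpen χ.ker) :
    C0.H1VanishOn (L.sub U) (rs ρ U) χ.ker := by
  have hro : RelOpen L (χ.ker.map U.subtype) U := C1g.relOpen_of_isOpen ho
  have hle : χ.ker.map U.subtype ≤ U := C1g.map_subtype_le _
  have := h1VanishOn_of_HH1 (ρ := ρ) hle hro (C.h90 (C.mem_of_relOpen hU hle hro))
  rwa [C1g.subgroupOf_map_subtype] at this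

/-- `m • w = 0` iff `m • π` is a norm -/
theorem LCF.c1bP1_smul_wcl_eq_zero_iff [Fact p.Prime] (C : LCF L ρ p) {U : Subgroup Γ}
    (hU : C.mem U) (χ : U →* Multiplicative (ZMod (p * p))) (ho : (L.sub U).IsOpen χ.ker)
    {σ : U} (hσ : χ σ = Multiplicative.ofAdd 1) (π : A) (hπ : π ∈ AU ρ U) (m : ℕ) :
    m • wcl (L := L) χ ho π hπ = 0 ↔
      ∃ y : A, (∀ v ∈ χ.ker, ρ (v : Γ) y = y) ∧
        m • π = ∑ i ∈ Finset.range (p * p), ρ ((σ : Γ) ^ i) y := by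
  unfold wcl
  rw [← map_nsmul, C0.cycH2_eq_zero_iff χ (isDiscrete_rs C.discrete U) ho
    (C.c1bP1_h1VanishOn_ker hU χ ho)]
  constructor
  · rintro ⟨y, hy, hsum⟩
    refine ⟨y, hy, ?_⟩
    rw [C0.finsum_out_eq_sum_range hσ hy] at hsum
    exact hsum
  · rintro ⟨y, hy, hsum⟩
    refine ⟨y, hy, ?_⟩
    rw [C0.finsum_out_eq_sum_range hσ hy]
    exact hsum

/-- (1) `p w ≠ 0` -/
theorem LCF.smul_wcl_ne_zero [Fact p.Prime] (C : LCF L ρ p) {U : Subgroup Γ} (hU : C.mem U)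
    (χ : U →* Multiplicative (ZMod (p * p))) (hs : Function.Surjective χ)
    (ho : (L.sub U).IsOpen χ.ker) (hur : UnrA ρ C.units (χ.ker.map U.subtype) U)
    (π : A) (hπ : IsUnifA ρ C.units U π) : p • wcl (L := L) χ ho π hπ.mem ≠ 0 := by
  intro h0
  obtain ⟨σ, hσ⟩ := hs (Multiplicative.ofAdd 1)
  obtain ⟨y, hy, hsum⟩ := (C.c1bP1_smul_wcl_eq_zero_iff hU χ ho hσ π hπ.mem p).1 h0
  have hyK : y ∈ AU ρ (χ.ker.map U.subtype) := by
    rintro _ ⟨v, hv, rfl⟩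
    exact hy v hv
  obtain ⟨n, hn⟩ := (hur π hπ).span y hyK
  have hterm : ∀ i ∈ Finset.range (p * p),
      ρ ((σ : Γ) ^ i) y = n • π + ρ ((σ : Γ) ^ i) (y - n • π) := by
    intro i _
    rw [map_sub, map_zsmul, hπ.mem _ (U.pow_mem σ.2 i)]
    abel
  rw [Finset.sum_congr rfl hterm, Finset.sum_add_distrib, Finset.sum_const, Finset.card_range]
    at hsum
  have hu : ∑ i ∈ Finset.range (p * p), ρ ((σ : Γ) ^ i) (y - n • π) ∈ C.units :=
    C.units.sum_mem fun i _ => C.units_stable hU _ (U.pow_mem σ.2 i) _ hn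
  have hmem : ((p : ℤ) - (p * p : ℕ) * n) • π ∈ C.units := by
    have : ((p : ℤ) - (p * p : ℕ) * n) • π =
        ∑ i ∈ Finset.range (p * p), ρ ((σ : Γ) ^ i) (y - n • π) := by
      rw [sub_smul, mul_smul, natCast_zsmul, natCast_zsmul, hsum]
      abel
    rw [this]
    exact hu
  have h1 := hπ.free _ hmem
  have hp : (p : ℤ) ≠ 0 := Nat.cast_ne_zero.mpr (Fact.out (p := p.Prime)).ne_zero
  have h2 : (p : ℤ) * (1 - p * n) = 0 := by
    rw [← h1]; push_cast; ring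
  have h3 : (1 : ℤ) - p * n = 0 := (mul_eq_zero.mp h2).resolve_left hp
  have h4 : (p : ℤ) ∣ 1 := ⟨n, by linarith⟩
  have h5 : p ∣ 1 := by exact_mod_cast h4
  exact (Fact.out (p := p.Prime)).one_lt.ne' (Nat.dvd_one.mp h5)

/-- (2) `p² w = 0` -/
theorem LCF.sq_smul_wcl [Fact p.Prime] (C : LCF L ρ p) {U : Subgroup Γ} (hU : C.mem U)
    (χ : U →* Multiplicative (ZMod (p * p))) (hs : Function.Surjective χ)
    (ho : (L.sub U).IsOpen χ.ker) (π : A) (hπ : π ∈ AU ρ U) :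
    (p * p) • wcl (L := L) χ ho π hπ = 0 := by
  obtain ⟨σ, hσ⟩ := hs (Multiplicative.ofAdd 1)
  rw [C.c1bP1_smul_wcl_eq_zero_iff hU χ ho hσ π hπ (p * p)]
  refine ⟨π, fun v _ => hπ _ v.2, ?_⟩
  rw [Finset.sum_congr rfl fun i _ => hπ _ (U.pow_mem σ.2 i), Finset.sum_const, Finset.card_range]

end Fermat.Agent.S55.L

end
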