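import Fermat.Agent.S55.L.C1bDefs
import Fermat.Agent.S55.L.C1rBridge

/-! # L-C1b-2: `res_{U''} w = 0`, `res_{U'} (p w) = 0` (steps (3, unramified case), (6) of the proof in `C1Defs.lean`) -/

set_option autoImplicit false

noncomputable section

namespace Fermat.Agent.S55.L

open Fermat.Agent.S55

variable {Γ : Type} [Group Γ] {A : Type} [AddCommGroup A]
variable {L : Lev Γ} {ρ : Representation ℤ Γ A} {p : ℕ}

/-- (3), unramified case: `res_{U''} w = 0` -/
theorem rres2_ker_wcl [Fact p.Prime] {U : Subgroup Γ}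
    (χ : U →* Multiplicative (ZMod (p * p))) (ho : (L.sub U).IsOpen χ.ker) (π : A)
    (hπ : π ∈ AU ρ U) : rres2 L ρ (ker_map_le χ) (wcl (L := L) χ ho π hπ) = 0 := by
  rw [wcl, C0.cycH2_apply, rres2_eq_zero_iff (ker_map_le χ) (C1g.relOpen_of_isOpen ho),
    C1g.subgroupOf_map_subtype]
  exact C0.splitOn_ker_cyc _ _ χ π

/-- the kernel of the restriction of `χ` to the middle subgroup -/
theorem C1bP2.ker_comp_inclusion {U V : Subgroup Γ} (χ : U →* Multiplicative (ZMod (p * p)))
    (h : V ≤ U) :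
    (χ.comp (Subgroup.inclusion h)).ker = (χ.ker.map U.subtype).subgroupOf V := by
  ext x
  rw [MonoidHom.mem_ker, Subgroup.mem_subgroupOf, MonoidHom.comp_apply]
  constructor
  · intro hx
    exact ⟨Subgroup.inclusion h x, hx, rfl⟩
  · rintro ⟨y, hy, hyx⟩
    have : y = Subgroup.inclusion h x := Subtype.ext hyx
    rw [← this]
    exact hy

/-- (6) `res_{U'} (p w) = 0` -/
theorem LCF.rres2_mid_smul_wcl [Fact p.Prime] (C : LCF L ρ p) {U : Subgroup Γ} (hU : C.mem U)
    (χ : U →* Multiplicative (ZMod (p * p))) (hs : Function.Surjective χ)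
    (ho : (L.sub U).IsOpen χ.ker) (π : A) (hπ : π ∈ AU ρ U) :
    rres2 L ρ (normalIdx_midSub (L := L) χ hs ho).le (p • wcl (L := L) χ ho π hπ) = 0 := by
  have hp : p.Prime := Fact.out
  have hle : midSub χ ≤ U := (normalIdx_midSub (L := L) χ hs ho).le
  have hN := normalIdx_ker_midSub (L := L) χ hs ho
  have hker := C1bP2.ker_comp_inclusion χ hle
  rw [wcl, ← map_nsmul]
  have key := C0.res_cycH2 (L.sub U) (rs ρ U) χ (LH := L.sub (midSub χ)) (Subgroup.inclusion hle)
    (L.induced_inclusion hle).1 ho (p • ⟨π, (mem_invariants_rs ρ).2 hπ⟩)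
  refine Eq.trans key ?_
  have hmem'' : C.mem (χ.ker.map U.subtype) :=
    C.mem_of_relOpen hU (ker_map_le χ) (C1g.relOpen_of_isOpen ho)
  have hH1 : C0.H1VanishOn (L.sub (midSub χ)) (rs ρ (midSub χ))
      (χ.comp (Subgroup.inclusion hle)).ker := by
    rw [hker]
    exact h1VanishOn_of_HH1 hN.le hN.relOpen (C.h90 hmem'')
  refine (C0.cycH2_eq_zero_iff (L := L.sub (midSub χ))
    (ρ := (rs ρ U).comp (Subgroup.inclusion hle)) (χ.comp (Subgroup.inclusion hle))
    (isDiscrete_rs C.discrete (midSub χ)) _ hH1 _).mpr ?_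
  refine ⟨π, fun v _ => hπ _ (hle v.2), ?_⟩
  have hidx : (χ.comp (Subgroup.inclusion hle)).ker.index = p := by
    rw [hker]; exact hN.index
  have hfin : Finite (↥(midSub χ) ⧸ (χ.comp (Subgroup.inclusion hle)).ker) := by
    apply Nat.finite_of_card_ne_zero
    change (χ.comp (Subgroup.inclusion hle)).ker.index ≠ 0
    rw [hidx]; exact hp.ne_zero
  let _ := Fintype.ofFinite (↥(midSub χ) ⧸ (χ.comp (Subgroup.inclusion hle)).ker)
  rw [finsum_eq_sum_of_fintype]
  have hterm : ∀ c : ↥(midSub χ) ⧸ (χ.comp (Subgroup.inclusion hle)).ker,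
      ((rs ρ U).comp (Subgroup.inclusion hle)) c.out π = π := fun c => hπ _ (hle c.out.2)
  rw [Finset.sum_congr rfl fun c _ => hterm c, Finset.sum_const, Finset.card_univ,
    ← Nat.card_eq_fintype_card]
  change p • π = (χ.comp (Subgroup.inclusion hle)).ker.index • π
  rw [hidx]

end Fermat.Agent.S55.L

end
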