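import Fermat.Agent.S55.L.C1bDefs

/-! # L-C1b-3: `res_{U' ⊓ U₁} w = 0` for `U₁/U` ramified (step (3, ramified case) of the proof in `C1Defs.lean`) -/

set_option autoImplicit false

noncomputable section

namespace Fermat.Agent.S55.L

open Fermat.Agent.S55

variable {Γ : Type} [Group Γ] {A : Type} [AddCommGroup A]
variable {L : Lev Γ} {ρ : Representation ℤ Γ A} {p : ℕ}

/-- the kernel of the restriction of a character. -/
theorem C1bP3.ker_comp_inclusion {U V : Subgroup Γ} (h : V ≤ U) {n : ℕ}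
    (χ : U →* Multiplicative (ZMod n)) :
    (χ.comp (Subgroup.inclusion h)).ker = (χ.ker.map U.subtype ⊓ V).subgroupOf V := by
  ext ⟨v, hv⟩
  rw [MonoidHom.mem_ker, Subgroup.mem_subgroupOf, Subgroup.mem_inf]
  constructor
  · intro hx
    exact ⟨⟨⟨v, h hv⟩, hx, rfl⟩, hv⟩
  · rintro ⟨⟨u, hu, huv⟩, -⟩
    have : u = ⟨v, h hv⟩ := Subtype.ext huv
    rw [this] at hu
    exact hu

/-- the ramified case: `U₁ ≠ U' := midSub χ`, `V₁ := U' ⊓ U₁`, `U'' := ker χ`, `W := U'' ⊓ V₁`. -/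
theorem C1bP3.normalIdx_ker_inf [Fact p.Prime] {U U₁ : Subgroup Γ}
    (χ : U →* Multiplicative (ZMod (p * p))) (hs : Function.Surjective χ)
    (ho : (L.sub U).IsOpen χ.ker) (h₁ : NormalIdx L p U₁ U) (hne : U₁ ≠ midSub χ) :
    NormalIdx L p (χ.ker.map U.subtype ⊓ (midSub χ ⊓ U₁)) (midSub χ ⊓ U₁) := by
  have hp : p.Prime := Fact.out
  have hmid := normalIdx_midSub (L := L) χ hs ho
  have hk := normalIdx_ker_midSub (L := L) χ hs ho
  have hV₁ : NormalIdx L p (midSub χ ⊓ U₁) (midSub χ) := by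
    have := NormalIdx.inf_of_ne h₁ hmid hne
    rwa [inf_comm] at this
  refine NormalIdx.inf_of_ne hk hV₁ ?_
  obtain ⟨s, hsU₁, hs1⟩ := exists_mem_of_ne_midSub χ hs h₁ hne
  intro heq
  -- `s ^ p ∈ U' ⊓ U₁` but `∉ U''`
  have hχ : χ (s ^ p) = Multiplicative.ofAdd ((p : ℕ) : ZMod (p * p)) :=
    C0.chi_pow_of_eq_one hs1 p
  have hlt : p < p * p := by nlinarith [hp.one_lt]
  have hval : C0.lval χ (s ^ p) = p := by
    unfold C0.lval
    rw [hχ, toAdd_ofAdd, ZMod.val_natCast, Nat.mod_eq_of_lt hlt]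
  have hmem : ((s ^ p : U) : Γ) ∈ midSub χ ⊓ U₁ := by
    refine ⟨(mem_midSub χ _).2 ⟨(s ^ p : U).2, ?_⟩, ?_⟩
    · rw [show (⟨((s ^ p : U) : Γ), (s ^ p : U).2⟩ : U) = s ^ p from rfl, hval]
    · rw [Subgroup.coe_pow]
      exact U₁.pow_mem hsU₁ p
  rw [← heq] at hmem
  obtain ⟨u, hu, hus⟩ := hmem
  have : u = s ^ p := Subtype.ext hus
  rw [this] at hu
  have hu' := (C0.lval_eq_zero_iff χ (s ^ p)).2 hu
  rw [hval] at hu'
  exact hp.ne_zero hu'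

/-- (3), ramified case: `res_{U' ⊓ U₁} w = 0` -/
theorem LCF.rres2_wcl_of_ram [Fact p.Prime] (C : LCF L ρ p) {U U₁ : Subgroup Γ} (hU : C.mem U)
    (χ : U →* Multiplicative (ZMod (p * p))) (hs : Function.Surjective χ)
    (ho : (L.sub U).IsOpen χ.ker) (hur : UnrA ρ C.units (χ.ker.map U.subtype) U)
    (π : A) (hπ : IsUnifA ρ C.units U π) (h₁ : NormalIdx L p U₁ U)
    (hram : ¬ UnrA ρ C.units U₁ U) :
    rres2 L ρ (inf_le_right.trans h₁.le : midSub χ ⊓ U₁ ≤ U) (wcl (L := L) χ ho π hπ.mem) = 0 := by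
  have hmid := normalIdx_midSub (L := L) χ hs ho
  have hk := normalIdx_ker_midSub (L := L) χ hs ho
  have hurmid : UnrA ρ C.units (midSub χ) U := UnrA.of_le hk.le hmid.le hur
  have hne : U₁ ≠ midSub χ := fun h => hram (h ▸ hurmid)
  have hW := C1bP3.normalIdx_ker_inf (L := L) χ hs ho h₁ hne
  have hle : midSub χ ⊓ U₁ ≤ U := inf_le_right.trans h₁.le
  have hoV₁ : RelOpen L (midSub χ ⊓ U₁) U := hmid.relOpen.inf h₁.relOpen
  have hmemV₁ : C.mem (midSub χ ⊓ U₁) := C.mem_of_relOpen hU hle hoV₁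
  have hmemmid : C.mem (midSub χ) := C.mem_of_relOpen hU hmid.le hmid.relOpen
  -- `W / V₁` is unramified
  have hurk : UnrA ρ C.units (χ.ker.map U.subtype) (midSub χ) :=
    UnrA.of_le' hk.le hmid.le ⟨π, hπ⟩ hur
  have hurW : UnrA ρ C.units (χ.ker.map U.subtype ⊓ (midSub χ ⊓ U₁)) (midSub χ ⊓ U₁) :=
    C.unr_inf hmemmid hk.le hk.relOpen inf_le_left (hoV₁.of_le hmid.le) hurk
  obtain ⟨s, hsV₁, hsW⟩ := hW.exists_not_mem
  obtain ⟨ϖ, hϖ, hu⟩ := C.ram hU h₁ hram π hπ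
  have hπV₁ : π ∈ AU ρ (midSub χ ⊓ U₁) := AU_mono ρ hle hπ.mem
  have hϖV₁ : ϖ ∈ AU ρ (midSub χ ⊓ U₁) := AU_mono ρ inf_le_right hϖ.mem
  obtain ⟨y₀, hy₀, hNy₀⟩ := C.units_norm hmemV₁ hW hurW s hsV₁ hsW (π - p • ϖ)
    ((AU ρ _).sub_mem hπV₁ ((AU ρ _).smul_of_tower_mem p hϖV₁)) hu
  have h1 : rres2 L ρ hle (wcl (L := L) χ ho π hπ.mem) =
      cl L ρ (χ.comp (Subgroup.inclusion hle)) (isOpen_ker_comp_inclusion hle χ ho)
        ⟨π, hπV₁⟩ := rfl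
  rw [h1, C.cl_eq_zero_iff_of_normalIdx hmemV₁ hW _ _ (C1bP3.ker_comp_inclusion hle χ) hsV₁ hsW]
  refine ⟨ϖ + y₀, (AU ρ _).add_mem (AU_mono ρ inf_le_right hϖV₁) hy₀, ?_⟩
  rw [map_add, hNy₀, Nm_of_mem_AU hsV₁ p hϖV₁]
  simp

end Fermat.Agent.S55.L

end
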