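import Fermat.Agent.S55.L.C1bDefs

/-! # L-C1b-4: `|ker res_{V₁}| ≤ p²` (step (4) of the proof in `C1Defs.lean`; cf. `C0.card_le_mul` in `L/C0/Form/Count.lean`) -/

set_option autoImplicit false

noncomputable section

namespace Fermat.Agent.S55.L

open Fermat.Agent.S55

/-- `|ker (g ∘ f)| ≤ |ker f| |ker g|` -/
theorem c1bP4_card_ker_comp_le {M M' M'' : Type*} [AddCommGroup M] [AddCommGroup M']
    [AddCommGroup M''] (f : M →ₗ[ℤ] M') (g : M' →ₗ[ℤ] M'') (h : M →ₗ[ℤ] M'')
    (hh : ∀ x, g (f x) = h x) [Finite (LinearMap.ker f)] [Finite (LinearMap.ker g)] :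
    Finite (LinearMap.ker h) ∧
      Nat.card (LinearMap.ker h) ≤ Nat.card (LinearMap.ker f) * Nat.card (LinearMap.ker g) := by
  classical
  -- a set theoretic section of `f`
  let s : M' → M := fun c => if hc : ∃ b, f b = c then hc.choose else 0
  have hs : ∀ b, f (s (f b)) = f b := by
    intro b
    have hc : ∃ b', f b' = f b := ⟨b, rfl⟩
    simp only [s, dif_pos hc]
    exact hc.choose_spec
  let φ : LinearMap.ker h → LinearMap.ker f × LinearMap.ker g := fun b =>
    (⟨(b : M) - s (f b), by rw [LinearMap.mem_ker, map_sub, hs, sub_self]⟩,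
      ⟨f b, by rw [LinearMap.mem_ker, hh]; exact b.2⟩)
  have hφ : Function.Injective φ := by
    intro b b' hbb
    have h1 : (b : M) - s (f b) = (b' : M) - s (f b') := congrArg (fun x => (x.1 : M)) hbb
    have h2 : f b = f b' := congrArg (fun x => (x.2 : M')) hbb
    rw [h2] at h1
    exact Subtype.ext (sub_left_injective h1)
  refine ⟨Finite.of_injective φ hφ, ?_⟩
  rw [← Nat.card_prod]
  exact Nat.card_le_card_of_injective φ hφ

variable {Γ : Type} [Group Γ] {A : Type} [AddCommGroup A]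
variable {L : Lev Γ} {ρ : Representation ℤ Γ A} {p : ℕ}

/-- (4) `|ker res_{V₁}| ≤ p²` -/
theorem LCF.card_ker_rres2_le [Fact p.Prime] (C : LCF L ρ p) {U U₁ V₁ : Subgroup Γ}
    (hU : C.mem U) (h₁ : NormalIdx L p U₁ U) (hV₁ : NormalIdx L p V₁ U₁) :
    Finite (LinearMap.ker (rres2 L ρ (hV₁.le.trans h₁.le))) ∧
      Nat.card (LinearMap.ker (rres2 L ρ (hV₁.le.trans h₁.le))) ≤ p * p := by
  have hp0 : p ≠ 0 := (Fact.out (p := p.Prime)).ne_zero
  have hU₁ : C.mem U₁ := C.mem_of_relOpen hU h₁.le h₁.relOpen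
  have c1 := C.card_ker_rres2 hU h₁
  have c2 := C.card_ker_rres2 hU₁ hV₁
  have : Finite (LinearMap.ker (rres2 L ρ h₁.le)) := Nat.finite_of_card_ne_zero (by rw [c1]; exact hp0)
  have : Finite (LinearMap.ker (rres2 L ρ hV₁.le)) := Nat.finite_of_card_ne_zero (by rw [c2]; exact hp0)
  have key := c1bP4_card_ker_comp_le (rres2 L ρ h₁.le) (rres2 L ρ hV₁.le)
    (rres2 L ρ (hV₁.le.trans h₁.le)) (fun x => rres2_rres2 L ρ h₁.le hV₁.le x)
  rw [c1, c2] at key
  exact key

end Fermat.Agent.S55.L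

end
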