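import Mathlib

/-! # L-C1b-5: a lemma on finite abelian groups (Mathlib only) -/

set_option autoImplicit false

namespace Fermat.Agent.S55.L

variable {p : ℕ}

/-- (5) pure algebra: a finite group `B` of order `≤ p²` containing `w` with `p w ≠ 0`, `p² w = 0`:
every `x ∈ B` with `p x = 0` is a multiple of `p w`.
PROOF.  `addOrderOf w = p²` (divides `p²`, does not divide `p`), so `⟨w⟩ ≤ B` has `p²` elements,
so `B = ⟨w⟩`; `x = n w`, `p n w = 0`, so `p² ∣ p n`, `p ∣ n`, `x = (n / p) (p w)`. -/
theorem exists_smul_of_card_le [Fact p.Prime] {M : Type*} [AddCommGroup M] (B : AddSubgroup M)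
    [Finite B] (hB : Nat.card B ≤ p * p) {w x : M} (hw : w ∈ B) (hx : x ∈ B)
    (hpw : p • w ≠ 0) (hppw : (p * p) • w = 0) (hpx : p • x = 0) : ∃ m : ℕ, x = m • (p • w) := by
  have hp : p.Prime := Fact.out
  -- the order of `w` is `p²`
  have hord : addOrderOf w = p * p := by
    have h1 : addOrderOf w ∣ p ^ 2 := by
      rw [pow_two]
      exact addOrderOf_dvd_of_nsmul_eq_zero hppw
    obtain ⟨k, hk, hk'⟩ := (Nat.dvd_prime_pow hp).mp h1
    have h2 : ¬ addOrderOf w ∣ p := fun h => hpw (addOrderOf_dvd_iff_nsmul_eq_zero.mp h)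
    have hk2 : k = 2 := by
      by_contra hne
      apply h2
      rw [hk']
      have : k ≤ 1 := by omega
      calc p ^ k ∣ p ^ 1 := pow_dvd_pow p this
        _ = p := pow_one p
    rw [hk', hk2, pow_two]
  -- `⟨w⟩ = B`
  have hle : AddSubgroup.zmultiples w ≤ B := (AddSubgroup.zmultiples_le).mpr hw
  have hcard : Nat.card (AddSubgroup.zmultiples w) = p * p := by
    rw [Nat.card_zmultiples, hord]
  have heq : AddSubgroup.zmultiples w = B := by
    have hfin : (B : Set M).Finite := Set.toFinite _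
    have h3 : (AddSubgroup.zmultiples w : Set M) = (B : Set M) := by
      apply Set.eq_of_subset_of_ncard_le hle _ hfin
      have e1 : (B : Set M).ncard = Nat.card B := rfl
      have e2 : (AddSubgroup.zmultiples w : Set M).ncard = Nat.card (AddSubgroup.zmultiples w) := rfl
      rw [e1, e2, hcard]
      exact hB
    exact SetLike.coe_injective h3
  have hx' : x ∈ AddSubgroup.zmultiples w := heq ▸ hx
  have hfo : IsOfFinAddOrder w := by
    rw [← addOrderOf_pos_iff, hord]
    exact Nat.mul_pos hp.pos hp.pos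
  obtain ⟨n, rfl⟩ := (hfo.mem_multiples_iff_mem_zmultiples).mpr hx'
  simp only at hpx ⊢
  have h4 : p * p ∣ p * n := by
    rw [← hord]
    apply addOrderOf_dvd_of_nsmul_eq_zero
    rw [mul_smul]
    exact hpx
  obtain ⟨m, rfl⟩ := Nat.dvd_of_mul_dvd_mul_left hp.pos h4
  exact ⟨m, by rw [smul_smul, mul_comm]⟩

end Fermat.Agent.S55.L
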