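import Fermat.Agent.S55.L.C1bP1
import Fermat.Agent.S55.L.C1bP2
import Fermat.Agent.S55.L.C1bP3
import Fermat.Agent.S55.L.C1bP4
import Fermat.Agent.S55.L.C1bP5

/-! # L-C1b: all the parts of the degree `p²` step -/
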