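import Fermat.Agent.S55.L.C1bParts

/-! # L-C1b: the degree `p²` step (assembled from `C1bParts.lean`; see the proof in `C1Defs.lean`) -/

set_option autoImplicit false

noncomputable section

namespace Fermat.Agent.S55.L

open Fermat.Agent.S55

variable {Γ : Type} [Group Γ] {A : Type} [AddCommGroup A]
variable {L : Lev Γ} {ρ : Representation ℤ Γ A} {p : ℕ}

/-- (package L-C1b) the degree `p²` step -/
theorem LCF.step [Fact p.Prime] (C : LCF L ρ p) {U U₁ V₁ V : Subgroup Γ} (hU : C.mem U)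
    (h₁ : NormalIdx L p U₁ U) (hV₁ : NormalIdx L p V₁ U₁) (hur₁ : UnrA ρ C.units V₁ U₁)
    (hV : NormalIdx L p V U) (hur : UnrA ρ C.units V U)
    (x : HH2 L ρ U) (hpx : p • x = 0) (hx : rres2 L ρ (hV₁.le.trans h₁.le) x = 0) :
    rres2 L ρ hV.le x = 0 := by
  obtain ⟨χ, hs, ho, hurχ⟩ := C.exists_unr hU
  obtain ⟨π, hπ⟩ := C.exists_unif hU
  have hmid := normalIdx_midSub (L := L) χ hs ho
  have hkm := normalIdx_ker_midSub (L := L) χ hs ho
  have hurmid : UnrA ρ C.units (midSub χ) U := UnrA.of_le hkm.le hmid.le hurχ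
  have hVeq : V = midSub χ := C.unr_unique hU hV hmid hur hurmid
  subst hVeq
  -- `res_{V₁} w = 0`
  have hw : rres2 L ρ (hV₁.le.trans h₁.le) (wcl (L := L) χ ho π hπ.mem) = 0 := by
    by_cases hur1 : UnrA ρ C.units U₁ U
    · have h1 : U₁ = midSub χ := C.unr_unique hU h₁ hmid hur1 hurmid
      subst h1
      have hmem : C.mem (midSub χ) := C.mem_of_relOpen hU hmid.le hmid.relOpen
      have hur'' : UnrA ρ C.units (χ.ker.map U.subtype) (midSub χ) :=
        UnrA.of_le' hkm.le hmid.le ⟨π, hπ⟩ hurχ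
      have h2 : V₁ = χ.ker.map U.subtype := C.unr_unique hmem hV₁ hkm hur₁ hur''
      subst h2
      exact rres2_ker_wcl χ ho π hπ.mem
    · have hne : midSub χ ≠ U₁ := by
        rintro rfl
        exact hur1 hurmid
      have hmem1 : C.mem U₁ := C.mem_of_relOpen hU h₁.le h₁.relOpen
      have hidx := hmid.inf_of_ne h₁ hne
      have hurinf := C.unr_inf hU hmid.le hmid.relOpen h₁.le h₁.relOpen hurmid
      have h2 : V₁ = midSub χ ⊓ U₁ := C.unr_unique hmem1 hV₁ hidx hur₁ hurinf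
      subst h2
      exact C.rres2_wcl_of_ram hU χ hs ho hurχ π hπ h₁ hur1
  obtain ⟨hfin, hcard⟩ := C.card_ker_rres2_le hU h₁ hV₁
  have hfin' : Finite (LinearMap.ker (rres2 L ρ (hV₁.le.trans h₁.le))).toAddSubgroup := hfin
  obtain ⟨m, hm⟩ := exists_smul_of_card_le (p := p)
    (LinearMap.ker (rres2 L ρ (hV₁.le.trans h₁.le))).toAddSubgroup hcard
    (w := wcl (L := L) χ ho π hπ.mem) (x := x) hw hx
    (C.smul_wcl_ne_zero hU χ hs ho hurχ π hπ) (C.sq_smul_wcl hU χ hs ho π hπ.mem) hpx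
  rw [hm, map_nsmul]
  have := C.rres2_mid_smul_wcl hU χ hs ho π hπ.mem
  rw [this, smul_zero]

end Fermat.Agent.S55.L

end
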