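import Fermat.Agent.S55.L.C1bStep
import Fermat.Agent.S55.L.C1rBridge

/-! # L-C1c: induction along a `p`-tower and Sylow reduction (see the proofs in `C1Defs.lean`) -/

set_option autoImplicit false

noncomputable section

namespace Fermat.Agent.S55.L

open Fermat.Agent.S55

variable {Γ : Type} [Group Γ] {A : Type} [AddCommGroup A]
variable {L : Lev Γ} {ρ : Representation ℤ Γ A} {p : ℕ}

/-- (package L-C1c) induction along a `p`-tower -/
theorem LCF.dies_of_pow [Fact p.Prime] (C : LCF L ρ p) (n : ℕ) :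
    ∀ {U W V : Subgroup Γ}, C.mem U → ∀ (hW : W ≤ U), RelOpen L W U → (W.subgroupOf U).Normal →
      W.relIndex U = p ^ n → ∀ (hV : NormalIdx L p V U), UnrA ρ C.units V U →
      ∀ x : HH2 L ρ U, p • x = 0 → rres2 L ρ hW x = 0 → rres2 L ρ hV.le x = 0 := by
  induction n with
  | zero =>
    intro U W V hU hW ho hn hi hV hur x hpx hx
    have hUW : U ≤ W := Subgroup.relIndex_eq_one.mp (by simpa using hi)
    have hWU : W = U := le_antisymm hW hUW
    subst hWU
    rw [rres2_self] at hx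
    rw [hx, map_zero]
  | succ n ih =>
    intro U W V hU hW ho hn hi hV hur x hpx hx
    obtain ⟨U₂, hWU₂, hU₂, hi₂⟩ := exists_normalIdx_of_relIndex_pow hW ho hn hi
    have hmem₂ := C.mem_of_relOpen hU hU₂.le hU₂.relOpen
    obtain ⟨χ, hs, hoχ, hurχ⟩ := C.exists_unr hmem₂
    have hmid := normalIdx_midSub (L := L) χ hs hoχ
    have hurmid : UnrA ρ C.units (midSub χ) U₂ :=
      UnrA.of_le (normalIdx_ker_midSub (L := L) χ hs hoχ).le hmid.le hurχ
    have h2 := ih hmem₂ hWU₂ (ho.of_le hU₂.le) (normal_subgroupOf_of_le hn hU₂.le) hi₂ hmid hurmid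
      (rres2 L ρ hU₂.le x) (by rw [← map_nsmul, hpx, map_zero]) (by rw [rres2_rres2]; exact hx)
    rw [rres2_rres2] at h2
    exact C.step hU hU₂ hmid hurmid hV hur x hpx h2

/-- (package L-C1c) Sylow reduction: every `p`-torsion class dies in the unramified extension of
degree `p` -/
theorem LCF.torsion_dies [Fact p.Prime] (C : LCF L ρ p) {U V : Subgroup Γ} (hU : C.mem U)
    (hV : NormalIdx L p V U) (hur : UnrA ρ C.units V U) (x : HH2 L ρ U) (hpx : p • x = 0) :
    rres2 L ρ hV.le x = 0 := by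
  obtain ⟨W₀, hW₀, hn₀, hx⟩ := exists_rres2_eq_zero U x
  have hWU : W₀ ⊓ U ≤ U := inf_le_right
  have hWo : RelOpen L (W₀ ⊓ U) U := ⟨W₀, hW₀, le_rfl⟩
  have hWn : ((W₀ ⊓ U).subgroupOf U).Normal := normal_inf_subgroupOf hn₀ U
  obtain ⟨U₁, hWU₁, hU₁U, hcop, n, hn⟩ := exists_sylow (p := p) hWU hWo hWn
  have hU₁o : RelOpen L U₁ U := hWo.mono_left hWU₁
  obtain ⟨hidx, hrel⟩ := hV.inf_of_coprime hU₁U hU₁o hcop
  have hmem₁ := C.mem_of_relOpen hU hU₁U hU₁o
  have hurinf := C.unr_inf hU hV.le hV.relOpen hU₁U hU₁o hur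
  have h1 := C.dies_of_pow n hmem₁ hWU₁ (hWo.of_le hU₁U) (normal_subgroupOf_of_le hWn hU₁U) hn
    hidx hurinf (rres2 L ρ hU₁U x) (by rw [← map_nsmul, hpx, map_zero])
    (by rw [rres2_rres2]; exact hx)
  rw [rres2_rres2] at h1
  exact eq_zero_of_rres2_of_coprime C.discrete (inf_le_left : V ⊓ U₁ ≤ V) (hU₁o.inf_left hV.le)
    (by rw [hrel]; exact hcop) _ (by rw [← map_nsmul, hpx, map_zero])
    (by rw [rres2_rres2]; exact h1)

end Fermat.Agent.S55.L

end
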