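import Fermat.Agent.S55.L.C1Defs

/-! # L-C1g: group theory helpers for the abstract class formation theorem -/

set_option autoImplicit false

noncomputable section

namespace Fermat.Agent.S55.L

open Fermat.Agent.S55

variable {Γ : Type} [Group Γ] {A : Type} [AddCommGroup A]
variable {L : Lev Γ} {ρ : Representation ℤ Γ A} {p : ℕ}

/-! ### private auxiliaries -/

namespace C1g

lemma subgroupOf_map_subtype {U : Subgroup Γ} (H : Subgroup U) :
    (H.map U.subtype).subgroupOf U = H :=
  Subgroup.comap_map_eq_self_of_injective U.subtype_injective H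

lemma relIndex_map_subtype {U : Subgroup Γ} (H : Subgroup U) :
    (H.map U.subtype).relIndex U = H.index := by
  rw [Subgroup.relIndex, subgroupOf_map_subtype]

lemma map_subtype_le {U : Subgroup Γ} (H : Subgroup U) : H.map U.subtype ≤ U := by
  rintro _ ⟨x, -, rfl⟩
  exact x.2

lemma map_subgroupOf {V U : Subgroup Γ} (h : V ≤ U) : (V.subgroupOf U).map U.subtype = V :=
  Subgroup.map_subgroupOf_eq_of_le h

lemma le_map_of_subgroupOf_le {W U : Subgroup Γ} (hW : W ≤ U) {H : Subgroup U}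
    (h : W.subgroupOf U ≤ H) : W ≤ H.map U.subtype := by
  intro x hx
  exact ⟨⟨x, hW hx⟩, h (Subgroup.mem_subgroupOf.2 hx), rfl⟩

lemma relIndex_map_of_le {W U : Subgroup Γ} (hW : W ≤ U) (H : Subgroup U) :
    W.relIndex (H.map U.subtype) = (W.subgroupOf U).relIndex H := by
  conv_lhs => lhs; rw [← map_subgroupOf hW]
  rw [Subgroup.relIndex_map_map_of_injective _ _ U.subtype_injective]

lemma relOpen_mono {V V' U : Subgroup Γ} (h : RelOpen L V U) (hV : V ≤ V') : RelOpen L V' U := by
  obtain ⟨W, hW, hWV⟩ := h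
  exact ⟨W, hW, hWV.trans hV⟩

lemma relOpen_inf {V U U₁ : Subgroup Γ} (h : RelOpen L V U) (h₁ : U₁ ≤ U) :
    RelOpen L (V ⊓ U₁) U₁ := by
  obtain ⟨W, hW, hWV⟩ := h
  exact ⟨W, hW, fun x hx => ⟨hWV ⟨hx.1, h₁ hx.2⟩, hx.2⟩⟩

lemma relOpen_of_isOpen {U : Subgroup Γ} {H : Subgroup U} (h : (L.sub U).IsOpen H) :
    RelOpen L (H.map U.subtype) U := by
  obtain ⟨_, ⟨W, hW, rfl⟩, hWH⟩ := h
  exact ⟨W, hW, fun x hx => ⟨⟨x, hx.2⟩, hWH hx.1, rfl⟩⟩

lemma normal_inf {V U U₁ : Subgroup Γ} (hn : (V.subgroupOf U).Normal) (h₁ : U₁ ≤ U) :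
    ((V ⊓ U₁).subgroupOf U₁).Normal := by
  refine ⟨fun n hn' g => ?_⟩
  have h1 : (n : Γ) ∈ V := (Subgroup.mem_subgroupOf.1 hn').1
  have := hn.conj_mem ⟨n, h₁ n.2⟩ (Subgroup.mem_subgroupOf.2 h1) ⟨g, h₁ g.2⟩
  exact Subgroup.mem_subgroupOf.2 ⟨this, (g * n * g⁻¹).2⟩

lemma finiteIndex_of_relOpen {V U : Subgroup Γ} (h : RelOpen L V U) :
    (V.subgroupOf U).FiniteIndex :=
  h.isOpen_subgroupOf.finiteIndex

/-- two subgroups of the same finite nonzero index, one in the other -/
lemma eq_of_le_of_index_eq {G : Type*} [Group G] {H K : Subgroup G} (h : H ≤ K)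
    (hi : H.index = K.index) (h0 : K.index ≠ 0) : H = K := by
  have h1 := Subgroup.relIndex_mul_index h
  rw [hi] at h1
  have h2 : H.relIndex K = 1 := by
    have : H.relIndex K * K.index = 1 * K.index := by rw [h1, one_mul]
    exact Nat.eq_of_mul_eq_mul_right (Nat.pos_of_ne_zero h0) this
  exact le_antisymm h (Subgroup.relIndex_eq_one.1 h2)

/-- `V` normal, `V ⊔ H = ⊤`: `[H : V ⊓ H] = [G : V]` -/
lemma relIndex_of_sup_eq_top {G : Type*} [Group G] {V H : Subgroup G} [V.Normal]
    (h : H ⊔ V = ⊤) : V.relIndex H = V.index := by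
  rw [← Subgroup.relIndex_sup_right, h, Subgroup.relIndex_top_right]

lemma mem_range_pow_iff [Fact p.Prime] (x : Multiplicative (ZMod (p * p))) :
    x ∈ (powMonoidHom p : Multiplicative (ZMod (p * p)) →* _).range ↔
      p ∣ (Multiplicative.toAdd x).val := by
  have hp : p.Prime := Fact.out
  have : NeZero (p * p) := ⟨Nat.mul_ne_zero hp.ne_zero hp.ne_zero⟩
  constructor
  · rintro ⟨y, rfl⟩
    have h1 : Multiplicative.toAdd (powMonoidHom p y) = (p : ZMod (p * p)) * Multiplicative.toAdd y := by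
      simp [powMonoidHom_apply, toAdd_pow]
    rw [h1, ZMod.val_mul, ZMod.val_natCast]
    refine (Nat.dvd_mod_iff (dvd_mul_right p p)).2 ?_
    refine Dvd.dvd.mul_right ?_ _
    exact (Nat.dvd_mod_iff (dvd_mul_right p p)).2 dvd_rfl
  · rintro ⟨k, hk⟩
    refine ⟨Multiplicative.ofAdd (k : ZMod (p * p)), ?_⟩
    apply Multiplicative.toAdd.injective
    have : Multiplicative.toAdd x = ((Multiplicative.toAdd x).val : ZMod (p * p)) := by
      rw [ZMod.natCast_val, ZMod.cast_id', id]
    rw [this, hk]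
    simp [powMonoidHom_apply, toAdd_pow]

/-- reduction `ℤ/p² → ℤ/p` -/
def redHom (p : ℕ) : Multiplicative (ZMod (p * p)) →* Multiplicative (ZMod p) :=
  AddMonoidHom.toMultiplicative (ZMod.castHom (dvd_mul_right p p) (ZMod p)).toAddMonoidHom

lemma redHom_surjective (p : ℕ) : Function.Surjective (redHom p) := by
  intro y
  obtain ⟨x, hx⟩ := ZMod.castHom_surjective (dvd_mul_right p p) (Multiplicative.toAdd y)
  exact ⟨Multiplicative.ofAdd x, by
    apply Multiplicative.toAdd.injective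
    exact hx⟩

lemma ker_redHom [Fact p.Prime] :
    (redHom p).ker = (powMonoidHom p : Multiplicative (ZMod (p * p)) →* _).range := by
  have hp : p.Prime := Fact.out
  have : NeZero (p * p) := ⟨Nat.mul_ne_zero hp.ne_zero hp.ne_zero⟩
  ext x
  rw [mem_range_pow_iff, MonoidHom.mem_ker]
  have h1 : redHom p x = 1 ↔ (ZMod.castHom (dvd_mul_right p p) (ZMod p)) (Multiplicative.toAdd x) = 0 := by
    constructor
    · intro h
      exact congrArg Multiplicative.toAdd h
    · intro h
      exact Multiplicative.toAdd.injective h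
  rw [h1, ZMod.castHom_apply, ← ZMod.natCast_val, ZMod.natCast_eq_zero_iff]

lemma index_range_pow [Fact p.Prime] :
    (powMonoidHom p : Multiplicative (ZMod (p * p)) →* _).range.index = p := by
  rw [← ker_redHom, Subgroup.index_ker, MonoidHom.range_eq_top.2 (redHom_surjective p)]
  rw [Nat.card_congr Subgroup.topEquiv.toEquiv, Nat.card_congr Multiplicative.toAdd, Nat.card_zmod]

/-- the middle subgroup inside `U` -/
abbrev mid {U : Subgroup Γ} (χ : U →* Multiplicative (ZMod (p * p))) : Subgroup U :=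
  (powMonoidHom p : Multiplicative (ZMod (p * p)) →* _).range.comap χ

lemma index_mid [Fact p.Prime] {U : Subgroup Γ} (χ : U →* Multiplicative (ZMod (p * p)))
    (hs : Function.Surjective χ) : (mid χ).index = p := by
  rw [Subgroup.index_comap_of_surjective _ hs, index_range_pow]

lemma index_ker_of_surjective [Fact p.Prime] {U : Subgroup Γ}
    (χ : U →* Multiplicative (ZMod (p * p))) (hs : Function.Surjective χ) :
    χ.ker.index = p * p := by
  rw [Subgroup.index_ker, MonoidHom.range_eq_top.2 hs]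
  rw [Nat.card_congr Subgroup.topEquiv.toEquiv, Nat.card_congr Multiplicative.toAdd, Nat.card_zmod]

lemma ker_le_mid {U : Subgroup Γ} (χ : U →* Multiplicative (ZMod (p * p))) : χ.ker ≤ mid χ := by
  intro x hx
  rw [Subgroup.mem_comap, MonoidHom.mem_ker.1 hx]
  exact one_mem _

lemma le_comap_mk' {G : Type*} [Group G] (N : Subgroup G) [N.Normal] (K : Subgroup (G ⧸ N)) :
    N ≤ K.comap (QuotientGroup.mk' N) := by
  intro x hx
  rw [Subgroup.mem_comap, QuotientGroup.mk'_apply, (QuotientGroup.eq_one_iff x).2 hx]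
  exact one_mem _

lemma relIndex_comap_mk' {G : Type*} [Group G] (N : Subgroup G) [N.Normal]
    (K : Subgroup (G ⧸ N)) : N.relIndex (K.comap (QuotientGroup.mk' N)) = Nat.card K := by
  have hker : N = (⊥ : Subgroup (G ⧸ N)).comap (QuotientGroup.mk' N) := by
    ext x
    rw [Subgroup.mem_comap, Subgroup.mem_bot, QuotientGroup.mk'_apply, QuotientGroup.eq_one_iff]
  conv_lhs => lhs; rw [hker]
  rw [Subgroup.relIndex_comap, Subgroup.map_comap_eq_self_of_surjective
    (QuotientGroup.mk'_surjective _), Subgroup.relIndex_bot_left]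

end C1g

open C1g

/-! ### group theory helpers (package L-C1g) -/

/-- a character with kernel `V` -/
theorem NormalIdx.exists_char [Fact p.Prime] {V U : Subgroup Γ} (h : NormalIdx L p V U) :
    ∃ χ : U →* Multiplicative (ZMod p), Function.Surjective χ ∧ χ.ker = V.subgroupOf U := by
  have := h.normal
  have hc : Nat.card (U ⧸ V.subgroupOf U) = p := h.index
  have hc' : Nat.card (Multiplicative (ZMod p)) = p := by
    rw [Nat.card_congr Multiplicative.toAdd, Nat.card_zmod]
  let e : (U ⧸ V.subgroupOf U) ≃* Multiplicative (ZMod p) := mulEquivOfPrimeCardEq hc hc'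
  refine ⟨e.toMonoidHom.comp (QuotientGroup.mk' _), ?_, ?_⟩
  · exact e.surjective.comp (QuotientGroup.mk'_surjective _)
  · ext x
    rw [MonoidHom.mem_ker, MonoidHom.comp_apply]
    show e _ = 1 ↔ _
    rw [map_eq_one_iff e e.injective, QuotientGroup.mk'_apply, QuotientGroup.eq_one_iff]

theorem NormalIdx.isOpen_subgroupOf {V U : Subgroup Γ} (h : NormalIdx L p V U) :
    (L.sub U).IsOpen (V.subgroupOf U) :=
  h.relOpen.isOpen_subgroupOf

theorem mem_midSub [Fact p.Prime] {U : Subgroup Γ} (χ : U →* Multiplicative (ZMod (p * p)))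
    (g : Γ) : g ∈ midSub χ ↔ ∃ h : g ∈ U, p ∣ C0.lval χ ⟨g, h⟩ := by
  constructor
  · rintro ⟨x, hx, rfl⟩
    exact ⟨x.2, (mem_range_pow_iff _).1 hx⟩
  · rintro ⟨h, hd⟩
    exact ⟨⟨g, h⟩, (mem_range_pow_iff _).2 hd, rfl⟩

theorem normalIdx_midSub [Fact p.Prime] {U : Subgroup Γ}
    (χ : U →* Multiplicative (ZMod (p * p))) (hs : Function.Surjective χ)
    (ho : (L.sub U).IsOpen χ.ker) : NormalIdx L p (midSub χ) U where
  le := map_subtype_le _
  relOpen := relOpen_of_isOpen (ho.mono (ker_le_mid χ))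
  normal := by
    show ((mid χ).map U.subtype |>.subgroupOf U).Normal
    rw [subgroupOf_map_subtype]
    infer_instance
  index := by
    show ((mid χ).map U.subtype).relIndex U = p
    rw [relIndex_map_subtype, index_mid χ hs]

theorem normalIdx_ker_midSub [Fact p.Prime] {U : Subgroup Γ}
    (χ : U →* Multiplicative (ZMod (p * p))) (hs : Function.Surjective χ)
    (ho : (L.sub U).IsOpen χ.ker) : NormalIdx L p (χ.ker.map U.subtype) (midSub χ) where
  le := Subgroup.map_mono (ker_le_mid χ)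
  relOpen := by
    obtain ⟨W, hW, hWV⟩ := relOpen_of_isOpen ho
    exact ⟨W, hW, fun x hx => hWV ⟨hx.1, map_subtype_le _ hx.2⟩⟩
  normal := by
    refine ⟨fun n hn g => ?_⟩
    obtain ⟨x, hx, hxn⟩ := Subgroup.mem_subgroupOf.1 hn
    have hg : (g : Γ) ∈ U := map_subtype_le _ g.2
    refine Subgroup.mem_subgroupOf.2 ⟨⟨g, hg⟩ * x * ⟨g, hg⟩⁻¹, ?_, ?_⟩
    · exact (inferInstance : χ.ker.Normal).conj_mem x hx _
    · simp [← hxn]
  index := by
    have hp : p.Prime := Fact.out
    show (χ.ker.map U.subtype).relIndex ((mid χ).map U.subtype) = p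
    rw [Subgroup.relIndex_map_map_of_injective _ _ U.subtype_injective]
    have h1 := Subgroup.relIndex_mul_index (ker_le_mid χ)
    rw [index_mid χ hs, index_ker_of_surjective χ hs] at h1
    exact Nat.eq_of_mul_eq_mul_right hp.pos h1

/-- two distinct normal subgroups of index `p` -/
theorem NormalIdx.inf_of_ne [Fact p.Prime] {U V U₁ : Subgroup Γ} (h : NormalIdx L p V U)
    (h₁ : NormalIdx L p U₁ U) (hne : V ≠ U₁) : NormalIdx L p (V ⊓ U₁) U₁ where
  le := inf_le_right
  relOpen := relOpen_inf h.relOpen h₁.le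
  normal := normal_inf h.normal h₁.le
  index := by
    have hp : p.Prime := Fact.out
    have := h.normal
    rw [Subgroup.inf_relIndex_right, ← Subgroup.relIndex_subgroupOf h₁.le]
    have hV : (V.subgroupOf U).index = p := h.index
    have hU₁ : (U₁.subgroupOf U).index = p := h₁.index
    rw [relIndex_of_sup_eq_top, hV]
    have hd : (U₁.subgroupOf U ⊔ V.subgroupOf U).index ∣ p := by
      rw [← hV]; exact Subgroup.index_dvd_of_le le_sup_right
    rcases (Nat.dvd_prime hp).1 hd with h1 | h1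
    · exact Subgroup.index_eq_one.1 h1
    · exfalso
      have e1 : V.subgroupOf U = U₁.subgroupOf U ⊔ V.subgroupOf U :=
        eq_of_le_of_index_eq le_sup_right (by rw [hV, h1]) (by rw [h1]; exact hp.ne_zero)
      have e2 : U₁.subgroupOf U = U₁.subgroupOf U ⊔ V.subgroupOf U :=
        eq_of_le_of_index_eq le_sup_left (by rw [hU₁, h1]) (by rw [h1]; exact hp.ne_zero)
      apply hne
      rw [← map_subgroupOf h.le, ← map_subgroupOf h₁.le, e1, ← e2]

/-- `U₁` of index prime to `p` -/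
theorem NormalIdx.inf_of_coprime [Fact p.Prime] {U V U₁ : Subgroup Γ} (h : NormalIdx L p V U)
    (h₁ : U₁ ≤ U) (ho : RelOpen L U₁ U) (hc : Nat.Coprime p (U₁.relIndex U)) :
    NormalIdx L p (V ⊓ U₁) U₁ ∧ (V ⊓ U₁).relIndex V = U₁.relIndex U := by
  have hp : p.Prime := Fact.out
  have := h.normal
  have hV : (V.subgroupOf U).index = p := h.index
  have hidx : (V ⊓ U₁).relIndex U₁ = p := by
    rw [Subgroup.inf_relIndex_right, ← Subgroup.relIndex_subgroupOf h₁]
    rw [relIndex_of_sup_eq_top, hV]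
    apply Subgroup.index_eq_one.1
    have hd : (U₁.subgroupOf U ⊔ V.subgroupOf U).index ∣ p := by
      rw [← hV]; exact Subgroup.index_dvd_of_le le_sup_right
    have hd' : (U₁.subgroupOf U ⊔ V.subgroupOf U).index ∣ U₁.relIndex U :=
      Subgroup.index_dvd_of_le le_sup_left
    exact Nat.eq_one_of_dvd_coprimes hc hd hd'
  refine ⟨⟨inf_le_right, relOpen_inf h.relOpen h₁, normal_inf h.normal h₁, hidx⟩, ?_⟩
  have e1 := Subgroup.relIndex_mul_relIndex (V ⊓ U₁) U₁ U inf_le_right h₁
  have e2 := Subgroup.relIndex_mul_relIndex (V ⊓ U₁) V U inf_le_left h.le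
  rw [hidx] at e1
  rw [h.index, ← e1, mul_comm p] at e2
  exact Nat.eq_of_mul_eq_mul_right hp.pos e2

/-- if `U₁ ≠ midSub χ` is normal of index `p` then `χ` restricted to `U₁` is still surjective -/
theorem exists_mem_of_ne_midSub [Fact p.Prime] {U U₁ : Subgroup Γ}
    (χ : U →* Multiplicative (ZMod (p * p))) (hs : Function.Surjective χ)
    (h₁ : NormalIdx L p U₁ U) (hne : U₁ ≠ midSub χ) :
    ∃ s : U, (s : Γ) ∈ U₁ ∧ χ s = Multiplicative.ofAdd 1 := by
  have hp : p.Prime := Fact.out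
  have : NeZero (p * p) := ⟨Nat.mul_ne_zero hp.ne_zero hp.ne_zero⟩
  by_contra hcon
  apply hne
  have hle : U₁.subgroupOf U ≤ mid χ := by
    intro s hs₁
    rw [Subgroup.mem_comap, mem_range_pow_iff]
    by_contra hnd
    apply hcon
    have hcop : Nat.Coprime (Multiplicative.toAdd (χ s)).val (p * p) := by
      have := (Nat.Prime.coprime_iff_not_dvd hp).2 hnd
      exact (Nat.Coprime.mul_left this this).symm
    set a : ZMod (p * p) := Multiplicative.toAdd (χ s) with ha
    have ha' : a = (a.val : ZMod (p * p)) := by rw [ZMod.natCast_val, ZMod.cast_id', id]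
    have hu : IsUnit a := by
      rw [ha']; exact (ZMod.isUnit_iff_coprime _ _).2 hcop
    obtain ⟨b, hb⟩ := hu.exists_left_inv
    refine ⟨s ^ b.val, ?_, ?_⟩
    · exact (U₁.subgroupOf U).pow_mem hs₁ _
    · apply Multiplicative.toAdd.injective
      rw [map_pow, toAdd_pow, ← ha, toAdd_ofAdd, nsmul_eq_mul, ZMod.natCast_val, ZMod.cast_id', id, hb]
  have := eq_of_le_of_index_eq hle (by rw [index_mid χ hs]; exact h₁.index)
    (by rw [index_mid χ hs]; exact hp.ne_zero)
  rw [← map_subgroupOf h₁.le, this]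
  rfl

/-- Sylow: a relatively open subgroup `U₁ ⊇ W` of index prime to `p` with `[U₁ : W]` a power of
`p` -/
theorem exists_sylow [Fact p.Prime] {U W : Subgroup Γ} (hW : W ≤ U) (ho : RelOpen L W U)
    (hn : (W.subgroupOf U).Normal) :
    ∃ U₁ : Subgroup Γ, W ≤ U₁ ∧ U₁ ≤ U ∧ Nat.Coprime p (U₁.relIndex U) ∧
      ∃ n : ℕ, W.relIndex U₁ = p ^ n := by
  have hp : p.Prime := Fact.out
  have := hn
  have := finiteIndex_of_relOpen ho
  have : Finite (U ⧸ W.subgroupOf U) := Subgroup.finite_quotient_of_finiteIndex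
  obtain ⟨P⟩ : Nonempty (Sylow p (U ⧸ W.subgroupOf U)) := inferInstance
  have hle : W.subgroupOf U ≤ (P : Subgroup _).comap (QuotientGroup.mk' (W.subgroupOf U)) :=
    le_comap_mk' _ _
  refine ⟨((P : Subgroup _).comap (QuotientGroup.mk' (W.subgroupOf U))).map U.subtype, ?_,
    map_subtype_le _, ?_, ?_⟩
  · exact le_map_of_subgroupOf_le hW hle
  · rw [relIndex_map_subtype, Subgroup.index_comap_of_surjective _ (QuotientGroup.mk'_surjective _)]
    exact (Nat.Prime.coprime_iff_not_dvd hp).2 P.not_dvd_index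
  · obtain ⟨n, hn'⟩ := (IsPGroup.iff_card.1 P.isPGroup')
    refine ⟨n, ?_⟩
    rw [relIndex_map_of_le hW, relIndex_comap_mk', hn']

/-- a `p`-group has a normal subgroup of index `p` -/
theorem exists_normalIdx_of_relIndex_pow [Fact p.Prime] {U W : Subgroup Γ} (hW : W ≤ U)
    (ho : RelOpen L W U) (hn : (W.subgroupOf U).Normal) {n : ℕ} (hi : W.relIndex U = p ^ (n + 1)) :
    ∃ U₂ : Subgroup Γ, W ≤ U₂ ∧ NormalIdx L p U₂ U ∧ W.relIndex U₂ = p ^ n := by
  have hp : p.Prime := Fact.out
  have := hn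
  have := finiteIndex_of_relOpen ho
  have : Finite (U ⧸ W.subgroupOf U) := Subgroup.finite_quotient_of_finiteIndex
  have hcard : Nat.card (U ⧸ W.subgroupOf U) = p ^ (n + 1) := hi
  obtain ⟨K, hK⟩ := Sylow.exists_subgroup_card_pow_prime (G := U ⧸ W.subgroupOf U) p (n := n)
    (by rw [hcard]; exact pow_dvd_pow p (Nat.le_succ n))
  have hKi : K.index = p := by
    have := K.card_mul_index
    rw [hK, hcard, pow_succ] at this
    exact Nat.eq_of_mul_eq_mul_left (pow_pos hp.pos n) this
  have hKn : K.Normal := by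
    apply Subgroup.normal_of_index_eq_minFac_card
    rw [hKi, hcard, Nat.Prime.pow_minFac hp (Nat.succ_ne_zero n)]
  have hle : W.subgroupOf U ≤ K.comap (QuotientGroup.mk' (W.subgroupOf U)) := le_comap_mk' _ _
  have hWU₂ : W ≤ (K.comap (QuotientGroup.mk' (W.subgroupOf U))).map U.subtype :=
    le_map_of_subgroupOf_le hW hle
  refine ⟨(K.comap (QuotientGroup.mk' (W.subgroupOf U))).map U.subtype, hWU₂,
    ⟨map_subtype_le _, relOpen_mono ho hWU₂, ?_, ?_⟩, ?_⟩
  · rw [subgroupOf_map_subtype]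
    exact hKn.comap _
  · rw [relIndex_map_subtype, Subgroup.index_comap_of_surjective _ (QuotientGroup.mk'_surjective _),
      hKi]
  · rw [relIndex_map_of_le hW, relIndex_comap_mk', hK]

/-! ### formal consequences of the definition of `UnrA` (package L-C1u) -/

theorem UnrA.of_le {units : AddSubgroup A} {W V U : Subgroup Γ} (hWV : W ≤ V) (hVU : V ≤ U)
    (h : UnrA ρ units W U) : UnrA ρ units V U := by
  intro π hπ
  have hW := h π hπ
  exact ⟨AU_mono ρ hVU hπ.mem, fun a ha => hW.span a (AU_mono ρ hWV ha), hπ.free⟩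

theorem UnrA.of_le' {units : AddSubgroup A} {W V U : Subgroup Γ} (hWV : W ≤ V) (hVU : V ≤ U)
    (hU : ∃ π, IsUnifA ρ units U π) (h : UnrA ρ units W U) : UnrA ρ units W V := by
  intro ϖ hϖ
  obtain ⟨π, hπ⟩ := hU
  have hW := h π hπ
  have hV := UnrA.of_le hWV hVU h π hπ
  obtain ⟨m, hm⟩ := hϖ.span π hV.mem
  refine ⟨AU_mono ρ hWV hϖ.mem, fun a ha => ?_, hϖ.free⟩
  obtain ⟨k, hk⟩ := hW.span a ha
  refine ⟨k * m, ?_⟩
  have : a - (k * m) • ϖ = (a - k • π) + k • (π - m • ϖ) := by
    rw [smul_sub, mul_smul]; abel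
  rw [this]
  exact units.add_mem hk (units.zsmul_mem hm k)

end Fermat.Agent.S55.L

end
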