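import Fermat.Agent.S55.L.C1Defs
import Fermat.Agent.S55.L.BDefs

/-!
# L-C2: the local class formation `(Gal(ℚ̄/F))_F`, `A = ℚ̄ˣ`, and the theorems L1, L2

`Γ = G_ℚ` with any level structure `L` equivalent to the number field levels (`IsGalLev L`),
`A = Additive ℚ̄ˣ`, family = `{F.fixingSubgroup : F finite over hens q}`,
`units = (padicPlace q).unitGroup`.
-/

set_option autoImplicit false

noncomputable section

namespace Fermat.Agent.S55.L

open Fermat.Agent.S55

/-- the Galois module `ℚ̄ˣ` (written additively) -/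
def rhoQ : Representation ℤ GQ (Additive Qbarˣ) where
  toFun g := (MonoidHom.toAdditive (Units.map ((g : Qbar ≃ₐ[ℚ] Qbar) : Qbar →* Qbar))).toIntLinearMap
  map_one' := by ext a; rfl
  map_mul' g h := by ext a; rfl

theorem rhoQ_apply (g : GQ) (a : Additive Qbarˣ) :
    ((rhoQ g a).toMul : Qbar) = g (a.toMul : Qbar) := rfl

/-- `L` is equivalent to the family of all `K.fixingSubgroup`, `K` a number field in `ℚ̄` -/
structure IsGalLev (L : Lev GQ) : Prop where
  le : ∀ U ∈ L.sets, ∃ K : IntermediateField ℚ Qbar, FiniteDimensional ℚ K ∧ K.fixingSubgroup ≤ U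
  ge : ∀ K : IntermediateField ℚ Qbar, FiniteDimensional ℚ K → ∃ U ∈ L.sets, U ≤ K.fixingSubgroup

variable (q : ℕ) [Fact q.Prime]

/-- the family of local Galois groups at `q` -/
def memQ (U : Subgroup GQ) : Prop :=
  ∃ F : IntermediateField ℚ Qbar, IsLocalFieldAt q F ∧ U = F.fixingSubgroup

/-- the units of the place -/
def unitsQ : AddSubgroup (Additive Qbarˣ) := Subgroup.toAddSubgroup (padicPlace q).unitGroup

theorem mem_unitsQ (a : Additive Qbarˣ) : a ∈ unitsQ q ↔ a.toMul ∈ (padicPlace q).unitGroup :=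
  Iff.rfl

end Fermat.Agent.S55.L

end
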