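import Fermat.Agent.S55.L.C2Defs

/-! # L-C2a: the Galois module `ℚ̄ˣ`, Hilbert 90 for level cochains -/

set_option autoImplicit false

noncomputable section

namespace Fermat.Agent.S55.L

open Fermat.Agent.S55

variable {L : Lev GQ}

/-! ### package L-C2a: Galois module `ℚ̄ˣ`, Hilbert 90 -/

theorem c2a_isAlgebraic_Qbar : Algebra.IsAlgebraic ℚ Qbar := AlgebraicClosure.isAlgebraic ℚ

theorem c2a_isGalois_Qbar : IsGalois ℚ Qbar :=
  @IsAlgClosure.isGalois ℚ (AlgebraicClosure ℚ) _ _ (AlgebraicClosure.instAlgebra ℚ) _ _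

theorem rhoQ_eq_iff (g : GQ) (a b : Additive Qbarˣ) :
    rhoQ g a = b ↔ g (a.toMul : Qbar) = (b.toMul : Qbar) := by
  constructor
  · rintro rfl; rfl
  · intro h
    exact Additive.toMul.injective (Units.ext h)

theorem isDiscrete_rhoQ (hL : IsGalLev L) : IsDiscrete L rhoQ := by
  intro m
  have := c2a_isAlgebraic_Qbar
  have hint : IsIntegral ℚ (m.toMul : Qbar) := (Algebra.IsAlgebraic.isAlgebraic _).isIntegral
  obtain ⟨U, hU, hUK⟩ := hL.ge (IntermediateField.adjoin ℚ {(m.toMul : Qbar)})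
    (IntermediateField.adjoin.finiteDimensional hint)
  refine ⟨U, hU, fun u hu => ?_⟩
  rw [rhoQ_eq_iff]
  exact (IntermediateField.mem_fixingSubgroup_iff _ u).1 (hUK hu) _
    (IntermediateField.mem_adjoin_simple_self ℚ _)

/-- `(ℚ̄ˣ)^{Gal(ℚ̄/F)} = Fˣ` (infinite Galois theory: `InfiniteGalois.fixedField_fixingSubgroup`) -/
theorem mem_AU_rhoQ (F : IntermediateField ℚ Qbar) (a : Additive Qbarˣ) :
    a ∈ AU rhoQ F.fixingSubgroup ↔ (a.toMul : Qbar) ∈ F := by
  have := c2a_isGalois_Qbar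
  rw [mem_AU]
  constructor
  · intro h
    rw [← InfiniteGalois.fixedField_fixingSubgroup F, IntermediateField.mem_fixedField_iff]
    intro u hu
    exact (rhoQ_eq_iff u a a).1 (h u hu)
  · intro h u hu
    rw [rhoQ_eq_iff]
    exact (IntermediateField.mem_fixingSubgroup_iff _ u).1 hu _ h

/-- multiplicative form of Hilbert 90 -/
theorem h90_aux (D : Subgroup GQ) (E : IntermediateField ℚ Qbar)
    (hfin : (E.fixingSubgroup.subgroupOf D).FiniteIndex)
    (ζ : D → Qbar) (h0 : ∀ g, ζ g ≠ 0)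
    (hcoc : ∀ g h : D, ζ (g * h) = g.1 (ζ h) * ζ g)
    (hlev : ∀ g w : D, w.1 ∈ E.fixingSubgroup → ζ (g * w) = ζ g) :
    ∃ b : Qbar, b ≠ 0 ∧ ∀ h : D, h.1 b * ζ h = b := by
  classical
  set W : Subgroup D := E.fixingSubgroup.subgroupOf D with hW
  have : Fintype (D ⧸ W) := Subgroup.fintypeQuotientOfFiniteIndex
  -- the summands
  let φ : Qbar → D ⧸ W → Qbar := fun θ x => ζ x.out * x.out.1 θ
  have hφ : ∀ θ ∈ E, ∀ g : D, φ θ (QuotientGroup.mk g) = ζ g * g.1 θ := by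
    intro θ hθ g
    obtain ⟨w, hw⟩ := QuotientGroup.mk_out_eq_mul W g
    have hwE : (w : D).1 ∈ E.fixingSubgroup := Subgroup.mem_subgroupOf.1 w.2
    show ζ (QuotientGroup.mk g : D ⧸ W).out * (QuotientGroup.mk g : D ⧸ W).out.1 θ = _
    rw [hw, hlev g w hwE]
    congr 1
    show g.1 ((w : D).1 θ) = g.1 θ
    rw [(IntermediateField.mem_fixingSubgroup_iff _ _).1 hwE θ hθ]
  -- transformation rule
  have htr : ∀ θ ∈ E, ∀ h : D, h.1 (∑ x, φ θ x) * ζ h = ∑ x, φ θ x := by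
    intro θ hθ h
    rw [map_sum, Finset.sum_mul, ← Equiv.sum_comp (MulAction.toPerm h) (φ θ)]
    refine Finset.sum_congr rfl fun x _ => ?_
    have hx : (MulAction.toPerm h x : D ⧸ W) = QuotientGroup.mk (h * x.out) := by
      conv_lhs => rw [← QuotientGroup.out_eq' x]
      rfl
    rw [hx, hφ θ hθ, hcoc]
    show h.1 (ζ x.out * x.out.1 θ) * ζ h = h.1 (ζ x.out) * ζ h * h.1 (x.out.1 θ)
    rw [map_mul]; ring
  -- non vanishing
  have hne : ∃ θ ∈ E, ∑ x, φ θ x ≠ 0 := by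
    by_contra hcon
    push Not at hcon
    let f : D ⧸ W → (E →* Qbar) := fun x =>
      ((x.out.1 : Qbar →ₐ[ℚ] Qbar).comp E.val : E →ₐ[ℚ] Qbar)
    have hf : Function.Injective f := by
      intro x y hxy
      rw [← QuotientGroup.out_eq' x, ← QuotientGroup.out_eq' y, QuotientGroup.eq,
        Subgroup.mem_subgroupOf, IntermediateField.mem_fixingSubgroup_iff]
      intro θ hθ
      have h1 : x.out.1 θ = y.out.1 θ := DFunLike.congr_fun hxy (⟨θ, hθ⟩ : E)
      show (x.out.1)⁻¹ (y.out.1 θ) = θ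
      rw [← h1]
      exact x.out.1.symm_apply_apply θ
    have hli := (linearIndependent_monoidHom E Qbar).comp f hf
    rw [Fintype.linearIndependent_iff] at hli
    have := hli (fun x => ζ x.out) (by
      funext θ
      rw [Finset.sum_apply]
      exact hcon θ.1 θ.2) (QuotientGroup.mk 1)
    exact h0 _ this
  obtain ⟨θ, hθ, hb⟩ := hne
  exact ⟨_, hb, htr θ hθ⟩

/-- **Hilbert 90** for level cochains, for every intermediate field `F`.
Proof: let `z` be a level cocycle on `D = F.fixingSubgroup`, right invariant under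
`D ∩ K.fixingSubgroup`, `K/ℚ` finite and normal (enlarge `K`).  `E := F ⊔ K`,
`E.fixingSubgroup = D ∩ K.fixingSubgroup =: W` is normal of finite index in `D`.
The restrictions to `E` of representatives `g_i` of `D ⧸ W` are pairwise distinct monoid homs
`E → ℚ̄`, hence linearly independent (`linearIndependent_monoidHom`): there is `θ ∈ E` with
`b := ∑_i z(g_i) g_i(θ) ≠ 0`.  `g ↦ z(g) g(θ)` is right `W`-invariant, so for `h ∈ D`:
`h b = ∑ h(z(g_i)) (h g_i)(θ) = z(h)⁻¹ ∑ z(h g_i) (h g_i) θ = z(h)⁻¹ b`.  So `z = d0 (b⁻¹)`. -/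
theorem h90Q (hL : IsGalLev L) (F : IntermediateField ℚ Qbar)
    (z : HH1 L rhoQ F.fixingSubgroup) : z = 0 := by
  induction z using Submodule.Quotient.induction_on with
  | H c =>
  rw [Submodule.Quotient.mk_eq_zero]
  show (c : F.fixingSubgroup → Additive Qbarˣ) ∈ B1 _
  rw [mem_B1_iff]
  obtain ⟨⟨_, ⟨U, hU, rfl⟩, hlev⟩, hcoc⟩ := (mem_Z1_iff _ _ _).1 c.2
  obtain ⟨K, hK, hKU⟩ := hL.le U hU
  obtain ⟨U₂, hU₂, hU₂K⟩ := hL.ge K hK
  have hfi : K.fixingSubgroup.FiniteIndex := by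
    have := L.finiteIndex U₂ hU₂
    exact Subgroup.finiteIndex_of_le hU₂K
  have hE : (F ⊔ K).fixingSubgroup = F.fixingSubgroup ⊓ K.fixingSubgroup :=
    IntermediateField.fixingSubgroup_sup
  obtain ⟨b, hb0, hb⟩ := h90_aux F.fixingSubgroup (F ⊔ K)
    (by rw [hE, Subgroup.inf_subgroupOf_left]; infer_instance)
    (fun g => (((c : F.fixingSubgroup → Additive Qbarˣ) g).toMul : Qbar))
    (fun g => Units.ne_zero _)
    (fun g h => by
      rw [hcoc g h]
      rfl)
    (fun g w hw => by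
      rw [hE] at hw
      rw [hlev g w (hKU hw.2)])
  refine ⟨Additive.ofMul (Units.mk0 b⁻¹ (inv_ne_zero hb0)), fun g => ?_⟩
  rw [eq_sub_iff_add_eq]
  apply Additive.toMul.injective
  apply Units.ext
  have h1 := hb g
  show (((c : F.fixingSubgroup → Additive Qbarˣ) g).toMul : Qbar) * b⁻¹ = g.1 (b⁻¹)
  rw [map_inv₀]
  have h2 : g.1 b ≠ 0 := by simpa using hb0
  rw [mul_inv_eq_iff_eq_mul₀ hb0, eq_comm, inv_mul_eq_iff_eq_mul₀ h2]
  exact h1.symm

end Fermat.Agent.S55.L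

end
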