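import Fermat.Agent.S55.L.C2aH90
import Fermat.Agent.S55.L.B3Unram

/-! # L-C2b: dictionary subgroups/fields, uniformisers, unramifiedness -/

set_option autoImplicit false

noncomputable section

namespace Fermat.Agent.S55.L

open Fermat.Agent.S55

variable {q : ℕ} [Fact q.Prime] {L : Lev GQ}

/-! ### package L-C2b: dictionary subgroups/fields, uniformisers, unramifiedness -/

theorem memQ_of_relOpen (hL : IsGalLev L) {U V : Subgroup GQ} (hU : memQ q U) (hVU : V ≤ U)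
    (ho : RelOpen L V U) : memQ q V := by
  obtain ⟨F, hF, rfl⟩ := hU
  obtain ⟨W, hW, hWV⟩ := ho
  obtain ⟨K, hK, hKW⟩ := hL.le W hW
  obtain ⟨E, hE, -, hEV⟩ := hF.exists_of_subgroup V hVU K
    (fun σ hσ => hWV ⟨hKW hσ.2, hσ.1⟩)
  exact ⟨E, hE, hEV.symm⟩

theorem relOpen_fixingSubgroup (hL : IsGalLev L) {F E : IntermediateField ℚ Qbar}
    (hF : IsLocalFieldAt q F) (hE : IsLocalFieldAt q E) (h : F ≤ E) :
    RelOpen L E.fixingSubgroup F.fixingSubgroup := by
  obtain ⟨K, hK, rfl⟩ := hE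
  obtain ⟨U, hU, hUK⟩ := hL.ge K hK
  refine ⟨U, hU, ?_⟩
  rw [IntermediateField.fixingSubgroup_sup]
  intro σ hσ
  exact ⟨IntermediateField.fixingSubgroup_antitone hF.hens_le hσ.2, hUK hσ.1⟩

theorem fixingSubgroup_le_iff {F E : IntermediateField ℚ Qbar} :
    E.fixingSubgroup ≤ F.fixingSubgroup ↔ F ≤ E := by
  have := B2a.isGalois_Qbar
  constructor
  · intro h
    rw [← InfiniteGalois.fixedField_fixingSubgroup E, IntermediateField.le_iff_le]
    exact h
  · intro h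
    exact IntermediateField.fixingSubgroup_antitone h

theorem unitsQ_stable {U : Subgroup GQ} (hU : memQ q U) (g : GQ) (hg : g ∈ U)
    (a : Additive Qbarˣ) (ha : a ∈ unitsQ q) : rhoQ g a ∈ unitsQ q := by
  obtain ⟨F, hF, rfl⟩ := hU
  have hg' : g ∈ (hens q).fixingSubgroup := IntermediateField.fixingSubgroup_antitone hF.hens_le hg
  rw [mem_unitsQ, mem_unitGroup_iff_mem_and_inv_mem] at ha ⊢
  refine ⟨map_mem_padicPlace q hg' ha.1, ?_⟩
  have := map_mem_padicPlace q hg' ha.2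
  rwa [map_inv₀] at this

/-! ### uniformisers

`IsUnifA` is symmetric under `π ↦ -π`, so `IsUnifA` means "uniformiser or inverse of a
uniformiser". -/

theorem IsUnifA.neg {Γ : Type} [Group Γ] {A : Type} [AddCommGroup A]
    {ρ : Representation ℤ Γ A} {units : AddSubgroup A} {U : Subgroup Γ} {π : A}
    (h : IsUnifA ρ units U π) : IsUnifA ρ units U (-π) := by
  refine ⟨(AU ρ U).neg_mem h.mem, fun a ha => ?_, fun n hn => ?_⟩
  · obtain ⟨n, hn⟩ := h.span a ha
    exact ⟨-n, by simpa using hn⟩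
  · have := h.free (-n) (by simpa using hn)
    omega

/-- the inclusion `Fˣ → ℚ̄ˣ` -/
def C2b_j (F : IntermediateField ℚ Qbar) : Fˣ →* Qbarˣ :=
  Units.map (algebraMap F Qbar : F →* Qbar)

theorem C2b_j_coe (F : IntermediateField ℚ Qbar) (x : Fˣ) :
    ((C2b_j F x : Qbarˣ) : Qbar) = ((x : F) : Qbar) := rfl

theorem C2b_j_mem_unitGroup_iff (q : ℕ) [Fact q.Prime] (F : IntermediateField ℚ Qbar) (x : Fˣ) :
    C2b_j F x ∈ (padicPlace q).unitGroup ↔ x ∈ (OO q F).unitGroup := by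
  rw [mem_unitGroup_iff_mem_and_inv_mem, mem_unitGroup_iff_mem_and_inv_mem, mem_OO_iff,
    mem_OO_iff]
  rfl

theorem C2b_exists_unit (F : IntermediateField ℚ Qbar) (a : Qbarˣ) (ha : (a : Qbar) ∈ F) :
    ∃ x : Fˣ, C2b_j F x = a ∧ (x : F) = ⟨(a : Qbar), ha⟩ :=
  ⟨Units.mk0 ⟨a, ha⟩ (fun h => a.ne_zero (congrArg Subtype.val h)), Units.ext rfl, rfl⟩

/-- a true uniformiser of `F` is a uniformiser in the group theoretic sense -/
theorem isUnifA_j {F : IntermediateField ℚ Qbar} (hF : IsLocalFieldAt q F) (x : Fˣ)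
    (hx : IsUnif (OO q F) (x : F)) :
    IsUnifA rhoQ (unitsQ q) F.fixingSubgroup (Additive.ofMul (C2b_j F x)) := by
  have := hF.isHLF
  refine ⟨(mem_AU_rhoQ F _).mpr (x : F).2, fun a ha => ?_, fun n hn => ?_⟩
  · obtain ⟨y, hy, -⟩ := C2b_exists_unit F a.toMul ((mem_AU_rhoQ F a).mp ha)
    obtain ⟨n, u, hu, hyu⟩ := exists_zpow_mul (OO q F) hx y
    refine ⟨n, ?_⟩
    have hyu' : y = x ^ n * u := Units.ext (by rw [hyu]; push_cast; rfl)
    have : (a - n • Additive.ofMul (C2b_j F x)).toMul = C2b_j F u := by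
      rw [toMul_sub, toMul_zsmul, toMul_ofMul, ← hy, hyu', map_mul, map_zpow,
        mul_div_cancel_left]
    rw [mem_unitsQ, this]
    exact (C2b_j_mem_unitGroup_iff q F u).mpr hu
  · have h1 : x ^ n ∈ (OO q F).unitGroup := by
      rw [← C2b_j_mem_unitGroup_iff, map_zpow]
      exact hn
    have h2 : (x : F) ^ n * ((1 : Fˣ) : F) = (x : F) ^ (0 : ℤ) * ((x ^ n : Fˣ) : F) := by
      push_cast; simp
    exact (zpow_mul_unique (OO q F) hx (one_mem _) h1 h2).1

theorem isUnifA_of_isUnif {F : IntermediateField ℚ Qbar} (hF : IsLocalFieldAt q F)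
    (π : Additive Qbarˣ) (h : (π.toMul : Qbar) ∈ F)
    (hπ : IsUnif (OO q F) (⟨(π.toMul : Qbar), h⟩ : F)) :
    IsUnifA rhoQ (unitsQ q) F.fixingSubgroup π := by
  obtain ⟨x, hx, hx'⟩ := C2b_exists_unit F π.toMul h
  have := isUnifA_j hF x (by rw [hx']; exact hπ)
  rwa [hx] at this

/-- CORRECTED dictionary: `IsUnifA` = uniformiser or inverse of a uniformiser. -/
theorem isUnifA_iff {F : IntermediateField ℚ Qbar} (hF : IsLocalFieldAt q F)
    (π : Additive Qbarˣ) :
    IsUnifA rhoQ (unitsQ q) F.fixingSubgroup π ↔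
      ∃ h : (π.toMul : Qbar) ∈ F, IsUnif (OO q F) (⟨(π.toMul : Qbar), h⟩ : F) ∨
        IsUnif (OO q F) (⟨(π.toMul : Qbar), h⟩ : F)⁻¹ := by
  have := hF.isHLF
  constructor
  · intro hπ
    have h : (π.toMul : Qbar) ∈ F := (mem_AU_rhoQ F π).mp hπ.mem
    refine ⟨h, ?_⟩
    obtain ⟨x, hx, hx'⟩ := C2b_exists_unit F π.toMul h
    obtain ⟨ϖ, hϖ⟩ := exists_isUnif (OO q F)
    set w : Fˣ := Units.mk0 ϖ hϖ.ne_zero with hw
    have hwU : IsUnif (OO q F) (w : F) := hϖ
    have hwA := isUnifA_j hF w hwU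
    obtain ⟨m, hm⟩ := hwA.span π hπ.mem
    obtain ⟨n, hn⟩ := hπ.span _ hwA.mem
    have h1 : (1 - n * m) • Additive.ofMul (C2b_j F w) ∈ unitsQ q := by
      have : (1 - n * m) • Additive.ofMul (C2b_j F w)
          = (Additive.ofMul (C2b_j F w) - n • π) + n • (π - m • Additive.ofMul (C2b_j F w)) := by
        module
      rw [this]
      exact (unitsQ q).add_mem hn ((unitsQ q).zsmul_mem hm n)
    have h2 : n * m = 1 := by
      have := hwA.free _ h1
      omega
    have h3 : x * (w ^ m)⁻¹ ∈ (OO q F).unitGroup := by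
      rw [← C2b_j_mem_unitGroup_iff, map_mul, map_inv, map_zpow, hx]
      have : (π - m • Additive.ofMul (C2b_j F w)).toMul = π.toMul * (C2b_j F w ^ m)⁻¹ := by
        rw [toMul_sub, toMul_zsmul, toMul_ofMul, div_eq_mul_inv]
      rw [← this]
      exact hm
    rcases Int.eq_one_or_neg_one_of_mul_eq_one' h2 with ⟨-, rfl⟩ | ⟨-, rfl⟩
    · left
      have := hwU.mul_unit h3
      rw [← hx']
      convert this using 1
      push_cast
      field_simp
    · right
      have := hwU.mul_unit (inv_mem h3)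
      rw [← hx']
      convert this using 1
      push_cast
      field_simp
  · rintro ⟨h, hπ | hπ⟩
    · exact isUnifA_of_isUnif hF π h hπ
    · have h' : (((-π).toMul : Qbarˣ) : Qbar) ∈ F := by
        rw [toMul_neg, Units.val_inv_eq_inv_val]
        exact F.inv_mem h
      have := (isUnifA_of_isUnif hF (-π) h' (by
        convert hπ using 1
        apply Subtype.ext
        show (((-π).toMul : Qbarˣ) : Qbar) = ((π.toMul : Qbarˣ) : Qbar)⁻¹
        rw [toMul_neg, Units.val_inv_eq_inv_val])).neg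
      rwa [neg_neg] at this

theorem exists_unifQ {U : Subgroup GQ} (hU : memQ q U) :
    ∃ π, IsUnifA rhoQ (unitsQ q) U π := by
  obtain ⟨F, hF, rfl⟩ := hU
  have := hF.isHLF
  obtain ⟨ϖ, hϖ⟩ := exists_isUnif (OO q F)
  exact ⟨_, isUnifA_j hF (Units.mk0 ϖ hϖ.ne_zero) hϖ⟩

theorem unrA_iff {F E : IntermediateField ℚ Qbar} (hF : IsLocalFieldAt q F)
    (hE : IsLocalFieldAt q E) (h : F ≤ E) :
    UnrA rhoQ (unitsQ q) E.fixingSubgroup F.fixingSubgroup ↔
      (letI := (IntermediateField.inclusion h).toRingHom.toAlgebra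
       IsUnramExt (OO q F) (OO q E)) := by
  letI := (IntermediateField.inclusion h).toRingHom.toAlgebra
  have hmap : ∀ (x : Qbar) (hx : x ∈ F), algebraMap F E ⟨x, hx⟩ = ⟨x, h hx⟩ := fun _ _ => rfl
  constructor
  · intro hur ϖ hϖ
    have hϖ0 := hϖ.ne_zero
    have hwA := hur _ (isUnifA_j hF (Units.mk0 ϖ hϖ0) hϖ)
    obtain ⟨hm, h1 | h1⟩ := (isUnifA_iff hE _).mp hwA
    · exact h1
    · exfalso
      -- `ϖ` and `ϖ⁻¹` both lie in the place, so `ϖ` is a unit of `OO q F`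
      obtain ⟨h2, h3⟩ := hϖ
      obtain ⟨h4, -⟩ := h1
      apply h3.not_isUnit
      rw [B3.isUnit_iff]
      exact ⟨hϖ0, h4⟩
  · intro hur π hπ
    obtain ⟨hm, h1 | h1⟩ := (isUnifA_iff hF π).mp hπ
    · have h2 := hur _ h1
      rw [hmap] at h2
      exact (isUnifA_iff hE π).mpr ⟨h hm, Or.inl h2⟩
    · have h2 := hur _ h1
      rw [map_inv₀, hmap] at h2
      exact (isUnifA_iff hE π).mpr ⟨h hm, Or.inr h2⟩

end Fermat.Agent.S55.L

end
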